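/-
S52 (b) (helper7): **the Klein forms `c₄, c₆, D` of the icosahedron, Bezout certificates, and the
"no common prime" lemma**.

* `s52bC4 a b`, `s52bC6 a b`, `s52bD a b` (degrees `20, 30, 12`), `s52b_klein_rel :
  c₄³ - c₆² = 1728 D⁵`; partial derivatives `s52bDa`, `s52bDb`, Euler `a D_a + b D_b = 12 D`;
* certificates `U c₄ + V D = 5⁵ a³¹` and `= 5⁵ b³¹`;
* `s52b_mem_prime`: a prime ideal not containing `5` which contains `c₄(a,b)` and `D(a,b)`
  contains `a` and `b`;
* `s52b_integral`: for a valuation subring in which `5` is a unit, `c₄(a,b), D(a,b) ∈ A` forces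
  `a, b ∈ A`;
* `s52b_not_both`: along the line `w₀ + t ŵ`, `ŵ = (D_b(w₀), -D_a(w₀))`, with `D(w₀)` and `30`
  units of `A`: `c₄(w)` and `D(w)` are not both nonunits.
-/
import Mathlib
import Fermat.Agent.Lib.S05.QValQbar
import Fermat.Agent.Lib.Helper6.FrobeniusExists

set_option autoImplicit false
set_option linter.unusedSimpArgs false

namespace Fermat.Agent.S52

section Forms

variable {R : Type*} [CommRing R]

/-- Klein's form of degree `20` -/
def s52bC4 (a b : R) : R :=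
  a ^ 20 + 228 * a ^ 15 * b ^ 5 + 494 * a ^ 10 * b ^ 10 - 228 * a ^ 5 * b ^ 15 + b ^ 20

/-- Klein's form of degree `30` -/
def s52bC6 (a b : R) : R :=
  -a ^ 30 + 522 * a ^ 25 * b ^ 5 + 10005 * a ^ 20 * b ^ 10 + 10005 * a ^ 10 * b ^ 20
    - 522 * a ^ 5 * b ^ 25 - b ^ 30

/-- Klein's form of degree `12` -/
def s52bD (a b : R) : R := a * b * (a ^ 10 - 11 * a ^ 5 * b ^ 5 - b ^ 10)

/-- `∂D/∂a` -/
def s52bDa (a b : R) : R := 11 * a ^ 10 * b - 66 * a ^ 5 * b ^ 6 - b ^ 11

/-- `∂D/∂b` -/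
def s52bDb (a b : R) : R := a ^ 11 - 66 * a ^ 6 * b ^ 5 - 11 * a * b ^ 10

theorem s52b_klein_rel (a b : R) :
    s52bC4 a b ^ 3 - s52bC6 a b ^ 2 = 1728 * s52bD a b ^ 5 := by
  unfold s52bC4 s52bC6 s52bD
  ring

theorem s52b_euler (a b : R) : a * s52bDa a b + b * s52bDb a b = 12 * s52bD a b := by
  unfold s52bDa s52bDb s52bD
  ring

theorem s52bC4_smul (s a b : R) : s52bC4 (s * a) (s * b) = s ^ 20 * s52bC4 a b := by
  unfold s52bC4
  ring

theorem s52bC6_smul (s a b : R) : s52bC6 (s * a) (s * b) = s ^ 30 * s52bC6 a b := by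
  unfold s52bC6
  ring

theorem s52bD_smul (s a b : R) : s52bD (s * a) (s * b) = s ^ 12 * s52bD a b := by
  unfold s52bD
  ring

/-- Bezout certificate for `a ^ 31` -/
theorem s52b_cert_a (a b : R) :
    (3125 * a ^ 11 - 33022 * a ^ 6 * b ^ 5 - 3003 * a * b ^ 10) * s52bC4 a b
      + (-679478 * a ^ 15 * b ^ 4 - 1485989 * a ^ 10 * b ^ 9 + 684695 * a ^ 5 * b ^ 14
          - 3003 * b ^ 19) * s52bD a b = 3125 * a ^ 31 := by
  unfold s52bC4 s52bD
  ring

/-- Bezout certificate for `b ^ 31` -/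
theorem s52b_cert_b (a b : R) :
    (-3003 * a ^ 10 * b + 33022 * a ^ 5 * b ^ 6 + 3125 * b ^ 11) * s52bC4 a b
      + (3003 * a ^ 19 + 684695 * a ^ 14 * b ^ 5 + 1485989 * a ^ 9 * b ^ 10
          - 679478 * a ^ 4 * b ^ 15) * s52bD a b = 3125 * b ^ 31 := by
  unfold s52bC4 s52bD
  ring

/-- a prime ideal not containing `5` which contains `c₄(a, b)` and `D(a, b)` contains `a`, `b` -/
theorem s52b_mem_prime (P : Ideal R) [P.IsPrime] (h5 : (5 : R) ∉ P) {a b : R}
    (h4 : s52bC4 a b ∈ P) (hD : s52bD a b ∈ P) : a ∈ P ∧ b ∈ P := by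
  have h3125 : (3125 : R) ∉ P := by
    have : (3125 : R) = 5 ^ 5 := by norm_num
    rw [this]
    exact fun h => h5 (Ideal.IsPrime.mem_of_pow_mem inferInstance 5 h)
  constructor
  · have h1 : (3125 : R) * a ^ 31 ∈ P := by
      rw [← s52b_cert_a a b]
      exact P.add_mem (P.mul_mem_left _ h4) (P.mul_mem_left _ hD)
    rcases Ideal.IsPrime.mem_or_mem inferInstance h1 with h | h
    · exact absurd h h3125
    · exact Ideal.IsPrime.mem_of_pow_mem inferInstance 31 h
  · have h1 : (3125 : R) * b ^ 31 ∈ P := by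
      rw [← s52b_cert_b a b]
      exact P.add_mem (P.mul_mem_left _ h4) (P.mul_mem_left _ hD)
    rcases Ideal.IsPrime.mem_or_mem inferInstance h1 with h | h
    · exact absurd h h3125
    · exact Ideal.IsPrime.mem_of_pow_mem inferInstance 31 h

theorem s52bC4_map {S : Type*} [CommRing S] (f : R →+* S) (a b : R) :
    f (s52bC4 a b) = s52bC4 (f a) (f b) := by
  simp only [s52bC4, map_add, map_sub, map_mul, map_pow, map_ofNat, map_neg]

theorem s52bC6_map {S : Type*} [CommRing S] (f : R →+* S) (a b : R) :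
    f (s52bC6 a b) = s52bC6 (f a) (f b) := by
  simp only [s52bC6, map_add, map_sub, map_mul, map_pow, map_ofNat, map_neg]

theorem s52bD_map {S : Type*} [CommRing S] (f : R →+* S) (a b : R) :
    f (s52bD a b) = s52bD (f a) (f b) := by
  simp only [s52bD, map_add, map_sub, map_mul, map_pow, map_ofNat, map_neg]

theorem s52bDa_map {S : Type*} [CommRing S] (f : R →+* S) (a b : R) :
    f (s52bDa a b) = s52bDa (f a) (f b) := by
  simp only [s52bDa, map_add, map_sub, map_mul, map_pow, map_ofNat, map_neg]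

theorem s52bDb_map {S : Type*} [CommRing S] (f : R →+* S) (a b : R) :
    f (s52bDb a b) = s52bDb (f a) (f b) := by
  simp only [s52bDb, map_add, map_sub, map_mul, map_pow, map_ofNat, map_neg]

end Forms

/-! ### Valuation subrings -/

section Val

variable {K : Type*} [Field K] (A : ValuationSubring K)

/-- if `c₄(a, b)` and `D(a, b)` are nonunits of `A` (`a, b ∈ A`, `5` a unit) then so are `a`, `b` -/
theorem s52b_mem_nonunits (h5 : A.valuation (5 : K) = 1) {a b : K} (ha : a ∈ A) (hb : b ∈ A)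
    (h4 : s52bC4 a b ∈ A.nonunits) (hD : s52bD a b ∈ A.nonunits) :
    a ∈ A.nonunits ∧ b ∈ A.nonunits := by
  have h5' : (5 : A) ∉ IsLocalRing.maximalIdeal A := by
    rw [← ValuationSubring.coe_mem_nonunits_iff, ValuationSubring.mem_nonunits_iff]
    have e5 : ((5 : A) : K) = (5 : K) := map_ofNat A.subtype 5
    rw [e5, h5]
    exact lt_irrefl _
  have e4 : ((s52bC4 (⟨a, ha⟩ : A) ⟨b, hb⟩ : A) : K) = s52bC4 a b :=
    s52bC4_map A.subtype ⟨a, ha⟩ ⟨b, hb⟩
  have eD : ((s52bD (⟨a, ha⟩ : A) ⟨b, hb⟩ : A) : K) = s52bD a b :=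
    s52bD_map A.subtype ⟨a, ha⟩ ⟨b, hb⟩
  rw [← e4, ValuationSubring.coe_mem_nonunits_iff] at h4
  rw [← eD, ValuationSubring.coe_mem_nonunits_iff] at hD
  obtain ⟨h1, h2⟩ := s52b_mem_prime (IsLocalRing.maximalIdeal A) h5' h4 hD
  exact ⟨ValuationSubring.coe_mem_nonunits_iff.mpr h1, ValuationSubring.coe_mem_nonunits_iff.mpr h2⟩

/-- integrality of the base point: `c₄(a, b), D(a, b) ∈ A` forces `a, b ∈ A` -/
theorem s52b_integral (h5 : A.valuation (5 : K) = 1) {a b : K}
    (h4 : s52bC4 a b ∈ A) (hD : s52bD a b ∈ A) : a ∈ A ∧ b ∈ A := by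
  by_contra hcon
  -- the larger of `a`, `b` is not in `A`
  have key : ∀ a b : K, s52bC4 a b ∈ A → s52bD a b ∈ A → A.valuation b ≤ A.valuation a →
      a ∉ A → False := by
    intro a b h4 hD hle ha
    have ha0 : a ≠ 0 := fun h => ha (h ▸ A.zero_mem)
    have hva : 1 < A.valuation a := by
      rw [← not_le, ValuationSubring.valuation_le_one_iff]; exact ha
    have hinv : a⁻¹ ∈ A.nonunits := by
      rw [ValuationSubring.mem_nonunits_iff, map_inv₀]
      exact inv_lt_one_of_one_lt₀ hva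
    have hlam : a⁻¹ * b ∈ A := by
      rw [← ValuationSubring.valuation_le_one_iff, map_mul, map_inv₀]
      rw [inv_mul_le_iff₀ (lt_trans zero_lt_one hva), mul_one]
      exact hle
    have h1 : s52bC4 1 (a⁻¹ * b) ∈ A.nonunits := by
      have : s52bC4 1 (a⁻¹ * b) = (a⁻¹) ^ 20 * s52bC4 a b := by
        rw [← s52bC4_smul, inv_mul_cancel₀ ha0]
      rw [this]
      have h20 : (a⁻¹) ^ 20 ∈ A.nonunits := by
        rw [ValuationSubring.mem_nonunits_iff] at hinv ⊢
        rw [map_pow]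
        exact pow_lt_one₀ zero_le hinv (by norm_num)
      rw [ValuationSubring.mem_nonunits_iff, map_mul]
      rw [ValuationSubring.mem_nonunits_iff] at h20
      calc A.valuation ((a⁻¹) ^ 20) * A.valuation (s52bC4 a b)
          ≤ A.valuation ((a⁻¹) ^ 20) * 1 :=
            mul_le_mul_right ((A.valuation_le_one_iff _).mpr h4) _
        _ < 1 := by rw [mul_one]; exact h20
    have h2 : s52bD 1 (a⁻¹ * b) ∈ A.nonunits := by
      have : s52bD 1 (a⁻¹ * b) = (a⁻¹) ^ 12 * s52bD a b := by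
        rw [← s52bD_smul, inv_mul_cancel₀ ha0]
      rw [this]
      have h12 : (a⁻¹) ^ 12 ∈ A.nonunits := by
        rw [ValuationSubring.mem_nonunits_iff] at hinv ⊢
        rw [map_pow]
        exact pow_lt_one₀ zero_le hinv (by norm_num)
      rw [ValuationSubring.mem_nonunits_iff, map_mul]
      rw [ValuationSubring.mem_nonunits_iff] at h12
      calc A.valuation ((a⁻¹) ^ 12) * A.valuation (s52bD a b)
          ≤ A.valuation ((a⁻¹) ^ 12) * 1 :=
            mul_le_mul_right ((A.valuation_le_one_iff _).mpr hD) _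
        _ < 1 := by rw [mul_one]; exact h12
    have h3 := (s52b_mem_nonunits A h5 A.one_mem hlam h1 h2).1
    rw [ValuationSubring.mem_nonunits_iff, map_one] at h3
    exact lt_irrefl _ h3
  rcases le_total (A.valuation b) (A.valuation a) with hle | hle
  · by_cases ha : a ∈ A
    · have hb : b ∈ A := by
        rw [← ValuationSubring.valuation_le_one_iff] at ha ⊢
        exact hle.trans ha
      exact hcon ⟨ha, hb⟩
    · exact key a b h4 hD hle ha
  · by_cases hb : b ∈ A
    · have ha : a ∈ A := by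
        rw [← ValuationSubring.valuation_le_one_iff] at hb ⊢
        exact hle.trans hb
      exact hcon ⟨ha, hb⟩
    · -- use the symmetry `(a, b) ↦ (b, -a)`
      have h4' : s52bC4 b (-a) ∈ A := by
        have : s52bC4 b (-a) = s52bC4 a b := by unfold s52bC4; ring
        rw [this]; exact h4
      have hD' : s52bD b (-a) ∈ A := by
        have : s52bD b (-a) = s52bD a b := by unfold s52bD; ring
        rw [this]; exact hD
      exact key b (-a) h4' hD' (by rw [Valuation.map_neg]; exact hle) hb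

/-- polynomial expressions of elements of `A` are in `A` -/
theorem s52bDa_mem {a b : K} (ha : a ∈ A) (hb : b ∈ A) : s52bDa a b ∈ A := by
  have e : ((s52bDa (⟨a, ha⟩ : A) ⟨b, hb⟩ : A) : K) = s52bDa a b :=
    s52bDa_map A.subtype ⟨a, ha⟩ ⟨b, hb⟩
  rw [← e]
  exact SetLike.coe_mem _

theorem s52bDb_mem {a b : K} (ha : a ∈ A) (hb : b ∈ A) : s52bDb a b ∈ A := by
  have e : ((s52bDb (⟨a, ha⟩ : A) ⟨b, hb⟩ : A) : K) = s52bDb a b :=
    s52bDb_map A.subtype ⟨a, ha⟩ ⟨b, hb⟩
  rw [← e]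
  exact SetLike.coe_mem _

theorem s52b_line_det (a0 b0 t : K) :
    (a0 + t * s52bDb a0 b0) * s52bDa a0 b0 + (b0 - t * s52bDa a0 b0) * s52bDb a0 b0
      = 12 * s52bD a0 b0 := by
  rw [← s52b_euler]
  ring

/-- **along the line `w₀ + t ŵ`, `c₄` and `D` are not both nonunits** (`D(w₀)`, `5`, `12` units) -/
theorem s52b_not_both (h5 : A.valuation (5 : K) = 1) (h12 : A.valuation (12 : K) = 1)
    {a0 b0 t : K} (ht : t ∈ A) (h4 : s52bC4 a0 b0 ∈ A) (hD : A.valuation (s52bD a0 b0) = 1) :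
    ¬ (s52bC4 (a0 + t * s52bDb a0 b0) (b0 - t * s52bDa a0 b0) ∈ A.nonunits ∧
       s52bD (a0 + t * s52bDb a0 b0) (b0 - t * s52bDa a0 b0) ∈ A.nonunits) := by
  rintro ⟨hc, hd⟩
  have hDmem : s52bD a0 b0 ∈ A := (A.valuation_le_one_iff _).mp hD.le
  obtain ⟨ha0, hb0⟩ := s52b_integral A h5 h4 hDmem
  have hDa := s52bDa_mem A ha0 hb0
  have hDb := s52bDb_mem A ha0 hb0
  have ha : a0 + t * s52bDb a0 b0 ∈ A := add_mem ha0 (mul_mem ht hDb)
  have hb : b0 - t * s52bDa a0 b0 ∈ A := sub_mem hb0 (mul_mem ht hDa)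
  obtain ⟨han, hbn⟩ := s52b_mem_nonunits A h5 ha hb hc hd
  rw [ValuationSubring.mem_nonunits_iff] at han hbn
  have h1 : A.valuation ((a0 + t * s52bDb a0 b0) * s52bDa a0 b0) < 1 := by
    rw [map_mul]
    calc _ ≤ A.valuation (a0 + t * s52bDb a0 b0) * 1 :=
          mul_le_mul_right ((A.valuation_le_one_iff _).mpr hDa) _
      _ < 1 := by rw [mul_one]; exact han
  have h2 : A.valuation ((b0 - t * s52bDa a0 b0) * s52bDb a0 b0) < 1 := by
    rw [map_mul]
    calc _ ≤ A.valuation (b0 - t * s52bDa a0 b0) * 1 :=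
          mul_le_mul_right ((A.valuation_le_one_iff _).mpr hDb) _
      _ < 1 := by rw [mul_one]; exact hbn
  have h3 : A.valuation (12 * s52bD a0 b0) < 1 := by
    rw [← s52b_line_det a0 b0 t]
    exact lt_of_le_of_lt (Valuation.map_add _ _ _) (max_lt h1 h2)
  rw [map_mul, h12, hD, mul_one] at h3
  exact lt_irrefl _ h3

end Val

/-! ### The integral statement -/

section Int

open Fermat.Agent.S05Lib

variable {K : Type*} [Field K] [CharZero K]

/-- **no common prime outside `{2, 3, 5}` and the bad primes of the base point** -/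
theorem s52b_no_common_prime {p : ℕ} (hp : p.Prime) (hp2 : p ≠ 2) (hp3 : p ≠ 3) (hp5 : p ≠ 5)
    (a0 b0 : K) (t C4 Δ0 C4' Δ' : ℤ)
    (h4 : s52bC4 a0 b0 = (C4 : K)) (hD : s52bD a0 b0 ^ 5 = (Δ0 : K)) (hpΔ : ¬ (p : ℤ) ∣ Δ0)
    (h4' : s52bC4 (a0 + (t : K) * s52bDb a0 b0) (b0 - (t : K) * s52bDa a0 b0) = (C4' : K))
    (hD' : s52bD (a0 + (t : K) * s52bDb a0 b0) (b0 - (t : K) * s52bDa a0 b0) ^ 5 = (Δ' : K)) :
    ¬ ((p : ℤ) ∣ C4' ∧ (p : ℤ) ∣ Δ') := by
  rintro ⟨hc, hd⟩
  obtain ⟨A, hA⟩ := Fermat.Agent.Lib.Helper6.exists_valuationSubring_liesOverPrime K hp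
  have hpp : Prime (p : ℤ) := Nat.prime_iff_prime_int.mp hp
  have hn5 : ¬ (p : ℤ) ∣ 5 := by
    intro h
    have := (Nat.prime_dvd_prime_iff_eq hp (by norm_num : Nat.Prime 5)).mp (by exact_mod_cast h)
    exact hp5 this
  have hn12 : ¬ (p : ℤ) ∣ 12 := by
    intro h
    have h' : p ∣ 12 := by exact_mod_cast h
    have h12 : (12 : ℕ) = 2 ^ 2 * 3 := by norm_num
    rw [h12] at h'
    rcases (Nat.Prime.dvd_mul hp).mp h' with h2 | h3
    · exact hp2 ((Nat.prime_dvd_prime_iff_eq hp Nat.prime_two).mp (hp.dvd_of_dvd_pow h2))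
    · exact hp3 ((Nat.prime_dvd_prime_iff_eq hp Nat.prime_three).mp h3)
  have h5 : A.valuation (5 : K) = 1 := by
    have := qv_valuation_intCast_eq_one A hp hA hn5
    simpa using this
  have h12 : A.valuation (12 : K) = 1 := by
    have := qv_valuation_intCast_eq_one A hp hA hn12
    simpa using this
  have hΔ0 : A.valuation (s52bD a0 b0) ^ 5 = 1 := by
    rw [← map_pow, hD]
    exact qv_valuation_intCast_eq_one A hp hA hpΔ
  have hD1 : A.valuation (s52bD a0 b0) = 1 := by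
    rcases lt_trichotomy (A.valuation (s52bD a0 b0)) 1 with h | h | h
    · exact absurd hΔ0 (ne_of_lt (pow_lt_one₀ zero_le h (by norm_num)))
    · exact h
    · exact absurd hΔ0 (ne_of_gt (one_lt_pow₀ h (by norm_num)))
  have hC4 : s52bC4 a0 b0 ∈ A := by rw [h4]; exact intCast_mem A C4
  have hnon : ∀ n : ℤ, (p : ℤ) ∣ n → A.valuation (n : K) < 1 := by
    rintro n ⟨k, rfl⟩
    push_cast
    rw [map_mul]
    have hq : A.valuation (p : K) < 1 := A.mem_nonunits_iff.mp hA
    calc A.valuation (p : K) * A.valuation (k : K)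
        ≤ A.valuation (p : K) * 1 := mul_le_mul_right (qv_valuation_intCast_le_one A k) _
      _ < 1 := by rw [mul_one]; exact hq
  refine s52b_not_both A h5 h12 (intCast_mem A t) hC4 hD1 ⟨?_, ?_⟩
  · rw [ValuationSubring.mem_nonunits_iff, h4']
    exact hnon _ hc
  · rw [ValuationSubring.mem_nonunits_iff]
    have h1 : A.valuation (s52bD (a0 + (t : K) * s52bDb a0 b0) (b0 - (t : K) * s52bDa a0 b0)) ^ 5
        < 1 := by
      rw [← map_pow, hD']
      exact hnon _ hd
    by_contra hge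
    rw [not_lt] at hge
    exact absurd h1 (not_lt.mpr (one_le_pow₀ hge))

end Int

end Fermat.Agent.S52
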