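/-
S52 package (a), helper5: **the base point `w₀`**: over an algebraically closed field of
characteristic zero, Klein's forms `(c₄, c₆)` take every value `(c4, c6)` with `c4³ ≠ c6²`.

`s52i_exists_base : c4 ^ 3 ≠ c6 ^ 2 → ∃ a b, s52bC4 a b = c4 ∧ s52bC6 a b = c6`.
-/
import Mathlib
import Fermat.Agent.Lib.S52.NoCommon

set_option autoImplicit false

namespace Fermat.Agent.S52

open Polynomial

variable {K : Type*} [Field K] [IsAlgClosed K] [CharZero K]

omit [IsAlgClosed K] in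
/-- `c₄(z,1)` and `c₆(z,1)` have no common zero -/
theorem s52i_no_common_root (z : K) : ¬ (s52bC4 z 1 = 0 ∧ s52bC6 z 1 = 0) := by
  rintro ⟨h4, h6⟩
  have hrel := s52b_klein_rel z (1 : K)
  rw [h4, h6] at hrel
  have hD : s52bD z (1 : K) = 0 := by
    have h1 : (1728 : K) * s52bD z 1 ^ 5 = 0 := by rw [← hrel]; ring
    have h2 : s52bD z (1 : K) ^ 5 = 0 := by
      rcases mul_eq_zero.mp h1 with h | h
      · exact absurd h (by norm_num)
      · exact h
    exact pow_eq_zero_iff (by norm_num) |>.mp h2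
  have hcert := s52b_cert_b z (1 : K)
  rw [h4, hD] at hcert
  norm_num at hcert

/-- the polynomial `c₄(X, 1)` -/
noncomputable def s52iF : K[X] := s52bC4 (X : K[X]) 1

/-- the polynomial `c₆(X, 1)` -/
noncomputable def s52iG : K[X] := s52bC6 (X : K[X]) 1

omit [IsAlgClosed K] [CharZero K] in
theorem s52iF_eval (z : K) : (s52iF : K[X]).eval z = s52bC4 z 1 := by
  have := s52bC4_map (Polynomial.evalRingHom z) (X : K[X]) 1
  simpa [s52iF] using this

omit [IsAlgClosed K] [CharZero K] in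
theorem s52iG_eval (z : K) : (s52iG : K[X]).eval z = s52bC6 z 1 := by
  have := s52bC6_map (Polynomial.evalRingHom z) (X : K[X]) 1
  simpa [s52iG] using this

omit [CharZero K] in
/-- a polynomial taking different values at two points has a root -/
theorem s52i_exists_root_of_ne (P : K[X]) (z₁ z₂ : K) (h : P.eval z₁ ≠ P.eval z₂) :
    ∃ z, P.eval z = 0 := by
  apply IsAlgClosed.exists_root P
  intro hdeg
  apply h
  rw [Polynomial.eq_C_of_degree_eq_zero hdeg, eval_C, eval_C]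

theorem s52i_exists_root_F : ∃ z : K, s52bC4 z 1 = 0 := by
  obtain ⟨z, hz⟩ := s52i_exists_root_of_ne (s52iF : K[X]) 0 1 (by
    rw [s52iF_eval, s52iF_eval]
    unfold s52bC4
    norm_num)
  exact ⟨z, by rw [← s52iF_eval]; exact hz⟩

theorem s52i_exists_root_G : ∃ z : K, s52bC6 z 1 = 0 := by
  obtain ⟨z, hz⟩ := s52i_exists_root_of_ne (s52iG : K[X]) 0 1 (by
    rw [s52iG_eval, s52iG_eval]
    unfold s52bC6
    norm_num)
  exact ⟨z, by rw [← s52iG_eval]; exact hz⟩

/-- the ratio equation `c6² c₄(z,1)³ = c4³ c₆(z,1)²` has a solution -/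
theorem s52i_exists_ratio (x y : K) (hx : x ≠ 0) :
    ∃ z : K, x * s52bC4 z 1 ^ 3 = y * s52bC6 z 1 ^ 2 := by
  set H : K[X] := C x * s52iF ^ 3 - C y * s52iG ^ 2 with hH
  have hev : ∀ z : K, H.eval z = x * s52bC4 z 1 ^ 3 - y * s52bC6 z 1 ^ 2 := by
    intro z
    rw [hH, eval_sub, eval_mul, eval_mul, eval_C, eval_C, eval_pow, eval_pow, s52iF_eval,
      s52iG_eval]
  have hroot : ∃ z, H.eval z = 0 := by
    apply IsAlgClosed.exists_root H
    intro hdeg
    have hc := Polynomial.eq_C_of_degree_eq_zero hdeg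
    have e01 : H.eval 0 = H.eval 1 := by rw [hc, eval_C, eval_C]
    have e02 : H.eval 0 = H.eval 2 := by rw [hc, eval_C, eval_C]
    rw [hev, hev] at e01 e02
    unfold s52bC4 s52bC6 at e01 e02
    norm_num at e01 e02
    -- two independent linear relations between `x` and `y`
    have hx0 : x = 0 := by
      have h3 : x * ((122023936 - 1) * (725920020720263850625 - 1) - (733441552889589371521 - 1) * (400320064 - 1)) = 0 := by
        linear_combination (-(725920020720263850625 - 1)) * e01 + (400320064 - 1) * e02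
      rcases mul_eq_zero.mp h3 with h | h
      · exact h
      · norm_num at h
    exact hx hx0
  obtain ⟨z, hz⟩ := hroot
  exact ⟨z, by rw [hev] at hz; exact sub_eq_zero.mp hz⟩

/-- **the base point** -/
theorem s52i_exists_base (c4 c6 : K) (h : c4 ^ 3 ≠ c6 ^ 2) :
    ∃ a b : K, s52bC4 a b = c4 ∧ s52bC6 a b = c6 := by
  by_cases h4 : c4 = 0
  · -- `c4 = 0`, `c6 ≠ 0`
    have h6 : c6 ≠ 0 := by
      rintro rfl
      exact h (by rw [h4]; ring)
    obtain ⟨z, hz⟩ := s52i_exists_root_F (K := K)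
    have hg : s52bC6 z 1 ≠ 0 := fun hg => s52i_no_common_root z ⟨hz, hg⟩
    obtain ⟨l, hl⟩ := IsAlgClosed.exists_pow_nat_eq (c6 / s52bC6 z 1) (n := 30) (by norm_num)
    refine ⟨l * z, l * 1, ?_, ?_⟩
    · rw [s52bC4_smul, hz, mul_zero, h4]
    · rw [s52bC6_smul, hl, div_mul_cancel₀ _ hg]
  by_cases h6 : c6 = 0
  · obtain ⟨z, hz⟩ := s52i_exists_root_G (K := K)
    have hf : s52bC4 z 1 ≠ 0 := fun hf => s52i_no_common_root z ⟨hf, hz⟩
    obtain ⟨l, hl⟩ := IsAlgClosed.exists_pow_nat_eq (c4 / s52bC4 z 1) (n := 20) (by norm_num)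
    refine ⟨l * z, l * 1, ?_, ?_⟩
    · rw [s52bC4_smul, hl, div_mul_cancel₀ _ hf]
    · rw [s52bC6_smul, hz, mul_zero, h6]
  -- both nonzero
  obtain ⟨z, hz⟩ := s52i_exists_ratio (c6 ^ 2) (c4 ^ 3) (pow_ne_zero 2 h6)
  have hf : s52bC4 z 1 ≠ 0 := by
    intro hf
    rw [hf] at hz
    have hg : s52bC6 z 1 = 0 := by
      have h1 : c4 ^ 3 * s52bC6 z 1 ^ 2 = 0 := by rw [← hz]; ring
      rcases mul_eq_zero.mp h1 with h2 | h2
      · exact absurd h2 (pow_ne_zero 3 h4)
      · exact pow_eq_zero_iff (by norm_num) |>.mp h2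
    exact s52i_no_common_root z ⟨hf, hg⟩
  have hg : s52bC6 z 1 ≠ 0 := by
    intro hg
    rw [hg] at hz
    have h1 : c6 ^ 2 * s52bC4 z 1 ^ 3 = 0 := by rw [hz]; ring
    rcases mul_eq_zero.mp h1 with h2 | h2
    · exact absurd h2 (pow_ne_zero 2 h6)
    · exact hf (pow_eq_zero_iff (by norm_num) |>.mp h2)
  set u : K := c4 / s52bC4 z 1 with hu
  set v : K := c6 / s52bC6 z 1 with hv
  have hu0 : u ≠ 0 := div_ne_zero h4 hf
  have huv : u ^ 3 = v ^ 2 := by
    rw [hu, hv, div_pow, div_pow, div_eq_div_iff (pow_ne_zero 3 hf) (pow_ne_zero 2 hg)]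
    linear_combination -hz
  obtain ⟨l, hl⟩ := IsAlgClosed.exists_pow_nat_eq (v / u) (n := 10) (by norm_num)
  have hl20 : l ^ 20 = u := by
    have : l ^ 20 = (l ^ 10) ^ 2 := by ring
    rw [this, hl, div_pow, ← huv]
    field_simp
  have hl30 : l ^ 30 = v := by
    have : l ^ 30 = (l ^ 10) ^ 3 := by ring
    rw [this, hl, div_pow, huv]
    have hv0 : v ≠ 0 := div_ne_zero h6 hg
    field_simp
  refine ⟨l * z, l * 1, ?_, ?_⟩
  · rw [s52bC4_smul, hl20, hu, div_mul_cancel₀ _ hf]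
  · rw [s52bC6_smul, hl30, hv, div_mul_cancel₀ _ hg]

end Fermat.Agent.S52
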