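/-
S52 (A) (helper7): the Klein forms along the line `w₀ + t ŵ` — GENERATED FILE (Line4: the `c₄`-identity).
See `Line.lean` for the statements.  Do not edit by hand.
-/
import Mathlib

set_option autoImplicit false
set_option Elab.async false
set_option maxRecDepth 10000
set_option linter.unusedVariables false
set_option linter.unusedSimpArgs false

namespace Fermat.Agent.S52

section

variable {R : Type*} [CommRing R]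

/-- `c₄` as a form in `P = a⁵`, `Q = b⁵` -/
def s52bF4 (P Q : R) : R := P ^ 4 + 228 * P ^ 3 * Q + 494 * P ^ 2 * Q ^ 2 - 228 * P * Q ^ 3 + Q ^ 4

/-- `c₆` as a form in `P = a⁵`, `Q = b⁵` -/
def s52bF6 (P Q : R) : R :=
  -P ^ 6 + 522 * P ^ 5 * Q + 10005 * P ^ 4 * Q ^ 2 + 10005 * P ^ 2 * Q ^ 4 - 522 * P * Q ^ 5 - Q ^ 6

/-- the coefficient of `t ^ 0` of `s52bP4` -/
def s52bP4c0 (c4 c6 : R) : R :=
  1 * c4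

/-- the coefficient of `t ^ 1` of `s52bP4` -/
def s52bP4c1 (c4 c6 : R) : R :=
  (-20) * c6

/-- the coefficient of `t ^ 2` of `s52bP4` -/
def s52bP4c2 (c4 c6 : R) : R :=
  190 * c4 ^ 2

/-- the coefficient of `t ^ 3` of `s52bP4` -/
def s52bP4c3 (c4 c6 : R) : R :=
  (-1140) * c4 * c6

/-- the coefficient of `t ^ 4` of `s52bP4` -/
def s52bP4c4 (c4 c6 : R) : R :=
  (-855) * c4 ^ 3 + 5700 * c6 ^ 2

/-- the coefficient of `t ^ 5` of `s52bP4` -/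
def s52bP4c5 (c4 c6 : R) : R :=
  (-15504) * c4 ^ 2 * c6

/-- the coefficient of `t ^ 6` of `s52bP4` -/
def s52bP4c6 (c4 c6 : R) : R :=
  102600 * c4 ^ 4 + (-63840) * c4 * c6 ^ 2

/-- the coefficient of `t ^ 7` of `s52bP4` -/
def s52bP4c7 (c4 c6 : R) : R :=
  (-259920) * c4 ^ 3 * c6 + 182400 * c6 ^ 3

/-- the coefficient of `t ^ 8` of `s52bP4` -/
def s52bP4c8 (c4 c6 : R) : R :=
  (-1000350) * c4 ^ 5 + 1126320 * c4 ^ 2 * c6 ^ 2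

/-- the coefficient of `t ^ 9` of `s52bP4` -/
def s52bP4c9 (c4 c6 : R) : R :=
  7736040 * c4 ^ 4 * c6 + (-7904000) * c4 * c6 ^ 3

/-- the coefficient of `t ^ 10` of `s52bP4` -/
def s52bP4c10 (c4 c6 : R) : R :=
  (-10003500) * c4 ^ 6 + (-5619744) * c4 ^ 3 * c6 ^ 2 + 15808000 * c6 ^ 4

/-- the coefficient of `t ^ 11` of `s52bP4` -/
def s52bP4c11 (c4 c6 : R) : R :=
  54685800 * c4 ^ 5 * c6 + (-54853760) * c4 ^ 2 * c6 ^ 3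

/-- the coefficient of `t ^ 12` of `s52bP4` -/
def s52bP4c12 (c4 c6 : R) : R :=
  (-45015750) * c4 ^ 7 + 7202520 * c4 ^ 4 * c6 ^ 2 + 37939200 * c4 * c6 ^ 4

/-- the coefficient of `t ^ 13` of `s52bP4` -/
def s52bP4c13 (c4 c6 : R) : R :=
  35089200 * c4 ^ 6 * c6 + 23201280 * c4 ^ 3 * c6 ^ 3 + (-58368000) * c6 ^ 5

/-- the coefficient of `t ^ 14` of `s52bP4` -/
def s52bP4c14 (c4 c6 : R) : R :=
  207765000 * c4 ^ 8 + (-495188640) * c4 ^ 5 * c6 ^ 2 + 287462400 * c4 ^ 2 * c6 ^ 4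

/-- the coefficient of `t ^ 15` of `s52bP4` -/
def s52bP4c15 (c4 c6 : R) : R :=
  (-415530000) * c4 ^ 7 * c6 + 882458496 * c4 ^ 4 * c6 ^ 3 + (-466944000) * c4 * c6 ^ 5

/-- the coefficient of `t ^ 16` of `s52bP4` -/
def s52bP4c16 (c4 c6 : R) : R :=
  (-77911875) * c4 ^ 9 + 714711600 * c4 ^ 6 * c6 ^ 2 + (-1220474880) * c4 ^ 3 * c6 ^ 4
    + 583680000 * c6 ^ 6

/-- the coefficient of `t ^ 17` of `s52bP4` -/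
def s52bP4c17 (c4 c6 : R) : R :=
  (-353200500) * c4 ^ 8 * c6 + 715080960 * c4 ^ 5 * c6 ^ 3 + (-361881600) * c4 ^ 2 * c6 ^ 5

/-- the coefficient of `t ^ 18` of `s52bP4` -/
def s52bP4c18 (c4 c6 : R) : R :=
  779118750 * c4 ^ 10 + (-2182917600) * c4 ^ 7 * c6 ^ 2 + 2026391040 * c4 ^ 4 * c6 ^ 4
    + (-622592000) * c4 * c6 ^ 6

/-- the coefficient of `t ^ 19` of `s52bP4` -/
def s52bP4c19 (c4 c6 : R) : R :=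
  (-694372500) * c4 ^ 9 * c6 + 2044414080 * c4 ^ 6 * c6 ^ 3 + (-2005401600) * c4 ^ 3 * c6 ^ 5
    + 655360000 * c6 ^ 7

/-- the coefficient of `t ^ 20` of `s52bP4` -/
def s52bP4c20 (c4 c6 : R) : R :=
  184528125 * c4 ^ 11 + (-549301500) * c4 ^ 8 * c6 ^ 2 + 544997376 * c4 ^ 5 * c6 ^ 4
    + (-180224000) * c4 ^ 2 * c6 ^ 6

/-- the form `c₄` along the line `w₀ + t ŵ`, as a polynomial in `c₄(w₀), c₆(w₀), t` -/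
def s52bP4 (c4 c6 t : R) : R :=
  s52bP4c0 c4 c6 + s52bP4c1 c4 c6 * t + s52bP4c2 c4 c6 * t ^ 2 + s52bP4c3 c4 c6 * t ^ 3
    + s52bP4c4 c4 c6 * t ^ 4 + s52bP4c5 c4 c6 * t ^ 5 + s52bP4c6 c4 c6 * t ^ 6
    + s52bP4c7 c4 c6 * t ^ 7 + s52bP4c8 c4 c6 * t ^ 8 + s52bP4c9 c4 c6 * t ^ 9
    + s52bP4c10 c4 c6 * t ^ 10 + s52bP4c11 c4 c6 * t ^ 11 + s52bP4c12 c4 c6 * t ^ 12
    + s52bP4c13 c4 c6 * t ^ 13 + s52bP4c14 c4 c6 * t ^ 14 + s52bP4c15 c4 c6 * t ^ 15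
    + s52bP4c16 c4 c6 * t ^ 16 + s52bP4c17 c4 c6 * t ^ 17 + s52bP4c18 c4 c6 * t ^ 18
    + s52bP4c19 c4 c6 * t ^ 19 + s52bP4c20 c4 c6 * t ^ 20

/-- `(P - P(0)) / t` -/
def s52bP4q (c4 c6 t : R) : R :=
  s52bP4c1 c4 c6 + s52bP4c2 c4 c6 * t + s52bP4c3 c4 c6 * t ^ 2 + s52bP4c4 c4 c6 * t ^ 3
    + s52bP4c5 c4 c6 * t ^ 4 + s52bP4c6 c4 c6 * t ^ 5 + s52bP4c7 c4 c6 * t ^ 6
    + s52bP4c8 c4 c6 * t ^ 7 + s52bP4c9 c4 c6 * t ^ 8 + s52bP4c10 c4 c6 * t ^ 9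
    + s52bP4c11 c4 c6 * t ^ 10 + s52bP4c12 c4 c6 * t ^ 11 + s52bP4c13 c4 c6 * t ^ 12
    + s52bP4c14 c4 c6 * t ^ 13 + s52bP4c15 c4 c6 * t ^ 14 + s52bP4c16 c4 c6 * t ^ 15
    + s52bP4c17 c4 c6 * t ^ 16 + s52bP4c18 c4 c6 * t ^ 17 + s52bP4c19 c4 c6 * t ^ 18
    + s52bP4c20 c4 c6 * t ^ 19

/-- the coefficient of `t ^ 0` of `F4 (A (1 + t x)⁵) (B (1 - t y)⁵)` -/
def s52bL4c0 (A B x y : R) : R :=
  1 * A ^ 4 + 228 * A ^ 3 * B + 494 * A ^ 2 * B ^ 2 + (-228) * A * B ^ 3 + 1 * B ^ 4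

/-- the coefficient of `t ^ 1` of `F4 (A (1 + t x)⁵) (B (1 - t y)⁵)` -/
def s52bL4c1 (A B x y : R) : R :=
  20 * A ^ 4 * x + (-1140) * A ^ 3 * B * y + 3420 * A ^ 3 * B * x + (-4940) * A ^ 2 * B ^ 2 * y
    + 4940 * A ^ 2 * B ^ 2 * x + 3420 * A * B ^ 3 * y + (-1140) * A * B ^ 3 * x + (-20) * B ^ 4 * y

/-- the coefficient of `t ^ 2` of `F4 (A (1 + t x)⁵) (B (1 - t y)⁵)` -/
def s52bL4c2 (A B x y : R) : R :=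
  190 * A ^ 4 * x ^ 2 + 2280 * A ^ 3 * B * y ^ 2 + (-17100) * A ^ 3 * B * x * y
    + 23940 * A ^ 3 * B * x ^ 2 + 22230 * A ^ 2 * B ^ 2 * y ^ 2 + (-49400) * A ^ 2 * B ^ 2 * x * y
    + 22230 * A ^ 2 * B ^ 2 * x ^ 2 + (-23940) * A * B ^ 3 * y ^ 2 + 17100 * A * B ^ 3 * x * y
    + (-2280) * A * B ^ 3 * x ^ 2 + 190 * B ^ 4 * y ^ 2

/-- the coefficient of `t ^ 3` of `F4 (A (1 + t x)⁵) (B (1 - t y)⁵)` -/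
def s52bL4c3 (A B x y : R) : R :=
  1140 * A ^ 4 * x ^ 3 + (-2280) * A ^ 3 * B * y ^ 3 + 34200 * A ^ 3 * B * x * y ^ 2
    + (-119700) * A ^ 3 * B * x ^ 2 * y + 103740 * A ^ 3 * B * x ^ 3
    + (-59280) * A ^ 2 * B ^ 2 * y ^ 3 + 222300 * A ^ 2 * B ^ 2 * x * y ^ 2
    + (-222300) * A ^ 2 * B ^ 2 * x ^ 2 * y + 59280 * A ^ 2 * B ^ 2 * x ^ 3
    + 103740 * A * B ^ 3 * y ^ 3 + (-119700) * A * B ^ 3 * x * y ^ 2 + 34200 * A * B ^ 3 * x ^ 2 * y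
    + (-2280) * A * B ^ 3 * x ^ 3 + (-1140) * B ^ 4 * y ^ 3

/-- the coefficient of `t ^ 4` of `F4 (A (1 + t x)⁵) (B (1 - t y)⁵)` -/
def s52bL4c4 (A B x y : R) : R :=
  4845 * A ^ 4 * x ^ 4 + 1140 * A ^ 3 * B * y ^ 4 + (-34200) * A ^ 3 * B * x * y ^ 3
    + 239400 * A ^ 3 * B * x ^ 2 * y ^ 2 + (-518700) * A ^ 3 * B * x ^ 3 * y
    + 311220 * A ^ 3 * B * x ^ 4 + 103740 * A ^ 2 * B ^ 2 * y ^ 4
    + (-592800) * A ^ 2 * B ^ 2 * x * y ^ 3 + 1000350 * A ^ 2 * B ^ 2 * x ^ 2 * y ^ 2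
    + (-592800) * A ^ 2 * B ^ 2 * x ^ 3 * y + 103740 * A ^ 2 * B ^ 2 * x ^ 4
    + (-311220) * A * B ^ 3 * y ^ 4 + 518700 * A * B ^ 3 * x * y ^ 3
    + (-239400) * A * B ^ 3 * x ^ 2 * y ^ 2 + 34200 * A * B ^ 3 * x ^ 3 * y
    + (-1140) * A * B ^ 3 * x ^ 4 + 4845 * B ^ 4 * y ^ 4

/-- the coefficient of `t ^ 5` of `F4 (A (1 + t x)⁵) (B (1 - t y)⁵)` -/
def s52bL4c5 (A B x y : R) : R :=
  15504 * A ^ 4 * x ^ 5 + (-228) * A ^ 3 * B * y ^ 5 + 17100 * A ^ 3 * B * x * y ^ 4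
    + (-239400) * A ^ 3 * B * x ^ 2 * y ^ 3 + 1037400 * A ^ 3 * B * x ^ 3 * y ^ 2
    + (-1556100) * A ^ 3 * B * x ^ 4 * y + 684684 * A ^ 3 * B * x ^ 5
    + (-124488) * A ^ 2 * B ^ 2 * y ^ 5 + 1037400 * A ^ 2 * B ^ 2 * x * y ^ 4
    + (-2667600) * A ^ 2 * B ^ 2 * x ^ 2 * y ^ 3 + 2667600 * A ^ 2 * B ^ 2 * x ^ 3 * y ^ 2
    + (-1037400) * A ^ 2 * B ^ 2 * x ^ 4 * y + 124488 * A ^ 2 * B ^ 2 * x ^ 5
    + 684684 * A * B ^ 3 * y ^ 5 + (-1556100) * A * B ^ 3 * x * y ^ 4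
    + 1037400 * A * B ^ 3 * x ^ 2 * y ^ 3 + (-239400) * A * B ^ 3 * x ^ 3 * y ^ 2
    + 17100 * A * B ^ 3 * x ^ 4 * y + (-228) * A * B ^ 3 * x ^ 5 + (-15504) * B ^ 4 * y ^ 5

/-- the coefficient of `t ^ 6` of `F4 (A (1 + t x)⁵) (B (1 - t y)⁵)` -/
def s52bL4c6 (A B x y : R) : R :=
  38760 * A ^ 4 * x ^ 6 + (-3420) * A ^ 3 * B * x * y ^ 5 + 119700 * A ^ 3 * B * x ^ 2 * y ^ 4
    + (-1037400) * A ^ 3 * B * x ^ 3 * y ^ 3 + 3112200 * A ^ 3 * B * x ^ 4 * y ^ 2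
    + (-3423420) * A ^ 3 * B * x ^ 5 * y + 1141140 * A ^ 3 * B * x ^ 6
    + 103740 * A ^ 2 * B ^ 2 * y ^ 6 + (-1244880) * A ^ 2 * B ^ 2 * x * y ^ 5
    + 4668300 * A ^ 2 * B ^ 2 * x ^ 2 * y ^ 4 + (-7113600) * A ^ 2 * B ^ 2 * x ^ 3 * y ^ 3
    + 4668300 * A ^ 2 * B ^ 2 * x ^ 4 * y ^ 2 + (-1244880) * A ^ 2 * B ^ 2 * x ^ 5 * y
    + 103740 * A ^ 2 * B ^ 2 * x ^ 6 + (-1141140) * A * B ^ 3 * y ^ 6
    + 3423420 * A * B ^ 3 * x * y ^ 5 + (-3112200) * A * B ^ 3 * x ^ 2 * y ^ 4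
    + 1037400 * A * B ^ 3 * x ^ 3 * y ^ 3 + (-119700) * A * B ^ 3 * x ^ 4 * y ^ 2
    + 3420 * A * B ^ 3 * x ^ 5 * y + 38760 * B ^ 4 * y ^ 6

/-- the coefficient of `t ^ 7` of `F4 (A (1 + t x)⁵) (B (1 - t y)⁵)` -/
def s52bL4c7 (A B x y : R) : R :=
  77520 * A ^ 4 * x ^ 7 + (-23940) * A ^ 3 * B * x ^ 2 * y ^ 5
    + 518700 * A ^ 3 * B * x ^ 3 * y ^ 4 + (-3112200) * A ^ 3 * B * x ^ 4 * y ^ 3
    + 6846840 * A ^ 3 * B * x ^ 5 * y ^ 2 + (-5705700) * A ^ 3 * B * x ^ 6 * y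
    + 1467180 * A ^ 3 * B * x ^ 7 + (-59280) * A ^ 2 * B ^ 2 * y ^ 7
    + 1037400 * A ^ 2 * B ^ 2 * x * y ^ 6 + (-5601960) * A ^ 2 * B ^ 2 * x ^ 2 * y ^ 5
    + 12448800 * A ^ 2 * B ^ 2 * x ^ 3 * y ^ 4 + (-12448800) * A ^ 2 * B ^ 2 * x ^ 4 * y ^ 3
    + 5601960 * A ^ 2 * B ^ 2 * x ^ 5 * y ^ 2 + (-1037400) * A ^ 2 * B ^ 2 * x ^ 6 * y
    + 59280 * A ^ 2 * B ^ 2 * x ^ 7 + 1467180 * A * B ^ 3 * y ^ 7 + (-5705700) * A * B ^ 3 * x * y ^ 6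
    + 6846840 * A * B ^ 3 * x ^ 2 * y ^ 5 + (-3112200) * A * B ^ 3 * x ^ 3 * y ^ 4
    + 518700 * A * B ^ 3 * x ^ 4 * y ^ 3 + (-23940) * A * B ^ 3 * x ^ 5 * y ^ 2
    + (-77520) * B ^ 4 * y ^ 7

/-- the coefficient of `t ^ 8` of `F4 (A (1 + t x)⁵) (B (1 - t y)⁵)` -/
def s52bL4c8 (A B x y : R) : R :=
  125970 * A ^ 4 * x ^ 8 + (-103740) * A ^ 3 * B * x ^ 3 * y ^ 5
    + 1556100 * A ^ 3 * B * x ^ 4 * y ^ 4 + (-6846840) * A ^ 3 * B * x ^ 5 * y ^ 3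
    + 11411400 * A ^ 3 * B * x ^ 6 * y ^ 2 + (-7335900) * A ^ 3 * B * x ^ 7 * y
    + 1467180 * A ^ 3 * B * x ^ 8 + 22230 * A ^ 2 * B ^ 2 * y ^ 8
    + (-592800) * A ^ 2 * B ^ 2 * x * y ^ 7 + 4668300 * A ^ 2 * B ^ 2 * x ^ 2 * y ^ 6
    + (-14938560) * A ^ 2 * B ^ 2 * x ^ 3 * y ^ 5 + 21785400 * A ^ 2 * B ^ 2 * x ^ 4 * y ^ 4
    + (-14938560) * A ^ 2 * B ^ 2 * x ^ 5 * y ^ 3 + 4668300 * A ^ 2 * B ^ 2 * x ^ 6 * y ^ 2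
    + (-592800) * A ^ 2 * B ^ 2 * x ^ 7 * y + 22230 * A ^ 2 * B ^ 2 * x ^ 8
    + (-1467180) * A * B ^ 3 * y ^ 8 + 7335900 * A * B ^ 3 * x * y ^ 7
    + (-11411400) * A * B ^ 3 * x ^ 2 * y ^ 6 + 6846840 * A * B ^ 3 * x ^ 3 * y ^ 5
    + (-1556100) * A * B ^ 3 * x ^ 4 * y ^ 4 + 103740 * A * B ^ 3 * x ^ 5 * y ^ 3
    + 125970 * B ^ 4 * y ^ 8

/-- the coefficient of `t ^ 9` of `F4 (A (1 + t x)⁵) (B (1 - t y)⁵)` -/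
def s52bL4c9 (A B x y : R) : R :=
  167960 * A ^ 4 * x ^ 9 + (-311220) * A ^ 3 * B * x ^ 4 * y ^ 5
    + 3423420 * A ^ 3 * B * x ^ 5 * y ^ 4 + (-11411400) * A ^ 3 * B * x ^ 6 * y ^ 3
    + 14671800 * A ^ 3 * B * x ^ 7 * y ^ 2 + (-7335900) * A ^ 3 * B * x ^ 8 * y
    + 1141140 * A ^ 3 * B * x ^ 9 + (-4940) * A ^ 2 * B ^ 2 * y ^ 9
    + 222300 * A ^ 2 * B ^ 2 * x * y ^ 8 + (-2667600) * A ^ 2 * B ^ 2 * x ^ 2 * y ^ 7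
    + 12448800 * A ^ 2 * B ^ 2 * x ^ 3 * y ^ 6 + (-26142480) * A ^ 2 * B ^ 2 * x ^ 4 * y ^ 5
    + 26142480 * A ^ 2 * B ^ 2 * x ^ 5 * y ^ 4 + (-12448800) * A ^ 2 * B ^ 2 * x ^ 6 * y ^ 3
    + 2667600 * A ^ 2 * B ^ 2 * x ^ 7 * y ^ 2 + (-222300) * A ^ 2 * B ^ 2 * x ^ 8 * y
    + 4940 * A ^ 2 * B ^ 2 * x ^ 9 + 1141140 * A * B ^ 3 * y ^ 9 + (-7335900) * A * B ^ 3 * x * y ^ 8
    + 14671800 * A * B ^ 3 * x ^ 2 * y ^ 7 + (-11411400) * A * B ^ 3 * x ^ 3 * y ^ 6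
    + 3423420 * A * B ^ 3 * x ^ 4 * y ^ 5 + (-311220) * A * B ^ 3 * x ^ 5 * y ^ 4
    + (-167960) * B ^ 4 * y ^ 9

/-- the coefficient of `t ^ 10` of `F4 (A (1 + t x)⁵) (B (1 - t y)⁵)` -/
def s52bL4c10 (A B x y : R) : R :=
  184756 * A ^ 4 * x ^ 10 + (-684684) * A ^ 3 * B * x ^ 5 * y ^ 5
    + 5705700 * A ^ 3 * B * x ^ 6 * y ^ 4 + (-14671800) * A ^ 3 * B * x ^ 7 * y ^ 3
    + 14671800 * A ^ 3 * B * x ^ 8 * y ^ 2 + (-5705700) * A ^ 3 * B * x ^ 9 * y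
    + 684684 * A ^ 3 * B * x ^ 10 + 494 * A ^ 2 * B ^ 2 * y ^ 10
    + (-49400) * A ^ 2 * B ^ 2 * x * y ^ 9 + 1000350 * A ^ 2 * B ^ 2 * x ^ 2 * y ^ 8
    + (-7113600) * A ^ 2 * B ^ 2 * x ^ 3 * y ^ 7 + 21785400 * A ^ 2 * B ^ 2 * x ^ 4 * y ^ 6
    + (-31370976) * A ^ 2 * B ^ 2 * x ^ 5 * y ^ 5 + 21785400 * A ^ 2 * B ^ 2 * x ^ 6 * y ^ 4
    + (-7113600) * A ^ 2 * B ^ 2 * x ^ 7 * y ^ 3 + 1000350 * A ^ 2 * B ^ 2 * x ^ 8 * y ^ 2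
    + (-49400) * A ^ 2 * B ^ 2 * x ^ 9 * y + 494 * A ^ 2 * B ^ 2 * x ^ 10
    + (-684684) * A * B ^ 3 * y ^ 10 + 5705700 * A * B ^ 3 * x * y ^ 9
    + (-14671800) * A * B ^ 3 * x ^ 2 * y ^ 8 + 14671800 * A * B ^ 3 * x ^ 3 * y ^ 7
    + (-5705700) * A * B ^ 3 * x ^ 4 * y ^ 6 + 684684 * A * B ^ 3 * x ^ 5 * y ^ 5
    + 184756 * B ^ 4 * y ^ 10

/-- the coefficient of `t ^ 11` of `F4 (A (1 + t x)⁵) (B (1 - t y)⁵)` -/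
def s52bL4c11 (A B x y : R) : R :=
  167960 * A ^ 4 * x ^ 11 + (-1141140) * A ^ 3 * B * x ^ 6 * y ^ 5
    + 7335900 * A ^ 3 * B * x ^ 7 * y ^ 4 + (-14671800) * A ^ 3 * B * x ^ 8 * y ^ 3
    + 11411400 * A ^ 3 * B * x ^ 9 * y ^ 2 + (-3423420) * A ^ 3 * B * x ^ 10 * y
    + 311220 * A ^ 3 * B * x ^ 11 + 4940 * A ^ 2 * B ^ 2 * x * y ^ 10
    + (-222300) * A ^ 2 * B ^ 2 * x ^ 2 * y ^ 9 + 2667600 * A ^ 2 * B ^ 2 * x ^ 3 * y ^ 8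
    + (-12448800) * A ^ 2 * B ^ 2 * x ^ 4 * y ^ 7 + 26142480 * A ^ 2 * B ^ 2 * x ^ 5 * y ^ 6
    + (-26142480) * A ^ 2 * B ^ 2 * x ^ 6 * y ^ 5 + 12448800 * A ^ 2 * B ^ 2 * x ^ 7 * y ^ 4
    + (-2667600) * A ^ 2 * B ^ 2 * x ^ 8 * y ^ 3 + 222300 * A ^ 2 * B ^ 2 * x ^ 9 * y ^ 2
    + (-4940) * A ^ 2 * B ^ 2 * x ^ 10 * y + 311220 * A * B ^ 3 * y ^ 11
    + (-3423420) * A * B ^ 3 * x * y ^ 10 + 11411400 * A * B ^ 3 * x ^ 2 * y ^ 9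
    + (-14671800) * A * B ^ 3 * x ^ 3 * y ^ 8 + 7335900 * A * B ^ 3 * x ^ 4 * y ^ 7
    + (-1141140) * A * B ^ 3 * x ^ 5 * y ^ 6 + (-167960) * B ^ 4 * y ^ 11

/-- the coefficient of `t ^ 12` of `F4 (A (1 + t x)⁵) (B (1 - t y)⁵)` -/
def s52bL4c12 (A B x y : R) : R :=
  125970 * A ^ 4 * x ^ 12 + (-1467180) * A ^ 3 * B * x ^ 7 * y ^ 5
    + 7335900 * A ^ 3 * B * x ^ 8 * y ^ 4 + (-11411400) * A ^ 3 * B * x ^ 9 * y ^ 3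
    + 6846840 * A ^ 3 * B * x ^ 10 * y ^ 2 + (-1556100) * A ^ 3 * B * x ^ 11 * y
    + 103740 * A ^ 3 * B * x ^ 12 + 22230 * A ^ 2 * B ^ 2 * x ^ 2 * y ^ 10
    + (-592800) * A ^ 2 * B ^ 2 * x ^ 3 * y ^ 9 + 4668300 * A ^ 2 * B ^ 2 * x ^ 4 * y ^ 8
    + (-14938560) * A ^ 2 * B ^ 2 * x ^ 5 * y ^ 7 + 21785400 * A ^ 2 * B ^ 2 * x ^ 6 * y ^ 6
    + (-14938560) * A ^ 2 * B ^ 2 * x ^ 7 * y ^ 5 + 4668300 * A ^ 2 * B ^ 2 * x ^ 8 * y ^ 4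
    + (-592800) * A ^ 2 * B ^ 2 * x ^ 9 * y ^ 3 + 22230 * A ^ 2 * B ^ 2 * x ^ 10 * y ^ 2
    + (-103740) * A * B ^ 3 * y ^ 12 + 1556100 * A * B ^ 3 * x * y ^ 11
    + (-6846840) * A * B ^ 3 * x ^ 2 * y ^ 10 + 11411400 * A * B ^ 3 * x ^ 3 * y ^ 9
    + (-7335900) * A * B ^ 3 * x ^ 4 * y ^ 8 + 1467180 * A * B ^ 3 * x ^ 5 * y ^ 7
    + 125970 * B ^ 4 * y ^ 12

/-- the coefficient of `t ^ 13` of `F4 (A (1 + t x)⁵) (B (1 - t y)⁵)` -/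
def s52bL4c13 (A B x y : R) : R :=
  77520 * A ^ 4 * x ^ 13 + (-1467180) * A ^ 3 * B * x ^ 8 * y ^ 5
    + 5705700 * A ^ 3 * B * x ^ 9 * y ^ 4 + (-6846840) * A ^ 3 * B * x ^ 10 * y ^ 3
    + 3112200 * A ^ 3 * B * x ^ 11 * y ^ 2 + (-518700) * A ^ 3 * B * x ^ 12 * y
    + 23940 * A ^ 3 * B * x ^ 13 + 59280 * A ^ 2 * B ^ 2 * x ^ 3 * y ^ 10
    + (-1037400) * A ^ 2 * B ^ 2 * x ^ 4 * y ^ 9 + 5601960 * A ^ 2 * B ^ 2 * x ^ 5 * y ^ 8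
    + (-12448800) * A ^ 2 * B ^ 2 * x ^ 6 * y ^ 7 + 12448800 * A ^ 2 * B ^ 2 * x ^ 7 * y ^ 6
    + (-5601960) * A ^ 2 * B ^ 2 * x ^ 8 * y ^ 5 + 1037400 * A ^ 2 * B ^ 2 * x ^ 9 * y ^ 4
    + (-59280) * A ^ 2 * B ^ 2 * x ^ 10 * y ^ 3 + 23940 * A * B ^ 3 * y ^ 13
    + (-518700) * A * B ^ 3 * x * y ^ 12 + 3112200 * A * B ^ 3 * x ^ 2 * y ^ 11
    + (-6846840) * A * B ^ 3 * x ^ 3 * y ^ 10 + 5705700 * A * B ^ 3 * x ^ 4 * y ^ 9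
    + (-1467180) * A * B ^ 3 * x ^ 5 * y ^ 8 + (-77520) * B ^ 4 * y ^ 13

/-- the coefficient of `t ^ 14` of `F4 (A (1 + t x)⁵) (B (1 - t y)⁵)` -/
def s52bL4c14 (A B x y : R) : R :=
  38760 * A ^ 4 * x ^ 14 + (-1141140) * A ^ 3 * B * x ^ 9 * y ^ 5
    + 3423420 * A ^ 3 * B * x ^ 10 * y ^ 4 + (-3112200) * A ^ 3 * B * x ^ 11 * y ^ 3
    + 1037400 * A ^ 3 * B * x ^ 12 * y ^ 2 + (-119700) * A ^ 3 * B * x ^ 13 * y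
    + 3420 * A ^ 3 * B * x ^ 14 + 103740 * A ^ 2 * B ^ 2 * x ^ 4 * y ^ 10
    + (-1244880) * A ^ 2 * B ^ 2 * x ^ 5 * y ^ 9 + 4668300 * A ^ 2 * B ^ 2 * x ^ 6 * y ^ 8
    + (-7113600) * A ^ 2 * B ^ 2 * x ^ 7 * y ^ 7 + 4668300 * A ^ 2 * B ^ 2 * x ^ 8 * y ^ 6
    + (-1244880) * A ^ 2 * B ^ 2 * x ^ 9 * y ^ 5 + 103740 * A ^ 2 * B ^ 2 * x ^ 10 * y ^ 4
    + (-3420) * A * B ^ 3 * y ^ 14 + 119700 * A * B ^ 3 * x * y ^ 13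
    + (-1037400) * A * B ^ 3 * x ^ 2 * y ^ 12 + 3112200 * A * B ^ 3 * x ^ 3 * y ^ 11
    + (-3423420) * A * B ^ 3 * x ^ 4 * y ^ 10 + 1141140 * A * B ^ 3 * x ^ 5 * y ^ 9
    + 38760 * B ^ 4 * y ^ 14

/-- the coefficient of `t ^ 15` of `F4 (A (1 + t x)⁵) (B (1 - t y)⁵)` -/
def s52bL4c15 (A B x y : R) : R :=
  15504 * A ^ 4 * x ^ 15 + (-684684) * A ^ 3 * B * x ^ 10 * y ^ 5
    + 1556100 * A ^ 3 * B * x ^ 11 * y ^ 4 + (-1037400) * A ^ 3 * B * x ^ 12 * y ^ 3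
    + 239400 * A ^ 3 * B * x ^ 13 * y ^ 2 + (-17100) * A ^ 3 * B * x ^ 14 * y
    + 228 * A ^ 3 * B * x ^ 15 + 124488 * A ^ 2 * B ^ 2 * x ^ 5 * y ^ 10
    + (-1037400) * A ^ 2 * B ^ 2 * x ^ 6 * y ^ 9 + 2667600 * A ^ 2 * B ^ 2 * x ^ 7 * y ^ 8
    + (-2667600) * A ^ 2 * B ^ 2 * x ^ 8 * y ^ 7 + 1037400 * A ^ 2 * B ^ 2 * x ^ 9 * y ^ 6
    + (-124488) * A ^ 2 * B ^ 2 * x ^ 10 * y ^ 5 + 228 * A * B ^ 3 * y ^ 15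
    + (-17100) * A * B ^ 3 * x * y ^ 14 + 239400 * A * B ^ 3 * x ^ 2 * y ^ 13
    + (-1037400) * A * B ^ 3 * x ^ 3 * y ^ 12 + 1556100 * A * B ^ 3 * x ^ 4 * y ^ 11
    + (-684684) * A * B ^ 3 * x ^ 5 * y ^ 10 + (-15504) * B ^ 4 * y ^ 15

/-- the coefficient of `t ^ 16` of `F4 (A (1 + t x)⁵) (B (1 - t y)⁵)` -/
def s52bL4c16 (A B x y : R) : R :=
  4845 * A ^ 4 * x ^ 16 + (-311220) * A ^ 3 * B * x ^ 11 * y ^ 5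
    + 518700 * A ^ 3 * B * x ^ 12 * y ^ 4 + (-239400) * A ^ 3 * B * x ^ 13 * y ^ 3
    + 34200 * A ^ 3 * B * x ^ 14 * y ^ 2 + (-1140) * A ^ 3 * B * x ^ 15 * y
    + 103740 * A ^ 2 * B ^ 2 * x ^ 6 * y ^ 10 + (-592800) * A ^ 2 * B ^ 2 * x ^ 7 * y ^ 9
    + 1000350 * A ^ 2 * B ^ 2 * x ^ 8 * y ^ 8 + (-592800) * A ^ 2 * B ^ 2 * x ^ 9 * y ^ 7
    + 103740 * A ^ 2 * B ^ 2 * x ^ 10 * y ^ 6 + 1140 * A * B ^ 3 * x * y ^ 15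
    + (-34200) * A * B ^ 3 * x ^ 2 * y ^ 14 + 239400 * A * B ^ 3 * x ^ 3 * y ^ 13
    + (-518700) * A * B ^ 3 * x ^ 4 * y ^ 12 + 311220 * A * B ^ 3 * x ^ 5 * y ^ 11
    + 4845 * B ^ 4 * y ^ 16

/-- the coefficient of `t ^ 17` of `F4 (A (1 + t x)⁵) (B (1 - t y)⁵)` -/
def s52bL4c17 (A B x y : R) : R :=
  1140 * A ^ 4 * x ^ 17 + (-103740) * A ^ 3 * B * x ^ 12 * y ^ 5
    + 119700 * A ^ 3 * B * x ^ 13 * y ^ 4 + (-34200) * A ^ 3 * B * x ^ 14 * y ^ 3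
    + 2280 * A ^ 3 * B * x ^ 15 * y ^ 2 + 59280 * A ^ 2 * B ^ 2 * x ^ 7 * y ^ 10
    + (-222300) * A ^ 2 * B ^ 2 * x ^ 8 * y ^ 9 + 222300 * A ^ 2 * B ^ 2 * x ^ 9 * y ^ 8
    + (-59280) * A ^ 2 * B ^ 2 * x ^ 10 * y ^ 7 + 2280 * A * B ^ 3 * x ^ 2 * y ^ 15
    + (-34200) * A * B ^ 3 * x ^ 3 * y ^ 14 + 119700 * A * B ^ 3 * x ^ 4 * y ^ 13
    + (-103740) * A * B ^ 3 * x ^ 5 * y ^ 12 + (-1140) * B ^ 4 * y ^ 17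

/-- the coefficient of `t ^ 18` of `F4 (A (1 + t x)⁵) (B (1 - t y)⁵)` -/
def s52bL4c18 (A B x y : R) : R :=
  190 * A ^ 4 * x ^ 18 + (-23940) * A ^ 3 * B * x ^ 13 * y ^ 5
    + 17100 * A ^ 3 * B * x ^ 14 * y ^ 4 + (-2280) * A ^ 3 * B * x ^ 15 * y ^ 3
    + 22230 * A ^ 2 * B ^ 2 * x ^ 8 * y ^ 10 + (-49400) * A ^ 2 * B ^ 2 * x ^ 9 * y ^ 9
    + 22230 * A ^ 2 * B ^ 2 * x ^ 10 * y ^ 8 + 2280 * A * B ^ 3 * x ^ 3 * y ^ 15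
    + (-17100) * A * B ^ 3 * x ^ 4 * y ^ 14 + 23940 * A * B ^ 3 * x ^ 5 * y ^ 13
    + 190 * B ^ 4 * y ^ 18

/-- the coefficient of `t ^ 19` of `F4 (A (1 + t x)⁵) (B (1 - t y)⁵)` -/
def s52bL4c19 (A B x y : R) : R :=
  20 * A ^ 4 * x ^ 19 + (-3420) * A ^ 3 * B * x ^ 14 * y ^ 5 + 1140 * A ^ 3 * B * x ^ 15 * y ^ 4
    + 4940 * A ^ 2 * B ^ 2 * x ^ 9 * y ^ 10 + (-4940) * A ^ 2 * B ^ 2 * x ^ 10 * y ^ 9
    + 1140 * A * B ^ 3 * x ^ 4 * y ^ 15 + (-3420) * A * B ^ 3 * x ^ 5 * y ^ 14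
    + (-20) * B ^ 4 * y ^ 19

/-- the coefficient of `t ^ 20` of `F4 (A (1 + t x)⁵) (B (1 - t y)⁵)` -/
def s52bL4c20 (A B x y : R) : R :=
  1 * A ^ 4 * x ^ 20 + (-228) * A ^ 3 * B * x ^ 15 * y ^ 5 + 494 * A ^ 2 * B ^ 2 * x ^ 10 * y ^ 10
    + 228 * A * B ^ 3 * x ^ 5 * y ^ 15 + 1 * B ^ 4 * y ^ 20

set_option maxHeartbeats 8000000 in
/-- expansion in powers of `t` -/
theorem s52b_expand4 (A B x y t : R) :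
    s52bF4 (A * (1 + t * x) ^ 5) (B * (1 - t * y) ^ 5)
      = s52bL4c0 A B x y + s52bL4c1 A B x y * t + s52bL4c2 A B x y * t ^ 2 + s52bL4c3 A B x y * t ^ 3
        + s52bL4c4 A B x y * t ^ 4 + s52bL4c5 A B x y * t ^ 5 + s52bL4c6 A B x y * t ^ 6
        + s52bL4c7 A B x y * t ^ 7 + s52bL4c8 A B x y * t ^ 8 + s52bL4c9 A B x y * t ^ 9
        + s52bL4c10 A B x y * t ^ 10 + s52bL4c11 A B x y * t ^ 11 + s52bL4c12 A B x y * t ^ 12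
        + s52bL4c13 A B x y * t ^ 13 + s52bL4c14 A B x y * t ^ 14 + s52bL4c15 A B x y * t ^ 15
        + s52bL4c16 A B x y * t ^ 16 + s52bL4c17 A B x y * t ^ 17 + s52bL4c18 A B x y * t ^ 18
        + s52bL4c19 A B x y * t ^ 19 + s52bL4c20 A B x y * t ^ 20 := by
  unfold s52bF4 s52bL4c0 s52bL4c1 s52bL4c2 s52bL4c3 s52bL4c4 s52bL4c5 s52bL4c6 s52bL4c7 s52bL4c8 s52bL4c9 s52bL4c10 s52bL4c11 s52bL4c12 s52bL4c13 s52bL4c14 s52bL4c15 s52bL4c16 s52bL4c17 s52bL4c18 s52bL4c19 s52bL4c20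
  ring

set_option maxHeartbeats 8000000 in
theorem s52b_coeff4_0 (A B : R) :
    s52bL4c0 A B (A ^ 2 - 66 * A * B - 11 * B ^ 2) (11 * A ^ 2 - 66 * A * B - B ^ 2)
      = s52bP4c0 (s52bF4 A B) (s52bF6 A B) := by
  simp only [s52bL4c0, s52bP4c0, s52bF4, s52bF6]
  ring

set_option maxHeartbeats 8000000 in
theorem s52b_coeff4_1 (A B : R) :
    s52bL4c1 A B (A ^ 2 - 66 * A * B - 11 * B ^ 2) (11 * A ^ 2 - 66 * A * B - B ^ 2)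
      = s52bP4c1 (s52bF4 A B) (s52bF6 A B) := by
  simp only [s52bL4c1, s52bP4c1, s52bF4, s52bF6]
  ring

set_option maxHeartbeats 8000000 in
theorem s52b_coeff4_2 (A B : R) :
    s52bL4c2 A B (A ^ 2 - 66 * A * B - 11 * B ^ 2) (11 * A ^ 2 - 66 * A * B - B ^ 2)
      = s52bP4c2 (s52bF4 A B) (s52bF6 A B) := by
  simp only [s52bL4c2, s52bP4c2, s52bF4, s52bF6]
  ring

set_option maxHeartbeats 8000000 in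
theorem s52b_coeff4_3 (A B : R) :
    s52bL4c3 A B (A ^ 2 - 66 * A * B - 11 * B ^ 2) (11 * A ^ 2 - 66 * A * B - B ^ 2)
      = s52bP4c3 (s52bF4 A B) (s52bF6 A B) := by
  simp only [s52bL4c3, s52bP4c3, s52bF4, s52bF6]
  ring

set_option maxHeartbeats 8000000 in
theorem s52b_coeff4_4 (A B : R) :
    s52bL4c4 A B (A ^ 2 - 66 * A * B - 11 * B ^ 2) (11 * A ^ 2 - 66 * A * B - B ^ 2)
      = s52bP4c4 (s52bF4 A B) (s52bF6 A B) := by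
  simp only [s52bL4c4, s52bP4c4, s52bF4, s52bF6]
  ring

set_option maxHeartbeats 8000000 in
theorem s52b_coeff4_5 (A B : R) :
    s52bL4c5 A B (A ^ 2 - 66 * A * B - 11 * B ^ 2) (11 * A ^ 2 - 66 * A * B - B ^ 2)
      = s52bP4c5 (s52bF4 A B) (s52bF6 A B) := by
  simp only [s52bL4c5, s52bP4c5, s52bF4, s52bF6]
  ring

set_option maxHeartbeats 8000000 in
theorem s52b_coeff4_6 (A B : R) :
    s52bL4c6 A B (A ^ 2 - 66 * A * B - 11 * B ^ 2) (11 * A ^ 2 - 66 * A * B - B ^ 2)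
      = s52bP4c6 (s52bF4 A B) (s52bF6 A B) := by
  simp only [s52bL4c6, s52bP4c6, s52bF4, s52bF6]
  ring

set_option maxHeartbeats 8000000 in
theorem s52b_coeff4_7 (A B : R) :
    s52bL4c7 A B (A ^ 2 - 66 * A * B - 11 * B ^ 2) (11 * A ^ 2 - 66 * A * B - B ^ 2)
      = s52bP4c7 (s52bF4 A B) (s52bF6 A B) := by
  simp only [s52bL4c7, s52bP4c7, s52bF4, s52bF6]
  ring

set_option maxHeartbeats 8000000 in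
theorem s52b_coeff4_8 (A B : R) :
    s52bL4c8 A B (A ^ 2 - 66 * A * B - 11 * B ^ 2) (11 * A ^ 2 - 66 * A * B - B ^ 2)
      = s52bP4c8 (s52bF4 A B) (s52bF6 A B) := by
  simp only [s52bL4c8, s52bP4c8, s52bF4, s52bF6]
  ring

set_option maxHeartbeats 8000000 in
theorem s52b_coeff4_9 (A B : R) :
    s52bL4c9 A B (A ^ 2 - 66 * A * B - 11 * B ^ 2) (11 * A ^ 2 - 66 * A * B - B ^ 2)
      = s52bP4c9 (s52bF4 A B) (s52bF6 A B) := by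
  simp only [s52bL4c9, s52bP4c9, s52bF4, s52bF6]
  ring

set_option maxHeartbeats 8000000 in
theorem s52b_coeff4_10 (A B : R) :
    s52bL4c10 A B (A ^ 2 - 66 * A * B - 11 * B ^ 2) (11 * A ^ 2 - 66 * A * B - B ^ 2)
      = s52bP4c10 (s52bF4 A B) (s52bF6 A B) := by
  simp only [s52bL4c10, s52bP4c10, s52bF4, s52bF6]
  ring

set_option maxHeartbeats 8000000 in
theorem s52b_coeff4_11 (A B : R) :
    s52bL4c11 A B (A ^ 2 - 66 * A * B - 11 * B ^ 2) (11 * A ^ 2 - 66 * A * B - B ^ 2)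
      = s52bP4c11 (s52bF4 A B) (s52bF6 A B) := by
  simp only [s52bL4c11, s52bP4c11, s52bF4, s52bF6]
  ring

set_option maxHeartbeats 8000000 in
theorem s52b_coeff4_12 (A B : R) :
    s52bL4c12 A B (A ^ 2 - 66 * A * B - 11 * B ^ 2) (11 * A ^ 2 - 66 * A * B - B ^ 2)
      = s52bP4c12 (s52bF4 A B) (s52bF6 A B) := by
  simp only [s52bL4c12, s52bP4c12, s52bF4, s52bF6]
  ring

set_option maxHeartbeats 8000000 in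
theorem s52b_coeff4_13 (A B : R) :
    s52bL4c13 A B (A ^ 2 - 66 * A * B - 11 * B ^ 2) (11 * A ^ 2 - 66 * A * B - B ^ 2)
      = s52bP4c13 (s52bF4 A B) (s52bF6 A B) := by
  simp only [s52bL4c13, s52bP4c13, s52bF4, s52bF6]
  ring

set_option maxHeartbeats 8000000 in
theorem s52b_coeff4_14 (A B : R) :
    s52bL4c14 A B (A ^ 2 - 66 * A * B - 11 * B ^ 2) (11 * A ^ 2 - 66 * A * B - B ^ 2)
      = s52bP4c14 (s52bF4 A B) (s52bF6 A B) := by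
  simp only [s52bL4c14, s52bP4c14, s52bF4, s52bF6]
  ring

set_option maxHeartbeats 8000000 in
theorem s52b_coeff4_15 (A B : R) :
    s52bL4c15 A B (A ^ 2 - 66 * A * B - 11 * B ^ 2) (11 * A ^ 2 - 66 * A * B - B ^ 2)
      = s52bP4c15 (s52bF4 A B) (s52bF6 A B) := by
  simp only [s52bL4c15, s52bP4c15, s52bF4, s52bF6]
  ring

set_option maxHeartbeats 8000000 in
theorem s52b_coeff4_16 (A B : R) :
    s52bL4c16 A B (A ^ 2 - 66 * A * B - 11 * B ^ 2) (11 * A ^ 2 - 66 * A * B - B ^ 2)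
      = s52bP4c16 (s52bF4 A B) (s52bF6 A B) := by
  simp only [s52bL4c16, s52bP4c16, s52bF4, s52bF6]
  ring

set_option maxHeartbeats 8000000 in
theorem s52b_coeff4_17 (A B : R) :
    s52bL4c17 A B (A ^ 2 - 66 * A * B - 11 * B ^ 2) (11 * A ^ 2 - 66 * A * B - B ^ 2)
      = s52bP4c17 (s52bF4 A B) (s52bF6 A B) := by
  simp only [s52bL4c17, s52bP4c17, s52bF4, s52bF6]
  ring

set_option maxHeartbeats 8000000 in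
theorem s52b_coeff4_18 (A B : R) :
    s52bL4c18 A B (A ^ 2 - 66 * A * B - 11 * B ^ 2) (11 * A ^ 2 - 66 * A * B - B ^ 2)
      = s52bP4c18 (s52bF4 A B) (s52bF6 A B) := by
  simp only [s52bL4c18, s52bP4c18, s52bF4, s52bF6]
  ring

set_option maxHeartbeats 8000000 in
theorem s52b_coeff4_19 (A B : R) :
    s52bL4c19 A B (A ^ 2 - 66 * A * B - 11 * B ^ 2) (11 * A ^ 2 - 66 * A * B - B ^ 2)
      = s52bP4c19 (s52bF4 A B) (s52bF6 A B) := by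
  simp only [s52bL4c19, s52bP4c19, s52bF4, s52bF6]
  ring

set_option maxHeartbeats 8000000 in
theorem s52b_coeff4_20 (A B : R) :
    s52bL4c20 A B (A ^ 2 - 66 * A * B - 11 * B ^ 2) (11 * A ^ 2 - 66 * A * B - B ^ 2)
      = s52bP4c20 (s52bF4 A B) (s52bF6 A B) := by
  simp only [s52bL4c20, s52bP4c20, s52bF4, s52bF6]
  ring

/-- the `c₄`-identity in the variables `A = a⁵`, `B = b⁵` -/
theorem s52b_line4_AB (A B t : R) :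
    s52bF4 (A * (1 + t * (A ^ 2 - 66 * A * B - 11 * B ^ 2)) ^ 5) (B * (1 - t * (11 * A ^ 2 - 66 * A * B - B ^ 2)) ^ 5)
      = s52bP4 (s52bF4 A B) (s52bF6 A B) t := by
  rw [s52b_expand4, s52b_coeff4_0, s52b_coeff4_1, s52b_coeff4_2, s52b_coeff4_3, s52b_coeff4_4, s52b_coeff4_5, s52b_coeff4_6, s52b_coeff4_7, s52b_coeff4_8, s52b_coeff4_9, s52b_coeff4_10, s52b_coeff4_11, s52b_coeff4_12, s52b_coeff4_13, s52b_coeff4_14, s52b_coeff4_15, s52b_coeff4_16, s52b_coeff4_17, s52b_coeff4_18, s52b_coeff4_19, s52b_coeff4_20]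
  rfl

end

end Fermat.Agent.S52
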