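/-
S52 (A) (helper7): the Klein forms along the line `w₀ + t ŵ` — GENERATED FILE (Line6a: definitions and `t`-expansion for `c₆`).
See `Line.lean` for the statements.  Do not edit by hand.
-/
import Mathlib
import Fermat.Agent.Lib.S52.Line4

set_option autoImplicit false
set_option Elab.async false
set_option maxRecDepth 10000
set_option linter.unusedVariables false
set_option linter.unusedSimpArgs false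

namespace Fermat.Agent.S52

section

variable {R : Type*} [CommRing R]

/-- the coefficient of `t ^ 0` of `s52bP6` -/
def s52bP6c0 (c4 c6 : R) : R :=
  1 * c6

/-- the coefficient of `t ^ 1` of `s52bP6` -/
def s52bP6c1 (c4 c6 : R) : R :=
  (-30) * c4 ^ 2

/-- the coefficient of `t ^ 2` of `s52bP6` -/
def s52bP6c2 (c4 c6 : R) : R :=
  435 * c4 * c6

/-- the coefficient of `t ^ 3` of `s52bP6` -/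
def s52bP6c3 (c4 c6 : R) : R :=
  (-1160) * c4 ^ 3 + (-2900) * c6 ^ 2

/-- the coefficient of `t ^ 4` of `s52bP6` -/
def s52bP6c4 (c4 c6 : R) : R :=
  27405 * c4 ^ 2 * c6

/-- the coefficient of `t ^ 5` of `s52bP6` -/
def s52bP6c5 (c4 c6 : R) : R :=
  (-95526) * c4 ^ 4 + (-46980) * c4 * c6 ^ 2

/-- the coefficient of `t ^ 6` of `s52bP6` -/
def s52bP6c6 (c4 c6 : R) : R :=
  437175 * c4 ^ 3 * c6 + 156600 * c6 ^ 3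

/-- the coefficient of `t ^ 7` of `s52bP6` -/
def s52bP6c7 (c4 c6 : R) : R :=
  1879200 * c4 ^ 5 + (-3915000) * c4 ^ 2 * c6 ^ 2

/-- the coefficient of `t ^ 8` of `s52bP6` -/
def s52bP6c8 (c4 c6 : R) : R :=
  (-8554275) * c4 ^ 4 * c6 + 14407200 * c4 * c6 ^ 3

/-- the coefficient of `t ^ 9` of `s52bP6` -/
def s52bP6c9 (c4 c6 : R) : R :=
  (-24312150) * c4 ^ 6 + 42021000 * c4 ^ 3 * c6 ^ 2 + (-32016000) * c6 ^ 4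

/-- the coefficient of `t ^ 10` of `s52bP6` -/
def s52bP6c10 (c4 c6 : R) : R :=
  246633255 * c4 ^ 5 * c6 + (-216588240) * c4 ^ 2 * c6 ^ 3

/-- the coefficient of `t ^ 11` of `s52bP6` -/
def s52bP6c11 (c4 c6 : R) : R :=
  (-162081000) * c4 ^ 7 + (-1352475900) * c4 ^ 4 * c6 ^ 2 + 1459929600 * c4 * c6 ^ 4

/-- the coefficient of `t ^ 12` of `s52bP6` -/
def s52bP6c12 (c4 c6 : R) : R :=
  4131714825 * c4 ^ 6 * c6 + (-1612005600) * c4 ^ 3 * c6 ^ 3 + (-2433216000) * c6 ^ 5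

/-- the coefficient of `t ^ 13` of `s52bP6` -/
def s52bP6c13 (c4 c6 : R) : R :=
  (-6928962750) * c4 ^ 8 + (-5235216300) * c4 ^ 5 * c6 ^ 2 + 12044419200 * c4 ^ 2 * c6 ^ 4

/-- the coefficient of `t ^ 14` of `s52bP6` -/
def s52bP6c14 (c4 c6 : R) : R :=
  43190534475 * c4 ^ 7 * c6 + (-43045111800) * c4 ^ 4 * c6 ^ 3

/-- the coefficient of `t ^ 15` of `s52bP6` -/
def s52bP6c15 (c4 c6 : R) : R :=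
  (-79575287760) * c4 ^ 6 * c6 ^ 2 + 79420170240 * c4 ^ 3 * c6 ^ 4

/-- the coefficient of `t ^ 16` of `s52bP6` -/
def s52bP6c16 (c4 c6 : R) : R :=
  (-176688550125) * c4 ^ 8 * c6 + 474659611200 * c4 ^ 5 * c6 ^ 3
    + (-297825638400) * c4 ^ 2 * c6 ^ 5

/-- the coefficient of `t ^ 17` of `s52bP6` -/
def s52bP6c17 (c4 c6 : R) : R :=
  311803323750 * c4 ^ 10 + (-77604382800) * c4 ^ 7 * c6 ^ 2 + (-935084908800) * c4 ^ 4 * c6 ^ 4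
    + 700766208000 * c4 * c6 ^ 6

/-- the coefficient of `t ^ 18` of `s52bP6` -/
def s52bP6c18 (c4 c6 : R) : R :=
  (-1694131392375) * c4 ^ 9 * c6 + 2776512362400 * c4 ^ 6 * c6 ^ 3
    + (-303665356800) * c4 ^ 3 * c6 ^ 5 + (-778629120000) * c6 ^ 7

/-- the coefficient of `t ^ 19` of `s52bP6` -/
def s52bP6c19 (c4 c6 : R) : R :=
  328214025000 * c4 ^ 11 + 3481840250100 * c4 ^ 8 * c6 ^ 2 + (-8100765158400) * c4 ^ 5 * c6 ^ 4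
    + 4290656256000 * c4 ^ 2 * c6 ^ 6

/-- the coefficient of `t ^ 20` of `s52bP6` -/
def s52bP6c20 (c4 c6 : R) : R :=
  (-2874607835625) * c4 ^ 10 * c6 + 2424887357760 * c4 ^ 7 * c6 ^ 3
    + 3892110842880 * c4 ^ 4 * c6 ^ 5 + (-3442360320000) * c4 * c6 ^ 7

/-- the coefficient of `t ^ 21` of `s52bP6` -/
def s52bP6c21 (c4 c6 : R) : R :=
  2215444668750 * c4 ^ 12 + (-3077188825500) * c4 ^ 9 * c6 ^ 2 + 2709129888000 * c4 ^ 6 * c6 ^ 4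
    + (-5125838438400) * c4 ^ 3 * c6 ^ 6 + 3278438400000 * c6 ^ 8

/-- the coefficient of `t ^ 22` of `s52bP6` -/
def s52bP6c22 (c4 c6 : R) : R :=
  (-1403114956875) * c4 ^ 11 * c6 + (-1724509423800) * c4 ^ 8 * c6 ^ 3
    + 7701051801600 * c4 ^ 5 * c6 ^ 5 + (-4573421568000) * c4 ^ 2 * c6 ^ 7

/-- the coefficient of `t ^ 23` of `s52bP6` -/
def s52bP6c23 (c4 c6 : R) : R :=
  (-7705894500000) * c4 ^ 13 + 33414470973000 * c4 ^ 10 * c6 ^ 2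
    + (-49888700928000) * c4 ^ 7 * c6 ^ 4 + 30337884979200 * c4 ^ 4 * c6 ^ 6
    + (-6157762560000) * c4 * c6 ^ 8

/-- the coefficient of `t ^ 24` of `s52bP6` -/
def s52bP6c24 (c4 c6 : R) : R :=
  5089101159375 * c4 ^ 12 * c6 + (-22687218914400) * c4 ^ 9 * c6 ^ 3
    + 35246094796800 * c4 ^ 6 * c6 ^ 5 + (-22779445248000) * c4 ^ 3 * c6 ^ 7 + 5131468800000 * c6 ^ 9

/-- the coefficient of `t ^ 25` of `s52bP6` -/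
def s52bP6c25 (c4 c6 : R) : R :=
  17627233668750 * c4 ^ 14 + (-70097953635000) * c4 ^ 11 * c6 ^ 2
    + 105528606261120 * c4 ^ 8 * c6 ^ 4 + (-71274600677376) * c4 ^ 5 * c6 ^ 6
    + 18216714240000 * c4 ^ 2 * c6 ^ 8

/-- the coefficient of `t ^ 26` of `s52bP6` -/
def s52bP6c26 (c4 c6 : R) : R :=
  (-40985726371875) * c4 ^ 13 * c6 + 163672057566000 * c4 ^ 10 * c6 ^ 3
    + (-245438120632320) * c4 ^ 7 * c6 ^ 5 + 163803539865600 * c4 ^ 4 * c6 ^ 7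
    + (-41051750400000) * c4 * c6 ^ 9

/-- the coefficient of `t ^ 27` of `s52bP6` -/
def s52bP6c27 (c4 c6 : R) : R :=
  9632368125000 * c4 ^ 15 + (-8104032382500) * c4 ^ 12 * c6 ^ 2
    + (-63806176396800) * c4 ^ 9 * c6 ^ 4 + 143803576074240 * c4 ^ 6 * c6 ^ 6
    + (-111934439424000) * c4 ^ 3 * c6 ^ 8 + 30408704000000 * c6 ^ 10

/-- the coefficient of `t ^ 28` of `s52bP6` -/
def s52bP6c28 (c4 c6 : R) : R :=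
  (-21432019078125) * c4 ^ 14 * c6 + 85719228804000 * c4 ^ 11 * c6 ^ 3
    + (-128580522647040) * c4 ^ 8 * c6 ^ 5 + 85731449241600 * c4 ^ 5 * c6 ^ 7
    + (-21438136320000) * c4 ^ 2 * c6 ^ 9

/-- the coefficient of `t ^ 29` of `s52bP6` -/
def s52bP6c29 (c4 c6 : R) : R :=
  11210083593750 * c4 ^ 16 + (-49873523512500) * c4 ^ 13 * c6 ^ 2
    + 87394892457600 * c4 ^ 10 * c6 ^ 4 + (-75042714746880) * c4 ^ 7 * c6 ^ 6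
    + 31344427008000 * c4 ^ 4 * c6 ^ 8 + (-5033164800000) * c4 * c6 ^ 10

/-- the coefficient of `t ^ 30` of `s52bP6` -/
def s52bP6c30 (c4 c6 : R) : R :=
  (-4110363984375) * c4 ^ 15 * c6 + 19796866155000 * c4 ^ 12 * c6 ^ 3
    + (-38083944628224) * c4 ^ 9 * c6 ^ 5 + 36574189977600 * c4 ^ 6 * c6 ^ 7
    + (-17532190720000) * c4 ^ 3 * c6 ^ 9 + 3355443200000 * c6 ^ 11

/-- the form `c₆` along the line `w₀ + t ŵ`, as a polynomial in `c₄(w₀), c₆(w₀), t` -/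
def s52bP6 (c4 c6 t : R) : R :=
  s52bP6c0 c4 c6 + s52bP6c1 c4 c6 * t + s52bP6c2 c4 c6 * t ^ 2 + s52bP6c3 c4 c6 * t ^ 3
    + s52bP6c4 c4 c6 * t ^ 4 + s52bP6c5 c4 c6 * t ^ 5 + s52bP6c6 c4 c6 * t ^ 6
    + s52bP6c7 c4 c6 * t ^ 7 + s52bP6c8 c4 c6 * t ^ 8 + s52bP6c9 c4 c6 * t ^ 9
    + s52bP6c10 c4 c6 * t ^ 10 + s52bP6c11 c4 c6 * t ^ 11 + s52bP6c12 c4 c6 * t ^ 12
    + s52bP6c13 c4 c6 * t ^ 13 + s52bP6c14 c4 c6 * t ^ 14 + s52bP6c15 c4 c6 * t ^ 15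
    + s52bP6c16 c4 c6 * t ^ 16 + s52bP6c17 c4 c6 * t ^ 17 + s52bP6c18 c4 c6 * t ^ 18
    + s52bP6c19 c4 c6 * t ^ 19 + s52bP6c20 c4 c6 * t ^ 20 + s52bP6c21 c4 c6 * t ^ 21
    + s52bP6c22 c4 c6 * t ^ 22 + s52bP6c23 c4 c6 * t ^ 23 + s52bP6c24 c4 c6 * t ^ 24
    + s52bP6c25 c4 c6 * t ^ 25 + s52bP6c26 c4 c6 * t ^ 26 + s52bP6c27 c4 c6 * t ^ 27
    + s52bP6c28 c4 c6 * t ^ 28 + s52bP6c29 c4 c6 * t ^ 29 + s52bP6c30 c4 c6 * t ^ 30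

/-- `(P - P(0)) / t` -/
def s52bP6q (c4 c6 t : R) : R :=
  s52bP6c1 c4 c6 + s52bP6c2 c4 c6 * t + s52bP6c3 c4 c6 * t ^ 2 + s52bP6c4 c4 c6 * t ^ 3
    + s52bP6c5 c4 c6 * t ^ 4 + s52bP6c6 c4 c6 * t ^ 5 + s52bP6c7 c4 c6 * t ^ 6
    + s52bP6c8 c4 c6 * t ^ 7 + s52bP6c9 c4 c6 * t ^ 8 + s52bP6c10 c4 c6 * t ^ 9
    + s52bP6c11 c4 c6 * t ^ 10 + s52bP6c12 c4 c6 * t ^ 11 + s52bP6c13 c4 c6 * t ^ 12
    + s52bP6c14 c4 c6 * t ^ 13 + s52bP6c15 c4 c6 * t ^ 14 + s52bP6c16 c4 c6 * t ^ 15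
    + s52bP6c17 c4 c6 * t ^ 16 + s52bP6c18 c4 c6 * t ^ 17 + s52bP6c19 c4 c6 * t ^ 18
    + s52bP6c20 c4 c6 * t ^ 19 + s52bP6c21 c4 c6 * t ^ 20 + s52bP6c22 c4 c6 * t ^ 21
    + s52bP6c23 c4 c6 * t ^ 22 + s52bP6c24 c4 c6 * t ^ 23 + s52bP6c25 c4 c6 * t ^ 24
    + s52bP6c26 c4 c6 * t ^ 25 + s52bP6c27 c4 c6 * t ^ 26 + s52bP6c28 c4 c6 * t ^ 27
    + s52bP6c29 c4 c6 * t ^ 28 + s52bP6c30 c4 c6 * t ^ 29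

/-- the coefficient of `t ^ 0` of `F6 (A (1 + t x)⁵) (B (1 - t y)⁵)` -/
def s52bL6c0 (A B x y : R) : R :=
  (-1) * A ^ 6 + 522 * A ^ 5 * B + 10005 * A ^ 4 * B ^ 2 + 10005 * A ^ 2 * B ^ 4
    + (-522) * A * B ^ 5 + (-1) * B ^ 6

/-- the coefficient of `t ^ 1` of `F6 (A (1 + t x)⁵) (B (1 - t y)⁵)` -/
def s52bL6c1 (A B x y : R) : R :=
  (-30) * A ^ 6 * x + (-2610) * A ^ 5 * B * y + 13050 * A ^ 5 * B * x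
    + (-100050) * A ^ 4 * B ^ 2 * y + 200100 * A ^ 4 * B ^ 2 * x + (-200100) * A ^ 2 * B ^ 4 * y
    + 100050 * A ^ 2 * B ^ 4 * x + 13050 * A * B ^ 5 * y + (-2610) * A * B ^ 5 * x + 30 * B ^ 6 * y

/-- the coefficient of `t ^ 2` of `F6 (A (1 + t x)⁵) (B (1 - t y)⁵)` -/
def s52bL6c2 (A B x y : R) : R :=
  (-435) * A ^ 6 * x ^ 2 + 5220 * A ^ 5 * B * y ^ 2 + (-65250) * A ^ 5 * B * x * y
    + 156600 * A ^ 5 * B * x ^ 2 + 450225 * A ^ 4 * B ^ 2 * y ^ 2 + (-2001000) * A ^ 4 * B ^ 2 * x * y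
    + 1900950 * A ^ 4 * B ^ 2 * x ^ 2 + 1900950 * A ^ 2 * B ^ 4 * y ^ 2
    + (-2001000) * A ^ 2 * B ^ 4 * x * y + 450225 * A ^ 2 * B ^ 4 * x ^ 2
    + (-156600) * A * B ^ 5 * y ^ 2 + 65250 * A * B ^ 5 * x * y + (-5220) * A * B ^ 5 * x ^ 2
    + (-435) * B ^ 6 * y ^ 2

/-- the coefficient of `t ^ 3` of `F6 (A (1 + t x)⁵) (B (1 - t y)⁵)` -/
def s52bL6c3 (A B x y : R) : R :=
  (-4060) * A ^ 6 * x ^ 3 + (-5220) * A ^ 5 * B * y ^ 3 + 130500 * A ^ 5 * B * x * y ^ 2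
    + (-783000) * A ^ 5 * B * x ^ 2 * y + 1200600 * A ^ 5 * B * x ^ 3
    + (-1200600) * A ^ 4 * B ^ 2 * y ^ 3 + 9004500 * A ^ 4 * B ^ 2 * x * y ^ 2
    + (-19009500) * A ^ 4 * B ^ 2 * x ^ 2 * y + 11405700 * A ^ 4 * B ^ 2 * x ^ 3
    + (-11405700) * A ^ 2 * B ^ 4 * y ^ 3 + 19009500 * A ^ 2 * B ^ 4 * x * y ^ 2
    + (-9004500) * A ^ 2 * B ^ 4 * x ^ 2 * y + 1200600 * A ^ 2 * B ^ 4 * x ^ 3
    + 1200600 * A * B ^ 5 * y ^ 3 + (-783000) * A * B ^ 5 * x * y ^ 2 + 130500 * A * B ^ 5 * x ^ 2 * y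
    + (-5220) * A * B ^ 5 * x ^ 3 + 4060 * B ^ 6 * y ^ 3

/-- the coefficient of `t ^ 4` of `F6 (A (1 + t x)⁵) (B (1 - t y)⁵)` -/
def s52bL6c4 (A B x y : R) : R :=
  (-27405) * A ^ 6 * x ^ 4 + 2610 * A ^ 5 * B * y ^ 4 + (-130500) * A ^ 5 * B * x * y ^ 3
    + 1566000 * A ^ 5 * B * x ^ 2 * y ^ 2 + (-6003000) * A ^ 5 * B * x ^ 3 * y
    + 6603300 * A ^ 5 * B * x ^ 4 + 2101050 * A ^ 4 * B ^ 2 * y ^ 4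
    + (-24012000) * A ^ 4 * B ^ 2 * x * y ^ 3 + 85542750 * A ^ 4 * B ^ 2 * x ^ 2 * y ^ 2
    + (-114057000) * A ^ 4 * B ^ 2 * x ^ 3 * y + 48474225 * A ^ 4 * B ^ 2 * x ^ 4
    + 48474225 * A ^ 2 * B ^ 4 * y ^ 4 + (-114057000) * A ^ 2 * B ^ 4 * x * y ^ 3
    + 85542750 * A ^ 2 * B ^ 4 * x ^ 2 * y ^ 2 + (-24012000) * A ^ 2 * B ^ 4 * x ^ 3 * y
    + 2101050 * A ^ 2 * B ^ 4 * x ^ 4 + (-6603300) * A * B ^ 5 * y ^ 4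
    + 6003000 * A * B ^ 5 * x * y ^ 3 + (-1566000) * A * B ^ 5 * x ^ 2 * y ^ 2
    + 130500 * A * B ^ 5 * x ^ 3 * y + (-2610) * A * B ^ 5 * x ^ 4 + (-27405) * B ^ 6 * y ^ 4

/-- the coefficient of `t ^ 5` of `F6 (A (1 + t x)⁵) (B (1 - t y)⁵)` -/
def s52bL6c5 (A B x y : R) : R :=
  (-142506) * A ^ 6 * x ^ 5 + (-522) * A ^ 5 * B * y ^ 5 + 65250 * A ^ 5 * B * x * y ^ 4
    + (-1566000) * A ^ 5 * B * x ^ 2 * y ^ 3 + 12006000 * A ^ 5 * B * x ^ 3 * y ^ 2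
    + (-33016500) * A ^ 5 * B * x ^ 4 * y + 27733860 * A ^ 5 * B * x ^ 5
    + (-2521260) * A ^ 4 * B ^ 2 * y ^ 5 + 42021000 * A ^ 4 * B ^ 2 * x * y ^ 4
    + (-228114000) * A ^ 4 * B ^ 2 * x ^ 2 * y ^ 3 + 513256500 * A ^ 4 * B ^ 2 * x ^ 3 * y ^ 2
    + (-484742250) * A ^ 4 * B ^ 2 * x ^ 4 * y + 155117520 * A ^ 4 * B ^ 2 * x ^ 5
    + (-155117520) * A ^ 2 * B ^ 4 * y ^ 5 + 484742250 * A ^ 2 * B ^ 4 * x * y ^ 4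
    + (-513256500) * A ^ 2 * B ^ 4 * x ^ 2 * y ^ 3 + 228114000 * A ^ 2 * B ^ 4 * x ^ 3 * y ^ 2
    + (-42021000) * A ^ 2 * B ^ 4 * x ^ 4 * y + 2521260 * A ^ 2 * B ^ 4 * x ^ 5
    + 27733860 * A * B ^ 5 * y ^ 5 + (-33016500) * A * B ^ 5 * x * y ^ 4
    + 12006000 * A * B ^ 5 * x ^ 2 * y ^ 3 + (-1566000) * A * B ^ 5 * x ^ 3 * y ^ 2
    + 65250 * A * B ^ 5 * x ^ 4 * y + (-522) * A * B ^ 5 * x ^ 5 + 142506 * B ^ 6 * y ^ 5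

/-- the coefficient of `t ^ 6` of `F6 (A (1 + t x)⁵) (B (1 - t y)⁵)` -/
def s52bL6c6 (A B x y : R) : R :=
  (-593775) * A ^ 6 * x ^ 6 + (-13050) * A ^ 5 * B * x * y ^ 5
    + 783000 * A ^ 5 * B * x ^ 2 * y ^ 4 + (-12006000) * A ^ 5 * B * x ^ 3 * y ^ 3
    + 66033000 * A ^ 5 * B * x ^ 4 * y ^ 2 + (-138669300) * A ^ 5 * B * x ^ 5 * y
    + 92446200 * A ^ 5 * B * x ^ 6 + 2101050 * A ^ 4 * B ^ 2 * y ^ 6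
    + (-50425200) * A ^ 4 * B ^ 2 * x * y ^ 5 + 399199500 * A ^ 4 * B ^ 2 * x ^ 2 * y ^ 4
    + (-1368684000) * A ^ 4 * B ^ 2 * x ^ 3 * y ^ 3 + 2181340125 * A ^ 4 * B ^ 2 * x ^ 4 * y ^ 2
    + (-1551175200) * A ^ 4 * B ^ 2 * x ^ 5 * y + 387793800 * A ^ 4 * B ^ 2 * x ^ 6
    + 387793800 * A ^ 2 * B ^ 4 * y ^ 6 + (-1551175200) * A ^ 2 * B ^ 4 * x * y ^ 5
    + 2181340125 * A ^ 2 * B ^ 4 * x ^ 2 * y ^ 4 + (-1368684000) * A ^ 2 * B ^ 4 * x ^ 3 * y ^ 3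
    + 399199500 * A ^ 2 * B ^ 4 * x ^ 4 * y ^ 2 + (-50425200) * A ^ 2 * B ^ 4 * x ^ 5 * y
    + 2101050 * A ^ 2 * B ^ 4 * x ^ 6 + (-92446200) * A * B ^ 5 * y ^ 6
    + 138669300 * A * B ^ 5 * x * y ^ 5 + (-66033000) * A * B ^ 5 * x ^ 2 * y ^ 4
    + 12006000 * A * B ^ 5 * x ^ 3 * y ^ 3 + (-783000) * A * B ^ 5 * x ^ 4 * y ^ 2
    + 13050 * A * B ^ 5 * x ^ 5 * y + (-593775) * B ^ 6 * y ^ 6

/-- the coefficient of `t ^ 7` of `F6 (A (1 + t x)⁵) (B (1 - t y)⁵)` -/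
def s52bL6c7 (A B x y : R) : R :=
  (-2035800) * A ^ 6 * x ^ 7 + (-156600) * A ^ 5 * B * x ^ 2 * y ^ 5
    + 6003000 * A ^ 5 * B * x ^ 3 * y ^ 4 + (-66033000) * A ^ 5 * B * x ^ 4 * y ^ 3
    + 277338600 * A ^ 5 * B * x ^ 5 * y ^ 2 + (-462231000) * A ^ 5 * B * x ^ 6 * y
    + 250925400 * A ^ 5 * B * x ^ 7 + (-1200600) * A ^ 4 * B ^ 2 * y ^ 7
    + 42021000 * A ^ 4 * B ^ 2 * x * y ^ 6 + (-479039400) * A ^ 4 * B ^ 2 * x ^ 2 * y ^ 5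
    + 2395197000 * A ^ 4 * B ^ 2 * x ^ 3 * y ^ 4 + (-5816907000) * A ^ 4 * B ^ 2 * x ^ 4 * y ^ 3
    + 6980288400 * A ^ 4 * B ^ 2 * x ^ 5 * y ^ 2 + (-3877938000) * A ^ 4 * B ^ 2 * x ^ 6 * y
    + 775587600 * A ^ 4 * B ^ 2 * x ^ 7 + (-775587600) * A ^ 2 * B ^ 4 * y ^ 7
    + 3877938000 * A ^ 2 * B ^ 4 * x * y ^ 6 + (-6980288400) * A ^ 2 * B ^ 4 * x ^ 2 * y ^ 5
    + 5816907000 * A ^ 2 * B ^ 4 * x ^ 3 * y ^ 4 + (-2395197000) * A ^ 2 * B ^ 4 * x ^ 4 * y ^ 3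
    + 479039400 * A ^ 2 * B ^ 4 * x ^ 5 * y ^ 2 + (-42021000) * A ^ 2 * B ^ 4 * x ^ 6 * y
    + 1200600 * A ^ 2 * B ^ 4 * x ^ 7 + 250925400 * A * B ^ 5 * y ^ 7
    + (-462231000) * A * B ^ 5 * x * y ^ 6 + 277338600 * A * B ^ 5 * x ^ 2 * y ^ 5
    + (-66033000) * A * B ^ 5 * x ^ 3 * y ^ 4 + 6003000 * A * B ^ 5 * x ^ 4 * y ^ 3
    + (-156600) * A * B ^ 5 * x ^ 5 * y ^ 2 + 2035800 * B ^ 6 * y ^ 7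

/-- the coefficient of `t ^ 8` of `F6 (A (1 + t x)⁵) (B (1 - t y)⁵)` -/
def s52bL6c8 (A B x y : R) : R :=
  (-5852925) * A ^ 6 * x ^ 8 + (-1200600) * A ^ 5 * B * x ^ 3 * y ^ 5
    + 33016500 * A ^ 5 * B * x ^ 4 * y ^ 4 + (-277338600) * A ^ 5 * B * x ^ 5 * y ^ 3
    + 924462000 * A ^ 5 * B * x ^ 6 * y ^ 2 + (-1254627000) * A ^ 5 * B * x ^ 7 * y
    + 564582150 * A ^ 5 * B * x ^ 8 + 450225 * A ^ 4 * B ^ 2 * y ^ 8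
    + (-24012000) * A ^ 4 * B ^ 2 * x * y ^ 7 + 399199500 * A ^ 4 * B ^ 2 * x ^ 2 * y ^ 6
    + (-2874236400) * A ^ 4 * B ^ 2 * x ^ 3 * y ^ 5 + 10179587250 * A ^ 4 * B ^ 2 * x ^ 4 * y ^ 4
    + (-18614102400) * A ^ 4 * B ^ 2 * x ^ 5 * y ^ 3 + 17450721000 * A ^ 4 * B ^ 2 * x ^ 6 * y ^ 2
    + (-7755876000) * A ^ 4 * B ^ 2 * x ^ 7 * y + 1260329850 * A ^ 4 * B ^ 2 * x ^ 8
    + 1260329850 * A ^ 2 * B ^ 4 * y ^ 8 + (-7755876000) * A ^ 2 * B ^ 4 * x * y ^ 7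
    + 17450721000 * A ^ 2 * B ^ 4 * x ^ 2 * y ^ 6 + (-18614102400) * A ^ 2 * B ^ 4 * x ^ 3 * y ^ 5
    + 10179587250 * A ^ 2 * B ^ 4 * x ^ 4 * y ^ 4 + (-2874236400) * A ^ 2 * B ^ 4 * x ^ 5 * y ^ 3
    + 399199500 * A ^ 2 * B ^ 4 * x ^ 6 * y ^ 2 + (-24012000) * A ^ 2 * B ^ 4 * x ^ 7 * y
    + 450225 * A ^ 2 * B ^ 4 * x ^ 8 + (-564582150) * A * B ^ 5 * y ^ 8
    + 1254627000 * A * B ^ 5 * x * y ^ 7 + (-924462000) * A * B ^ 5 * x ^ 2 * y ^ 6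
    + 277338600 * A * B ^ 5 * x ^ 3 * y ^ 5 + (-33016500) * A * B ^ 5 * x ^ 4 * y ^ 4
    + 1200600 * A * B ^ 5 * x ^ 5 * y ^ 3 + (-5852925) * B ^ 6 * y ^ 8

/-- the coefficient of `t ^ 9` of `F6 (A (1 + t x)⁵) (B (1 - t y)⁵)` -/
def s52bL6c9 (A B x y : R) : R :=
  (-14307150) * A ^ 6 * x ^ 9 + (-6603300) * A ^ 5 * B * x ^ 4 * y ^ 5
    + 138669300 * A ^ 5 * B * x ^ 5 * y ^ 4 + (-924462000) * A ^ 5 * B * x ^ 6 * y ^ 3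
    + 2509254000 * A ^ 5 * B * x ^ 7 * y ^ 2 + (-2822910750) * A ^ 5 * B * x ^ 8 * y
    + 1066432950 * A ^ 5 * B * x ^ 9 + (-100050) * A ^ 4 * B ^ 2 * y ^ 9
    + 9004500 * A ^ 4 * B ^ 2 * x * y ^ 8 + (-228114000) * A ^ 4 * B ^ 2 * x ^ 2 * y ^ 7
    + 2395197000 * A ^ 4 * B ^ 2 * x ^ 3 * y ^ 6 + (-12215504700) * A ^ 4 * B ^ 2 * x ^ 4 * y ^ 5
    + 32574679200 * A ^ 4 * B ^ 2 * x ^ 5 * y ^ 4 + (-46535256000) * A ^ 4 * B ^ 2 * x ^ 6 * y ^ 3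
    + 34901442000 * A ^ 4 * B ^ 2 * x ^ 7 * y ^ 2 + (-12603298500) * A ^ 4 * B ^ 2 * x ^ 8 * y
    + 1680439800 * A ^ 4 * B ^ 2 * x ^ 9 + (-1680439800) * A ^ 2 * B ^ 4 * y ^ 9
    + 12603298500 * A ^ 2 * B ^ 4 * x * y ^ 8 + (-34901442000) * A ^ 2 * B ^ 4 * x ^ 2 * y ^ 7
    + 46535256000 * A ^ 2 * B ^ 4 * x ^ 3 * y ^ 6 + (-32574679200) * A ^ 2 * B ^ 4 * x ^ 4 * y ^ 5
    + 12215504700 * A ^ 2 * B ^ 4 * x ^ 5 * y ^ 4 + (-2395197000) * A ^ 2 * B ^ 4 * x ^ 6 * y ^ 3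
    + 228114000 * A ^ 2 * B ^ 4 * x ^ 7 * y ^ 2 + (-9004500) * A ^ 2 * B ^ 4 * x ^ 8 * y
    + 100050 * A ^ 2 * B ^ 4 * x ^ 9 + 1066432950 * A * B ^ 5 * y ^ 9
    + (-2822910750) * A * B ^ 5 * x * y ^ 8 + 2509254000 * A * B ^ 5 * x ^ 2 * y ^ 7
    + (-924462000) * A * B ^ 5 * x ^ 3 * y ^ 6 + 138669300 * A * B ^ 5 * x ^ 4 * y ^ 5
    + (-6603300) * A * B ^ 5 * x ^ 5 * y ^ 4 + 14307150 * B ^ 6 * y ^ 9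

/-- the coefficient of `t ^ 10` of `F6 (A (1 + t x)⁵) (B (1 - t y)⁵)` -/
def s52bL6c10 (A B x y : R) : R :=
  (-30045015) * A ^ 6 * x ^ 10 + (-27733860) * A ^ 5 * B * x ^ 5 * y ^ 5
    + 462231000 * A ^ 5 * B * x ^ 6 * y ^ 4 + (-2509254000) * A ^ 5 * B * x ^ 7 * y ^ 3
    + 5645821500 * A ^ 5 * B * x ^ 8 * y ^ 2 + (-5332164750) * A ^ 5 * B * x ^ 9 * y
    + 1706292720 * A ^ 5 * B * x ^ 10 + 10005 * A ^ 4 * B ^ 2 * y ^ 10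
    + (-2001000) * A ^ 4 * B ^ 2 * x * y ^ 9 + 85542750 * A ^ 4 * B ^ 2 * x ^ 2 * y ^ 8
    + (-1368684000) * A ^ 4 * B ^ 2 * x ^ 3 * y ^ 7 + 10179587250 * A ^ 4 * B ^ 2 * x ^ 4 * y ^ 6
    + (-39089615040) * A ^ 4 * B ^ 2 * x ^ 5 * y ^ 5 + 81436698000 * A ^ 4 * B ^ 2 * x ^ 6 * y ^ 4
    + (-93070512000) * A ^ 4 * B ^ 2 * x ^ 7 * y ^ 3 + 56714843250 * A ^ 4 * B ^ 2 * x ^ 8 * y ^ 2
    + (-16804398000) * A ^ 4 * B ^ 2 * x ^ 9 * y + 1848483780 * A ^ 4 * B ^ 2 * x ^ 10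
    + 1848483780 * A ^ 2 * B ^ 4 * y ^ 10 + (-16804398000) * A ^ 2 * B ^ 4 * x * y ^ 9
    + 56714843250 * A ^ 2 * B ^ 4 * x ^ 2 * y ^ 8 + (-93070512000) * A ^ 2 * B ^ 4 * x ^ 3 * y ^ 7
    + 81436698000 * A ^ 2 * B ^ 4 * x ^ 4 * y ^ 6 + (-39089615040) * A ^ 2 * B ^ 4 * x ^ 5 * y ^ 5
    + 10179587250 * A ^ 2 * B ^ 4 * x ^ 6 * y ^ 4 + (-1368684000) * A ^ 2 * B ^ 4 * x ^ 7 * y ^ 3
    + 85542750 * A ^ 2 * B ^ 4 * x ^ 8 * y ^ 2 + (-2001000) * A ^ 2 * B ^ 4 * x ^ 9 * y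
    + 10005 * A ^ 2 * B ^ 4 * x ^ 10 + (-1706292720) * A * B ^ 5 * y ^ 10
    + 5332164750 * A * B ^ 5 * x * y ^ 9 + (-5645821500) * A * B ^ 5 * x ^ 2 * y ^ 8
    + 2509254000 * A * B ^ 5 * x ^ 3 * y ^ 7 + (-462231000) * A * B ^ 5 * x ^ 4 * y ^ 6
    + 27733860 * A * B ^ 5 * x ^ 5 * y ^ 5 + (-30045015) * B ^ 6 * y ^ 10

/-- the coefficient of `t ^ 11` of `F6 (A (1 + t x)⁵) (B (1 - t y)⁵)` -/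
def s52bL6c11 (A B x y : R) : R :=
  (-54627300) * A ^ 6 * x ^ 11 + (-92446200) * A ^ 5 * B * x ^ 6 * y ^ 5
    + 1254627000 * A ^ 5 * B * x ^ 7 * y ^ 4 + (-5645821500) * A ^ 5 * B * x ^ 8 * y ^ 3
    + 10664329500 * A ^ 5 * B * x ^ 9 * y ^ 2 + (-8531463600) * A ^ 5 * B * x ^ 10 * y
    + 2326762800 * A ^ 5 * B * x ^ 11 + 200100 * A ^ 4 * B ^ 2 * x * y ^ 10
    + (-19009500) * A ^ 4 * B ^ 2 * x ^ 2 * y ^ 9 + 513256500 * A ^ 4 * B ^ 2 * x ^ 3 * y ^ 8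
    + (-5816907000) * A ^ 4 * B ^ 2 * x ^ 4 * y ^ 7 + 32574679200 * A ^ 4 * B ^ 2 * x ^ 5 * y ^ 6
    + (-97724037600) * A ^ 4 * B ^ 2 * x ^ 6 * y ^ 5 + 162873396000 * A ^ 4 * B ^ 2 * x ^ 7 * y ^ 4
    + (-151239582000) * A ^ 4 * B ^ 2 * x ^ 8 * y ^ 3 + 75619791000 * A ^ 4 * B ^ 2 * x ^ 9 * y ^ 2
    + (-18484837800) * A ^ 4 * B ^ 2 * x ^ 10 * y + 1680439800 * A ^ 4 * B ^ 2 * x ^ 11
    + (-1680439800) * A ^ 2 * B ^ 4 * y ^ 11 + 18484837800 * A ^ 2 * B ^ 4 * x * y ^ 10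
    + (-75619791000) * A ^ 2 * B ^ 4 * x ^ 2 * y ^ 9 + 151239582000 * A ^ 2 * B ^ 4 * x ^ 3 * y ^ 8
    + (-162873396000) * A ^ 2 * B ^ 4 * x ^ 4 * y ^ 7 + 97724037600 * A ^ 2 * B ^ 4 * x ^ 5 * y ^ 6
    + (-32574679200) * A ^ 2 * B ^ 4 * x ^ 6 * y ^ 5 + 5816907000 * A ^ 2 * B ^ 4 * x ^ 7 * y ^ 4
    + (-513256500) * A ^ 2 * B ^ 4 * x ^ 8 * y ^ 3 + 19009500 * A ^ 2 * B ^ 4 * x ^ 9 * y ^ 2
    + (-200100) * A ^ 2 * B ^ 4 * x ^ 10 * y + 2326762800 * A * B ^ 5 * y ^ 11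
    + (-8531463600) * A * B ^ 5 * x * y ^ 10 + 10664329500 * A * B ^ 5 * x ^ 2 * y ^ 9
    + (-5645821500) * A * B ^ 5 * x ^ 3 * y ^ 8 + 1254627000 * A * B ^ 5 * x ^ 4 * y ^ 7
    + (-92446200) * A * B ^ 5 * x ^ 5 * y ^ 6 + 54627300 * B ^ 6 * y ^ 11

/-- the coefficient of `t ^ 12` of `F6 (A (1 + t x)⁵) (B (1 - t y)⁵)` -/
def s52bL6c12 (A B x y : R) : R :=
  (-86493225) * A ^ 6 * x ^ 12 + (-250925400) * A ^ 5 * B * x ^ 7 * y ^ 5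
    + 2822910750 * A ^ 5 * B * x ^ 8 * y ^ 4 + (-10664329500) * A ^ 5 * B * x ^ 9 * y ^ 3
    + 17062927200 * A ^ 5 * B * x ^ 10 * y ^ 2 + (-11633814000) * A ^ 5 * B * x ^ 11 * y
    + 2714556600 * A ^ 5 * B * x ^ 12 + 1900950 * A ^ 4 * B ^ 2 * x ^ 2 * y ^ 10
    + (-114057000) * A ^ 4 * B ^ 2 * x ^ 3 * y ^ 9 + 2181340125 * A ^ 4 * B ^ 2 * x ^ 4 * y ^ 8
    + (-18614102400) * A ^ 4 * B ^ 2 * x ^ 5 * y ^ 7 + 81436698000 * A ^ 4 * B ^ 2 * x ^ 6 * y ^ 6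
    + (-195448075200) * A ^ 4 * B ^ 2 * x ^ 7 * y ^ 5 + 264669268500 * A ^ 4 * B ^ 2 * x ^ 8 * y ^ 4
    + (-201652776000) * A ^ 4 * B ^ 2 * x ^ 9 * y ^ 3 + 83181770100 * A ^ 4 * B ^ 2 * x ^ 10 * y ^ 2
    + (-16804398000) * A ^ 4 * B ^ 2 * x ^ 11 * y + 1260329850 * A ^ 4 * B ^ 2 * x ^ 12
    + 1260329850 * A ^ 2 * B ^ 4 * y ^ 12 + (-16804398000) * A ^ 2 * B ^ 4 * x * y ^ 11
    + 83181770100 * A ^ 2 * B ^ 4 * x ^ 2 * y ^ 10 + (-201652776000) * A ^ 2 * B ^ 4 * x ^ 3 * y ^ 9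
    + 264669268500 * A ^ 2 * B ^ 4 * x ^ 4 * y ^ 8 + (-195448075200) * A ^ 2 * B ^ 4 * x ^ 5 * y ^ 7
    + 81436698000 * A ^ 2 * B ^ 4 * x ^ 6 * y ^ 6 + (-18614102400) * A ^ 2 * B ^ 4 * x ^ 7 * y ^ 5
    + 2181340125 * A ^ 2 * B ^ 4 * x ^ 8 * y ^ 4 + (-114057000) * A ^ 2 * B ^ 4 * x ^ 9 * y ^ 3
    + 1900950 * A ^ 2 * B ^ 4 * x ^ 10 * y ^ 2 + (-2714556600) * A * B ^ 5 * y ^ 12
    + 11633814000 * A * B ^ 5 * x * y ^ 11 + (-17062927200) * A * B ^ 5 * x ^ 2 * y ^ 10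
    + 10664329500 * A * B ^ 5 * x ^ 3 * y ^ 9 + (-2822910750) * A * B ^ 5 * x ^ 4 * y ^ 8
    + 250925400 * A * B ^ 5 * x ^ 5 * y ^ 7 + (-86493225) * B ^ 6 * y ^ 12

/-- the coefficient of `t ^ 13` of `F6 (A (1 + t x)⁵) (B (1 - t y)⁵)` -/
def s52bL6c13 (A B x y : R) : R :=
  (-119759850) * A ^ 6 * x ^ 13 + (-564582150) * A ^ 5 * B * x ^ 8 * y ^ 5
    + 5332164750 * A ^ 5 * B * x ^ 9 * y ^ 4 + (-17062927200) * A ^ 5 * B * x ^ 10 * y ^ 3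
    + 23267628000 * A ^ 5 * B * x ^ 11 * y ^ 2 + (-13572783000) * A ^ 5 * B * x ^ 12 * y
    + 2714556600 * A ^ 5 * B * x ^ 13 + 11405700 * A ^ 4 * B ^ 2 * x ^ 3 * y ^ 10
    + (-484742250) * A ^ 4 * B ^ 2 * x ^ 4 * y ^ 9 + 6980288400 * A ^ 4 * B ^ 2 * x ^ 5 * y ^ 8
    + (-46535256000) * A ^ 4 * B ^ 2 * x ^ 6 * y ^ 7 + 162873396000 * A ^ 4 * B ^ 2 * x ^ 7 * y ^ 6
    + (-317603122200) * A ^ 4 * B ^ 2 * x ^ 8 * y ^ 5 + 352892358000 * A ^ 4 * B ^ 2 * x ^ 9 * y ^ 4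
    + (-221818053600) * A ^ 4 * B ^ 2 * x ^ 10 * y ^ 3 + 75619791000 * A ^ 4 * B ^ 2 * x ^ 11 * y ^ 2
    + (-12603298500) * A ^ 4 * B ^ 2 * x ^ 12 * y + 775587600 * A ^ 4 * B ^ 2 * x ^ 13
    + (-775587600) * A ^ 2 * B ^ 4 * y ^ 13 + 12603298500 * A ^ 2 * B ^ 4 * x * y ^ 12
    + (-75619791000) * A ^ 2 * B ^ 4 * x ^ 2 * y ^ 11 + 221818053600 * A ^ 2 * B ^ 4 * x ^ 3 * y ^ 10
    + (-352892358000) * A ^ 2 * B ^ 4 * x ^ 4 * y ^ 9 + 317603122200 * A ^ 2 * B ^ 4 * x ^ 5 * y ^ 8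
    + (-162873396000) * A ^ 2 * B ^ 4 * x ^ 6 * y ^ 7 + 46535256000 * A ^ 2 * B ^ 4 * x ^ 7 * y ^ 6
    + (-6980288400) * A ^ 2 * B ^ 4 * x ^ 8 * y ^ 5 + 484742250 * A ^ 2 * B ^ 4 * x ^ 9 * y ^ 4
    + (-11405700) * A ^ 2 * B ^ 4 * x ^ 10 * y ^ 3 + 2714556600 * A * B ^ 5 * y ^ 13
    + (-13572783000) * A * B ^ 5 * x * y ^ 12 + 23267628000 * A * B ^ 5 * x ^ 2 * y ^ 11
    + (-17062927200) * A * B ^ 5 * x ^ 3 * y ^ 10 + 5332164750 * A * B ^ 5 * x ^ 4 * y ^ 9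
    + (-564582150) * A * B ^ 5 * x ^ 5 * y ^ 8 + 119759850 * B ^ 6 * y ^ 13

/-- the coefficient of `t ^ 14` of `F6 (A (1 + t x)⁵) (B (1 - t y)⁵)` -/
def s52bL6c14 (A B x y : R) : R :=
  (-145422675) * A ^ 6 * x ^ 14 + (-1066432950) * A ^ 5 * B * x ^ 9 * y ^ 5
    + 8531463600 * A ^ 5 * B * x ^ 10 * y ^ 4 + (-23267628000) * A ^ 5 * B * x ^ 11 * y ^ 3
    + 27145566000 * A ^ 5 * B * x ^ 12 * y ^ 2 + (-13572783000) * A ^ 5 * B * x ^ 13 * y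
    + 2326762800 * A ^ 5 * B * x ^ 14 + 48474225 * A ^ 4 * B ^ 2 * x ^ 4 * y ^ 10
    + (-1551175200) * A ^ 4 * B ^ 2 * x ^ 5 * y ^ 9 + 17450721000 * A ^ 4 * B ^ 2 * x ^ 6 * y ^ 8
    + (-93070512000) * A ^ 4 * B ^ 2 * x ^ 7 * y ^ 7 + 264669268500 * A ^ 4 * B ^ 2 * x ^ 8 * y ^ 6
    + (-423470829600) * A ^ 4 * B ^ 2 * x ^ 9 * y ^ 5 + 388181593800 * A ^ 4 * B ^ 2 * x ^ 10 * y ^ 4
    + (-201652776000) * A ^ 4 * B ^ 2 * x ^ 11 * y ^ 3 + 56714843250 * A ^ 4 * B ^ 2 * x ^ 12 * y ^ 2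
    + (-7755876000) * A ^ 4 * B ^ 2 * x ^ 13 * y + 387793800 * A ^ 4 * B ^ 2 * x ^ 14
    + 387793800 * A ^ 2 * B ^ 4 * y ^ 14 + (-7755876000) * A ^ 2 * B ^ 4 * x * y ^ 13
    + 56714843250 * A ^ 2 * B ^ 4 * x ^ 2 * y ^ 12 + (-201652776000) * A ^ 2 * B ^ 4 * x ^ 3 * y ^ 11
    + 388181593800 * A ^ 2 * B ^ 4 * x ^ 4 * y ^ 10 + (-423470829600) * A ^ 2 * B ^ 4 * x ^ 5 * y ^ 9
    + 264669268500 * A ^ 2 * B ^ 4 * x ^ 6 * y ^ 8 + (-93070512000) * A ^ 2 * B ^ 4 * x ^ 7 * y ^ 7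
    + 17450721000 * A ^ 2 * B ^ 4 * x ^ 8 * y ^ 6 + (-1551175200) * A ^ 2 * B ^ 4 * x ^ 9 * y ^ 5
    + 48474225 * A ^ 2 * B ^ 4 * x ^ 10 * y ^ 4 + (-2326762800) * A * B ^ 5 * y ^ 14
    + 13572783000 * A * B ^ 5 * x * y ^ 13 + (-27145566000) * A * B ^ 5 * x ^ 2 * y ^ 12
    + 23267628000 * A * B ^ 5 * x ^ 3 * y ^ 11 + (-8531463600) * A * B ^ 5 * x ^ 4 * y ^ 10
    + 1066432950 * A * B ^ 5 * x ^ 5 * y ^ 9 + (-145422675) * B ^ 6 * y ^ 14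

/-- the coefficient of `t ^ 15` of `F6 (A (1 + t x)⁵) (B (1 - t y)⁵)` -/
def s52bL6c15 (A B x y : R) : R :=
  (-155117520) * A ^ 6 * x ^ 15 + (-1706292720) * A ^ 5 * B * x ^ 10 * y ^ 5
    + 11633814000 * A ^ 5 * B * x ^ 11 * y ^ 4 + (-27145566000) * A ^ 5 * B * x ^ 12 * y ^ 3
    + 27145566000 * A ^ 5 * B * x ^ 13 * y ^ 2 + (-11633814000) * A ^ 5 * B * x ^ 14 * y
    + 1706292720 * A ^ 5 * B * x ^ 15 + 155117520 * A ^ 4 * B ^ 2 * x ^ 5 * y ^ 10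
    + (-3877938000) * A ^ 4 * B ^ 2 * x ^ 6 * y ^ 9 + 34901442000 * A ^ 4 * B ^ 2 * x ^ 7 * y ^ 8
    + (-151239582000) * A ^ 4 * B ^ 2 * x ^ 8 * y ^ 7 + 352892358000 * A ^ 4 * B ^ 2 * x ^ 9 * y ^ 6
    + (-465817912560) * A ^ 4 * B ^ 2 * x ^ 10 * y ^ 5 + 352892358000 * A ^ 4 * B ^ 2 * x ^ 11 * y ^ 4
    + (-151239582000) * A ^ 4 * B ^ 2 * x ^ 12 * y ^ 3 + 34901442000 * A ^ 4 * B ^ 2 * x ^ 13 * y ^ 2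
    + (-3877938000) * A ^ 4 * B ^ 2 * x ^ 14 * y + 155117520 * A ^ 4 * B ^ 2 * x ^ 15
    + (-155117520) * A ^ 2 * B ^ 4 * y ^ 15 + 3877938000 * A ^ 2 * B ^ 4 * x * y ^ 14
    + (-34901442000) * A ^ 2 * B ^ 4 * x ^ 2 * y ^ 13 + 151239582000 * A ^ 2 * B ^ 4 * x ^ 3 * y ^ 12
    + (-352892358000) * A ^ 2 * B ^ 4 * x ^ 4 * y ^ 11 + 465817912560 * A ^ 2 * B ^ 4 * x ^ 5 * y ^ 10
    + (-352892358000) * A ^ 2 * B ^ 4 * x ^ 6 * y ^ 9 + 151239582000 * A ^ 2 * B ^ 4 * x ^ 7 * y ^ 8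
    + (-34901442000) * A ^ 2 * B ^ 4 * x ^ 8 * y ^ 7 + 3877938000 * A ^ 2 * B ^ 4 * x ^ 9 * y ^ 6
    + (-155117520) * A ^ 2 * B ^ 4 * x ^ 10 * y ^ 5 + 1706292720 * A * B ^ 5 * y ^ 15
    + (-11633814000) * A * B ^ 5 * x * y ^ 14 + 27145566000 * A * B ^ 5 * x ^ 2 * y ^ 13
    + (-27145566000) * A * B ^ 5 * x ^ 3 * y ^ 12 + 11633814000 * A * B ^ 5 * x ^ 4 * y ^ 11
    + (-1706292720) * A * B ^ 5 * x ^ 5 * y ^ 10 + 155117520 * B ^ 6 * y ^ 15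

/-- the coefficient of `t ^ 16` of `F6 (A (1 + t x)⁵) (B (1 - t y)⁵)` -/
def s52bL6c16 (A B x y : R) : R :=
  (-145422675) * A ^ 6 * x ^ 16 + (-2326762800) * A ^ 5 * B * x ^ 11 * y ^ 5
    + 13572783000 * A ^ 5 * B * x ^ 12 * y ^ 4 + (-27145566000) * A ^ 5 * B * x ^ 13 * y ^ 3
    + 23267628000 * A ^ 5 * B * x ^ 14 * y ^ 2 + (-8531463600) * A ^ 5 * B * x ^ 15 * y
    + 1066432950 * A ^ 5 * B * x ^ 16 + 387793800 * A ^ 4 * B ^ 2 * x ^ 6 * y ^ 10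
    + (-7755876000) * A ^ 4 * B ^ 2 * x ^ 7 * y ^ 9 + 56714843250 * A ^ 4 * B ^ 2 * x ^ 8 * y ^ 8
    + (-201652776000) * A ^ 4 * B ^ 2 * x ^ 9 * y ^ 7 + 388181593800 * A ^ 4 * B ^ 2 * x ^ 10 * y ^ 6
    + (-423470829600) * A ^ 4 * B ^ 2 * x ^ 11 * y ^ 5 + 264669268500 * A ^ 4 * B ^ 2 * x ^ 12 * y ^ 4
    + (-93070512000) * A ^ 4 * B ^ 2 * x ^ 13 * y ^ 3 + 17450721000 * A ^ 4 * B ^ 2 * x ^ 14 * y ^ 2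
    + (-1551175200) * A ^ 4 * B ^ 2 * x ^ 15 * y + 48474225 * A ^ 4 * B ^ 2 * x ^ 16
    + 48474225 * A ^ 2 * B ^ 4 * y ^ 16 + (-1551175200) * A ^ 2 * B ^ 4 * x * y ^ 15
    + 17450721000 * A ^ 2 * B ^ 4 * x ^ 2 * y ^ 14 + (-93070512000) * A ^ 2 * B ^ 4 * x ^ 3 * y ^ 13
    + 264669268500 * A ^ 2 * B ^ 4 * x ^ 4 * y ^ 12 + (-423470829600) * A ^ 2 * B ^ 4 * x ^ 5 * y ^ 11
    + 388181593800 * A ^ 2 * B ^ 4 * x ^ 6 * y ^ 10 + (-201652776000) * A ^ 2 * B ^ 4 * x ^ 7 * y ^ 9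
    + 56714843250 * A ^ 2 * B ^ 4 * x ^ 8 * y ^ 8 + (-7755876000) * A ^ 2 * B ^ 4 * x ^ 9 * y ^ 7
    + 387793800 * A ^ 2 * B ^ 4 * x ^ 10 * y ^ 6 + (-1066432950) * A * B ^ 5 * y ^ 16
    + 8531463600 * A * B ^ 5 * x * y ^ 15 + (-23267628000) * A * B ^ 5 * x ^ 2 * y ^ 14
    + 27145566000 * A * B ^ 5 * x ^ 3 * y ^ 13 + (-13572783000) * A * B ^ 5 * x ^ 4 * y ^ 12
    + 2326762800 * A * B ^ 5 * x ^ 5 * y ^ 11 + (-145422675) * B ^ 6 * y ^ 16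

/-- the coefficient of `t ^ 17` of `F6 (A (1 + t x)⁵) (B (1 - t y)⁵)` -/
def s52bL6c17 (A B x y : R) : R :=
  (-119759850) * A ^ 6 * x ^ 17 + (-2714556600) * A ^ 5 * B * x ^ 12 * y ^ 5
    + 13572783000 * A ^ 5 * B * x ^ 13 * y ^ 4 + (-23267628000) * A ^ 5 * B * x ^ 14 * y ^ 3
    + 17062927200 * A ^ 5 * B * x ^ 15 * y ^ 2 + (-5332164750) * A ^ 5 * B * x ^ 16 * y
    + 564582150 * A ^ 5 * B * x ^ 17 + 775587600 * A ^ 4 * B ^ 2 * x ^ 7 * y ^ 10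
    + (-12603298500) * A ^ 4 * B ^ 2 * x ^ 8 * y ^ 9 + 75619791000 * A ^ 4 * B ^ 2 * x ^ 9 * y ^ 8
    + (-221818053600) * A ^ 4 * B ^ 2 * x ^ 10 * y ^ 7 + 352892358000 * A ^ 4 * B ^ 2 * x ^ 11 * y ^ 6
    + (-317603122200) * A ^ 4 * B ^ 2 * x ^ 12 * y ^ 5 + 162873396000 * A ^ 4 * B ^ 2 * x ^ 13 * y ^ 4
    + (-46535256000) * A ^ 4 * B ^ 2 * x ^ 14 * y ^ 3 + 6980288400 * A ^ 4 * B ^ 2 * x ^ 15 * y ^ 2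
    + (-484742250) * A ^ 4 * B ^ 2 * x ^ 16 * y + 11405700 * A ^ 4 * B ^ 2 * x ^ 17
    + (-11405700) * A ^ 2 * B ^ 4 * y ^ 17 + 484742250 * A ^ 2 * B ^ 4 * x * y ^ 16
    + (-6980288400) * A ^ 2 * B ^ 4 * x ^ 2 * y ^ 15 + 46535256000 * A ^ 2 * B ^ 4 * x ^ 3 * y ^ 14
    + (-162873396000) * A ^ 2 * B ^ 4 * x ^ 4 * y ^ 13 + 317603122200 * A ^ 2 * B ^ 4 * x ^ 5 * y ^ 12
    + (-352892358000) * A ^ 2 * B ^ 4 * x ^ 6 * y ^ 11 + 221818053600 * A ^ 2 * B ^ 4 * x ^ 7 * y ^ 10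
    + (-75619791000) * A ^ 2 * B ^ 4 * x ^ 8 * y ^ 9 + 12603298500 * A ^ 2 * B ^ 4 * x ^ 9 * y ^ 8
    + (-775587600) * A ^ 2 * B ^ 4 * x ^ 10 * y ^ 7 + 564582150 * A * B ^ 5 * y ^ 17
    + (-5332164750) * A * B ^ 5 * x * y ^ 16 + 17062927200 * A * B ^ 5 * x ^ 2 * y ^ 15
    + (-23267628000) * A * B ^ 5 * x ^ 3 * y ^ 14 + 13572783000 * A * B ^ 5 * x ^ 4 * y ^ 13
    + (-2714556600) * A * B ^ 5 * x ^ 5 * y ^ 12 + 119759850 * B ^ 6 * y ^ 17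

/-- the coefficient of `t ^ 18` of `F6 (A (1 + t x)⁵) (B (1 - t y)⁵)` -/
def s52bL6c18 (A B x y : R) : R :=
  (-86493225) * A ^ 6 * x ^ 18 + (-2714556600) * A ^ 5 * B * x ^ 13 * y ^ 5
    + 11633814000 * A ^ 5 * B * x ^ 14 * y ^ 4 + (-17062927200) * A ^ 5 * B * x ^ 15 * y ^ 3
    + 10664329500 * A ^ 5 * B * x ^ 16 * y ^ 2 + (-2822910750) * A ^ 5 * B * x ^ 17 * y
    + 250925400 * A ^ 5 * B * x ^ 18 + 1260329850 * A ^ 4 * B ^ 2 * x ^ 8 * y ^ 10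
    + (-16804398000) * A ^ 4 * B ^ 2 * x ^ 9 * y ^ 9 + 83181770100 * A ^ 4 * B ^ 2 * x ^ 10 * y ^ 8
    + (-201652776000) * A ^ 4 * B ^ 2 * x ^ 11 * y ^ 7 + 264669268500 * A ^ 4 * B ^ 2 * x ^ 12 * y ^ 6
    + (-195448075200) * A ^ 4 * B ^ 2 * x ^ 13 * y ^ 5 + 81436698000 * A ^ 4 * B ^ 2 * x ^ 14 * y ^ 4
    + (-18614102400) * A ^ 4 * B ^ 2 * x ^ 15 * y ^ 3 + 2181340125 * A ^ 4 * B ^ 2 * x ^ 16 * y ^ 2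
    + (-114057000) * A ^ 4 * B ^ 2 * x ^ 17 * y + 1900950 * A ^ 4 * B ^ 2 * x ^ 18
    + 1900950 * A ^ 2 * B ^ 4 * y ^ 18 + (-114057000) * A ^ 2 * B ^ 4 * x * y ^ 17
    + 2181340125 * A ^ 2 * B ^ 4 * x ^ 2 * y ^ 16 + (-18614102400) * A ^ 2 * B ^ 4 * x ^ 3 * y ^ 15
    + 81436698000 * A ^ 2 * B ^ 4 * x ^ 4 * y ^ 14 + (-195448075200) * A ^ 2 * B ^ 4 * x ^ 5 * y ^ 13
    + 264669268500 * A ^ 2 * B ^ 4 * x ^ 6 * y ^ 12 + (-201652776000) * A ^ 2 * B ^ 4 * x ^ 7 * y ^ 11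
    + 83181770100 * A ^ 2 * B ^ 4 * x ^ 8 * y ^ 10 + (-16804398000) * A ^ 2 * B ^ 4 * x ^ 9 * y ^ 9
    + 1260329850 * A ^ 2 * B ^ 4 * x ^ 10 * y ^ 8 + (-250925400) * A * B ^ 5 * y ^ 18
    + 2822910750 * A * B ^ 5 * x * y ^ 17 + (-10664329500) * A * B ^ 5 * x ^ 2 * y ^ 16
    + 17062927200 * A * B ^ 5 * x ^ 3 * y ^ 15 + (-11633814000) * A * B ^ 5 * x ^ 4 * y ^ 14
    + 2714556600 * A * B ^ 5 * x ^ 5 * y ^ 13 + (-86493225) * B ^ 6 * y ^ 18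

/-- the coefficient of `t ^ 19` of `F6 (A (1 + t x)⁵) (B (1 - t y)⁵)` -/
def s52bL6c19 (A B x y : R) : R :=
  (-54627300) * A ^ 6 * x ^ 19 + (-2326762800) * A ^ 5 * B * x ^ 14 * y ^ 5
    + 8531463600 * A ^ 5 * B * x ^ 15 * y ^ 4 + (-10664329500) * A ^ 5 * B * x ^ 16 * y ^ 3
    + 5645821500 * A ^ 5 * B * x ^ 17 * y ^ 2 + (-1254627000) * A ^ 5 * B * x ^ 18 * y
    + 92446200 * A ^ 5 * B * x ^ 19 + 1680439800 * A ^ 4 * B ^ 2 * x ^ 9 * y ^ 10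
    + (-18484837800) * A ^ 4 * B ^ 2 * x ^ 10 * y ^ 9 + 75619791000 * A ^ 4 * B ^ 2 * x ^ 11 * y ^ 8
    + (-151239582000) * A ^ 4 * B ^ 2 * x ^ 12 * y ^ 7 + 162873396000 * A ^ 4 * B ^ 2 * x ^ 13 * y ^ 6
    + (-97724037600) * A ^ 4 * B ^ 2 * x ^ 14 * y ^ 5 + 32574679200 * A ^ 4 * B ^ 2 * x ^ 15 * y ^ 4
    + (-5816907000) * A ^ 4 * B ^ 2 * x ^ 16 * y ^ 3 + 513256500 * A ^ 4 * B ^ 2 * x ^ 17 * y ^ 2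
    + (-19009500) * A ^ 4 * B ^ 2 * x ^ 18 * y + 200100 * A ^ 4 * B ^ 2 * x ^ 19
    + (-200100) * A ^ 2 * B ^ 4 * y ^ 19 + 19009500 * A ^ 2 * B ^ 4 * x * y ^ 18
    + (-513256500) * A ^ 2 * B ^ 4 * x ^ 2 * y ^ 17 + 5816907000 * A ^ 2 * B ^ 4 * x ^ 3 * y ^ 16
    + (-32574679200) * A ^ 2 * B ^ 4 * x ^ 4 * y ^ 15 + 97724037600 * A ^ 2 * B ^ 4 * x ^ 5 * y ^ 14
    + (-162873396000) * A ^ 2 * B ^ 4 * x ^ 6 * y ^ 13 + 151239582000 * A ^ 2 * B ^ 4 * x ^ 7 * y ^ 12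
    + (-75619791000) * A ^ 2 * B ^ 4 * x ^ 8 * y ^ 11 + 18484837800 * A ^ 2 * B ^ 4 * x ^ 9 * y ^ 10
    + (-1680439800) * A ^ 2 * B ^ 4 * x ^ 10 * y ^ 9 + 92446200 * A * B ^ 5 * y ^ 19
    + (-1254627000) * A * B ^ 5 * x * y ^ 18 + 5645821500 * A * B ^ 5 * x ^ 2 * y ^ 17
    + (-10664329500) * A * B ^ 5 * x ^ 3 * y ^ 16 + 8531463600 * A * B ^ 5 * x ^ 4 * y ^ 15
    + (-2326762800) * A * B ^ 5 * x ^ 5 * y ^ 14 + 54627300 * B ^ 6 * y ^ 19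

/-- the coefficient of `t ^ 20` of `F6 (A (1 + t x)⁵) (B (1 - t y)⁵)` -/
def s52bL6c20 (A B x y : R) : R :=
  (-30045015) * A ^ 6 * x ^ 20 + (-1706292720) * A ^ 5 * B * x ^ 15 * y ^ 5
    + 5332164750 * A ^ 5 * B * x ^ 16 * y ^ 4 + (-5645821500) * A ^ 5 * B * x ^ 17 * y ^ 3
    + 2509254000 * A ^ 5 * B * x ^ 18 * y ^ 2 + (-462231000) * A ^ 5 * B * x ^ 19 * y
    + 27733860 * A ^ 5 * B * x ^ 20 + 1848483780 * A ^ 4 * B ^ 2 * x ^ 10 * y ^ 10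
    + (-16804398000) * A ^ 4 * B ^ 2 * x ^ 11 * y ^ 9 + 56714843250 * A ^ 4 * B ^ 2 * x ^ 12 * y ^ 8
    + (-93070512000) * A ^ 4 * B ^ 2 * x ^ 13 * y ^ 7 + 81436698000 * A ^ 4 * B ^ 2 * x ^ 14 * y ^ 6
    + (-39089615040) * A ^ 4 * B ^ 2 * x ^ 15 * y ^ 5 + 10179587250 * A ^ 4 * B ^ 2 * x ^ 16 * y ^ 4
    + (-1368684000) * A ^ 4 * B ^ 2 * x ^ 17 * y ^ 3 + 85542750 * A ^ 4 * B ^ 2 * x ^ 18 * y ^ 2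
    + (-2001000) * A ^ 4 * B ^ 2 * x ^ 19 * y + 10005 * A ^ 4 * B ^ 2 * x ^ 20
    + 10005 * A ^ 2 * B ^ 4 * y ^ 20 + (-2001000) * A ^ 2 * B ^ 4 * x * y ^ 19
    + 85542750 * A ^ 2 * B ^ 4 * x ^ 2 * y ^ 18 + (-1368684000) * A ^ 2 * B ^ 4 * x ^ 3 * y ^ 17
    + 10179587250 * A ^ 2 * B ^ 4 * x ^ 4 * y ^ 16 + (-39089615040) * A ^ 2 * B ^ 4 * x ^ 5 * y ^ 15
    + 81436698000 * A ^ 2 * B ^ 4 * x ^ 6 * y ^ 14 + (-93070512000) * A ^ 2 * B ^ 4 * x ^ 7 * y ^ 13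
    + 56714843250 * A ^ 2 * B ^ 4 * x ^ 8 * y ^ 12 + (-16804398000) * A ^ 2 * B ^ 4 * x ^ 9 * y ^ 11
    + 1848483780 * A ^ 2 * B ^ 4 * x ^ 10 * y ^ 10 + (-27733860) * A * B ^ 5 * y ^ 20
    + 462231000 * A * B ^ 5 * x * y ^ 19 + (-2509254000) * A * B ^ 5 * x ^ 2 * y ^ 18
    + 5645821500 * A * B ^ 5 * x ^ 3 * y ^ 17 + (-5332164750) * A * B ^ 5 * x ^ 4 * y ^ 16
    + 1706292720 * A * B ^ 5 * x ^ 5 * y ^ 15 + (-30045015) * B ^ 6 * y ^ 20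

/-- the coefficient of `t ^ 21` of `F6 (A (1 + t x)⁵) (B (1 - t y)⁵)` -/
def s52bL6c21 (A B x y : R) : R :=
  (-14307150) * A ^ 6 * x ^ 21 + (-1066432950) * A ^ 5 * B * x ^ 16 * y ^ 5
    + 2822910750 * A ^ 5 * B * x ^ 17 * y ^ 4 + (-2509254000) * A ^ 5 * B * x ^ 18 * y ^ 3
    + 924462000 * A ^ 5 * B * x ^ 19 * y ^ 2 + (-138669300) * A ^ 5 * B * x ^ 20 * y
    + 6603300 * A ^ 5 * B * x ^ 21 + 1680439800 * A ^ 4 * B ^ 2 * x ^ 11 * y ^ 10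
    + (-12603298500) * A ^ 4 * B ^ 2 * x ^ 12 * y ^ 9 + 34901442000 * A ^ 4 * B ^ 2 * x ^ 13 * y ^ 8
    + (-46535256000) * A ^ 4 * B ^ 2 * x ^ 14 * y ^ 7 + 32574679200 * A ^ 4 * B ^ 2 * x ^ 15 * y ^ 6
    + (-12215504700) * A ^ 4 * B ^ 2 * x ^ 16 * y ^ 5 + 2395197000 * A ^ 4 * B ^ 2 * x ^ 17 * y ^ 4
    + (-228114000) * A ^ 4 * B ^ 2 * x ^ 18 * y ^ 3 + 9004500 * A ^ 4 * B ^ 2 * x ^ 19 * y ^ 2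
    + (-100050) * A ^ 4 * B ^ 2 * x ^ 20 * y + 100050 * A ^ 2 * B ^ 4 * x * y ^ 20
    + (-9004500) * A ^ 2 * B ^ 4 * x ^ 2 * y ^ 19 + 228114000 * A ^ 2 * B ^ 4 * x ^ 3 * y ^ 18
    + (-2395197000) * A ^ 2 * B ^ 4 * x ^ 4 * y ^ 17 + 12215504700 * A ^ 2 * B ^ 4 * x ^ 5 * y ^ 16
    + (-32574679200) * A ^ 2 * B ^ 4 * x ^ 6 * y ^ 15 + 46535256000 * A ^ 2 * B ^ 4 * x ^ 7 * y ^ 14
    + (-34901442000) * A ^ 2 * B ^ 4 * x ^ 8 * y ^ 13 + 12603298500 * A ^ 2 * B ^ 4 * x ^ 9 * y ^ 12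
    + (-1680439800) * A ^ 2 * B ^ 4 * x ^ 10 * y ^ 11 + 6603300 * A * B ^ 5 * y ^ 21
    + (-138669300) * A * B ^ 5 * x * y ^ 20 + 924462000 * A * B ^ 5 * x ^ 2 * y ^ 19
    + (-2509254000) * A * B ^ 5 * x ^ 3 * y ^ 18 + 2822910750 * A * B ^ 5 * x ^ 4 * y ^ 17
    + (-1066432950) * A * B ^ 5 * x ^ 5 * y ^ 16 + 14307150 * B ^ 6 * y ^ 21

/-- the coefficient of `t ^ 22` of `F6 (A (1 + t x)⁵) (B (1 - t y)⁵)` -/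
def s52bL6c22 (A B x y : R) : R :=
  (-5852925) * A ^ 6 * x ^ 22 + (-564582150) * A ^ 5 * B * x ^ 17 * y ^ 5
    + 1254627000 * A ^ 5 * B * x ^ 18 * y ^ 4 + (-924462000) * A ^ 5 * B * x ^ 19 * y ^ 3
    + 277338600 * A ^ 5 * B * x ^ 20 * y ^ 2 + (-33016500) * A ^ 5 * B * x ^ 21 * y
    + 1200600 * A ^ 5 * B * x ^ 22 + 1260329850 * A ^ 4 * B ^ 2 * x ^ 12 * y ^ 10
    + (-7755876000) * A ^ 4 * B ^ 2 * x ^ 13 * y ^ 9 + 17450721000 * A ^ 4 * B ^ 2 * x ^ 14 * y ^ 8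
    + (-18614102400) * A ^ 4 * B ^ 2 * x ^ 15 * y ^ 7 + 10179587250 * A ^ 4 * B ^ 2 * x ^ 16 * y ^ 6
    + (-2874236400) * A ^ 4 * B ^ 2 * x ^ 17 * y ^ 5 + 399199500 * A ^ 4 * B ^ 2 * x ^ 18 * y ^ 4
    + (-24012000) * A ^ 4 * B ^ 2 * x ^ 19 * y ^ 3 + 450225 * A ^ 4 * B ^ 2 * x ^ 20 * y ^ 2
    + 450225 * A ^ 2 * B ^ 4 * x ^ 2 * y ^ 20 + (-24012000) * A ^ 2 * B ^ 4 * x ^ 3 * y ^ 19
    + 399199500 * A ^ 2 * B ^ 4 * x ^ 4 * y ^ 18 + (-2874236400) * A ^ 2 * B ^ 4 * x ^ 5 * y ^ 17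
    + 10179587250 * A ^ 2 * B ^ 4 * x ^ 6 * y ^ 16 + (-18614102400) * A ^ 2 * B ^ 4 * x ^ 7 * y ^ 15
    + 17450721000 * A ^ 2 * B ^ 4 * x ^ 8 * y ^ 14 + (-7755876000) * A ^ 2 * B ^ 4 * x ^ 9 * y ^ 13
    + 1260329850 * A ^ 2 * B ^ 4 * x ^ 10 * y ^ 12 + (-1200600) * A * B ^ 5 * y ^ 22
    + 33016500 * A * B ^ 5 * x * y ^ 21 + (-277338600) * A * B ^ 5 * x ^ 2 * y ^ 20
    + 924462000 * A * B ^ 5 * x ^ 3 * y ^ 19 + (-1254627000) * A * B ^ 5 * x ^ 4 * y ^ 18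
    + 564582150 * A * B ^ 5 * x ^ 5 * y ^ 17 + (-5852925) * B ^ 6 * y ^ 22

/-- the coefficient of `t ^ 23` of `F6 (A (1 + t x)⁵) (B (1 - t y)⁵)` -/
def s52bL6c23 (A B x y : R) : R :=
  (-2035800) * A ^ 6 * x ^ 23 + (-250925400) * A ^ 5 * B * x ^ 18 * y ^ 5
    + 462231000 * A ^ 5 * B * x ^ 19 * y ^ 4 + (-277338600) * A ^ 5 * B * x ^ 20 * y ^ 3
    + 66033000 * A ^ 5 * B * x ^ 21 * y ^ 2 + (-6003000) * A ^ 5 * B * x ^ 22 * y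
    + 156600 * A ^ 5 * B * x ^ 23 + 775587600 * A ^ 4 * B ^ 2 * x ^ 13 * y ^ 10
    + (-3877938000) * A ^ 4 * B ^ 2 * x ^ 14 * y ^ 9 + 6980288400 * A ^ 4 * B ^ 2 * x ^ 15 * y ^ 8
    + (-5816907000) * A ^ 4 * B ^ 2 * x ^ 16 * y ^ 7 + 2395197000 * A ^ 4 * B ^ 2 * x ^ 17 * y ^ 6
    + (-479039400) * A ^ 4 * B ^ 2 * x ^ 18 * y ^ 5 + 42021000 * A ^ 4 * B ^ 2 * x ^ 19 * y ^ 4
    + (-1200600) * A ^ 4 * B ^ 2 * x ^ 20 * y ^ 3 + 1200600 * A ^ 2 * B ^ 4 * x ^ 3 * y ^ 20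
    + (-42021000) * A ^ 2 * B ^ 4 * x ^ 4 * y ^ 19 + 479039400 * A ^ 2 * B ^ 4 * x ^ 5 * y ^ 18
    + (-2395197000) * A ^ 2 * B ^ 4 * x ^ 6 * y ^ 17 + 5816907000 * A ^ 2 * B ^ 4 * x ^ 7 * y ^ 16
    + (-6980288400) * A ^ 2 * B ^ 4 * x ^ 8 * y ^ 15 + 3877938000 * A ^ 2 * B ^ 4 * x ^ 9 * y ^ 14
    + (-775587600) * A ^ 2 * B ^ 4 * x ^ 10 * y ^ 13 + 156600 * A * B ^ 5 * y ^ 23
    + (-6003000) * A * B ^ 5 * x * y ^ 22 + 66033000 * A * B ^ 5 * x ^ 2 * y ^ 21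
    + (-277338600) * A * B ^ 5 * x ^ 3 * y ^ 20 + 462231000 * A * B ^ 5 * x ^ 4 * y ^ 19
    + (-250925400) * A * B ^ 5 * x ^ 5 * y ^ 18 + 2035800 * B ^ 6 * y ^ 23

/-- the coefficient of `t ^ 24` of `F6 (A (1 + t x)⁵) (B (1 - t y)⁵)` -/
def s52bL6c24 (A B x y : R) : R :=
  (-593775) * A ^ 6 * x ^ 24 + (-92446200) * A ^ 5 * B * x ^ 19 * y ^ 5
    + 138669300 * A ^ 5 * B * x ^ 20 * y ^ 4 + (-66033000) * A ^ 5 * B * x ^ 21 * y ^ 3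
    + 12006000 * A ^ 5 * B * x ^ 22 * y ^ 2 + (-783000) * A ^ 5 * B * x ^ 23 * y
    + 13050 * A ^ 5 * B * x ^ 24 + 387793800 * A ^ 4 * B ^ 2 * x ^ 14 * y ^ 10
    + (-1551175200) * A ^ 4 * B ^ 2 * x ^ 15 * y ^ 9 + 2181340125 * A ^ 4 * B ^ 2 * x ^ 16 * y ^ 8
    + (-1368684000) * A ^ 4 * B ^ 2 * x ^ 17 * y ^ 7 + 399199500 * A ^ 4 * B ^ 2 * x ^ 18 * y ^ 6
    + (-50425200) * A ^ 4 * B ^ 2 * x ^ 19 * y ^ 5 + 2101050 * A ^ 4 * B ^ 2 * x ^ 20 * y ^ 4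
    + 2101050 * A ^ 2 * B ^ 4 * x ^ 4 * y ^ 20 + (-50425200) * A ^ 2 * B ^ 4 * x ^ 5 * y ^ 19
    + 399199500 * A ^ 2 * B ^ 4 * x ^ 6 * y ^ 18 + (-1368684000) * A ^ 2 * B ^ 4 * x ^ 7 * y ^ 17
    + 2181340125 * A ^ 2 * B ^ 4 * x ^ 8 * y ^ 16 + (-1551175200) * A ^ 2 * B ^ 4 * x ^ 9 * y ^ 15
    + 387793800 * A ^ 2 * B ^ 4 * x ^ 10 * y ^ 14 + (-13050) * A * B ^ 5 * y ^ 24
    + 783000 * A * B ^ 5 * x * y ^ 23 + (-12006000) * A * B ^ 5 * x ^ 2 * y ^ 22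
    + 66033000 * A * B ^ 5 * x ^ 3 * y ^ 21 + (-138669300) * A * B ^ 5 * x ^ 4 * y ^ 20
    + 92446200 * A * B ^ 5 * x ^ 5 * y ^ 19 + (-593775) * B ^ 6 * y ^ 24

/-- the coefficient of `t ^ 25` of `F6 (A (1 + t x)⁵) (B (1 - t y)⁵)` -/
def s52bL6c25 (A B x y : R) : R :=
  (-142506) * A ^ 6 * x ^ 25 + (-27733860) * A ^ 5 * B * x ^ 20 * y ^ 5
    + 33016500 * A ^ 5 * B * x ^ 21 * y ^ 4 + (-12006000) * A ^ 5 * B * x ^ 22 * y ^ 3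
    + 1566000 * A ^ 5 * B * x ^ 23 * y ^ 2 + (-65250) * A ^ 5 * B * x ^ 24 * y
    + 522 * A ^ 5 * B * x ^ 25 + 155117520 * A ^ 4 * B ^ 2 * x ^ 15 * y ^ 10
    + (-484742250) * A ^ 4 * B ^ 2 * x ^ 16 * y ^ 9 + 513256500 * A ^ 4 * B ^ 2 * x ^ 17 * y ^ 8
    + (-228114000) * A ^ 4 * B ^ 2 * x ^ 18 * y ^ 7 + 42021000 * A ^ 4 * B ^ 2 * x ^ 19 * y ^ 6
    + (-2521260) * A ^ 4 * B ^ 2 * x ^ 20 * y ^ 5 + 2521260 * A ^ 2 * B ^ 4 * x ^ 5 * y ^ 20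
    + (-42021000) * A ^ 2 * B ^ 4 * x ^ 6 * y ^ 19 + 228114000 * A ^ 2 * B ^ 4 * x ^ 7 * y ^ 18
    + (-513256500) * A ^ 2 * B ^ 4 * x ^ 8 * y ^ 17 + 484742250 * A ^ 2 * B ^ 4 * x ^ 9 * y ^ 16
    + (-155117520) * A ^ 2 * B ^ 4 * x ^ 10 * y ^ 15 + 522 * A * B ^ 5 * y ^ 25
    + (-65250) * A * B ^ 5 * x * y ^ 24 + 1566000 * A * B ^ 5 * x ^ 2 * y ^ 23
    + (-12006000) * A * B ^ 5 * x ^ 3 * y ^ 22 + 33016500 * A * B ^ 5 * x ^ 4 * y ^ 21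
    + (-27733860) * A * B ^ 5 * x ^ 5 * y ^ 20 + 142506 * B ^ 6 * y ^ 25

/-- the coefficient of `t ^ 26` of `F6 (A (1 + t x)⁵) (B (1 - t y)⁵)` -/
def s52bL6c26 (A B x y : R) : R :=
  (-27405) * A ^ 6 * x ^ 26 + (-6603300) * A ^ 5 * B * x ^ 21 * y ^ 5
    + 6003000 * A ^ 5 * B * x ^ 22 * y ^ 4 + (-1566000) * A ^ 5 * B * x ^ 23 * y ^ 3
    + 130500 * A ^ 5 * B * x ^ 24 * y ^ 2 + (-2610) * A ^ 5 * B * x ^ 25 * y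
    + 48474225 * A ^ 4 * B ^ 2 * x ^ 16 * y ^ 10 + (-114057000) * A ^ 4 * B ^ 2 * x ^ 17 * y ^ 9
    + 85542750 * A ^ 4 * B ^ 2 * x ^ 18 * y ^ 8 + (-24012000) * A ^ 4 * B ^ 2 * x ^ 19 * y ^ 7
    + 2101050 * A ^ 4 * B ^ 2 * x ^ 20 * y ^ 6 + 2101050 * A ^ 2 * B ^ 4 * x ^ 6 * y ^ 20
    + (-24012000) * A ^ 2 * B ^ 4 * x ^ 7 * y ^ 19 + 85542750 * A ^ 2 * B ^ 4 * x ^ 8 * y ^ 18
    + (-114057000) * A ^ 2 * B ^ 4 * x ^ 9 * y ^ 17 + 48474225 * A ^ 2 * B ^ 4 * x ^ 10 * y ^ 16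
    + 2610 * A * B ^ 5 * x * y ^ 25 + (-130500) * A * B ^ 5 * x ^ 2 * y ^ 24
    + 1566000 * A * B ^ 5 * x ^ 3 * y ^ 23 + (-6003000) * A * B ^ 5 * x ^ 4 * y ^ 22
    + 6603300 * A * B ^ 5 * x ^ 5 * y ^ 21 + (-27405) * B ^ 6 * y ^ 26

/-- the coefficient of `t ^ 27` of `F6 (A (1 + t x)⁵) (B (1 - t y)⁵)` -/
def s52bL6c27 (A B x y : R) : R :=
  (-4060) * A ^ 6 * x ^ 27 + (-1200600) * A ^ 5 * B * x ^ 22 * y ^ 5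
    + 783000 * A ^ 5 * B * x ^ 23 * y ^ 4 + (-130500) * A ^ 5 * B * x ^ 24 * y ^ 3
    + 5220 * A ^ 5 * B * x ^ 25 * y ^ 2 + 11405700 * A ^ 4 * B ^ 2 * x ^ 17 * y ^ 10
    + (-19009500) * A ^ 4 * B ^ 2 * x ^ 18 * y ^ 9 + 9004500 * A ^ 4 * B ^ 2 * x ^ 19 * y ^ 8
    + (-1200600) * A ^ 4 * B ^ 2 * x ^ 20 * y ^ 7 + 1200600 * A ^ 2 * B ^ 4 * x ^ 7 * y ^ 20
    + (-9004500) * A ^ 2 * B ^ 4 * x ^ 8 * y ^ 19 + 19009500 * A ^ 2 * B ^ 4 * x ^ 9 * y ^ 18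
    + (-11405700) * A ^ 2 * B ^ 4 * x ^ 10 * y ^ 17 + 5220 * A * B ^ 5 * x ^ 2 * y ^ 25
    + (-130500) * A * B ^ 5 * x ^ 3 * y ^ 24 + 783000 * A * B ^ 5 * x ^ 4 * y ^ 23
    + (-1200600) * A * B ^ 5 * x ^ 5 * y ^ 22 + 4060 * B ^ 6 * y ^ 27

/-- the coefficient of `t ^ 28` of `F6 (A (1 + t x)⁵) (B (1 - t y)⁵)` -/
def s52bL6c28 (A B x y : R) : R :=
  (-435) * A ^ 6 * x ^ 28 + (-156600) * A ^ 5 * B * x ^ 23 * y ^ 5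
    + 65250 * A ^ 5 * B * x ^ 24 * y ^ 4 + (-5220) * A ^ 5 * B * x ^ 25 * y ^ 3
    + 1900950 * A ^ 4 * B ^ 2 * x ^ 18 * y ^ 10 + (-2001000) * A ^ 4 * B ^ 2 * x ^ 19 * y ^ 9
    + 450225 * A ^ 4 * B ^ 2 * x ^ 20 * y ^ 8 + 450225 * A ^ 2 * B ^ 4 * x ^ 8 * y ^ 20
    + (-2001000) * A ^ 2 * B ^ 4 * x ^ 9 * y ^ 19 + 1900950 * A ^ 2 * B ^ 4 * x ^ 10 * y ^ 18
    + 5220 * A * B ^ 5 * x ^ 3 * y ^ 25 + (-65250) * A * B ^ 5 * x ^ 4 * y ^ 24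
    + 156600 * A * B ^ 5 * x ^ 5 * y ^ 23 + (-435) * B ^ 6 * y ^ 28

/-- the coefficient of `t ^ 29` of `F6 (A (1 + t x)⁵) (B (1 - t y)⁵)` -/
def s52bL6c29 (A B x y : R) : R :=
  (-30) * A ^ 6 * x ^ 29 + (-13050) * A ^ 5 * B * x ^ 24 * y ^ 5
    + 2610 * A ^ 5 * B * x ^ 25 * y ^ 4 + 200100 * A ^ 4 * B ^ 2 * x ^ 19 * y ^ 10
    + (-100050) * A ^ 4 * B ^ 2 * x ^ 20 * y ^ 9 + 100050 * A ^ 2 * B ^ 4 * x ^ 9 * y ^ 20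
    + (-200100) * A ^ 2 * B ^ 4 * x ^ 10 * y ^ 19 + 2610 * A * B ^ 5 * x ^ 4 * y ^ 25
    + (-13050) * A * B ^ 5 * x ^ 5 * y ^ 24 + 30 * B ^ 6 * y ^ 29

/-- the coefficient of `t ^ 30` of `F6 (A (1 + t x)⁵) (B (1 - t y)⁵)` -/
def s52bL6c30 (A B x y : R) : R :=
  (-1) * A ^ 6 * x ^ 30 + (-522) * A ^ 5 * B * x ^ 25 * y ^ 5
    + 10005 * A ^ 4 * B ^ 2 * x ^ 20 * y ^ 10 + 10005 * A ^ 2 * B ^ 4 * x ^ 10 * y ^ 20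
    + 522 * A * B ^ 5 * x ^ 5 * y ^ 25 + (-1) * B ^ 6 * y ^ 30

set_option maxHeartbeats 8000000 in
/-- expansion in powers of `t` -/
theorem s52b_expand6 (A B x y t : R) :
    s52bF6 (A * (1 + t * x) ^ 5) (B * (1 - t * y) ^ 5)
      = s52bL6c0 A B x y + s52bL6c1 A B x y * t + s52bL6c2 A B x y * t ^ 2 + s52bL6c3 A B x y * t ^ 3
        + s52bL6c4 A B x y * t ^ 4 + s52bL6c5 A B x y * t ^ 5 + s52bL6c6 A B x y * t ^ 6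
        + s52bL6c7 A B x y * t ^ 7 + s52bL6c8 A B x y * t ^ 8 + s52bL6c9 A B x y * t ^ 9
        + s52bL6c10 A B x y * t ^ 10 + s52bL6c11 A B x y * t ^ 11 + s52bL6c12 A B x y * t ^ 12
        + s52bL6c13 A B x y * t ^ 13 + s52bL6c14 A B x y * t ^ 14 + s52bL6c15 A B x y * t ^ 15
        + s52bL6c16 A B x y * t ^ 16 + s52bL6c17 A B x y * t ^ 17 + s52bL6c18 A B x y * t ^ 18
        + s52bL6c19 A B x y * t ^ 19 + s52bL6c20 A B x y * t ^ 20 + s52bL6c21 A B x y * t ^ 21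
        + s52bL6c22 A B x y * t ^ 22 + s52bL6c23 A B x y * t ^ 23 + s52bL6c24 A B x y * t ^ 24
        + s52bL6c25 A B x y * t ^ 25 + s52bL6c26 A B x y * t ^ 26 + s52bL6c27 A B x y * t ^ 27
        + s52bL6c28 A B x y * t ^ 28 + s52bL6c29 A B x y * t ^ 29 + s52bL6c30 A B x y * t ^ 30 := by
  unfold s52bF6 s52bL6c0 s52bL6c1 s52bL6c2 s52bL6c3 s52bL6c4 s52bL6c5 s52bL6c6 s52bL6c7 s52bL6c8 s52bL6c9 s52bL6c10 s52bL6c11 s52bL6c12 s52bL6c13 s52bL6c14 s52bL6c15 s52bL6c16 s52bL6c17 s52bL6c18 s52bL6c19 s52bL6c20 s52bL6c21 s52bL6c22 s52bL6c23 s52bL6c24 s52bL6c25 s52bL6c26 s52bL6c27 s52bL6c28 s52bL6c29 s52bL6c30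
  ring

end

end Fermat.Agent.S52
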