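/-
S52 (A) (helper7): the Klein forms along the line `w₀ + t ŵ` — GENERATED FILE (Line6b: coefficient identities for `c₆`, k = 0..17).
See `Line.lean` for the statements.  Do not edit by hand.
-/
import Mathlib
import Fermat.Agent.Lib.S52.Line6a

set_option autoImplicit false
set_option Elab.async false
set_option maxRecDepth 10000
set_option linter.unusedVariables false
set_option linter.unusedSimpArgs false

namespace Fermat.Agent.S52

section

variable {R : Type*} [CommRing R]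

set_option maxHeartbeats 8000000 in
theorem s52b_coeff6_0 (A B : R) :
    s52bL6c0 A B (A ^ 2 - 66 * A * B - 11 * B ^ 2) (11 * A ^ 2 - 66 * A * B - B ^ 2)
      = s52bP6c0 (s52bF4 A B) (s52bF6 A B) := by
  simp only [s52bL6c0, s52bP6c0, s52bF4, s52bF6]
  ring

set_option maxHeartbeats 8000000 in
theorem s52b_coeff6_1 (A B : R) :
    s52bL6c1 A B (A ^ 2 - 66 * A * B - 11 * B ^ 2) (11 * A ^ 2 - 66 * A * B - B ^ 2)
      = s52bP6c1 (s52bF4 A B) (s52bF6 A B) := by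
  simp only [s52bL6c1, s52bP6c1, s52bF4, s52bF6]
  ring

set_option maxHeartbeats 8000000 in
theorem s52b_coeff6_2 (A B : R) :
    s52bL6c2 A B (A ^ 2 - 66 * A * B - 11 * B ^ 2) (11 * A ^ 2 - 66 * A * B - B ^ 2)
      = s52bP6c2 (s52bF4 A B) (s52bF6 A B) := by
  simp only [s52bL6c2, s52bP6c2, s52bF4, s52bF6]
  ring

set_option maxHeartbeats 8000000 in
theorem s52b_coeff6_3 (A B : R) :
    s52bL6c3 A B (A ^ 2 - 66 * A * B - 11 * B ^ 2) (11 * A ^ 2 - 66 * A * B - B ^ 2)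
      = s52bP6c3 (s52bF4 A B) (s52bF6 A B) := by
  simp only [s52bL6c3, s52bP6c3, s52bF4, s52bF6]
  ring

set_option maxHeartbeats 8000000 in
theorem s52b_coeff6_4 (A B : R) :
    s52bL6c4 A B (A ^ 2 - 66 * A * B - 11 * B ^ 2) (11 * A ^ 2 - 66 * A * B - B ^ 2)
      = s52bP6c4 (s52bF4 A B) (s52bF6 A B) := by
  simp only [s52bL6c4, s52bP6c4, s52bF4, s52bF6]
  ring

set_option maxHeartbeats 8000000 in
theorem s52b_coeff6_5 (A B : R) :
    s52bL6c5 A B (A ^ 2 - 66 * A * B - 11 * B ^ 2) (11 * A ^ 2 - 66 * A * B - B ^ 2)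
      = s52bP6c5 (s52bF4 A B) (s52bF6 A B) := by
  simp only [s52bL6c5, s52bP6c5, s52bF4, s52bF6]
  ring

set_option maxHeartbeats 8000000 in
theorem s52b_coeff6_6 (A B : R) :
    s52bL6c6 A B (A ^ 2 - 66 * A * B - 11 * B ^ 2) (11 * A ^ 2 - 66 * A * B - B ^ 2)
      = s52bP6c6 (s52bF4 A B) (s52bF6 A B) := by
  simp only [s52bL6c6, s52bP6c6, s52bF4, s52bF6]
  ring

set_option maxHeartbeats 8000000 in
theorem s52b_coeff6_7 (A B : R) :
    s52bL6c7 A B (A ^ 2 - 66 * A * B - 11 * B ^ 2) (11 * A ^ 2 - 66 * A * B - B ^ 2)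
      = s52bP6c7 (s52bF4 A B) (s52bF6 A B) := by
  simp only [s52bL6c7, s52bP6c7, s52bF4, s52bF6]
  ring

set_option maxHeartbeats 8000000 in
theorem s52b_coeff6_8 (A B : R) :
    s52bL6c8 A B (A ^ 2 - 66 * A * B - 11 * B ^ 2) (11 * A ^ 2 - 66 * A * B - B ^ 2)
      = s52bP6c8 (s52bF4 A B) (s52bF6 A B) := by
  simp only [s52bL6c8, s52bP6c8, s52bF4, s52bF6]
  ring

set_option maxHeartbeats 8000000 in
theorem s52b_coeff6_9 (A B : R) :
    s52bL6c9 A B (A ^ 2 - 66 * A * B - 11 * B ^ 2) (11 * A ^ 2 - 66 * A * B - B ^ 2)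
      = s52bP6c9 (s52bF4 A B) (s52bF6 A B) := by
  simp only [s52bL6c9, s52bP6c9, s52bF4, s52bF6]
  ring

set_option maxHeartbeats 8000000 in
theorem s52b_coeff6_10 (A B : R) :
    s52bL6c10 A B (A ^ 2 - 66 * A * B - 11 * B ^ 2) (11 * A ^ 2 - 66 * A * B - B ^ 2)
      = s52bP6c10 (s52bF4 A B) (s52bF6 A B) := by
  simp only [s52bL6c10, s52bP6c10, s52bF4, s52bF6]
  ring

set_option maxHeartbeats 8000000 in
theorem s52b_coeff6_11 (A B : R) :
    s52bL6c11 A B (A ^ 2 - 66 * A * B - 11 * B ^ 2) (11 * A ^ 2 - 66 * A * B - B ^ 2)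
      = s52bP6c11 (s52bF4 A B) (s52bF6 A B) := by
  simp only [s52bL6c11, s52bP6c11, s52bF4, s52bF6]
  ring

set_option maxHeartbeats 8000000 in
theorem s52b_coeff6_12 (A B : R) :
    s52bL6c12 A B (A ^ 2 - 66 * A * B - 11 * B ^ 2) (11 * A ^ 2 - 66 * A * B - B ^ 2)
      = s52bP6c12 (s52bF4 A B) (s52bF6 A B) := by
  simp only [s52bL6c12, s52bP6c12, s52bF4, s52bF6]
  ring

set_option maxHeartbeats 8000000 in
theorem s52b_coeff6_13 (A B : R) :
    s52bL6c13 A B (A ^ 2 - 66 * A * B - 11 * B ^ 2) (11 * A ^ 2 - 66 * A * B - B ^ 2)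
      = s52bP6c13 (s52bF4 A B) (s52bF6 A B) := by
  simp only [s52bL6c13, s52bP6c13, s52bF4, s52bF6]
  ring

set_option maxHeartbeats 8000000 in
theorem s52b_coeff6_14 (A B : R) :
    s52bL6c14 A B (A ^ 2 - 66 * A * B - 11 * B ^ 2) (11 * A ^ 2 - 66 * A * B - B ^ 2)
      = s52bP6c14 (s52bF4 A B) (s52bF6 A B) := by
  simp only [s52bL6c14, s52bP6c14, s52bF4, s52bF6]
  ring

set_option maxHeartbeats 8000000 in
theorem s52b_coeff6_15 (A B : R) :
    s52bL6c15 A B (A ^ 2 - 66 * A * B - 11 * B ^ 2) (11 * A ^ 2 - 66 * A * B - B ^ 2)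
      = s52bP6c15 (s52bF4 A B) (s52bF6 A B) := by
  simp only [s52bL6c15, s52bP6c15, s52bF4, s52bF6]
  ring

set_option maxHeartbeats 8000000 in
theorem s52b_coeff6_16 (A B : R) :
    s52bL6c16 A B (A ^ 2 - 66 * A * B - 11 * B ^ 2) (11 * A ^ 2 - 66 * A * B - B ^ 2)
      = s52bP6c16 (s52bF4 A B) (s52bF6 A B) := by
  simp only [s52bL6c16, s52bP6c16, s52bF4, s52bF6]
  ring

set_option maxHeartbeats 8000000 in
theorem s52b_coeff6_17 (A B : R) :
    s52bL6c17 A B (A ^ 2 - 66 * A * B - 11 * B ^ 2) (11 * A ^ 2 - 66 * A * B - B ^ 2)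
      = s52bP6c17 (s52bF4 A B) (s52bF6 A B) := by
  simp only [s52bL6c17, s52bP6c17, s52bF4, s52bF6]
  ring

end

end Fermat.Agent.S52
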