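/-
S52 (A) (helper7): the Klein forms along the line `w₀ + t ŵ` — GENERATED FILE (Line6c: coefficient identities for `c₆`, k = 18..24).
See `Line.lean` for the statements.  Do not edit by hand.
-/
import Mathlib
import Fermat.Agent.Lib.S52.Line6b

set_option autoImplicit false
set_option Elab.async false
set_option maxRecDepth 10000
set_option linter.unusedVariables false
set_option linter.unusedSimpArgs false

namespace Fermat.Agent.S52

section

variable {R : Type*} [CommRing R]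

set_option maxHeartbeats 8000000 in
theorem s52b_coeff6_18 (A B : R) :
    s52bL6c18 A B (A ^ 2 - 66 * A * B - 11 * B ^ 2) (11 * A ^ 2 - 66 * A * B - B ^ 2)
      = s52bP6c18 (s52bF4 A B) (s52bF6 A B) := by
  simp only [s52bL6c18, s52bP6c18, s52bF4, s52bF6]
  ring

set_option maxHeartbeats 8000000 in
theorem s52b_coeff6_19 (A B : R) :
    s52bL6c19 A B (A ^ 2 - 66 * A * B - 11 * B ^ 2) (11 * A ^ 2 - 66 * A * B - B ^ 2)
      = s52bP6c19 (s52bF4 A B) (s52bF6 A B) := by
  simp only [s52bL6c19, s52bP6c19, s52bF4, s52bF6]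
  ring

set_option maxHeartbeats 8000000 in
theorem s52b_coeff6_20 (A B : R) :
    s52bL6c20 A B (A ^ 2 - 66 * A * B - 11 * B ^ 2) (11 * A ^ 2 - 66 * A * B - B ^ 2)
      = s52bP6c20 (s52bF4 A B) (s52bF6 A B) := by
  simp only [s52bL6c20, s52bP6c20, s52bF4, s52bF6]
  ring

set_option maxHeartbeats 8000000 in
theorem s52b_coeff6_21 (A B : R) :
    s52bL6c21 A B (A ^ 2 - 66 * A * B - 11 * B ^ 2) (11 * A ^ 2 - 66 * A * B - B ^ 2)
      = s52bP6c21 (s52bF4 A B) (s52bF6 A B) := by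
  simp only [s52bL6c21, s52bP6c21, s52bF4, s52bF6]
  ring

set_option maxHeartbeats 8000000 in
theorem s52b_coeff6_22 (A B : R) :
    s52bL6c22 A B (A ^ 2 - 66 * A * B - 11 * B ^ 2) (11 * A ^ 2 - 66 * A * B - B ^ 2)
      = s52bP6c22 (s52bF4 A B) (s52bF6 A B) := by
  simp only [s52bL6c22, s52bP6c22, s52bF4, s52bF6]
  ring

set_option maxHeartbeats 8000000 in
theorem s52b_coeff6_23 (A B : R) :
    s52bL6c23 A B (A ^ 2 - 66 * A * B - 11 * B ^ 2) (11 * A ^ 2 - 66 * A * B - B ^ 2)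
      = s52bP6c23 (s52bF4 A B) (s52bF6 A B) := by
  simp only [s52bL6c23, s52bP6c23, s52bF4, s52bF6]
  ring

set_option maxHeartbeats 8000000 in
theorem s52b_coeff6_24 (A B : R) :
    s52bL6c24 A B (A ^ 2 - 66 * A * B - 11 * B ^ 2) (11 * A ^ 2 - 66 * A * B - B ^ 2)
      = s52bP6c24 (s52bF4 A B) (s52bF6 A B) := by
  simp only [s52bL6c24, s52bP6c24, s52bF4, s52bF6]
  ring

end

end Fermat.Agent.S52
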