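/-
S52 (A) (helper7): the Klein forms along the line `w₀ + t ŵ` — GENERATED FILE (Line6d: coefficient identities for `c₆`, k = 25..30).
See `Line.lean` for the statements.  Do not edit by hand.
-/
import Mathlib
import Fermat.Agent.Lib.S52.Line6c

set_option autoImplicit false
set_option Elab.async false
set_option maxRecDepth 10000
set_option linter.unusedVariables false
set_option linter.unusedSimpArgs false

namespace Fermat.Agent.S52

section

variable {R : Type*} [CommRing R]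

set_option maxHeartbeats 8000000 in
theorem s52b_coeff6_25 (A B : R) :
    s52bL6c25 A B (A ^ 2 - 66 * A * B - 11 * B ^ 2) (11 * A ^ 2 - 66 * A * B - B ^ 2)
      = s52bP6c25 (s52bF4 A B) (s52bF6 A B) := by
  simp only [s52bL6c25, s52bP6c25, s52bF4, s52bF6]
  ring

set_option maxHeartbeats 8000000 in
theorem s52b_coeff6_26 (A B : R) :
    s52bL6c26 A B (A ^ 2 - 66 * A * B - 11 * B ^ 2) (11 * A ^ 2 - 66 * A * B - B ^ 2)
      = s52bP6c26 (s52bF4 A B) (s52bF6 A B) := by
  simp only [s52bL6c26, s52bP6c26, s52bF4, s52bF6]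
  ring

set_option maxHeartbeats 8000000 in
theorem s52b_coeff6_27 (A B : R) :
    s52bL6c27 A B (A ^ 2 - 66 * A * B - 11 * B ^ 2) (11 * A ^ 2 - 66 * A * B - B ^ 2)
      = s52bP6c27 (s52bF4 A B) (s52bF6 A B) := by
  simp only [s52bL6c27, s52bP6c27, s52bF4, s52bF6]
  ring

set_option maxHeartbeats 8000000 in
theorem s52b_coeff6_28 (A B : R) :
    s52bL6c28 A B (A ^ 2 - 66 * A * B - 11 * B ^ 2) (11 * A ^ 2 - 66 * A * B - B ^ 2)
      = s52bP6c28 (s52bF4 A B) (s52bF6 A B) := by
  simp only [s52bL6c28, s52bP6c28, s52bF4, s52bF6]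
  ring

set_option maxHeartbeats 8000000 in
theorem s52b_coeff6_29 (A B : R) :
    s52bL6c29 A B (A ^ 2 - 66 * A * B - 11 * B ^ 2) (11 * A ^ 2 - 66 * A * B - B ^ 2)
      = s52bP6c29 (s52bF4 A B) (s52bF6 A B) := by
  simp only [s52bL6c29, s52bP6c29, s52bF4, s52bF6]
  ring

set_option maxHeartbeats 8000000 in
theorem s52b_coeff6_30 (A B : R) :
    s52bL6c30 A B (A ^ 2 - 66 * A * B - 11 * B ^ 2) (11 * A ^ 2 - 66 * A * B - B ^ 2)
      = s52bP6c30 (s52bF4 A B) (s52bF6 A B) := by
  simp only [s52bL6c30, s52bP6c30, s52bF4, s52bF6]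
  ring

end

end Fermat.Agent.S52
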