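/-
S52 (A) (helper7): **the Klein forms along the line `w₀ + t ŵ`, `ŵ = (D_b(w₀), -D_a(w₀))`**
(the Rubin–Silverberg family): `c₄(w₀ + t ŵ) = s52bP4 (c₄ w₀) (c₆ w₀) t`,
`c₆(w₀ + t ŵ) = s52bP6 (c₄ w₀) (c₆ w₀) t` with explicit polynomials `s52bP4, s52bP6` with INTEGER
coefficients (`Line4.lean`, `Line6a.lean`; computed offline by exact linear algebra, verified
coefficientwise by `ring`).
-/
import Mathlib
import Fermat.Agent.Lib.S52.NoCommon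
import Fermat.Agent.Lib.S52.Line6d

set_option autoImplicit false
set_option maxRecDepth 10000

namespace Fermat.Agent.S52

section Line

variable {R : Type*} [CommRing R]

/-- the `c₆`-identity in the variables `A = a⁵`, `B = b⁵` -/
theorem s52b_line6_AB (A B t : R) :
    s52bF6 (A * (1 + t * (A ^ 2 - 66 * A * B - 11 * B ^ 2)) ^ 5) (B * (1 - t * (11 * A ^ 2 - 66 * A * B - B ^ 2)) ^ 5)
      = s52bP6 (s52bF4 A B) (s52bF6 A B) t := by
  rw [s52b_expand6, s52b_coeff6_0, s52b_coeff6_1, s52b_coeff6_2, s52b_coeff6_3, s52b_coeff6_4, s52b_coeff6_5, s52b_coeff6_6, s52b_coeff6_7, s52b_coeff6_8, s52b_coeff6_9, s52b_coeff6_10, s52b_coeff6_11, s52b_coeff6_12, s52b_coeff6_13, s52b_coeff6_14, s52b_coeff6_15, s52b_coeff6_16, s52b_coeff6_17, s52b_coeff6_18, s52b_coeff6_19, s52b_coeff6_20, s52b_coeff6_21, s52b_coeff6_22, s52b_coeff6_23, s52b_coeff6_24, s52b_coeff6_25, s52b_coeff6_26, s52b_coeff6_27,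 s52b_coeff6_28, s52b_coeff6_29, s52b_coeff6_30]
  rfl

theorem s52bC4_eq_F4 (a b x y : R) :
    s52bC4 (a * x) (b * y) = s52bF4 (a ^ 5 * x ^ 5) (b ^ 5 * y ^ 5) := by
  unfold s52bC4 s52bF4
  ring

theorem s52bC6_eq_F6 (a b x y : R) :
    s52bC6 (a * x) (b * y) = s52bF6 (a ^ 5 * x ^ 5) (b ^ 5 * y ^ 5) := by
  unfold s52bC6 s52bF6
  ring

theorem s52b_line_fst (a b t : R) :
    a + t * s52bDb a b
      = a * (1 + t * ((a ^ 5) ^ 2 - 66 * a ^ 5 * b ^ 5 - 11 * (b ^ 5) ^ 2)) := by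
  unfold s52bDb
  ring

theorem s52b_line_snd (a b t : R) :
    b - t * s52bDa a b
      = b * (1 - t * (11 * (a ^ 5) ^ 2 - 66 * a ^ 5 * b ^ 5 - (b ^ 5) ^ 2)) := by
  unfold s52bDa
  ring

theorem s52bC4_eq_F4' (a b : R) : s52bC4 a b = s52bF4 (a ^ 5) (b ^ 5) := by
  unfold s52bC4 s52bF4
  ring

theorem s52bC6_eq_F6' (a b : R) : s52bC6 a b = s52bF6 (a ^ 5) (b ^ 5) := by
  unfold s52bC6 s52bF6
  ring

/-- **`c₄` along the line** -/
theorem s52b_line4 (a b t : R) :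
    s52bC4 (a + t * s52bDb a b) (b - t * s52bDa a b) = s52bP4 (s52bC4 a b) (s52bC6 a b) t := by
  rw [s52b_line_fst, s52b_line_snd, s52bC4_eq_F4, s52b_line4_AB, ← s52bC4_eq_F4', ← s52bC6_eq_F6']

/-- **`c₆` along the line** -/
theorem s52b_line6 (a b t : R) :
    s52bC6 (a + t * s52bDb a b) (b - t * s52bDa a b) = s52bP6 (s52bC4 a b) (s52bC6 a b) t := by
  rw [s52b_line_fst, s52b_line_snd, s52bC6_eq_F6, s52b_line6_AB, ← s52bC4_eq_F4', ← s52bC6_eq_F6']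

/-- **`D⁵` along the line** -/
theorem s52b_lineD (a b t : R) :
    1728 * s52bD (a + t * s52bDb a b) (b - t * s52bDa a b) ^ 5
      = s52bP4 (s52bC4 a b) (s52bC6 a b) t ^ 3 - s52bP6 (s52bC4 a b) (s52bC6 a b) t ^ 2 := by
  rw [← s52b_klein_rel, s52b_line4, s52b_line6]

theorem s52bP4_eq (c4 c6 t : R) : s52bP4 c4 c6 t = c4 + t * s52bP4q c4 c6 t := by
  unfold s52bP4 s52bP4q s52bP4c0
  ring

theorem s52bP6_eq (c4 c6 t : R) : s52bP6 c4 c6 t = c6 + t * s52bP6q c4 c6 t := by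
  unfold s52bP6 s52bP6q s52bP6c0
  ring

theorem s52bP4_zero (c4 c6 : R) : s52bP4 c4 c6 0 = c4 := by
  rw [s52bP4_eq, zero_mul, add_zero]

theorem s52bP6_zero (c4 c6 : R) : s52bP6 c4 c6 0 = c6 := by
  rw [s52bP6_eq, zero_mul, add_zero]

theorem s52bP4_dvd (c4 c6 t : R) : t ∣ s52bP4 c4 c6 t - c4 :=
  ⟨s52bP4q c4 c6 t, by rw [s52bP4_eq]; ring⟩

theorem s52bP6_dvd (c4 c6 t : R) : t ∣ s52bP6 c4 c6 t - c6 :=
  ⟨s52bP6q c4 c6 t, by rw [s52bP6_eq]; ring⟩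

end Line

end Fermat.Agent.S52
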