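/-
S52 (A) (helper7): `RingHom`-compatibility of the line polynomials `s52bP4`, `s52bP6`
(GENERATED FILE).
-/
import Mathlib
import Fermat.Agent.Lib.S52.Line

set_option autoImplicit false
set_option maxRecDepth 10000
set_option linter.unusedSimpArgs false

namespace Fermat.Agent.S52

section LineMap

variable {R S : Type*} [CommRing R] [CommRing S]

theorem s52bP4c0_map (f : R →+* S) (c4 c6 : R) :
    f (s52bP4c0 c4 c6) = s52bP4c0 (f c4) (f c6) := by
  simp only [s52bP4c0, map_add, map_mul, map_pow, map_neg, map_sub, map_ofNat, map_one]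

theorem s52bP4c1_map (f : R →+* S) (c4 c6 : R) :
    f (s52bP4c1 c4 c6) = s52bP4c1 (f c4) (f c6) := by
  simp only [s52bP4c1, map_add, map_mul, map_pow, map_neg, map_sub, map_ofNat, map_one]

theorem s52bP4c2_map (f : R →+* S) (c4 c6 : R) :
    f (s52bP4c2 c4 c6) = s52bP4c2 (f c4) (f c6) := by
  simp only [s52bP4c2, map_add, map_mul, map_pow, map_neg, map_sub, map_ofNat, map_one]

theorem s52bP4c3_map (f : R →+* S) (c4 c6 : R) :
    f (s52bP4c3 c4 c6) = s52bP4c3 (f c4) (f c6) := by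
  simp only [s52bP4c3, map_add, map_mul, map_pow, map_neg, map_sub, map_ofNat, map_one]

theorem s52bP4c4_map (f : R →+* S) (c4 c6 : R) :
    f (s52bP4c4 c4 c6) = s52bP4c4 (f c4) (f c6) := by
  simp only [s52bP4c4, map_add, map_mul, map_pow, map_neg, map_sub, map_ofNat, map_one]

theorem s52bP4c5_map (f : R →+* S) (c4 c6 : R) :
    f (s52bP4c5 c4 c6) = s52bP4c5 (f c4) (f c6) := by
  simp only [s52bP4c5, map_add, map_mul, map_pow, map_neg, map_sub, map_ofNat, map_one]

theorem s52bP4c6_map (f : R →+* S) (c4 c6 : R) :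
    f (s52bP4c6 c4 c6) = s52bP4c6 (f c4) (f c6) := by
  simp only [s52bP4c6, map_add, map_mul, map_pow, map_neg, map_sub, map_ofNat, map_one]

theorem s52bP4c7_map (f : R →+* S) (c4 c6 : R) :
    f (s52bP4c7 c4 c6) = s52bP4c7 (f c4) (f c6) := by
  simp only [s52bP4c7, map_add, map_mul, map_pow, map_neg, map_sub, map_ofNat, map_one]

theorem s52bP4c8_map (f : R →+* S) (c4 c6 : R) :
    f (s52bP4c8 c4 c6) = s52bP4c8 (f c4) (f c6) := by
  simp only [s52bP4c8, map_add, map_mul, map_pow, map_neg, map_sub, map_ofNat, map_one]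

theorem s52bP4c9_map (f : R →+* S) (c4 c6 : R) :
    f (s52bP4c9 c4 c6) = s52bP4c9 (f c4) (f c6) := by
  simp only [s52bP4c9, map_add, map_mul, map_pow, map_neg, map_sub, map_ofNat, map_one]

theorem s52bP4c10_map (f : R →+* S) (c4 c6 : R) :
    f (s52bP4c10 c4 c6) = s52bP4c10 (f c4) (f c6) := by
  simp only [s52bP4c10, map_add, map_mul, map_pow, map_neg, map_sub, map_ofNat, map_one]

theorem s52bP4c11_map (f : R →+* S) (c4 c6 : R) :
    f (s52bP4c11 c4 c6) = s52bP4c11 (f c4) (f c6) := by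
  simp only [s52bP4c11, map_add, map_mul, map_pow, map_neg, map_sub, map_ofNat, map_one]

theorem s52bP4c12_map (f : R →+* S) (c4 c6 : R) :
    f (s52bP4c12 c4 c6) = s52bP4c12 (f c4) (f c6) := by
  simp only [s52bP4c12, map_add, map_mul, map_pow, map_neg, map_sub, map_ofNat, map_one]

theorem s52bP4c13_map (f : R →+* S) (c4 c6 : R) :
    f (s52bP4c13 c4 c6) = s52bP4c13 (f c4) (f c6) := by
  simp only [s52bP4c13, map_add, map_mul, map_pow, map_neg, map_sub, map_ofNat, map_one]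

theorem s52bP4c14_map (f : R →+* S) (c4 c6 : R) :
    f (s52bP4c14 c4 c6) = s52bP4c14 (f c4) (f c6) := by
  simp only [s52bP4c14, map_add, map_mul, map_pow, map_neg, map_sub, map_ofNat, map_one]

theorem s52bP4c15_map (f : R →+* S) (c4 c6 : R) :
    f (s52bP4c15 c4 c6) = s52bP4c15 (f c4) (f c6) := by
  simp only [s52bP4c15, map_add, map_mul, map_pow, map_neg, map_sub, map_ofNat, map_one]

theorem s52bP4c16_map (f : R →+* S) (c4 c6 : R) :
    f (s52bP4c16 c4 c6) = s52bP4c16 (f c4) (f c6) := by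
  simp only [s52bP4c16, map_add, map_mul, map_pow, map_neg, map_sub, map_ofNat, map_one]

theorem s52bP4c17_map (f : R →+* S) (c4 c6 : R) :
    f (s52bP4c17 c4 c6) = s52bP4c17 (f c4) (f c6) := by
  simp only [s52bP4c17, map_add, map_mul, map_pow, map_neg, map_sub, map_ofNat, map_one]

theorem s52bP4c18_map (f : R →+* S) (c4 c6 : R) :
    f (s52bP4c18 c4 c6) = s52bP4c18 (f c4) (f c6) := by
  simp only [s52bP4c18, map_add, map_mul, map_pow, map_neg, map_sub, map_ofNat, map_one]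

theorem s52bP4c19_map (f : R →+* S) (c4 c6 : R) :
    f (s52bP4c19 c4 c6) = s52bP4c19 (f c4) (f c6) := by
  simp only [s52bP4c19, map_add, map_mul, map_pow, map_neg, map_sub, map_ofNat, map_one]

theorem s52bP4c20_map (f : R →+* S) (c4 c6 : R) :
    f (s52bP4c20 c4 c6) = s52bP4c20 (f c4) (f c6) := by
  simp only [s52bP4c20, map_add, map_mul, map_pow, map_neg, map_sub, map_ofNat, map_one]

theorem s52bP6c0_map (f : R →+* S) (c4 c6 : R) :
    f (s52bP6c0 c4 c6) = s52bP6c0 (f c4) (f c6) := by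
  simp only [s52bP6c0, map_add, map_mul, map_pow, map_neg, map_sub, map_ofNat, map_one]

theorem s52bP6c1_map (f : R →+* S) (c4 c6 : R) :
    f (s52bP6c1 c4 c6) = s52bP6c1 (f c4) (f c6) := by
  simp only [s52bP6c1, map_add, map_mul, map_pow, map_neg, map_sub, map_ofNat, map_one]

theorem s52bP6c2_map (f : R →+* S) (c4 c6 : R) :
    f (s52bP6c2 c4 c6) = s52bP6c2 (f c4) (f c6) := by
  simp only [s52bP6c2, map_add, map_mul, map_pow, map_neg, map_sub, map_ofNat, map_one]

theorem s52bP6c3_map (f : R →+* S) (c4 c6 : R) :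
    f (s52bP6c3 c4 c6) = s52bP6c3 (f c4) (f c6) := by
  simp only [s52bP6c3, map_add, map_mul, map_pow, map_neg, map_sub, map_ofNat, map_one]

theorem s52bP6c4_map (f : R →+* S) (c4 c6 : R) :
    f (s52bP6c4 c4 c6) = s52bP6c4 (f c4) (f c6) := by
  simp only [s52bP6c4, map_add, map_mul, map_pow, map_neg, map_sub, map_ofNat, map_one]

theorem s52bP6c5_map (f : R →+* S) (c4 c6 : R) :
    f (s52bP6c5 c4 c6) = s52bP6c5 (f c4) (f c6) := by
  simp only [s52bP6c5, map_add, map_mul, map_pow, map_neg, map_sub, map_ofNat, map_one]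

theorem s52bP6c6_map (f : R →+* S) (c4 c6 : R) :
    f (s52bP6c6 c4 c6) = s52bP6c6 (f c4) (f c6) := by
  simp only [s52bP6c6, map_add, map_mul, map_pow, map_neg, map_sub, map_ofNat, map_one]

theorem s52bP6c7_map (f : R →+* S) (c4 c6 : R) :
    f (s52bP6c7 c4 c6) = s52bP6c7 (f c4) (f c6) := by
  simp only [s52bP6c7, map_add, map_mul, map_pow, map_neg, map_sub, map_ofNat, map_one]

theorem s52bP6c8_map (f : R →+* S) (c4 c6 : R) :
    f (s52bP6c8 c4 c6) = s52bP6c8 (f c4) (f c6) := by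
  simp only [s52bP6c8, map_add, map_mul, map_pow, map_neg, map_sub, map_ofNat, map_one]

theorem s52bP6c9_map (f : R →+* S) (c4 c6 : R) :
    f (s52bP6c9 c4 c6) = s52bP6c9 (f c4) (f c6) := by
  simp only [s52bP6c9, map_add, map_mul, map_pow, map_neg, map_sub, map_ofNat, map_one]

theorem s52bP6c10_map (f : R →+* S) (c4 c6 : R) :
    f (s52bP6c10 c4 c6) = s52bP6c10 (f c4) (f c6) := by
  simp only [s52bP6c10, map_add, map_mul, map_pow, map_neg, map_sub, map_ofNat, map_one]

theorem s52bP6c11_map (f : R →+* S) (c4 c6 : R) :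
    f (s52bP6c11 c4 c6) = s52bP6c11 (f c4) (f c6) := by
  simp only [s52bP6c11, map_add, map_mul, map_pow, map_neg, map_sub, map_ofNat, map_one]

theorem s52bP6c12_map (f : R →+* S) (c4 c6 : R) :
    f (s52bP6c12 c4 c6) = s52bP6c12 (f c4) (f c6) := by
  simp only [s52bP6c12, map_add, map_mul, map_pow, map_neg, map_sub, map_ofNat, map_one]

theorem s52bP6c13_map (f : R →+* S) (c4 c6 : R) :
    f (s52bP6c13 c4 c6) = s52bP6c13 (f c4) (f c6) := by
  simp only [s52bP6c13, map_add, map_mul, map_pow, map_neg, map_sub, map_ofNat, map_one]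

theorem s52bP6c14_map (f : R →+* S) (c4 c6 : R) :
    f (s52bP6c14 c4 c6) = s52bP6c14 (f c4) (f c6) := by
  simp only [s52bP6c14, map_add, map_mul, map_pow, map_neg, map_sub, map_ofNat, map_one]

theorem s52bP6c15_map (f : R →+* S) (c4 c6 : R) :
    f (s52bP6c15 c4 c6) = s52bP6c15 (f c4) (f c6) := by
  simp only [s52bP6c15, map_add, map_mul, map_pow, map_neg, map_sub, map_ofNat, map_one]

theorem s52bP6c16_map (f : R →+* S) (c4 c6 : R) :
    f (s52bP6c16 c4 c6) = s52bP6c16 (f c4) (f c6) := by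
  simp only [s52bP6c16, map_add, map_mul, map_pow, map_neg, map_sub, map_ofNat, map_one]

theorem s52bP6c17_map (f : R →+* S) (c4 c6 : R) :
    f (s52bP6c17 c4 c6) = s52bP6c17 (f c4) (f c6) := by
  simp only [s52bP6c17, map_add, map_mul, map_pow, map_neg, map_sub, map_ofNat, map_one]

theorem s52bP6c18_map (f : R →+* S) (c4 c6 : R) :
    f (s52bP6c18 c4 c6) = s52bP6c18 (f c4) (f c6) := by
  simp only [s52bP6c18, map_add, map_mul, map_pow, map_neg, map_sub, map_ofNat, map_one]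

theorem s52bP6c19_map (f : R →+* S) (c4 c6 : R) :
    f (s52bP6c19 c4 c6) = s52bP6c19 (f c4) (f c6) := by
  simp only [s52bP6c19, map_add, map_mul, map_pow, map_neg, map_sub, map_ofNat, map_one]

theorem s52bP6c20_map (f : R →+* S) (c4 c6 : R) :
    f (s52bP6c20 c4 c6) = s52bP6c20 (f c4) (f c6) := by
  simp only [s52bP6c20, map_add, map_mul, map_pow, map_neg, map_sub, map_ofNat, map_one]

theorem s52bP6c21_map (f : R →+* S) (c4 c6 : R) :
    f (s52bP6c21 c4 c6) = s52bP6c21 (f c4) (f c6) := by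
  simp only [s52bP6c21, map_add, map_mul, map_pow, map_neg, map_sub, map_ofNat, map_one]

theorem s52bP6c22_map (f : R →+* S) (c4 c6 : R) :
    f (s52bP6c22 c4 c6) = s52bP6c22 (f c4) (f c6) := by
  simp only [s52bP6c22, map_add, map_mul, map_pow, map_neg, map_sub, map_ofNat, map_one]

theorem s52bP6c23_map (f : R →+* S) (c4 c6 : R) :
    f (s52bP6c23 c4 c6) = s52bP6c23 (f c4) (f c6) := by
  simp only [s52bP6c23, map_add, map_mul, map_pow, map_neg, map_sub, map_ofNat, map_one]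

theorem s52bP6c24_map (f : R →+* S) (c4 c6 : R) :
    f (s52bP6c24 c4 c6) = s52bP6c24 (f c4) (f c6) := by
  simp only [s52bP6c24, map_add, map_mul, map_pow, map_neg, map_sub, map_ofNat, map_one]

theorem s52bP6c25_map (f : R →+* S) (c4 c6 : R) :
    f (s52bP6c25 c4 c6) = s52bP6c25 (f c4) (f c6) := by
  simp only [s52bP6c25, map_add, map_mul, map_pow, map_neg, map_sub, map_ofNat, map_one]

theorem s52bP6c26_map (f : R →+* S) (c4 c6 : R) :
    f (s52bP6c26 c4 c6) = s52bP6c26 (f c4) (f c6) := by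
  simp only [s52bP6c26, map_add, map_mul, map_pow, map_neg, map_sub, map_ofNat, map_one]

theorem s52bP6c27_map (f : R →+* S) (c4 c6 : R) :
    f (s52bP6c27 c4 c6) = s52bP6c27 (f c4) (f c6) := by
  simp only [s52bP6c27, map_add, map_mul, map_pow, map_neg, map_sub, map_ofNat, map_one]

theorem s52bP6c28_map (f : R →+* S) (c4 c6 : R) :
    f (s52bP6c28 c4 c6) = s52bP6c28 (f c4) (f c6) := by
  simp only [s52bP6c28, map_add, map_mul, map_pow, map_neg, map_sub, map_ofNat, map_one]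

theorem s52bP6c29_map (f : R →+* S) (c4 c6 : R) :
    f (s52bP6c29 c4 c6) = s52bP6c29 (f c4) (f c6) := by
  simp only [s52bP6c29, map_add, map_mul, map_pow, map_neg, map_sub, map_ofNat, map_one]

theorem s52bP6c30_map (f : R →+* S) (c4 c6 : R) :
    f (s52bP6c30 c4 c6) = s52bP6c30 (f c4) (f c6) := by
  simp only [s52bP6c30, map_add, map_mul, map_pow, map_neg, map_sub, map_ofNat, map_one]

/-- `s52bP4` commutes with ring homomorphisms -/
theorem s52bP4_map (f : R →+* S) (c4 c6 t : R) :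
    f (s52bP4 c4 c6 t) = s52bP4 (f c4) (f c6) (f t) := by
  simp only [s52bP4, map_add, map_mul, map_pow, s52bP4c0_map, s52bP4c1_map, s52bP4c2_map, s52bP4c3_map, s52bP4c4_map, s52bP4c5_map, s52bP4c6_map, s52bP4c7_map, s52bP4c8_map, s52bP4c9_map, s52bP4c10_map, s52bP4c11_map, s52bP4c12_map, s52bP4c13_map, s52bP4c14_map, s52bP4c15_map, s52bP4c16_map, s52bP4c17_map, s52bP4c18_map, s52bP4c19_map, s52bP4c20_map]

/-- `s52bP6` commutes with ring homomorphisms -/
theorem s52bP6_map (f : R →+* S) (c4 c6 t : R) :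
    f (s52bP6 c4 c6 t) = s52bP6 (f c4) (f c6) (f t) := by
  simp only [s52bP6, map_add, map_mul, map_pow, s52bP6c0_map, s52bP6c1_map, s52bP6c2_map, s52bP6c3_map, s52bP6c4_map, s52bP6c5_map, s52bP6c6_map, s52bP6c7_map, s52bP6c8_map, s52bP6c9_map, s52bP6c10_map, s52bP6c11_map, s52bP6c12_map, s52bP6c13_map, s52bP6c14_map, s52bP6c15_map, s52bP6c16_map, s52bP6c17_map, s52bP6c18_map, s52bP6c19_map, s52bP6c20_map, s52bP6c21_map, s52bP6c22_map, s52bP6c23_map, s52bP6c24_map, s52bP6c25_map, s52bP6c26_map, s52bP6c27_map, s52bP6c28_map, s52bP6c29_map, s52bP6c30_map]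

/-- integer casts -/
theorem s52bP4_intCast (c4 c6 t : ℤ) :
    ((s52bP4 c4 c6 t : ℤ) : R) = s52bP4 (c4 : R) (c6 : R) (t : R) :=
  s52bP4_map (Int.castRingHom R) c4 c6 t

theorem s52bP6_intCast (c4 c6 t : ℤ) :
    ((s52bP6 c4 c6 t : ℤ) : R) = s52bP6 (c4 : R) (c6 : R) (t : R) :=
  s52bP6_map (Int.castRingHom R) c4 c6 t

end LineMap

end Fermat.Agent.S52
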