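/-
S52 (b) (helper7): **integral models with prescribed invariants close to a given model**.

* `s52b_exists_model`: if `c4' ≡ c₄(W)`, `c6' ≡ c₆(W)` modulo `10368 m` there is an integral model
  `W'` with the same `a₁, a₂, a₃`, with `a₄, a₆` congruent modulo `m` and with invariants
  `c4', c6'`;
* congruent models have the same reduction, the same `a_p`, the same reduction type at `p ∣ m`.
-/
import Mathlib
import Fermat.Prelude.Def_FLTPrelim_Modularity
import Fermat.Prelude.Def_FLTPrelim_ModularRep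
import Fermat.Agent.Lib.X015.VariableChangePoint

set_option autoImplicit false

namespace Fermat.Agent.S52

open WeierstrassCurve

/-- models which agree modulo `m` coefficientwise -/
def S52bCong (m : ℤ) (W W' : WeierstrassCurve ℤ) : Prop :=
  m ∣ W'.a₁ - W.a₁ ∧ m ∣ W'.a₂ - W.a₂ ∧ m ∣ W'.a₃ - W.a₃ ∧ m ∣ W'.a₄ - W.a₄ ∧ m ∣ W'.a₆ - W.a₆

/-- **(b1)** an integral model with prescribed invariants close to those of `W` -/
theorem s52b_exists_model (W : WeierstrassCurve ℤ) (m c4' c6' : ℤ)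
    (h4 : 10368 * m ∣ c4' - W.c₄) (h6 : 10368 * m ∣ c6' - W.c₆) :
    ∃ W' : WeierstrassCurve ℤ, W'.a₁ = W.a₁ ∧ W'.a₂ = W.a₂ ∧ W'.a₃ = W.a₃ ∧
      m ∣ W'.a₄ - W.a₄ ∧ m ∣ W'.a₆ - W.a₆ ∧ W'.c₄ = c4' ∧ W'.c₆ = c6' := by
  obtain ⟨u, hu⟩ := h4
  obtain ⟨v, hv⟩ := h6
  refine ⟨⟨W.a₁, W.a₂, W.a₃, W.a₄ - 216 * m * u, W.a₆ - 18 * W.b₂ * m * u - 12 * m * v⟩,
    rfl, rfl, rfl, ⟨-216 * u, by ring⟩, ⟨-18 * W.b₂ * u - 12 * v, by ring⟩, ?_, ?_⟩
  · have h : c4' = W.c₄ + 10368 * m * u := by linarith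
    rw [h]
    simp only [WeierstrassCurve.c₄, WeierstrassCurve.b₂, WeierstrassCurve.b₄]
    ring
  · have h : c6' = W.c₆ + 10368 * m * v := by linarith
    rw [h]
    simp only [WeierstrassCurve.c₆, WeierstrassCurve.b₂, WeierstrassCurve.b₄,
      WeierstrassCurve.b₆]
    ring

theorem s52b_exists_model_cong (W : WeierstrassCurve ℤ) (m c4' c6' : ℤ)
    (h4 : 10368 * m ∣ c4' - W.c₄) (h6 : 10368 * m ∣ c6' - W.c₆) :
    ∃ W' : WeierstrassCurve ℤ, S52bCong m W W' ∧ W'.c₄ = c4' ∧ W'.c₆ = c6' := by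
  obtain ⟨W', h1, h2, h3, h4', h6', hc4, hc6⟩ := s52b_exists_model W m c4' c6' h4 h6
  refine ⟨W', ⟨?_, ?_, ?_, h4', h6'⟩, hc4, hc6⟩
  · rw [h1, sub_self]; exact dvd_zero _
  · rw [h2, sub_self]; exact dvd_zero _
  · rw [h3, sub_self]; exact dvd_zero _

/-- the discriminant of a model with given invariants -/
theorem s52b_disc (W : WeierstrassCurve ℤ) : 1728 * W.Δ = W.c₄ ^ 3 - W.c₆ ^ 2 := W.c_relation

/-! ### Congruent models -/

section Cong

variable {m : ℤ} {W W' : WeierstrassCurve ℤ}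

theorem S52bCong.mono {m' : ℤ} (h : S52bCong m W W') (hm : m' ∣ m) : S52bCong m' W W' :=
  ⟨hm.trans h.1, hm.trans h.2.1, hm.trans h.2.2.1, hm.trans h.2.2.2.1, hm.trans h.2.2.2.2⟩

/-- congruent models have the same reduction -/
theorem S52bCong.reductionMod_eq (h : S52bCong m W W') {p : ℕ} (hp : (p : ℤ) ∣ m) :
    W'.reductionMod p = W.reductionMod p := by
  obtain ⟨h1, h2, h3, h4, h6⟩ := h.mono hp
  have key : ∀ a b : ℤ, (p : ℤ) ∣ a - b → ((a : ℤ) : ZMod p) = ((b : ℤ) : ZMod p) := by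
    intro a b hab
    exact (ZMod.intCast_eq_intCast_iff_dvd_sub b a p).mpr hab |>.symm
  unfold WeierstrassCurve.reductionMod
  ext
  · exact key _ _ h1
  · exact key _ _ h2
  · exact key _ _ h3
  · exact key _ _ h4
  · exact key _ _ h6

theorem S52bCong.apOfModel_eq (h : S52bCong m W W') {p : ℕ} (hp : (p : ℤ) ∣ m) :
    W'.apOfModel p = W.apOfModel p := by
  unfold WeierstrassCurve.apOfModel
  rw [h.reductionMod_eq hp]

/-- polynomial expressions in the coefficients are congruent -/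
theorem S52bCong.b₂ (h : S52bCong m W W') : m ∣ W'.b₂ - W.b₂ := by
  obtain ⟨⟨k1, h1⟩, ⟨k2, h2⟩, -, -, -⟩ := h
  refine ⟨k1 * (W'.a₁ + W.a₁) + 4 * k2, ?_⟩
  simp only [WeierstrassCurve.b₂]
  linear_combination (W'.a₁ + W.a₁) * h1 + 4 * h2

theorem S52bCong.b₄ (h : S52bCong m W W') : m ∣ W'.b₄ - W.b₄ := by
  obtain ⟨⟨k1, h1⟩, -, ⟨k3, h3⟩, ⟨k4, h4⟩, -⟩ := h
  refine ⟨2 * k4 + k1 * W'.a₃ + W.a₁ * k3, ?_⟩
  simp only [WeierstrassCurve.b₄]
  linear_combination 2 * h4 + W'.a₃ * h1 + W.a₁ * h3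

theorem S52bCong.b₆ (h : S52bCong m W W') : m ∣ W'.b₆ - W.b₆ := by
  obtain ⟨-, -, ⟨k3, h3⟩, -, ⟨k6, h6⟩⟩ := h
  refine ⟨k3 * (W'.a₃ + W.a₃) + 4 * k6, ?_⟩
  simp only [WeierstrassCurve.b₆]
  linear_combination (W'.a₃ + W.a₃) * h3 + 4 * h6

theorem S52bCong.c₄ (h : S52bCong m W W') : m ∣ W'.c₄ - W.c₄ := by
  obtain ⟨k2, h2⟩ := h.b₂
  obtain ⟨k4, h4⟩ := h.b₄
  refine ⟨k2 * (W'.b₂ + W.b₂) - 24 * k4, ?_⟩
  simp only [WeierstrassCurve.c₄]
  linear_combination (W'.b₂ + W.b₂) * h2 - 24 * h4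

theorem S52bCong.dvd_Δ_iff (h : S52bCong m W W') {p : ℕ} (hp : (p : ℤ) ∣ m) :
    (p : ℤ) ∣ W'.Δ ↔ (p : ℤ) ∣ W.Δ := by
  have h1 := congrArg WeierstrassCurve.Δ (h.reductionMod_eq hp)
  unfold WeierstrassCurve.reductionMod at h1
  rw [WeierstrassCurve.map_Δ, WeierstrassCurve.map_Δ, eq_intCast, eq_intCast] at h1
  rw [← ZMod.intCast_zmod_eq_zero_iff_dvd, ← ZMod.intCast_zmod_eq_zero_iff_dvd, h1]

theorem S52bCong.dvd_c₄_iff (h : S52bCong m W W') {p : ℕ} (hp : (p : ℤ) ∣ m) :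
    (p : ℤ) ∣ W'.c₄ ↔ (p : ℤ) ∣ W.c₄ := by
  have h1 := congrArg WeierstrassCurve.c₄ (h.reductionMod_eq hp)
  unfold WeierstrassCurve.reductionMod at h1
  rw [WeierstrassCurve.map_c₄, WeierstrassCurve.map_c₄, eq_intCast, eq_intCast] at h1
  rw [← ZMod.intCast_zmod_eq_zero_iff_dvd, ← ZMod.intCast_zmod_eq_zero_iff_dvd, h1]

theorem S52bCong.isGoodPrimeFor_iff (h : S52bCong m W W') {p : ℕ} (hp : (p : ℤ) ∣ m) :
    W'.IsGoodPrimeFor p ↔ W.IsGoodPrimeFor p := by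
  unfold WeierstrassCurve.IsGoodPrimeFor
  rw [h.dvd_Δ_iff hp]

/-- **(b3)** semistability: inherited at the primes dividing `m`, to be checked elsewhere -/
theorem S52bCong.isSemistableModel (h : S52bCong m W W') (hW : W.IsSemistableModel)
    (hout : ∀ p : ℕ, p.Prime → ¬ (p : ℤ) ∣ m → (p : ℤ) ∣ W'.Δ → ¬ (p : ℤ) ∣ W'.c₄) :
    W'.IsSemistableModel := by
  intro p hp hΔ
  by_cases hpm : (p : ℤ) ∣ m
  · rw [h.dvd_c₄_iff hpm]
    exact hW p hp ((h.dvd_Δ_iff hpm).mp hΔ)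
  · exact hout p hp hpm hΔ

end Cong

/-! ### The short model `y² = x³ - 27 c₄ x - 54 c₆` -/

section Short

/-- the change of variables to the short model -/
noncomputable def s52bShortVC (E : WeierstrassCurve ℚ) : WeierstrassCurve.VariableChange ℚ where
  u := Units.mk0 (1 / 6) (by norm_num)
  r := -E.b₂ / 12
  s := -E.a₁ / 2
  t := -(E.a₁ * (-E.b₂ / 12) + E.a₃) / 2

/-- the short model with invariants `c4, c6` -/
def s52bShort (c4 c6 : ℚ) : WeierstrassCurve ℚ := ⟨0, 0, 0, -27 * c4, -54 * c6⟩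

theorem s52b_short (E : WeierstrassCurve ℚ) : s52bShortVC E • E = s52bShort E.c₄ E.c₆ := by
  unfold s52bShort
  ext
  · simp only [WeierstrassCurve.variableChange_a₁, s52bShortVC, Units.val_inv_eq_inv_val,
      Units.val_mk0]
    ring
  · simp only [WeierstrassCurve.variableChange_a₂, s52bShortVC, Units.val_inv_eq_inv_val,
      Units.val_mk0, WeierstrassCurve.b₂]
    ring
  · simp only [WeierstrassCurve.variableChange_a₃, s52bShortVC, Units.val_inv_eq_inv_val,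
      Units.val_mk0]
    ring
  · simp only [WeierstrassCurve.variableChange_a₄, s52bShortVC, Units.val_inv_eq_inv_val,
      Units.val_mk0, WeierstrassCurve.c₄, WeierstrassCurve.b₂, WeierstrassCurve.b₄]
    ring
  · simp only [WeierstrassCurve.variableChange_a₆, s52bShortVC, Units.val_inv_eq_inv_val,
      Units.val_mk0, WeierstrassCurve.c₆, WeierstrassCurve.b₂, WeierstrassCurve.b₄,
      WeierstrassCurve.b₆]
    ring

theorem s52bShort_c₄ (c4 c6 : ℚ) : (s52bShort c4 c6).c₄ = 1296 * c4 := by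
  simp only [s52bShort, WeierstrassCurve.c₄, WeierstrassCurve.b₂, WeierstrassCurve.b₄]
  ring

theorem s52bShort_c₆ (c4 c6 : ℚ) : (s52bShort c4 c6).c₆ = 46656 * c6 := by
  simp only [s52bShort, WeierstrassCurve.c₆, WeierstrassCurve.b₂, WeierstrassCurve.b₄,
    WeierstrassCurve.b₆]
  ring

/-- irreducibility of the mod `n` representation can be checked on the short model -/
theorem s52b_irr_iff_short (W : WeierstrassCurve ℤ) (n : ℕ) :
    W.ModRepIsIrreducible n ↔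
      WeierstrassCurve.Affine.Point.GaloisRepIsIrreducible (K := AlgebraicClosure ℚ) ℚ
        (s52bShort (W.c₄ : ℚ) (W.c₆ : ℚ)).toAffine n := by
  unfold WeierstrassCurve.ModRepIsIrreducible
  have h := Fermat.Agent.X015.galoisRepIsIrreducible_variableChange_iff
    (K := AlgebraicClosure ℚ) (W.map (Int.castRingHom ℚ))
    (s52bShortVC (W.map (Int.castRingHom ℚ))) n
  rw [s52b_short, WeierstrassCurve.map_c₄, WeierstrassCurve.map_c₆, eq_intCast, eq_intCast] at h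
  exact h.symm

end Short

end Fermat.Agent.S52
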