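/-
S52 (b-final) (helper7): **the semistable integral models along the Rubin–Silverberg line.**

For a semistable `W`, a base point `w₀ = (a₀, b₀)` with `(c₄, c₆)(w₀) = (c₄, c₆)(W)` and
`t ∈ 10368 · m · ℤ` (`m` divisible by `2, 3, 5` and by all primes of `Δ(W)`): there is an
integral model `W'` congruent to `W` modulo `m` with
`(c₄, c₆)(W') = (c₄, c₆)(w₀ + t ŵ₀) = (s52bP4 c₄ c₆ t, s52bP6 c₄ c₆ t)`, and `W'` is semistable.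
-/
import Mathlib
import Fermat.Agent.Lib.S52.ModelGen
import Fermat.Agent.Lib.S52.NoCommon
import Fermat.Agent.Lib.S52.LineMap

set_option autoImplicit false

namespace Fermat.Agent.S52

open WeierstrassCurve

local notation "Qb" => AlgebraicClosure ℚ

section Family

variable {K : Type*} [Field K] [CharZero K]

/-- the Klein discriminant form at a base point of `W` -/
theorem s52b_D_pow_of_base (W : WeierstrassCurve ℤ) (a0 b0 : K)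
    (h4 : s52bC4 a0 b0 = (W.c₄ : K)) (h6 : s52bC6 a0 b0 = (W.c₆ : K)) :
    s52bD a0 b0 ^ 5 = (W.Δ : K) := by
  have h1 := s52b_klein_rel a0 b0
  rw [h4, h6] at h1
  have h2 : ((1728 * W.Δ : ℤ) : K) = ((W.c₄ ^ 3 - W.c₆ ^ 2 : ℤ) : K) := by
    rw [W.c_relation]
  push_cast at h2
  have h1728 : (1728 : K) ≠ 0 := by norm_num
  apply mul_left_cancel₀ h1728
  rw [← h1, h2]

omit [CharZero K] in
/-- `c₄` of the point `w₀ + t ŵ₀` for an integer `t` -/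
theorem s52b_line4_int (c4 c6 : ℤ) (a0 b0 : K)
    (h4 : s52bC4 a0 b0 = (c4 : K)) (h6 : s52bC6 a0 b0 = (c6 : K)) (t : ℤ) :
    s52bC4 (a0 + (t : K) * s52bDb a0 b0) (b0 - (t : K) * s52bDa a0 b0)
      = ((s52bP4 c4 c6 t : ℤ) : K) := by
  rw [s52b_line4, h4, h6, s52bP4_intCast]

omit [CharZero K] in
/-- `c₆` of the point `w₀ + t ŵ₀` for an integer `t` -/
theorem s52b_line6_int (c4 c6 : ℤ) (a0 b0 : K)
    (h4 : s52bC4 a0 b0 = (c4 : K)) (h6 : s52bC6 a0 b0 = (c6 : K)) (t : ℤ) :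
    s52bC6 (a0 + (t : K) * s52bDb a0 b0) (b0 - (t : K) * s52bDa a0 b0)
      = ((s52bP6 c4 c6 t : ℤ) : K) := by
  rw [s52b_line6, h4, h6, s52bP6_intCast]

/-- **(b-final)**, general form -/
theorem s52b_family_model (W : WeierstrassCurve ℤ) (hW : W.IsSemistableModel) (a0 b0 : K)
    (h4 : s52bC4 a0 b0 = (W.c₄ : K)) (h6 : s52bC6 a0 b0 = (W.c₆ : K))
    (m : ℤ) (h2 : (2 : ℤ) ∣ m) (h3 : (3 : ℤ) ∣ m) (h5 : (5 : ℤ) ∣ m)
    (hmΔ : ∀ p : ℕ, p.Prime → (p : ℤ) ∣ W.Δ → (p : ℤ) ∣ m)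
    (t : ℤ) (ht : 10368 * m ∣ t) :
    ∃ W' : WeierstrassCurve ℤ, S52bCong m W W' ∧ W'.c₄ = s52bP4 W.c₄ W.c₆ t ∧
      W'.c₆ = s52bP6 W.c₄ W.c₆ t ∧ W'.IsSemistableModel := by
  obtain ⟨W', hc, h4', h6'⟩ := s52b_exists_model_cong W m (s52bP4 W.c₄ W.c₆ t)
    (s52bP6 W.c₄ W.c₆ t) (dvd_trans ht (s52bP4_dvd _ _ _)) (dvd_trans ht (s52bP6_dvd _ _ _))
  refine ⟨W', hc, h4', h6', hc.isSemistableModel hW ?_⟩
  intro p hp hpm hΔ' hc4'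
  have hp2 : p ≠ 2 := by
    rintro rfl
    exact hpm (by exact_mod_cast h2)
  have hp3 : p ≠ 3 := by
    rintro rfl
    exact hpm (by exact_mod_cast h3)
  have hp5 : p ≠ 5 := by
    rintro rfl
    exact hpm (by exact_mod_cast h5)
  have hpΔ : ¬ (p : ℤ) ∣ W.Δ := fun h => hpm (hmΔ p hp h)
  have hD := s52b_D_pow_of_base W a0 b0 h4 h6
  have e4 : s52bC4 (a0 + (t : K) * s52bDb a0 b0) (b0 - (t : K) * s52bDa a0 b0)
      = ((W'.c₄ : ℤ) : K) := by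
    rw [h4']
    exact s52b_line4_int W.c₄ W.c₆ a0 b0 h4 h6 t
  have e6 : s52bC6 (a0 + (t : K) * s52bDb a0 b0) (b0 - (t : K) * s52bDa a0 b0)
      = ((W'.c₆ : ℤ) : K) := by
    rw [h6']
    exact s52b_line6_int W.c₄ W.c₆ a0 b0 h4 h6 t
  have hD' := s52b_D_pow_of_base W' _ _ e4 e6
  exact s52b_no_common_prime hp hp2 hp3 hp5 a0 b0 t W.c₄ W.Δ W'.c₄ W'.Δ h4 hD hpΔ e4 hD'
    ⟨hc4', hΔ'⟩

/-- the primes of `Δ` divide `30 Δ` -/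
theorem s52b_final_aux (W : WeierstrassCurve ℤ) (a0 b0 : K) (hW : W.IsSemistableModel)
    (h4 : s52bC4 a0 b0 = (W.c₄ : K)) (h6 : s52bC6 a0 b0 = (W.c₆ : K)) (t : ℤ)
    (ht : 10368 * (30 * W.Δ) ∣ t) :
    ∃ W' : WeierstrassCurve ℤ, S52bCong (30 * W.Δ) W W' ∧ W'.c₄ = s52bP4 W.c₄ W.c₆ t ∧
      W'.c₆ = s52bP6 W.c₄ W.c₆ t ∧ W'.IsSemistableModel :=
  s52b_family_model W hW a0 b0 h4 h6 (30 * W.Δ) ⟨15 * W.Δ, by ring⟩ ⟨10 * W.Δ, by ring⟩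
    ⟨6 * W.Δ, by ring⟩ (fun _ _ h => Dvd.dvd.mul_left h 30) t ht

end Family

/-- **(b-final)** in the literal shape of the S52 assembly (msg 1083) -/
theorem s52b_final (W : WeierstrassCurve ℤ) (hΔ : W.Δ ≠ 0) (hW : W.IsSemistableModel)
    (a0 b0 : Qb) (h4 : s52bC4 a0 b0 = (W.c₄ : Qb)) (h6 : s52bC6 a0 b0 = (W.c₆ : Qb)) (t : ℤ)
    (ht : 10368 * (30 * W.Δ) ∣ t) :
    ∃ W' : WeierstrassCurve ℤ, S52bCong (30 * W.Δ) W W' ∧ W'.c₄ = s52bP4 W.c₄ W.c₆ t ∧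
      W'.c₆ = s52bP6 W.c₄ W.c₆ t ∧ (W'.Δ ≠ 0 → W'.IsSemistableModel) := by
  have _ := hΔ
  obtain ⟨W', h1, h2, h3, h4'⟩ := s52b_final_aux W a0 b0 hW h4 h6 t ht
  exact ⟨W', h1, h2, h3, fun _ => h4'⟩

/-- the casts used by the selection package: `(c₄, c₆)(W')` are the Klein forms at
`w₀ + t ŵ₀` -/
theorem s52b_final_casts (W W' : WeierstrassCurve ℤ) (a0 b0 : Qb)
    (h4 : s52bC4 a0 b0 = (W.c₄ : Qb)) (h6 : s52bC6 a0 b0 = (W.c₆ : Qb)) (t : ℤ)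
    (h4' : W'.c₄ = s52bP4 W.c₄ W.c₆ t) (h6' : W'.c₆ = s52bP6 W.c₄ W.c₆ t) :
    (W'.c₄ : Qb) = s52bC4 (a0 + (t : Qb) * s52bDb a0 b0) (b0 - (t : Qb) * s52bDa a0 b0) ∧
    (W'.c₆ : Qb) = s52bC6 (a0 + (t : Qb) * s52bDb a0 b0) (b0 - (t : Qb) * s52bDa a0 b0) := by
  rw [h4', h6']
  exact ⟨(s52b_line4_int W.c₄ W.c₆ a0 b0 h4 h6 t).symm,
    (s52b_line6_int W.c₄ W.c₆ a0 b0 h4 h6 t).symm⟩

end Fermat.Agent.S52
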