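/-
S52 package (a), specialisation principle (helper5), part 1: **the place `t = τ` of `K(t)`**.

* `s52sPlace τ` : the valuation subring of `RatFunc K` of the functions regular at `τ`;
* `s52sEv τ` : evaluation at `τ`, a local ring homomorphism `↥(s52sPlace τ) →+* K`;
* `s52sResEquiv τ` : the residue field of the place is `K`.
-/
import Mathlib

set_option autoImplicit false

namespace Fermat.Agent.S52

open Polynomial

section Place

variable {K : Type*} [Field K] (τ : K)

theorem s52s_denom_neg_dvd (f : RatFunc K) : (-f).denom ∣ f.denom := by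
  have h : -f = (algebraMap K[X] (RatFunc K) (-1)) * f := by
    rw [map_neg, map_one, neg_one_mul]
  have h2 := RatFunc.denom_mul_dvd (algebraMap K[X] (RatFunc K) (-1)) f
  rw [RatFunc.denom_algebraMap, one_mul, ← h] at h2
  exact h2

/-- the functions regular at `τ` -/
noncomputable def s52sPlace : ValuationSubring (RatFunc K) where
  carrier := {f | f.denom.eval τ ≠ 0}
  mul_mem' := by
    intro f g hf hg
    simp only [Set.mem_ofPred_eq] at hf hg ⊢
    intro h
    have := eval_eq_zero_of_dvd_of_eval_eq_zero (RatFunc.denom_mul_dvd f g) h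
    rw [eval_mul] at this
    rcases mul_eq_zero.mp this with h1 | h1
    · exact hf h1
    · exact hg h1
  one_mem' := by
    simp only [Set.mem_ofPred_eq, RatFunc.denom_one, eval_one]
    exact one_ne_zero
  add_mem' := by
    intro f g hf hg
    simp only [Set.mem_ofPred_eq] at hf hg ⊢
    intro h
    have := eval_eq_zero_of_dvd_of_eval_eq_zero (RatFunc.denom_add_dvd f g) h
    rw [eval_mul] at this
    rcases mul_eq_zero.mp this with h1 | h1
    · exact hf h1
    · exact hg h1
  zero_mem' := by
    simp only [Set.mem_ofPred_eq, RatFunc.denom_zero, eval_one]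
    exact one_ne_zero
  neg_mem' := by
    intro f hf
    simp only [Set.mem_ofPred_eq] at hf ⊢
    intro h
    exact hf (eval_eq_zero_of_dvd_of_eval_eq_zero (s52s_denom_neg_dvd f) h)
  mem_or_inv_mem' := by
    intro f
    by_cases hf : f = 0
    · left
      subst hf
      simp only [Set.mem_ofPred_eq, RatFunc.denom_zero, eval_one]
      exact one_ne_zero
    · by_contra hcon
      push Not at hcon
      obtain ⟨h1, h2⟩ := hcon
      simp only [Set.mem_ofPred_eq, not_not] at h1 h2
      have h3 : f.num.eval τ = 0 :=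
        eval_eq_zero_of_dvd_of_eval_eq_zero (RatFunc.denom_inv_dvd hf) h2
      obtain ⟨a, b, hab⟩ := RatFunc.isCoprime_num_denom f
      have := congrArg (Polynomial.eval τ) hab
      rw [eval_add, eval_mul, eval_mul, h1, h3, mul_zero, mul_zero, add_zero, eval_one] at this
      exact zero_ne_one this

theorem s52s_mem_place {f : RatFunc K} : f ∈ s52sPlace τ ↔ f.denom.eval τ ≠ 0 := Iff.rfl

theorem s52s_algebraMap_mem (p : K[X]) : algebraMap K[X] (RatFunc K) p ∈ s52sPlace τ := by
  rw [s52s_mem_place, RatFunc.denom_algebraMap, eval_one]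
  exact one_ne_zero

theorem s52s_C_mem (c : K) : RatFunc.C c ∈ s52sPlace τ := by
  rw [s52s_mem_place, RatFunc.denom_C, eval_one]
  exact one_ne_zero

theorem s52s_e2 {f : RatFunc K} (hf : f ∈ s52sPlace τ) :
    Polynomial.eval₂ (RingHom.id K) τ f.denom ≠ 0 := by
  rw [Polynomial.eval₂_id]
  exact hf

/-- evaluation at `τ` -/
noncomputable def s52sEv : ↥(s52sPlace τ) →+* K where
  toFun f := RatFunc.eval (RingHom.id K) τ (f : RatFunc K)
  map_one' := RatFunc.eval_one _ _
  map_mul' f g := RatFunc.eval_mul (RingHom.id K) τ (s52s_e2 τ f.2) (s52s_e2 τ g.2)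
  map_zero' := RatFunc.eval_zero _ _
  map_add' f g := RatFunc.eval_add (RingHom.id K) τ (s52s_e2 τ f.2) (s52s_e2 τ g.2)

theorem s52sEv_apply (f : ↥(s52sPlace τ)) :
    s52sEv τ f = (f : RatFunc K).num.eval τ / (f : RatFunc K).denom.eval τ := by
  show RatFunc.eval (RingHom.id K) τ (f : RatFunc K) = _
  rw [RatFunc.eval, Polynomial.eval₂_id, Polynomial.eval₂_id]

theorem s52sEv_algebraMap (p : K[X]) :
    s52sEv τ ⟨algebraMap K[X] (RatFunc K) p, s52s_algebraMap_mem τ p⟩ = p.eval τ := by
  rw [s52sEv_apply]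
  simp only [RatFunc.num_algebraMap, RatFunc.denom_algebraMap, eval_one, div_one]

theorem s52sEv_C (c : K) : s52sEv τ ⟨RatFunc.C c, s52s_C_mem τ c⟩ = c := by
  rw [s52sEv_apply]
  simp only [RatFunc.num_C, RatFunc.denom_C, eval_one, div_one, eval_C]

theorem s52sEv_surjective : Function.Surjective (s52sEv τ) := fun c => ⟨_, s52sEv_C τ c⟩

/-- a function not vanishing at `τ` is a unit of the place -/
theorem s52s_isUnit_of_ev_ne_zero {f : ↥(s52sPlace τ)} (h : s52sEv τ f ≠ 0) : IsUnit f := by
  have hf0 : (f : RatFunc K) ≠ 0 := by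
    intro h0
    apply h
    have : f = 0 := Subtype.ext h0
    rw [this, map_zero]
  have hnum : (f : RatFunc K).num.eval τ ≠ 0 := by
    intro h0
    apply h
    rw [s52sEv_apply, h0, zero_div]
  have hinv : (f : RatFunc K)⁻¹ ∈ s52sPlace τ := by
    rw [s52s_mem_place]
    intro h0
    exact hnum (eval_eq_zero_of_dvd_of_eval_eq_zero (RatFunc.denom_inv_dvd hf0) h0)
  refine IsUnit.of_mul_eq_one (⟨(f : RatFunc K)⁻¹, hinv⟩ : ↥(s52sPlace τ)) ?_
  apply Subtype.ext
  show (f : RatFunc K) * (f : RatFunc K)⁻¹ = 1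
  exact mul_inv_cancel₀ hf0

instance s52sEv_isLocalHom : IsLocalHom (s52sEv τ) where
  map_nonunit _ hf := s52s_isUnit_of_ev_ne_zero τ hf.ne_zero

/-- the residue field of the place `t = τ` maps to `K` -/
noncomputable def s52sResLift : IsLocalRing.ResidueField ↥(s52sPlace τ) →+* K :=
  IsLocalRing.ResidueField.lift (s52sEv τ)

theorem s52sResLift_residue (f : ↥(s52sPlace τ)) :
    s52sResLift τ (IsLocalRing.residue ↥(s52sPlace τ) f) = s52sEv τ f :=
  IsLocalRing.ResidueField.lift_residue_apply (s52sEv τ) f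

theorem s52sResLift_comp :
    (s52sResLift τ).comp (IsLocalRing.residue ↥(s52sPlace τ)) = s52sEv τ :=
  RingHom.ext fun f => s52sResLift_residue τ f

theorem s52sResLift_injective : Function.Injective (s52sResLift τ) :=
  (s52sResLift τ).injective

theorem s52sResLift_bijective : Function.Bijective (s52sResLift τ) :=
  ⟨s52sResLift_injective τ, fun c =>
    ⟨IsLocalRing.residue _ ⟨RatFunc.C c, s52s_C_mem τ c⟩, by
      rw [s52sResLift_residue, s52sEv_C]⟩⟩

/-- the ring homomorphism `K[X] → ↥(s52sPlace τ)` -/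
noncomputable def s52sPolyToPlace : K[X] →+* ↥(s52sPlace τ) :=
  (algebraMap K[X] (RatFunc K)).codRestrict (s52sPlace τ).toSubring (s52s_algebraMap_mem τ)

theorem s52sPolyToPlace_coe (p : K[X]) :
    ((s52sPolyToPlace τ p : ↥(s52sPlace τ)) : RatFunc K) = algebraMap K[X] (RatFunc K) p := rfl

theorem s52s_subtype_comp :
    ((s52sPlace τ).subtype).comp (s52sPolyToPlace τ) = algebraMap K[X] (RatFunc K) :=
  RingHom.ext fun _ => rfl

theorem s52sEv_polyToPlace (p : K[X]) : s52sEv τ (s52sPolyToPlace τ p) = p.eval τ :=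
  s52sEv_algebraMap τ p

theorem s52sEv_comp : (s52sEv τ).comp (s52sPolyToPlace τ) = Polynomial.evalRingHom τ :=
  RingHom.ext fun p => s52sEv_polyToPlace τ p

theorem s52s_isUnit_polyToPlace {p : K[X]} (hp : p.eval τ ≠ 0) : IsUnit (s52sPolyToPlace τ p) :=
  s52s_isUnit_of_ev_ne_zero τ (by rw [s52sEv_polyToPlace]; exact hp)

/-- natural numbers invertible in `K` are units of the place -/
theorem s52s_isUnit_natCast {n : ℕ} (hn : (n : K) ≠ 0) : IsUnit ((n : ℕ) : ↥(s52sPlace τ)) :=
  s52s_isUnit_of_ev_ne_zero τ (by rw [map_natCast]; exact hn)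

end Place

end Fermat.Agent.S52
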