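/-
S52 package (a), specialisation principle (helper5), part 2: **reduction of torsion points of the
generic fibre at the place `t = τ`**.

`𝓔` a Weierstrass curve over `K[X]`, `τ : K` with `Δ_𝓔(τ) ≠ 0`, `n` invertible in `K`:
* `s52sPtMap φ h` : transport of points along a ring homomorphism of fields (flexible target);
* `s52sRedK 𝓔 τ hτ hn : 𝓔_{K(t)}(K(t))[n] →+ 𝓔_τ(K)` : the reduction map, an injective group
  homomorphism, given on points by evaluating the coordinates at `τ` (`s52sRedK_some`).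
-/
import Mathlib
import Fermat.Agent.Lib.S52.SpecPlace
import Fermat.Agent.Lib.ET.Reduction

set_option autoImplicit false
set_option linter.style.haveILetI false

namespace Fermat.Agent.S52

open Polynomial WeierstrassCurve Fermat.Agent.ET

section PtMap

variable {F K : Type*} [Field F] [Field K] [DecidableEq F] [DecidableEq K]

/-- transport of points along a ring homomorphism of fields, with a flexible target curve -/
noncomputable def s52sPtMap {W₁ : Affine F} {W₂ : Affine K} (φ : F →+* K)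
    (h : W₁.map φ = W₂) : W₁.Point →+ W₂.Point where
  toFun P := match P with
    | 0 => 0
    | .some x y hxy => .some (φ x) (φ y) (by
        subst h
        exact (Affine.map_nonsingular W₁ φ.injective x y).mpr hxy)
  map_zero' := rfl
  map_add' := by
    subst h
    rintro (_ | ⟨x₁, y₁, h₁⟩) (_ | ⟨x₂, y₂, h₂⟩)
    any_goals rfl
    by_cases hxy : x₁ = x₂ ∧ y₁ = W₁.negY x₂ y₂
    · rw [Affine.Point.add_of_Y_eq hxy.left hxy.right,
        Affine.Point.add_of_Y_eq (congr_arg _ hxy.left) <| by rw [hxy.right, Affine.map_negY]]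
    · have hne : ¬(φ x₁ = φ x₂ ∧ φ y₁ = (W₁.map φ).toAffine.negY (φ x₂) (φ y₂)) := by
        rintro ⟨e1, e2⟩
        rw [Affine.map_negY] at e2
        exact hxy ⟨φ.injective e1, φ.injective e2⟩
      rw [Affine.Point.add_some hxy]
      refine (Affine.Point.add_some hne).symm ▸ ?_
      simp only [Affine.map_addX, Affine.map_addY, Affine.map_slope]

theorem s52sPtMap_zero {W₁ : Affine F} {W₂ : Affine K} (φ : F →+* K) (h : W₁.map φ = W₂) :
    s52sPtMap φ h (0 : W₁.Point) = 0 := rfl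

theorem s52sPtMap_some {W₁ : Affine F} {W₂ : Affine K} (φ : F →+* K) (h : W₁.map φ = W₂)
    {x y : F} (hxy : W₁.Nonsingular x y) (hxy' : W₂.Nonsingular (φ x) (φ y)) :
    s52sPtMap φ h (.some x y hxy) = .some (φ x) (φ y) hxy' := rfl

theorem s52sPtMap_injective {W₁ : Affine F} {W₂ : Affine K} (φ : F →+* K)
    (h : W₁.map φ = W₂) : Function.Injective (s52sPtMap φ h) := by
  rintro (_ | ⟨x₁, y₁, h₁⟩) (_ | ⟨x₂, y₂, h₂⟩) hPQ
  · rfl
  · exact absurd hPQ (by intro h'; cases h')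
  · exact absurd hPQ (by intro h'; cases h')
  · have := Affine.Point.some.inj hPQ
    congr 1
    · exact φ.injective this.1
    · exact φ.injective this.2

end PtMap

section Red

variable {K : Type*} [Field K] (𝓔 : WeierstrassCurve K[X]) (τ : K)

/-- the model over the place `t = τ` -/
noncomputable abbrev s52sModel : WeierstrassCurve ↥(s52sPlace τ) := 𝓔.map (s52sPolyToPlace τ)

/-- the generic fibre over `K(t)` -/
noncomputable abbrev s52sGen : WeierstrassCurve (RatFunc K) :=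
  𝓔.map (algebraMap K[X] (RatFunc K))

/-- the fibre at `t = τ` -/
noncomputable abbrev s52sFibK : WeierstrassCurve K := 𝓔.map (Polynomial.evalRingHom τ)

theorem s52s_model_subtype : (s52sModel 𝓔 τ).map (s52sPlace τ).subtype = s52sGen 𝓔 := by
  rw [s52sModel, s52sGen, WeierstrassCurve.map_map, s52s_subtype_comp]

theorem s52s_model_isElliptic (hτ : 𝓔.Δ.eval τ ≠ 0) : (s52sModel 𝓔 τ).IsElliptic := by
  refine ⟨?_⟩
  rw [WeierstrassCurve.map_Δ]
  exact s52s_isUnit_polyToPlace τ hτ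

theorem s52s_model_res :
    ((s52sModel 𝓔 τ).map (IsLocalRing.residue ↥(s52sPlace τ))).map (s52sResLift τ) =
      s52sFibK 𝓔 τ := by
  rw [s52sModel, s52sFibK, WeierstrassCurve.map_map, WeierstrassCurve.map_map,
    s52sResLift_comp, s52sEv_comp]

variable [DecidableEq K] [DecidableEq (RatFunc K)] {Wτ : Affine K}

open Classical in
/-- **the reduction map** at `t = τ` on the `n`-torsion of the generic fibre; the fibre `Wτ` is
given separately with an equality to `𝓔.map (evalRingHom τ)`, so that applications need no casts -/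
noncomputable def s52sRedK (hfib : s52sFibK 𝓔 τ = Wτ) (hτ : 𝓔.Δ.eval τ ≠ 0) {n : ℕ}
    (hn : (n : K) ≠ 0) :
    ↥(Submodule.torsionBy ℤ (s52sGen 𝓔).toAffine.Point (n : ℤ)) →+ Wτ.Point :=
  haveI := s52s_model_isElliptic 𝓔 τ hτ
  (s52sPtMap (s52sResLift τ) ((s52s_model_res 𝓔 τ).trans hfib)).comp
    (etgRed (s52sPlace τ) (s52sModel 𝓔 τ) (s52s_model_subtype 𝓔 τ) rfl
      (s52s_isUnit_natCast τ hn))

theorem s52sRedK_injective (hfib : s52sFibK 𝓔 τ = Wτ) (hτ : 𝓔.Δ.eval τ ≠ 0) {n : ℕ}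
    (hn : (n : K) ≠ 0) : Function.Injective (s52sRedK 𝓔 τ hfib hτ hn) := by
  classical
  haveI := s52s_model_isElliptic 𝓔 τ hτ
  intro P Q hPQ
  have h1 := s52sPtMap_injective (s52sResLift τ) ((s52s_model_res 𝓔 τ).trans hfib) hPQ
  exact etgRed_injective (s52sPlace τ) (s52sModel 𝓔 τ) (s52s_model_subtype 𝓔 τ) rfl
    (s52s_isUnit_natCast τ hn) h1

omit [DecidableEq K] in
/-- torsion points of the generic fibre are regular at `τ` -/
theorem s52s_integral (hτ : 𝓔.Δ.eval τ ≠ 0) {n : ℕ} (hn : (n : K) ≠ 0) {x y : RatFunc K}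
    (h : (s52sGen 𝓔).toAffine.Nonsingular x y)
    (hP : n • (Affine.Point.some x y h) = 0) : x ∈ s52sPlace τ ∧ y ∈ s52sPlace τ := by
  haveI := s52s_model_isElliptic 𝓔 τ hτ
  exact etg_integral_of_eq (s52sPlace τ) (s52sModel 𝓔 τ) (s52s_model_subtype 𝓔 τ)
    (s52s_isUnit_natCast τ hn) h hP

omit [DecidableEq K] [DecidableEq (RatFunc K)] in
/-- the reduction of a regular point is a point of the fibre -/
theorem s52s_nonsingular_ev (hfib : s52sFibK 𝓔 τ = Wτ) (hτ : 𝓔.Δ.eval τ ≠ 0)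
    {x y : ↥(s52sPlace τ)}
    (h : (s52sGen 𝓔).toAffine.Nonsingular (x : RatFunc K) (y : RatFunc K)) :
    Wτ.Nonsingular (s52sEv τ x) (s52sEv τ y) := by
  subst hfib
  haveI := s52s_model_isElliptic 𝓔 τ hτ
  have h1 := etg_nonsingular_res_of_eq (s52sPlace τ) (s52sModel 𝓔 τ) (s52s_model_subtype 𝓔 τ)
    rfl h
  have h2 : (((s52sModel 𝓔 τ).map (IsLocalRing.residue ↥(s52sPlace τ))).map
      (s52sResLift τ)).toAffine.Nonsingular
      (s52sResLift τ (IsLocalRing.residue ↥(s52sPlace τ) x))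
      (s52sResLift τ (IsLocalRing.residue ↥(s52sPlace τ) y)) :=
    (Affine.map_nonsingular _ (s52sResLift_injective τ) _ _).mpr h1
  rw [s52s_model_res, s52sResLift_residue, s52sResLift_residue] at h2
  exact h2

/-- **the reduction map evaluates the coordinates at `τ`** -/
theorem s52sRedK_some (hfib : s52sFibK 𝓔 τ = Wτ) (hτ : 𝓔.Δ.eval τ ≠ 0) {n : ℕ}
    (hn : (n : K) ≠ 0) {x y : RatFunc K}
    (h : (s52sGen 𝓔).toAffine.Nonsingular x y)
    (hP : Affine.Point.some x y h ∈ Submodule.torsionBy ℤ (s52sGen 𝓔).toAffine.Point (n : ℤ))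
    (hx : x ∈ s52sPlace τ) (hy : y ∈ s52sPlace τ)
    (h' : Wτ.Nonsingular (s52sEv τ ⟨x, hx⟩) (s52sEv τ ⟨y, hy⟩)) :
    s52sRedK 𝓔 τ hfib hτ hn ⟨Affine.Point.some x y h, hP⟩ = Affine.Point.some _ _ h' := by
  classical
  subst hfib
  haveI := s52s_model_isElliptic 𝓔 τ hτ
  have h1 := etg_nonsingular_res_of_eq (s52sPlace τ) (s52sModel 𝓔 τ) (s52s_model_subtype 𝓔 τ)
    rfl (x := ⟨x, hx⟩) (y := ⟨y, hy⟩) h
  show s52sPtMap (s52sResLift τ) ((s52s_model_res 𝓔 τ).trans rfl)
    (etgRed (s52sPlace τ) (s52sModel 𝓔 τ) (s52s_model_subtype 𝓔 τ) rfl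
      (s52s_isUnit_natCast τ hn) ⟨Affine.Point.some x y h, hP⟩) = _
  rw [etgRed_apply]
  show s52sPtMap (s52sResLift τ) ((s52s_model_res 𝓔 τ).trans rfl)
    (etgRedFun (s52sPlace τ) _ _ (Affine.Point.some x y h)) = _
  rw [etgRedFun_some_of_mem (s52sPlace τ) h hx hy h1]
  have h2 : (s52sFibK 𝓔 τ).toAffine.Nonsingular
      (s52sResLift τ (IsLocalRing.residue ↥(s52sPlace τ) ⟨x, hx⟩))
      (s52sResLift τ (IsLocalRing.residue ↥(s52sPlace τ) ⟨y, hy⟩)) := by
    rw [s52sResLift_residue, s52sResLift_residue]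
    exact h'
  rw [s52sPtMap_some _ _ h1 h2]
  obtain ⟨_, e⟩ := etg_some_congr (s52sResLift_residue τ _) (s52sResLift_residue τ _) h2
  exact e

/-- the reduction of a torsion point, with the automatic regularity of its coordinates -/
theorem s52sRedK_some' (hfib : s52sFibK 𝓔 τ = Wτ) (hτ : 𝓔.Δ.eval τ ≠ 0) {n : ℕ}
    (hn : (n : K) ≠ 0) {x y : RatFunc K}
    (h : (s52sGen 𝓔).toAffine.Nonsingular x y)
    (hP : Affine.Point.some x y h ∈ Submodule.torsionBy ℤ (s52sGen 𝓔).toAffine.Point (n : ℤ)) :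
    ∃ (hx : x ∈ s52sPlace τ) (hy : y ∈ s52sPlace τ)
      (h' : Wτ.Nonsingular (s52sEv τ ⟨x, hx⟩) (s52sEv τ ⟨y, hy⟩)),
      s52sRedK 𝓔 τ hfib hτ hn ⟨Affine.Point.some x y h, hP⟩ = Affine.Point.some _ _ h' := by
  have hP' : n • (Affine.Point.some x y h) = 0 := by
    have := (Submodule.mem_torsionBy_iff _ _).mp hP
    rwa [natCast_zsmul] at this
  obtain ⟨hx, hy⟩ := s52s_integral 𝓔 τ hτ hn h hP'
  have h' := s52s_nonsingular_ev 𝓔 τ hfib hτ (x := ⟨x, hx⟩) (y := ⟨y, hy⟩) h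
  exact ⟨hx, hy, h', s52sRedK_some 𝓔 τ hfib hτ hn h hP hx hy h'⟩

theorem s52sRedK_zero (hfib : s52sFibK 𝓔 τ = Wτ) (hτ : 𝓔.Δ.eval τ ≠ 0) {n : ℕ}
    (hn : (n : K) ≠ 0) : s52sRedK 𝓔 τ hfib hτ hn 0 = 0 := map_zero _

end Red

end Fermat.Agent.S52
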