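/-
S52 package (a), specialisation principle (helper5), part 3: **the coefficientwise Galois action on
`ℚ̄(t)` and its compatibility with the reduction at a rational place `t = τ`**.

* `s52sSig σ` : the automorphism of `RatFunc K` induced by an automorphism `σ` of `K`;
  it preserves the place `t = τ` when `σ τ = τ`, and evaluation at `τ` intertwines it with `σ`;
* for a family `𝓔ℚ` over `ℚ[X]`: `s52sFam 𝓔ℚ` (the family over `ℚ̄[X]`), `s52sSigPt 𝓔ℚ σ` (the action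
  of `σ ∈ G_ℚ` on the points of the generic fibre over `ℚ̄(t)`), `s52sRed 𝓔ℚ τ hτ hn` (the reduction
  `𝓔(ℚ̄(t))[n] →+ E_τ(ℚ̄)`, with target the Prelude's `(E_τ⁄ℚ̄).Point`), and
  `s52sRed_sig : red_τ (σ̃ R) = σ • red_τ R`.
-/
import Mathlib
import Fermat.Agent.Lib.S52.SpecRed
import Fermat.Prelude.Def_FLTPrelim_GaloisRep

set_option autoImplicit false
set_option linter.style.haveILetI false

namespace Fermat.Agent.S52

open Polynomial WeierstrassCurve Fermat.Agent.ET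
open scoped WeierstrassCurve.Affine

section Sig

variable {K : Type*} [Field K] (σ : K ≃+* K)

/-- the coefficientwise action of an automorphism of `K` on `K(t)` -/
noncomputable def s52sSig : RatFunc K ≃+* RatFunc K :=
  IsFractionRing.ringEquivOfRingEquiv (Polynomial.mapEquiv σ)

theorem s52sSig_algebraMap (p : K[X]) :
    s52sSig σ (algebraMap K[X] (RatFunc K) p) = algebraMap K[X] (RatFunc K) (p.map (σ : K →+* K)) := by
  rw [s52sSig, IsFractionRing.ringEquivOfRingEquiv_algebraMap, Polynomial.mapEquiv_apply]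

theorem s52sSig_comp :
    ((s52sSig σ : RatFunc K ≃+* RatFunc K) : RatFunc K →+* RatFunc K).comp
      (algebraMap K[X] (RatFunc K)) =
      (algebraMap K[X] (RatFunc K)).comp (Polynomial.mapRingHom (σ : K →+* K)) :=
  RingHom.ext fun p => s52sSig_algebraMap σ p

theorem s52s_eval_map_fixed {τ : K} (hτ : σ τ = τ) (p : K[X]) :
    (p.map (σ : K →+* K)).eval τ = σ (p.eval τ) := by
  conv_lhs => rw [← hτ]
  rw [Polynomial.eval_map]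
  exact Polynomial.eval₂_at_apply (σ : K →+* K) τ

theorem s52sSig_eq_div (f : RatFunc K) :
    s52sSig σ f = algebraMap K[X] (RatFunc K) (f.num.map (σ : K →+* K)) /
      algebraMap K[X] (RatFunc K) (f.denom.map (σ : K →+* K)) := by
  conv_lhs => rw [← RatFunc.num_div_denom f]
  rw [map_div₀, s52sSig_algebraMap, s52sSig_algebraMap]

theorem s52sSig_mem {τ : K} (hτ : σ τ = τ) {f : RatFunc K} (hf : f ∈ s52sPlace τ) :
    s52sSig σ f ∈ s52sPlace τ := by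
  rw [s52s_mem_place] at hf ⊢
  rw [s52sSig_eq_div]
  intro h
  have h1 := eval_eq_zero_of_dvd_of_eval_eq_zero (RatFunc.denom_div_dvd _ _) h
  rw [s52s_eval_map_fixed σ hτ] at h1
  exact hf ((map_eq_zero_iff σ σ.injective).mp h1)

theorem s52sEv_sig {τ : K} (hτ : σ τ = τ) {f : RatFunc K} (hf : f ∈ s52sPlace τ) :
    s52sEv τ ⟨s52sSig σ f, s52sSig_mem σ hτ hf⟩ = σ (s52sEv τ ⟨f, hf⟩) := by
  have hd : (f.denom.map (σ : K →+* K)).eval τ ≠ 0 := by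
    rw [s52s_eval_map_fixed σ hτ]
    exact (map_ne_zero_iff σ σ.injective).mpr hf
  have hdF : algebraMap K[X] (RatFunc K) (f.denom.map (σ : K →+* K)) ≠ 0 := by
    intro h0
    apply hd
    have := (map_eq_zero_iff _ (IsFractionRing.injective K[X] (RatFunc K))).mp h0
    rw [this, eval_zero]
  -- `σ̃ f * denom^σ = num^σ` inside the place
  have hmul : (⟨s52sSig σ f, s52sSig_mem σ hτ hf⟩ : ↥(s52sPlace τ)) *
      s52sPolyToPlace τ (f.denom.map (σ : K →+* K)) =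
      s52sPolyToPlace τ (f.num.map (σ : K →+* K)) := by
    apply Subtype.ext
    show s52sSig σ f * algebraMap K[X] (RatFunc K) (f.denom.map (σ : K →+* K)) =
      algebraMap K[X] (RatFunc K) (f.num.map (σ : K →+* K))
    rw [s52sSig_eq_div, div_mul_cancel₀ _ hdF]
  have h2 := congrArg (s52sEv τ) hmul
  rw [map_mul, s52sEv_polyToPlace, s52sEv_polyToPlace, s52s_eval_map_fixed σ hτ,
    s52s_eval_map_fixed σ hτ] at h2
  rw [s52sEv_apply τ ⟨f, hf⟩, map_div₀]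
  rw [eq_div_iff ((map_ne_zero_iff σ σ.injective).mpr hf)]
  exact h2

end Sig

section Family

local notation "Qb" => AlgebraicClosure ℚ

variable (𝓔ℚ : WeierstrassCurve ℚ[X])

/-- the family over `ℚ̄[X]` -/
noncomputable abbrev s52sFam : WeierstrassCurve Qb[X] :=
  𝓔ℚ.map (Polynomial.mapRingHom (algebraMap ℚ Qb))

/-- the fibre over `ℚ` at a rational `τ` -/
noncomputable abbrev s52sFibQ (τ : ℚ) : WeierstrassCurve ℚ := 𝓔ℚ.map (Polynomial.evalRingHom τ)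

theorem s52s_mapRingHom_sig (σ : Qb ≃ₐ[ℚ] Qb) :
    (Polynomial.mapRingHom ((σ : Qb ≃+* Qb) : Qb →+* Qb)).comp
      (Polynomial.mapRingHom (algebraMap ℚ Qb)) = Polynomial.mapRingHom (algebraMap ℚ Qb) := by
  apply RingHom.ext
  intro p
  simp only [RingHom.coe_comp, Function.comp_apply, coe_mapRingHom, Polynomial.map_map]
  congr 1
  exact RingHom.ext fun q => σ.commutes q

/-- the generic fibre is stable under the coefficientwise Galois action -/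
theorem s52s_gen_sig (σ : Qb ≃ₐ[ℚ] Qb) :
    (s52sGen (s52sFam 𝓔ℚ)).map ((s52sSig (σ : Qb ≃+* Qb) : RatFunc Qb ≃+* RatFunc Qb) :
      RatFunc Qb →+* RatFunc Qb) = s52sGen (s52sFam 𝓔ℚ) := by
  rw [s52sGen, s52sFam, WeierstrassCurve.map_map, WeierstrassCurve.map_map, s52sSig_comp,
    RingHom.comp_assoc, s52s_mapRingHom_sig]
  rfl

theorem s52s_fib_eq (τ : ℚ) :
    s52sFibK (s52sFam 𝓔ℚ) (algebraMap ℚ Qb τ) = ((s52sFibQ 𝓔ℚ τ).toAffine⁄Qb) := by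
  show _ = (𝓔ℚ.map (Polynomial.evalRingHom τ)).map (algebraMap ℚ Qb)
  rw [s52sFibK, s52sFam, WeierstrassCurve.map_map, WeierstrassCurve.map_map]
  congr 1
  apply RingHom.ext
  intro p
  simp only [RingHom.coe_comp, Function.comp_apply, coe_evalRingHom, coe_mapRingHom,
    eval_map_algebraMap]
  exact (Polynomial.aeval_algebraMap_apply_eq_algebraMap_eval τ p)

theorem s52s_fam_Δ_ne (τ : ℚ) (hτ : 𝓔ℚ.Δ.eval τ ≠ 0) :
    (s52sFam 𝓔ℚ).Δ.eval (algebraMap ℚ Qb τ) ≠ 0 := by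
  rw [s52sFam, WeierstrassCurve.map_Δ, coe_mapRingHom, eval_map_algebraMap,
    Polynomial.aeval_algebraMap_apply_eq_algebraMap_eval]
  exact (map_ne_zero_iff _ (algebraMap ℚ Qb).injective).mpr hτ

variable [DecidableEq (RatFunc Qb)]

/-- the action of `σ ∈ G_ℚ` on the points of the generic fibre over `ℚ̄(t)` -/
noncomputable def s52sSigPt (σ : Qb ≃ₐ[ℚ] Qb) :
    (s52sGen (s52sFam 𝓔ℚ)).toAffine.Point →+ (s52sGen (s52sFam 𝓔ℚ)).toAffine.Point :=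
  s52sPtMap _ (s52s_gen_sig 𝓔ℚ σ)

theorem s52sSigPt_mem (σ : Qb ≃ₐ[ℚ] Qb) {n : ℕ}
    {R : (s52sGen (s52sFam 𝓔ℚ)).toAffine.Point}
    (hR : R ∈ Submodule.torsionBy ℤ (s52sGen (s52sFam 𝓔ℚ)).toAffine.Point (n : ℤ)) :
    s52sSigPt 𝓔ℚ σ R ∈ Submodule.torsionBy ℤ (s52sGen (s52sFam 𝓔ℚ)).toAffine.Point (n : ℤ) := by
  rw [Submodule.mem_torsionBy_iff] at hR ⊢
  rw [← map_zsmul, hR, map_zero]

/-- **the reduction** `𝓔(ℚ̄(t))[n] →+ E_τ(ℚ̄)` at a rational `τ` with `Δ(τ) ≠ 0` -/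
noncomputable def s52sRed (τ : ℚ) (hτ : 𝓔ℚ.Δ.eval τ ≠ 0) {n : ℕ} (hn : n ≠ 0) :
    ↥(Submodule.torsionBy ℤ (s52sGen (s52sFam 𝓔ℚ)).toAffine.Point (n : ℤ)) →+
      ((s52sFibQ 𝓔ℚ τ).toAffine⁄Qb).Point :=
  s52sRedK (s52sFam 𝓔ℚ) (algebraMap ℚ Qb τ) (s52s_fib_eq 𝓔ℚ τ) (s52s_fam_Δ_ne 𝓔ℚ τ hτ)
    (n := n) (Nat.cast_ne_zero.mpr hn)

theorem s52sRed_injective (τ : ℚ) (hτ : 𝓔ℚ.Δ.eval τ ≠ 0) {n : ℕ} (hn : n ≠ 0) :
    Function.Injective (s52sRed 𝓔ℚ τ hτ hn) :=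
  s52sRedK_injective _ _ _ _ _

/-- **Galois-equivariance of the reduction at a rational place** -/
theorem s52sRed_sig (τ : ℚ) (hτ : 𝓔ℚ.Δ.eval τ ≠ 0) {n : ℕ} (hn : n ≠ 0) (σ : Qb ≃ₐ[ℚ] Qb)
    (R : ↥(Submodule.torsionBy ℤ (s52sGen (s52sFam 𝓔ℚ)).toAffine.Point (n : ℤ))) :
    s52sRed 𝓔ℚ τ hτ hn ⟨s52sSigPt 𝓔ℚ σ R, s52sSigPt_mem 𝓔ℚ σ R.2⟩ =
      σ • s52sRed 𝓔ℚ τ hτ hn R := by
  obtain ⟨R, hR⟩ := R
  rcases R with _ | ⟨x, y, h⟩
  · have h0 : (⟨Affine.Point.zero, hR⟩ :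
        ↥(Submodule.torsionBy ℤ (s52sGen (s52sFam 𝓔ℚ)).toAffine.Point (n : ℤ))) = 0 := rfl
    have h1 : (⟨s52sSigPt 𝓔ℚ σ Affine.Point.zero, s52sSigPt_mem 𝓔ℚ σ hR⟩ :
        ↥(Submodule.torsionBy ℤ (s52sGen (s52sFam 𝓔ℚ)).toAffine.Point (n : ℤ))) = 0 := rfl
    rw [h1, h0, map_zero]
    rfl
  · have hfix : ((σ : Qb ≃+* Qb)) (algebraMap ℚ Qb τ) = algebraMap ℚ Qb τ := σ.commutes τ
    obtain ⟨hx, hy, h', e⟩ := s52sRedK_some' (s52sFam 𝓔ℚ) (algebraMap ℚ Qb τ) (s52s_fib_eq 𝓔ℚ τ)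
      (s52s_fam_Δ_ne 𝓔ℚ τ hτ) (n := n) (Nat.cast_ne_zero.mpr hn) h hR
    have hσh : (s52sGen (s52sFam 𝓔ℚ)).toAffine.Nonsingular (s52sSig (σ : Qb ≃+* Qb) x)
        (s52sSig (σ : Qb ≃+* Qb) y) := by
      have : ((s52sGen (s52sFam 𝓔ℚ)).map
          ((s52sSig (σ : Qb ≃+* Qb) : RatFunc Qb ≃+* RatFunc Qb) :
            RatFunc Qb →+* RatFunc Qb)).toAffine.Nonsingular
          (s52sSig (σ : Qb ≃+* Qb) x) (s52sSig (σ : Qb ≃+* Qb) y) :=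
        (Affine.map_nonsingular (s52sGen (s52sFam 𝓔ℚ)).toAffine
          (f := ((s52sSig (σ : Qb ≃+* Qb) : RatFunc Qb ≃+* RatFunc Qb) :
            RatFunc Qb →+* RatFunc Qb))
          (s52sSig (σ : Qb ≃+* Qb)).injective x y).mpr h
      rw [s52s_gen_sig] at this
      exact this
    have e1 : s52sSigPt 𝓔ℚ σ (Affine.Point.some x y h) = Affine.Point.some _ _ hσh := rfl
    have hmem := s52sSigPt_mem 𝓔ℚ σ hR
    have hx' := s52sSig_mem (σ : Qb ≃+* Qb) hfix hx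
    have hy' := s52sSig_mem (σ : Qb ≃+* Qb) hfix hy
    have h'' : ((s52sFibQ 𝓔ℚ τ).toAffine⁄Qb).Nonsingular
        (s52sEv (algebraMap ℚ Qb τ) ⟨s52sSig (σ : Qb ≃+* Qb) x, hx'⟩)
        (s52sEv (algebraMap ℚ Qb τ) ⟨s52sSig (σ : Qb ≃+* Qb) y, hy'⟩) :=
      s52s_nonsingular_ev (s52sFam 𝓔ℚ) (algebraMap ℚ Qb τ) (s52s_fib_eq 𝓔ℚ τ)
        (s52s_fam_Δ_ne 𝓔ℚ τ hτ) (x := ⟨_, hx'⟩) (y := ⟨_, hy'⟩) hσh
    have e2 : s52sRed 𝓔ℚ τ hτ hn ⟨s52sSigPt 𝓔ℚ σ (Affine.Point.some x y h), hmem⟩ =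
        Affine.Point.some _ _ h'' := by
      show s52sRedK (s52sFam 𝓔ℚ) (algebraMap ℚ Qb τ) (s52s_fib_eq 𝓔ℚ τ) (s52s_fam_Δ_ne 𝓔ℚ τ hτ)
        (n := n) (Nat.cast_ne_zero.mpr hn) ⟨Affine.Point.some _ _ hσh, _⟩ = _
      exact s52sRedK_some (s52sFam 𝓔ℚ) (algebraMap ℚ Qb τ) (s52s_fib_eq 𝓔ℚ τ)
        (s52s_fam_Δ_ne 𝓔ℚ τ hτ) (Nat.cast_ne_zero.mpr hn) hσh _ hx' hy' h''
    rw [e2]
    show _ = σ • s52sRedK (s52sFam 𝓔ℚ) (algebraMap ℚ Qb τ) (s52s_fib_eq 𝓔ℚ τ)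
      (s52s_fam_Δ_ne 𝓔ℚ τ hτ) (n := n) (Nat.cast_ne_zero.mpr hn) ⟨Affine.Point.some x y h, hR⟩
    rw [e]
    have h3 : ((s52sFibQ 𝓔ℚ τ).toAffine⁄Qb).Nonsingular
        (σ (s52sEv (algebraMap ℚ Qb τ) ⟨x, hx⟩)) (σ (s52sEv (algebraMap ℚ Qb τ) ⟨y, hy⟩)) :=
      ((s52sFibQ 𝓔ℚ τ).toAffine.baseChange_nonsingular σ.toAlgHom.injective ..).mpr h'
    have e3 : σ • (Affine.Point.some _ _ h' : ((s52sFibQ 𝓔ℚ τ).toAffine⁄Qb).Point) =
        Affine.Point.some _ _ h3 := rfl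
    rw [e3]
    obtain ⟨_, e4⟩ := etg_some_congr (s52sEv_sig (σ : Qb ≃+* Qb) hfix hx)
      (s52sEv_sig (σ : Qb ≃+* Qb) hfix hy) h''
    exact e4

end Family

end Fermat.Agent.S52
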