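/-
S52 package (a), specialisation principle (helper5), part 4: **the fibres of a family over `ℚ[t]` with
full generic `n`-torsion have isomorphic Galois modules `E_τ[n]`**.

`s52s_exists_equiv`: if the generic fibre of `𝓔ℚ` has at least `c` points of `n`-torsion over `ℚ̄(t)`
and the fibres at the rational `τ₀, τ₁` (with `Δ(τᵢ) ≠ 0`) have at most `c`, then there is a
`G_ℚ`-equivariant isomorphism `E_{τ₀}(ℚ̄)[n] ≃+ E_{τ₁}(ℚ̄)[n]`.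
-/
import Mathlib
import Fermat.Agent.Lib.S52.SpecGalois

set_option autoImplicit false
set_option linter.style.haveILetI false

namespace Fermat.Agent.S52

open Polynomial WeierstrassCurve Fermat.Agent.ET
open scoped WeierstrassCurve.Affine

local notation "Qb" => AlgebraicClosure ℚ

variable (𝓔ℚ : WeierstrassCurve ℚ[X]) [DecidableEq (RatFunc Qb)]

/-- the `n`-torsion of the generic fibre over `ℚ̄(t)` -/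
noncomputable abbrev S52sGenTors (n : ℕ) :=
  ↥(Submodule.torsionBy ℤ (s52sGen (s52sFam 𝓔ℚ)).toAffine.Point (n : ℤ))

/-- the `n`-torsion of the fibre at `τ` over `ℚ̄` (the Prelude's module) -/
noncomputable abbrev S52sFibTors (τ : ℚ) (n : ℕ) :=
  ↥(Submodule.torsionBy ℤ ((s52sFibQ 𝓔ℚ τ).toAffine⁄Qb).Point (n : ℤ))

/-- the Galois action on the generic torsion -/
noncomputable def s52sSigT (σ : Qb ≃ₐ[ℚ] Qb) {n : ℕ} (R : S52sGenTors 𝓔ℚ n) : S52sGenTors 𝓔ℚ n :=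
  ⟨s52sSigPt 𝓔ℚ σ R, s52sSigPt_mem 𝓔ℚ σ R.2⟩

theorem s52sRed_mem (τ : ℚ) (hτ : 𝓔ℚ.Δ.eval τ ≠ 0) {n : ℕ} (hn : n ≠ 0)
    (R : S52sGenTors 𝓔ℚ n) :
    s52sRed 𝓔ℚ τ hτ hn R ∈
      Submodule.torsionBy ℤ ((s52sFibQ 𝓔ℚ τ).toAffine⁄Qb).Point (n : ℤ) := by
  rw [Submodule.mem_torsionBy_iff, ← map_zsmul]
  have : ((n : ℤ) • R : S52sGenTors 𝓔ℚ n) = 0 := by
    apply Subtype.ext
    exact (Submodule.mem_torsionBy_iff _ _).mp R.2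
  rw [this, map_zero]

/-- the reduction map into the torsion of the fibre -/
noncomputable def s52sRedT (τ : ℚ) (hτ : 𝓔ℚ.Δ.eval τ ≠ 0) {n : ℕ} (hn : n ≠ 0) :
    S52sGenTors 𝓔ℚ n →+ S52sFibTors 𝓔ℚ τ n where
  toFun R := ⟨s52sRed 𝓔ℚ τ hτ hn R, s52sRed_mem 𝓔ℚ τ hτ hn R⟩
  map_zero' := Subtype.ext (map_zero _)
  map_add' R S := Subtype.ext (map_add _ R S)

theorem s52sRedT_coe (τ : ℚ) (hτ : 𝓔ℚ.Δ.eval τ ≠ 0) {n : ℕ} (hn : n ≠ 0)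
    (R : S52sGenTors 𝓔ℚ n) :
    ((s52sRedT 𝓔ℚ τ hτ hn R : S52sFibTors 𝓔ℚ τ n) : ((s52sFibQ 𝓔ℚ τ).toAffine⁄Qb).Point) =
      s52sRed 𝓔ℚ τ hτ hn R := rfl

theorem s52sRedT_injective (τ : ℚ) (hτ : 𝓔ℚ.Δ.eval τ ≠ 0) {n : ℕ} (hn : n ≠ 0) :
    Function.Injective (s52sRedT 𝓔ℚ τ hτ hn) := by
  intro R S h
  apply s52sRed_injective 𝓔ℚ τ hτ hn
  rw [← s52sRedT_coe, ← s52sRedT_coe, h]

/-- equivariance of the reduction into the torsion of the fibre -/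
theorem s52sRedT_sig (τ : ℚ) (hτ : 𝓔ℚ.Δ.eval τ ≠ 0) {n : ℕ} (hn : n ≠ 0) (σ : Qb ≃ₐ[ℚ] Qb)
    (R : S52sGenTors 𝓔ℚ n) :
    s52sRedT 𝓔ℚ τ hτ hn (s52sSigT 𝓔ℚ σ R) = σ • s52sRedT 𝓔ℚ τ hτ hn R := by
  apply Subtype.ext
  rw [s52sRedT_coe]
  exact s52sRed_sig 𝓔ℚ τ hτ hn σ R

/-- the reduction is bijective onto the torsion of the fibre as soon as the generic torsion is
large enough -/
theorem s52sRedT_bijective (τ : ℚ) (hτ : 𝓔ℚ.Δ.eval τ ≠ 0) {n : ℕ} (hn : n ≠ 0) (c : ℕ)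
    (hV : c ≤ Nat.card (S52sGenTors 𝓔ℚ n)) (hf : Finite (S52sFibTors 𝓔ℚ τ n))
    (hc : Nat.card (S52sFibTors 𝓔ℚ τ n) ≤ c) :
    Function.Bijective (s52sRedT 𝓔ℚ τ hτ hn) :=
  (s52sRedT_injective 𝓔ℚ τ hτ hn).bijective_of_nat_card_le (hc.trans hV)

/-- **the specialisation principle** -/
theorem s52s_exists_equiv (τ₀ τ₁ : ℚ) (h₀ : 𝓔ℚ.Δ.eval τ₀ ≠ 0) (h₁ : 𝓔ℚ.Δ.eval τ₁ ≠ 0) {n : ℕ}
    (hn : n ≠ 0) (c : ℕ) (hV : c ≤ Nat.card (S52sGenTors 𝓔ℚ n))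
    (hf₀ : Finite (S52sFibTors 𝓔ℚ τ₀ n)) (hc₀ : Nat.card (S52sFibTors 𝓔ℚ τ₀ n) ≤ c)
    (hf₁ : Finite (S52sFibTors 𝓔ℚ τ₁ n)) (hc₁ : Nat.card (S52sFibTors 𝓔ℚ τ₁ n) ≤ c) :
    ∃ e : S52sFibTors 𝓔ℚ τ₀ n ≃+ S52sFibTors 𝓔ℚ τ₁ n,
      ∀ (σ : Qb ≃ₐ[ℚ] Qb) (x : S52sFibTors 𝓔ℚ τ₀ n), e (σ • x) = σ • e x := by
  let e₀ := AddEquiv.ofBijective (s52sRedT 𝓔ℚ τ₀ h₀ hn)
    (s52sRedT_bijective 𝓔ℚ τ₀ h₀ hn c hV hf₀ hc₀)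
  let e₁ := AddEquiv.ofBijective (s52sRedT 𝓔ℚ τ₁ h₁ hn)
    (s52sRedT_bijective 𝓔ℚ τ₁ h₁ hn c hV hf₁ hc₁)
  refine ⟨e₀.symm.trans e₁, ?_⟩
  intro σ x
  obtain ⟨R, rfl⟩ := e₀.surjective x
  have h1 : σ • e₀ R = e₀ (s52sSigT 𝓔ℚ σ R) := (s52sRedT_sig 𝓔ℚ τ₀ h₀ hn σ R).symm
  rw [h1]
  simp only [AddEquiv.trans_apply, AddEquiv.symm_apply_apply]
  exact s52sRedT_sig 𝓔ℚ τ₁ h₁ hn σ R

end Fermat.Agent.S52
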