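/-
S52 package (a), specialisation principle (helper5), part 5: **from the family to the congruence of
the `a_ℓ`**.

* `s52s_equiv` : the specialisation principle with the torsion counts of the fibres filled in
  (`|E_τ(ℚ̄)[n]| = n²`): only `n² ≤ |𝓔(ℚ̄(t))[n]|` remains as a hypothesis;
* `s52s_trace_eq`, `s52s_ap_congr` : integral models `W`, `W'` with `G_ℚ`-isomorphic `n`-torsion have
  equal Frobenius traces modulo `n`; for `n = 5`: `5 ∣ a_ℓ(W') - a_ℓ(W)` at the common good `ℓ ≠ 5`;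
* `s52s_final` : two integral models `W`, `W'` that are `ℚ`-isomorphic to the fibres at `τ₀`, `τ₁` of
  a family over `ℚ[t]` with full generic `5`-torsion satisfy the last clause of S52.
-/
import Mathlib
import Fermat.Agent.Lib.S52.SpecMain
import Fermat.Agent.Lib.S58.ET
import Fermat.Agent.Lib.S58.Match
import Fermat.Agent.Lib.LR.E.Count
import Fermat.Agent.Lib.X015.VariableChangePoint
import Fermat.Agent.Lib.Helper6.FrobeniusExists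

set_option autoImplicit false
set_option linter.style.haveILetI false

namespace Fermat.Agent.S52

open Polynomial WeierstrassCurve Fermat.Agent.ET Fermat.Agent.S58
open scoped WeierstrassCurve.Affine

local notation "Qb" => AlgebraicClosure ℚ
local notation "GQ" => (AlgebraicClosure ℚ ≃ₐ[ℚ] AlgebraicClosure ℚ)

section Equiv

variable (𝓔ℚ : WeierstrassCurve ℚ[X]) [DecidableEq (RatFunc Qb)]

omit [DecidableEq (RatFunc Qb)] in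
theorem s52s_fibQ_Δ (τ : ℚ) : (s52sFibQ 𝓔ℚ τ).Δ = 𝓔ℚ.Δ.eval τ := by
  rw [s52sFibQ, WeierstrassCurve.map_Δ, coe_evalRingHom]

/-- **the specialisation principle**, with the torsion counts of the fibres filled in -/
theorem s52s_equiv (τ₀ τ₁ : ℚ) (h₀ : 𝓔ℚ.Δ.eval τ₀ ≠ 0) (h₁ : 𝓔ℚ.Δ.eval τ₁ ≠ 0) {n : ℕ}
    (hn : n ≠ 0) (hV : n ^ 2 ≤ Nat.card (S52sGenTors 𝓔ℚ n)) :
    ∃ e : S52sFibTors 𝓔ℚ τ₀ n ≃+ S52sFibTors 𝓔ℚ τ₁ n,
      ∀ (σ : GQ) (x : S52sFibTors 𝓔ℚ τ₀ n), e (σ • x) = σ • e x := by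
  have hc : ∀ τ : ℚ, 𝓔ℚ.Δ.eval τ ≠ 0 → Nat.card (S52sFibTors 𝓔ℚ τ n) = n ^ 2 := by
    intro τ hτ
    exact Fermat.Agent.LR.lre_natCard_torsionBy (s52sFibQ 𝓔ℚ τ)
      (by rw [s52s_fibQ_Δ]; exact hτ) (Nat.pos_of_ne_zero hn)
  have hf : ∀ τ : ℚ, 𝓔ℚ.Δ.eval τ ≠ 0 → Finite (S52sFibTors 𝓔ℚ τ n) := by
    intro τ hτ
    apply Nat.finite_of_card_ne_zero
    rw [hc τ hτ]
    exact pow_ne_zero 2 hn
  exact s52s_exists_equiv 𝓔ℚ τ₀ τ₁ h₀ h₁ hn (n ^ 2) hV (hf τ₀ h₀) (hc τ₀ h₀).le (hf τ₁ h₁)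
    (hc τ₁ h₁).le

end Equiv

section Transfer

/-- an equivariant isomorphism of the groups of points restricts to the `n`-torsion -/
theorem s52s_tors_equiv {E₁ E₂ : WeierstrassCurve ℚ}
    (φ : (E₁.toAffine⁄Qb).Point ≃+ (E₂.toAffine⁄Qb).Point)
    (hφ : ∀ (σ : GQ) (P : (E₁.toAffine⁄Qb).Point), φ (σ • P) = σ • φ P) (n : ℕ) :
    ∃ ψ : ↥(Submodule.torsionBy ℤ (E₁.toAffine⁄Qb).Point (n : ℤ)) ≃+
        ↥(Submodule.torsionBy ℤ (E₂.toAffine⁄Qb).Point (n : ℤ)),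
      ∀ (σ : GQ) (x : ↥(Submodule.torsionBy ℤ (E₁.toAffine⁄Qb).Point (n : ℤ))),
        ψ (σ • x) = σ • ψ x := by
  have hmem : ∀ x : Submodule.torsionBy ℤ (E₁.toAffine⁄Qb).Point (n : ℤ),
      φ (x : (E₁.toAffine⁄Qb).Point) ∈ Submodule.torsionBy ℤ (E₂.toAffine⁄Qb).Point (n : ℤ) := by
    intro x
    have hx := x.2
    rw [Submodule.mem_torsionBy_iff] at hx ⊢
    rw [← map_zsmul, hx, _root_.map_zero]
  have hmem' : ∀ y : Submodule.torsionBy ℤ (E₂.toAffine⁄Qb).Point (n : ℤ),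
      φ.symm (y : (E₂.toAffine⁄Qb).Point) ∈
        Submodule.torsionBy ℤ (E₁.toAffine⁄Qb).Point (n : ℤ) := by
    intro y
    have hy := y.2
    rw [Submodule.mem_torsionBy_iff] at hy ⊢
    rw [← map_zsmul, hy, _root_.map_zero]
  refine ⟨{ toFun := fun x => ⟨φ x, hmem x⟩
            invFun := fun y => ⟨φ.symm y, hmem' y⟩
            left_inv := fun x => Subtype.ext (φ.symm_apply_apply _)
            right_inv := fun y => Subtype.ext (φ.apply_symm_apply _)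
            map_add' := fun x y => Subtype.ext (map_add φ _ _) }, ?_⟩
  intro σ x
  apply Subtype.ext
  exact hφ σ x

/-- the torsion modules of `ℚ`-isomorphic curves are `G_ℚ`-isomorphic -/
theorem s52s_tors_equiv_vc (E₁ E₂ : WeierstrassCurve ℚ) (C : VariableChange ℚ) (h : C • E₁ = E₂)
    (n : ℕ) :
    ∃ ψ : ↥(Submodule.torsionBy ℤ (E₁.toAffine⁄Qb).Point (n : ℤ)) ≃+
        ↥(Submodule.torsionBy ℤ (E₂.toAffine⁄Qb).Point (n : ℤ)),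
      ∀ (σ : GQ) (x : ↥(Submodule.torsionBy ℤ (E₁.toAffine⁄Qb).Point (n : ℤ))),
        ψ (σ • x) = σ • ψ x := by
  subst h
  obtain ⟨φ, hφ⟩ := Fermat.Agent.X015.exists_galois_equivariant_equiv (K := Qb) E₁ C
  exact s52s_tors_equiv φ hφ n

end Transfer

section Trace

variable (W W' : WeierstrassCurve ℤ)

/-- integral models with `G_ℚ`-isomorphic `n`-torsion have equal traces -/
theorem s52s_trace_eq (n : ℕ) (e : S58Tors W n ≃+ S58Tors W' n)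
    (he : ∀ (σ : GQ) (x : S58Tors W n), e (σ • x) = σ • e x) (σ : GQ) :
    LinearMap.trace (ZMod n) (S58Tors W' n) (s58Gal W' n σ) =
      LinearMap.trace (ZMod n) (S58Tors W n) (s58Gal W n σ) := by
  let eL : S58Tors W n ≃ₗ[ZMod n] S58Tors W' n :=
    { e with
      map_smul' := fun c x => ZMod.map_smul e.toAddMonoidHom c x }
  have hconj : s58Gal W' n σ = eL.conj (s58Gal W n σ) := by
    apply LinearMap.ext
    intro y
    rw [LinearEquiv.conj_apply_apply]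
    show σ • y = eL (σ • (eL.symm y))
    have h1 : eL (σ • (eL.symm y)) = σ • eL (eL.symm y) := he σ (eL.symm y)
    rw [h1, LinearEquiv.apply_symm_apply]
  rw [hconj, LinearMap.trace_conj']

/-- **congruence of the `a_ℓ` modulo `5`** from a `G_ℚ`-isomorphism of the `5`-torsion -/
theorem s52s_ap_congr (hΔ : W.Δ ≠ 0) (hΔ' : W'.Δ ≠ 0) (e : S58Tors W 5 ≃+ S58Tors W' 5)
    (he : ∀ (σ : GQ) (x : S58Tors W 5), e (σ • x) = σ • e x) :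
    ∀ ℓ : ℕ, ℓ.Prime → W.IsGoodPrimeFor ℓ → W'.IsGoodPrimeFor ℓ → ℓ ≠ 5 →
      (5 : ℤ) ∣ (W'.apOfModel ℓ - W.apOfModel ℓ) := by
  intro ℓ hℓ hg hg' h5
  obtain ⟨A, σ, hA, hσ⟩ := Fermat.Agent.Lib.Helper6.exists_frobenius ℓ hℓ
  have p5 : Nat.Prime 5 := by norm_num
  obtain ⟨ht, -⟩ := s58_et W hΔ ℓ 5 1 5 hℓ hg p5 (Ne.symm h5) (by norm_num) A hA σ hσ
  obtain ⟨ht', -⟩ := s58_et W' hΔ' ℓ 5 1 5 hℓ hg' p5 (Ne.symm h5) (by norm_num) A hA σ hσ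
  have h := s52s_trace_eq W W' 5 e he σ
  rw [ht, ht'] at h
  have h2 := (ZMod.intCast_eq_intCast_iff_dvd_sub (W.apOfModel ℓ) (W'.apOfModel ℓ) 5).mp h.symm
  exact_mod_cast h2

end Trace

section Final

variable (W W' : WeierstrassCurve ℤ) (𝓔ℚ : WeierstrassCurve ℚ[X]) [DecidableEq (RatFunc Qb)]

omit [DecidableEq (RatFunc Qb)] in
theorem s52s_fib_Δ_ne_of_vc (hΔ : W.Δ ≠ 0) (τ : ℚ) (C : VariableChange ℚ)
    (h : C • (s58E W) = s52sFibQ 𝓔ℚ τ) : 𝓔ℚ.Δ.eval τ ≠ 0 := by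
  rw [← s52s_fibQ_Δ, ← h, WeierstrassCurve.variableChange_Δ]
  exact mul_ne_zero (pow_ne_zero 12 (Units.ne_zero _)) (s58m_Δ_ne_zero W hΔ)

/-- **the `n`-torsion modules of two integral models lying in one family with full generic
`n`-torsion are `G_ℚ`-isomorphic** -/
theorem s52s_models_equiv (hΔ : W.Δ ≠ 0) (hΔ' : W'.Δ ≠ 0) (τ₀ τ₁ : ℚ) (C₀ C₁ : VariableChange ℚ)
    (h₀ : C₀ • (s58E W) = s52sFibQ 𝓔ℚ τ₀) (h₁ : C₁ • (s58E W') = s52sFibQ 𝓔ℚ τ₁) {n : ℕ}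
    (hn : n ≠ 0) (hV : n ^ 2 ≤ Nat.card (S52sGenTors 𝓔ℚ n)) :
    ∃ e : S58Tors W n ≃+ S58Tors W' n,
      ∀ (σ : GQ) (x : S58Tors W n), e (σ • x) = σ • e x := by
  obtain ⟨ψ₀, hψ₀⟩ := s52s_tors_equiv_vc (s58E W) (s52sFibQ 𝓔ℚ τ₀) C₀ h₀ n
  obtain ⟨ψ₁, hψ₁⟩ := s52s_tors_equiv_vc (s58E W') (s52sFibQ 𝓔ℚ τ₁) C₁ h₁ n
  obtain ⟨e, he⟩ := s52s_equiv 𝓔ℚ τ₀ τ₁ (s52s_fib_Δ_ne_of_vc W 𝓔ℚ hΔ τ₀ C₀ h₀)
    (s52s_fib_Δ_ne_of_vc W' 𝓔ℚ hΔ' τ₁ C₁ h₁) hn hV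
  refine ⟨(ψ₀.trans e).trans ψ₁.symm, ?_⟩
  intro σ x
  simp only [AddEquiv.trans_apply]
  rw [hψ₀, he]
  apply ψ₁.injective
  rw [hψ₁, AddEquiv.apply_symm_apply, AddEquiv.apply_symm_apply]

/-- **the last clause of S52** for two integral models in one family with full generic
`5`-torsion -/
theorem s52s_final (hΔ : W.Δ ≠ 0) (hΔ' : W'.Δ ≠ 0) (τ₀ τ₁ : ℚ) (C₀ C₁ : VariableChange ℚ)
    (h₀ : C₀ • (s58E W) = s52sFibQ 𝓔ℚ τ₀) (h₁ : C₁ • (s58E W') = s52sFibQ 𝓔ℚ τ₁)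
    (hV : 25 ≤ Nat.card (S52sGenTors 𝓔ℚ 5)) :
    ∀ ℓ : ℕ, ℓ.Prime → W.IsGoodPrimeFor ℓ → W'.IsGoodPrimeFor ℓ → ℓ ≠ 5 →
      (5 : ℤ) ∣ (W'.apOfModel ℓ - W.apOfModel ℓ) := by
  obtain ⟨e, he⟩ := s52s_models_equiv W W' 𝓔ℚ hΔ hΔ' τ₀ τ₁ C₀ C₁ h₀ h₁ (n := 5) (by norm_num)
    (by norm_num; exact hV)
  exact s52s_ap_congr W W' hΔ hΔ' e he

end Final

end Fermat.Agent.S52
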