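/-
S52 package (H), helper5: **the generic `5`-torsion of the family — the parts that do not depend on
the explicit line identities and torsion points**.

* `s52h_exists_base` : the base point `w₀ ∈ ℚ̄²` over rational `(c4, c6)` with `c4³ ≠ c6²`;
* `s52h_card_of_indep` : two independent `5`-torsion points give `25 ≤ |G[5]|` (for finite `G[5]`);
* `s52hA`, `s52hB` : the line `w₀ + t ŵ₀` as a point of `ℚ̄(t)²`, with `D(w₀ + t ŵ₀) ≠ 0`;
* `s52h_finite_genTors` : the generic torsion of a family with one good rational fibre is finite;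
* `s52h_card_aux` : `25 ≤ |𝓔(ℚ̄(t))[5]|` for a family whose generic fibre is the universal curve at a
  point `(a, b)` of `ℚ̄(t)²` carrying two independent `5`-torsion points.
-/
import Mathlib
import Fermat.Agent.Lib.S52.SpecAp
import Fermat.Agent.Lib.S52.BasePoint

set_option autoImplicit false
set_option linter.style.haveILetI false

namespace Fermat.Agent.S52

open Polynomial WeierstrassCurve
open scoped WeierstrassCurve.Affine

local notation "Qb" => AlgebraicClosure ℚ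

/-- **the base point** over rational invariants -/
theorem s52h_exists_base (c4 c6 : ℚ) (h : c4 ^ 3 ≠ c6 ^ 2) :
    ∃ a b : Qb, s52bC4 a b = algebraMap ℚ Qb c4 ∧ s52bC6 a b = algebraMap ℚ Qb c6 := by
  apply s52i_exists_base
  rw [← map_pow, ← map_pow]
  exact fun h' => h ((algebraMap ℚ Qb).injective h')

/-- two independent `5`-torsion points span `25` points -/
theorem s52h_card_of_indep {G : Type*} [AddCommGroup G] (P Q : G) (hP : (5 : ℤ) • P = 0)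
    (hQ : (5 : ℤ) • Q = 0)
    (hind : ∀ k m : ℤ, k • P + m • Q = 0 → (5 : ℤ) ∣ k ∧ (5 : ℤ) ∣ m)
    (hfin : Finite ↥(Submodule.torsionBy ℤ G ((5 : ℕ) : ℤ))) :
    25 ≤ Nat.card ↥(Submodule.torsionBy ℤ G ((5 : ℕ) : ℤ)) := by
  have hmem : ∀ k m : ℤ, k • P + m • Q ∈ Submodule.torsionBy ℤ G ((5 : ℕ) : ℤ) := by
    intro k m
    rw [Submodule.mem_torsionBy_iff]
    push_cast
    rw [smul_add, smul_comm (5 : ℤ) k P, smul_comm (5 : ℤ) m Q, hP, hQ, smul_zero, smul_zero,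
      add_zero]
  let f : Fin 5 × Fin 5 → ↥(Submodule.torsionBy ℤ G ((5 : ℕ) : ℤ)) := fun km =>
    ⟨((km.1 : ℕ) : ℤ) • P + ((km.2 : ℕ) : ℤ) • Q, hmem _ _⟩
  have hf : Function.Injective f := by
    rintro ⟨k, m⟩ ⟨k', m'⟩ h
    have h1 : ((k : ℕ) : ℤ) • P + ((m : ℕ) : ℤ) • Q = ((k' : ℕ) : ℤ) • P + ((m' : ℕ) : ℤ) • Q :=
      congrArg Subtype.val h
    have h2 : (((k : ℕ) : ℤ) - ((k' : ℕ) : ℤ)) • P + (((m : ℕ) : ℤ) - ((m' : ℕ) : ℤ)) • Q = 0 := by
      rw [sub_smul, sub_smul]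
      have : ((k : ℕ) : ℤ) • P - ((k' : ℕ) : ℤ) • P + (((m : ℕ) : ℤ) • Q - ((m' : ℕ) : ℤ) • Q) =
          (((k : ℕ) : ℤ) • P + ((m : ℕ) : ℤ) • Q) - (((k' : ℕ) : ℤ) • P + ((m' : ℕ) : ℤ) • Q) := by
        abel
      rw [this, h1, sub_self]
    obtain ⟨d1, d2⟩ := hind _ _ h2
    have hk : (k : ℕ) = (k' : ℕ) := by
      have := k.2
      have := k'.2
      omega
    have hm : (m : ℕ) = (m' : ℕ) := by
      have := m.2
      have := m'.2
      omega
    exact Prod.ext (Fin.ext hk) (Fin.ext hm)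
  have := Nat.card_le_card_of_injective f hf
  simpa using this

section Line

variable (a0 b0 : Qb)

/-- the first coordinate of the line `w₀ + t ŵ₀`, as a polynomial -/
noncomputable def s52hPa : Qb[X] := C a0 + X * C (s52bDb a0 b0)

/-- the second coordinate of the line `w₀ + t ŵ₀`, as a polynomial -/
noncomputable def s52hPb : Qb[X] := C b0 - X * C (s52bDa a0 b0)

/-- the first coordinate of the line, in `ℚ̄(t)` -/
noncomputable def s52hA : RatFunc Qb := algebraMap Qb[X] (RatFunc Qb) (s52hPa a0 b0)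

/-- the second coordinate of the line, in `ℚ̄(t)` -/
noncomputable def s52hB : RatFunc Qb := algebraMap Qb[X] (RatFunc Qb) (s52hPb a0 b0)

theorem s52hPa_eval_zero : (s52hPa a0 b0).eval 0 = a0 := by
  simp [s52hPa]

theorem s52hPb_eval_zero : (s52hPb a0 b0).eval 0 = b0 := by
  simp [s52hPb]

/-- `D` does not vanish identically along the line -/
theorem s52h_D_ne (hD : s52bD a0 b0 ≠ 0) : s52bD (s52hA a0 b0) (s52hB a0 b0) ≠ 0 := by
  rw [s52hA, s52hB, ← s52bD_map]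
  intro h
  have h1 : s52bD (s52hPa a0 b0) (s52hPb a0 b0) = 0 :=
    (map_eq_zero_iff _ (IsFractionRing.injective Qb[X] (RatFunc Qb))).mp h
  have h2 := congrArg (Polynomial.evalRingHom (0 : Qb)) h1
  rw [s52bD_map, coe_evalRingHom, s52hPa_eval_zero, s52hPb_eval_zero, eval_zero] at h2
  exact hD h2

/-- the line in the form used by the line identities: `w₀ + t ŵ₀` with `t = X` -/
theorem s52hA_eq :
    s52hA a0 b0 = RatFunc.C a0 + RatFunc.X * s52bDb (RatFunc.C a0) (RatFunc.C b0) := by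
  rw [s52hA, s52hPa, ← s52bDb_map, map_add, map_mul, RatFunc.algebraMap_C, RatFunc.algebraMap_X,
    RatFunc.algebraMap_C]

theorem s52hB_eq :
    s52hB a0 b0 = RatFunc.C b0 - RatFunc.X * s52bDa (RatFunc.C a0) (RatFunc.C b0) := by
  rw [s52hB, s52hPb, ← s52bDa_map, map_sub, map_mul, RatFunc.algebraMap_C, RatFunc.algebraMap_X,
    RatFunc.algebraMap_C]

end Line

section Card

variable (𝓔ℚ : WeierstrassCurve ℚ[X]) [DecidableEq (RatFunc Qb)]

/-- the generic torsion of a family with one good rational fibre is finite -/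
theorem s52h_finite_genTors (τ : ℚ) (hτ : 𝓔ℚ.Δ.eval τ ≠ 0) {n : ℕ} (hn : n ≠ 0) :
    Finite (S52sGenTors 𝓔ℚ n) := by
  have hc : Nat.card (S52sFibTors 𝓔ℚ τ n) = n ^ 2 :=
    Fermat.Agent.LR.lre_natCard_torsionBy (s52sFibQ 𝓔ℚ τ)
      (by rw [s52s_fibQ_Δ]; exact hτ) (Nat.pos_of_ne_zero hn)
  haveI : Finite (S52sFibTors 𝓔ℚ τ n) := by
    apply Nat.finite_of_card_ne_zero
    rw [hc]
    exact pow_ne_zero 2 hn
  exact Finite.of_injective _ (s52sRedT_injective 𝓔ℚ τ hτ hn)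

/-- **`25 ≤ |𝓔(ℚ̄(t))[5]|`** for a family whose generic fibre carries two independent `5`-torsion
points -/
theorem s52h_card_aux (τ : ℚ) (hτ : 𝓔ℚ.Δ.eval τ ≠ 0)
    (hT : ∃ P Q : (s52sGen (s52sFam 𝓔ℚ)).toAffine.Point, (5 : ℤ) • P = 0 ∧ (5 : ℤ) • Q = 0 ∧
      ∀ k m : ℤ, k • P + m • Q = 0 → (5 : ℤ) ∣ k ∧ (5 : ℤ) ∣ m) :
    25 ≤ Nat.card (S52sGenTors 𝓔ℚ 5) := by
  obtain ⟨P, Q, hP, hQ, hind⟩ := hT
  exact s52h_card_of_indep P Q hP hQ hind (s52h_finite_genTors 𝓔ℚ τ hτ (by norm_num))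

end Card

end Fermat.Agent.S52

namespace Fermat.Agent.S52

open Polynomial WeierstrassCurve
open scoped WeierstrassCurve.Affine

local notation "Qb" => AlgebraicClosure ℚ

/-- the inclusion `ℚ[X] → ℚ̄(t)` -/
noncomputable def s52hInc : ℚ[X] →+* RatFunc Qb :=
  (algebraMap Qb[X] (RatFunc Qb)).comp (Polynomial.mapRingHom (algebraMap ℚ Qb))

theorem s52h_gen_eq (𝓔ℚ : WeierstrassCurve ℚ[X]) : s52sGen (s52sFam 𝓔ℚ) = 𝓔ℚ.map s52hInc := rfl

/-- **`25 ≤ |𝓔(ℚ̄(t))[5]|`** for a short family over `ℚ[t]` whose generic fibre is the universal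
curve along the line `w₀ + t ŵ₀`, given the universal `5`-torsion points over `ℚ̄(t)` -/
theorem s52h_card_of_line (𝓔ℚ : WeierstrassCurve ℚ[X]) [DecidableEq (RatFunc Qb)] (a0 b0 : Qb)
    (hD : s52bD a0 b0 ≠ 0) (h1 : 𝓔ℚ.a₁ = 0) (h2 : 𝓔ℚ.a₂ = 0) (h3 : 𝓔ℚ.a₃ = 0)
    (h4 : s52hInc 𝓔ℚ.a₄ = -27 * s52bC4 (s52hA a0 b0) (s52hB a0 b0))
    (h6 : s52hInc 𝓔ℚ.a₆ = -54 * s52bC6 (s52hA a0 b0) (s52hB a0 b0))
    (hT : ∀ a b : RatFunc Qb, s52bD a b ≠ 0 →
      ∃ P Q : (⟨0, 0, 0, -27 * s52bC4 a b, -54 * s52bC6 a b⟩ :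
          WeierstrassCurve (RatFunc Qb)).toAffine.Point,
        (5 : ℤ) • P = 0 ∧ (5 : ℤ) • Q = 0 ∧
          ∀ k m : ℤ, k • P + m • Q = 0 → (5 : ℤ) ∣ k ∧ (5 : ℤ) ∣ m)
    (τ : ℚ) (hτ : 𝓔ℚ.Δ.eval τ ≠ 0) :
    25 ≤ Nat.card (S52sGenTors 𝓔ℚ 5) := by
  have hcurve : s52sGen (s52sFam 𝓔ℚ) =
      (⟨0, 0, 0, -27 * s52bC4 (s52hA a0 b0) (s52hB a0 b0),
        -54 * s52bC6 (s52hA a0 b0) (s52hB a0 b0)⟩ : WeierstrassCurve (RatFunc Qb)) := by
    rw [s52h_gen_eq]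
    ext
    · show s52hInc 𝓔ℚ.a₁ = 0
      rw [h1, map_zero]
    · show s52hInc 𝓔ℚ.a₂ = 0
      rw [h2, map_zero]
    · show s52hInc 𝓔ℚ.a₃ = 0
      rw [h3, map_zero]
    · exact h4
    · exact h6
  apply s52h_card_aux 𝓔ℚ τ hτ
  rw [hcurve]
  exact hT _ _ (s52h_D_ne a0 b0 hD)

end Fermat.Agent.S52
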