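/-
S52 (T) (helper2): the icosahedral involution `S`.  With `U = (a + q b)⁵`, `V = (q a - b)⁵`
(`q = (√5 - 1)/2`, written out with `s² = 5` reduced) and `A' = p⁵ U`, `B' = p⁵ V` the forms
`c₄, c₆` (as polynomials in `A = a⁵`, `B = b⁵`) are invariant; the x-coordinate of the universal
point at `(A', B')` is a polynomial in `a, b` with RATIONAL coefficients, and it differs from the
x-coordinates of `± P` and `± 2 P` by divisors of `D²`.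
-/
import Fermat.Agent.Lib.S52.TorsPoint

set_option autoImplicit false

namespace Fermat.Agent.S52

open Fermat.Agent.X015

section

variable {K : Type*} [Field K] [CharZero K]

/-- `(a + q b)⁵`, `q = (s - 1)/2`, reduced modulo `s² = 5` -/
def s52tU (s a b : K) : K :=
  (5 / 2) * s * a ^ 4 * b - 5 * s * a ^ 3 * b ^ 2 + 10 * s * a ^ 2 * b ^ 3 - (15 / 2) * s * a * b ^ 4
      + (5 / 2) * s * b ^ 5 + a ^ 5 - (5 / 2) * a ^ 4 * b + 15 * a ^ 3 * b ^ 2 - 20 * a ^ 2 * b ^ 3 + (35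
      / 2) * a * b ^ 4 - (11 / 2) * b ^ 5

/-- `(q a - b)⁵`, `q = (s - 1)/2`, reduced modulo `s² = 5` -/
def s52tV (s a b : K) : K :=
  (5 / 2) * s * a ^ 5 + (15 / 2) * s * a ^ 4 * b + 10 * s * a ^ 3 * b ^ 2 + 5 * s * a ^ 2 * b ^ 3 + (5
      / 2) * s * a * b ^ 4 - (11 / 2) * a ^ 5 - (35 / 2) * a ^ 4 * b - 20 * a ^ 3 * b ^ 2 - 15 * a ^ 2 * b
      ^ 3 - (5 / 2) * a * b ^ 4 - b ^ 5

/-- the rational x-coordinate of the second point of order `5` -/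
def s52tXQ (a b : K) : K :=
  3 * a ^ 10 + 36 * a ^ 9 * b + 72 * a ^ 8 * b ^ 2 + 108 * a ^ 7 * b ^ 3 + 180 * a ^ 6 * b ^ 4 + 90 *
      a ^ 5 * b ^ 5 + 72 * a ^ 4 * b ^ 6 - 36 * a ^ 3 * b ^ 7 + 36 * a ^ 2 * b ^ 8 + 3 * b ^ 10

/-- the cofactor: `(x_Q - x_P) G = D²` -/
def s52tG (s a b : K) : K :=
  -(1 / 72) * s * a ^ 12 * b ^ 2 + (5 / 72) * s * a ^ 11 * b ^ 3 - (5 / 36) * s * a ^ 10 * b ^ 4 + (5
      / 36) * s * a ^ 9 * b ^ 5 - (7 / 36) * s * a ^ 7 * b ^ 7 + (5 / 36) * s * a ^ 6 * b ^ 8 + (5 / 72) *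
      s * a ^ 5 * b ^ 9 - (5 / 72) * s * a ^ 4 * b ^ 10 + (1 / 72) * s * a ^ 2 * b ^ 12 + (5 / 72) * a ^
      12 * b ^ 2 - (5 / 24) * a ^ 11 * b ^ 3 + (5 / 18) * a ^ 10 * b ^ 4 - (5 / 18) * a ^ 9 * b ^ 5 + (5 /
      18) * a ^ 6 * b ^ 8 + (5 / 24) * a ^ 5 * b ^ 9 - (5 / 24) * a ^ 4 * b ^ 10 + (5 / 72) * a ^ 2 * b ^
      12

theorem s52t_p10 (s p : K) (hs : s ^ 2 = 5) (hp : 10 * p ^ 2 = -5 - s) :
    p ^ 10 = -(11 / 250) * s - (1 / 10) := by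
  have hp2 : p ^ 2 = -(5 + s) / 10 := by linear_combination hp / 10
  calc p ^ 10 = (p ^ 2) ^ 5 := by ring
    _ = (-(5 + s) / 10) ^ 5 := by rw [hp2]
    _ = _ := by linear_combination (-(1 / 100000) * s ^ 3 - (1 / 4000) * s ^ 2 - (51 / 20000) * s - (11 / 800)) * hs

theorem s52t_p20 (s p : K) (hs : s ^ 2 = 5) (hp : 10 * p ^ 2 = -5 - s) :
    p ^ 20 = (11 / 1250) * s + (123 / 6250) := by
  have hp2 : p ^ 2 = -(5 + s) / 10 := by linear_combination hp / 10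
  calc p ^ 20 = (p ^ 2) ^ 10 := by ring
    _ = (-(5 + s) / 10) ^ 10 := by rw [hp2]
    _ = _ := by linear_combination ((1 / 10000000000) * s ^ 8 + (1 / 200000000) * s ^ 7 + (113 / 1000000000) * s ^ 6 + (61 / 40000000) *
      s ^ 5 + (1369 / 100000000) * s ^ 4 + (691 / 8000000) * s ^ 3 + (15863 / 40000000) * s ^ 2 + (2191 /
      1600000) * s + (59851 / 16000000)) * hs

theorem s52t_p30 (s p : K) (hs : s ^ 2 = 5) (hp : 10 * p ^ 2 = -5 - s) :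
    p ^ 30 = -(682 / 390625) * s - (61 / 15625) := by
  have hp2 : p ^ 2 = -(5 + s) / 10 := by linear_combination hp / 10
  calc p ^ 30 = (p ^ 2) ^ 15 := by ring
    _ = (-(5 + s) / 10) ^ 15 := by rw [hp2]
    _ = _ := by linear_combination (-(1 / 1000000000000000) * s ^ 13 - (3 / 40000000000000) * s ^ 12 - (263 / 100000000000000) * s ^ 11
      - (229 / 4000000000000) * s ^ 10 - (34651 / 40000000000000) * s ^ 9 - (15473 / 1600000000000) * s ^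
      8 - (165069 / 2000000000000) * s ^ 7 - (44087 / 80000000000) * s ^ 6 - (4682151 / 1600000000000) * s
      ^ 5 - (801973 / 64000000000) * s ^ 4 - (7033263 / 160000000000) * s ^ 3 - (827549 / 6400000000) * s
      ^ 2 - (21175901 / 64000000000) * s - (1983223 / 2560000000)) * hs

/-- `c₄` is invariant under `S` -/
theorem s52t_c4_inv (s p a b : K) (hs : s ^ 2 = 5) (hp : 10 * p ^ 2 = -5 - s) :
    s52tC4 (p ^ 5 * s52tU s a b) (p ^ 5 * s52tV s a b) = s52tC4 (a ^ 5) (b ^ 5) := by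
  have h1 : s52tC4 (p ^ 5 * s52tU s a b) (p ^ 5 * s52tV s a b)
      = p ^ 20 * s52tC4 (s52tU s a b) (s52tV s a b) := by
    unfold s52tC4
    ring
  rw [h1, s52t_p20 s p hs hp]
  unfold s52tC4 s52tU s52tV
  linear_combination ((11 / 32) * s ^ 3 * a ^ 20 - (297 / 4) * s ^ 3 * a ^ 19 * b - (1419 / 4) * s ^ 3 * a ^ 18 * b ^ 2 -
      1452 * s ^ 3 * a ^ 17 * b ^ 3 - (15411 / 4) * s ^ 3 * a ^ 16 * b ^ 4 - (48543 / 8) * s ^ 3 * a ^ 15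
      * b ^ 5 - (46497 / 4) * s ^ 3 * a ^ 14 * b ^ 6 - (27687 / 2) * s ^ 3 * a ^ 13 * b ^ 7 - (65043 / 4)
      * s ^ 3 * a ^ 12 * b ^ 8 - (26301 / 4) * s ^ 3 * a ^ 11 * b ^ 9 - (219043 / 16) * s ^ 3 * a ^ 10 * b
      ^ 10 + (26301 / 4) * s ^ 3 * a ^ 9 * b ^ 11 - (65043 / 4) * s ^ 3 * a ^ 8 * b ^ 12 + (27687 / 2) * s
      ^ 3 * a ^ 7 * b ^ 13 - (46497 / 4) * s ^ 3 * a ^ 6 * b ^ 14 + (48543 / 8) * s ^ 3 * a ^ 5 * b ^ 15 -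
      (15411 / 4) * s ^ 3 * a ^ 4 * b ^ 16 + 1452 * s ^ 3 * a ^ 3 * b ^ 17 - (1419 / 4) * s ^ 3 * a ^ 2 *
      b ^ 18 + (297 / 4) * s ^ 3 * a * b ^ 19 + (11 / 32) * s ^ 3 * b ^ 20 - (5377 / 160) * s ^ 2 * a ^ 20
      + (4929 / 20) * s ^ 2 * a ^ 19 * b + (25383 / 20) * s ^ 2 * a ^ 18 * b ^ 2 + (25014 / 5) * s ^ 2 * a
      ^ 17 * b ^ 3 + (264927 / 20) * s ^ 2 * a ^ 16 * b ^ 4 + (546201 / 40) * s ^ 2 * a ^ 15 * b ^ 5 +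
      (808329 / 20) * s ^ 2 * a ^ 14 * b ^ 6 + (474159 / 10) * s ^ 2 * a ^ 13 * b ^ 7 + (1128951 / 20) * s
      ^ 2 * a ^ 12 * b ^ 8 + (473157 / 20) * s ^ 2 * a ^ 11 * b ^ 9 + (2462201 / 80) * s ^ 2 * a ^ 10 * b
      ^ 10 - (473157 / 20) * s ^ 2 * a ^ 9 * b ^ 11 + (1128951 / 20) * s ^ 2 * a ^ 8 * b ^ 12 - (474159 /
      10) * s ^ 2 * a ^ 7 * b ^ 13 + (808329 / 20) * s ^ 2 * a ^ 6 * b ^ 14 - (546201 / 40) * s ^ 2 * a ^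
      5 * b ^ 15 + (264927 / 20) * s ^ 2 * a ^ 4 * b ^ 16 - (25014 / 5) * s ^ 2 * a ^ 3 * b ^ 17 + (25383
      / 20) * s ^ 2 * a ^ 2 * b ^ 18 - (4929 / 20) * s ^ 2 * a * b ^ 19 - (5377 / 160) * s ^ 2 * b ^ 20 +
      (5405 / 32) * s * a ^ 20 + (1545 / 4) * s * a ^ 19 * b + (7395 / 4) * s * a ^ 18 * b ^ 2 + 7560 * s
      * a ^ 17 * b ^ 3 + (80235 / 4) * s * a ^ 16 * b ^ 4 + (564135 / 8) * s * a ^ 15 * b ^ 5 + (242145 /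
      4) * s * a ^ 14 * b ^ 6 + (144135 / 2) * s * a ^ 13 * b ^ 7 + (338715 / 4) * s * a ^ 12 * b ^ 8 +
      (137085 / 4) * s * a ^ 11 * b ^ 9 + (2489435 / 16) * s * a ^ 10 * b ^ 10 - (137085 / 4) * s * a ^ 9
      * b ^ 11 + (338715 / 4) * s * a ^ 8 * b ^ 12 - (144135 / 2) * s * a ^ 7 * b ^ 13 + (242145 / 4) * s
      * a ^ 6 * b ^ 14 - (564135 / 8) * s * a ^ 5 * b ^ 15 + (80235 / 4) * s * a ^ 4 * b ^ 16 - 7560 * s *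
      a ^ 3 * b ^ 17 + (7395 / 4) * s * a ^ 2 * b ^ 18 - (1545 / 4) * s * a * b ^ 19 + (5405 / 32) * s * b
      ^ 20 - (6611 / 32) * a ^ 20 - (4797 / 4) * a ^ 19 * b - (24723 / 4) * a ^ 18 * b ^ 2 - 24354 * a ^
      17 * b ^ 3 - (257931 / 4) * a ^ 16 * b ^ 4 - (1207077 / 8) * a ^ 15 * b ^ 5 - (787077 / 4) * a ^ 14
      * b ^ 6 - (461619 / 2) * a ^ 13 * b ^ 7 - (1099251 / 4) * a ^ 12 * b ^ 8 - (460881 / 4) * a ^ 11 * b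
      ^ 9 - (5322917 / 16) * a ^ 10 * b ^ 10 + (460881 / 4) * a ^ 9 * b ^ 11 - (1099251 / 4) * a ^ 8 * b ^
      12 + (461619 / 2) * a ^ 7 * b ^ 13 - (787077 / 4) * a ^ 6 * b ^ 14 + (1207077 / 8) * a ^ 5 * b ^ 15
      - (257931 / 4) * a ^ 4 * b ^ 16 + 24354 * a ^ 3 * b ^ 17 - (24723 / 4) * a ^ 2 * b ^ 18 + (4797 / 4)
      * a * b ^ 19 - (6611 / 32) * b ^ 20) * hs

/-- `c₆` is invariant under `S` -/
theorem s52t_c6_inv (s p a b : K) (hs : s ^ 2 = 5) (hp : 10 * p ^ 2 = -5 - s) :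
    s52tC6 (p ^ 5 * s52tU s a b) (p ^ 5 * s52tV s a b) = s52tC6 (a ^ 5) (b ^ 5) := by
  have h1 : s52tC6 (p ^ 5 * s52tU s a b) (p ^ 5 * s52tV s a b)
      = p ^ 30 * s52tC6 (s52tU s a b) (s52tV s a b) := by
    unfold s52tC6
    ring
  rw [h1, s52t_p30 s p hs hp]
  unfold s52tC6 s52tU s52tV
  linear_combination ((341 / 800) * s ^ 5 * a ^ 30 + (9207 / 40) * s ^ 5 * a ^ 29 * b - (52173 / 40) * s ^ 5 * a ^ 28 * b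
      ^ 2 - (150381 / 10) * s ^ 5 * a ^ 27 * b ^ 3 - (2728341 / 40) * s ^ 5 * a ^ 26 * b ^ 4 - (68374251 /
      400) * s ^ 5 * a ^ 25 * b ^ 5 - (3716559 / 8) * s ^ 5 * a ^ 24 * b ^ 6 - 880803 * s ^ 5 * a ^ 23 * b
      ^ 7 - (13874949 / 8) * s ^ 5 * a ^ 22 * b ^ 8 - (19884051 / 8) * s ^ 5 * a ^ 21 * b ^ 9 - (582564741
      / 160) * s ^ 5 * a ^ 20 * b ^ 10 - (14672889 / 4) * s ^ 5 * a ^ 19 * b ^ 11 - (19184319 / 4) * s ^ 5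
      * a ^ 18 * b ^ 12 - 2040885 * s ^ 5 * a ^ 17 * b ^ 13 - (4956435 / 2) * s ^ 5 * a ^ 16 * b ^ 14 -
      (4956435 / 2) * s ^ 5 * a ^ 14 * b ^ 16 + 2040885 * s ^ 5 * a ^ 13 * b ^ 17 - (19184319 / 4) * s ^ 5
      * a ^ 12 * b ^ 18 + (14672889 / 4) * s ^ 5 * a ^ 11 * b ^ 19 - (582564741 / 160) * s ^ 5 * a ^ 10 *
      b ^ 20 + (19884051 / 8) * s ^ 5 * a ^ 9 * b ^ 21 - (13874949 / 8) * s ^ 5 * a ^ 8 * b ^ 22 + 880803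
      * s ^ 5 * a ^ 7 * b ^ 23 - (3716559 / 8) * s ^ 5 * a ^ 6 * b ^ 24 + (68374251 / 400) * s ^ 5 * a ^ 5
      * b ^ 25 - (2728341 / 40) * s ^ 5 * a ^ 4 * b ^ 26 + (150381 / 10) * s ^ 5 * a ^ 3 * b ^ 27 - (52173
      / 40) * s ^ 5 * a ^ 2 * b ^ 28 - (9207 / 40) * s ^ 5 * a * b ^ 29 + (341 / 800) * s ^ 5 * b ^ 30 +
      (674621 / 8000) * s ^ 4 * a ^ 30 - (1733733 / 400) * s ^ 4 * a ^ 29 * b - (6543513 / 400) * s ^ 4 *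
      a ^ 28 * b ^ 2 - (4418361 / 100) * s ^ 4 * a ^ 27 * b ^ 3 - (59117121 / 400) * s ^ 4 * a ^ 26 * b ^
      4 - (3685556331 / 4000) * s ^ 4 * a ^ 25 * b ^ 5 - (151285779 / 80) * s ^ 4 * a ^ 24 * b ^ 6 -
      (46923543 / 10) * s ^ 4 * a ^ 23 * b ^ 7 - (579024369 / 80) * s ^ 4 * a ^ 22 * b ^ 8 - (936962631 /
      80) * s ^ 4 * a ^ 21 * b ^ 9 - (24358791021 / 1600) * s ^ 4 * a ^ 20 * b ^ 10 - (641551509 / 40) * s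
      ^ 4 * a ^ 19 * b ^ 11 - (430374339 / 40) * s ^ 4 * a ^ 18 * b ^ 12 - (31985037 / 2) * s ^ 4 * a ^ 17
      * b ^ 13 - (77677947 / 4) * s ^ 4 * a ^ 16 * b ^ 14 - (77677947 / 4) * s ^ 4 * a ^ 14 * b ^ 16 +
      (31985037 / 2) * s ^ 4 * a ^ 13 * b ^ 17 - (430374339 / 40) * s ^ 4 * a ^ 12 * b ^ 18 + (641551509 /
      40) * s ^ 4 * a ^ 11 * b ^ 19 - (24358791021 / 1600) * s ^ 4 * a ^ 10 * b ^ 20 + (936962631 / 80) *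
      s ^ 4 * a ^ 9 * b ^ 21 - (579024369 / 80) * s ^ 4 * a ^ 8 * b ^ 22 + (46923543 / 10) * s ^ 4 * a ^ 7
      * b ^ 23 - (151285779 / 80) * s ^ 4 * a ^ 6 * b ^ 24 + (3685556331 / 4000) * s ^ 4 * a ^ 5 * b ^ 25
      - (59117121 / 400) * s ^ 4 * a ^ 4 * b ^ 26 + (4418361 / 100) * s ^ 4 * a ^ 3 * b ^ 27 - (6543513 /
      400) * s ^ 4 * a ^ 2 * b ^ 28 + (1733733 / 400) * s ^ 4 * a * b ^ 29 + (674621 / 8000) * s ^ 4 * b ^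
      30 - (46139 / 32) * s ^ 3 * a ^ 30 + (28953 / 2) * s ^ 3 * a ^ 29 * b + (193077 / 2) * s ^ 3 * a ^
      28 * b ^ 2 + 482778 * s ^ 3 * a ^ 27 * b ^ 3 + (3920301 / 2) * s ^ 3 * a ^ 26 * b ^ 4 + (125969679 /
      16) * s ^ 3 * a ^ 25 * b ^ 5 + (34420635 / 2) * s ^ 3 * a ^ 24 * b ^ 6 + 37460700 * s ^ 3 * a ^ 23 *
      b ^ 7 + (130054545 / 2) * s ^ 3 * a ^ 22 * b ^ 8 + (198071775 / 2) * s ^ 3 * a ^ 21 * b ^ 9 +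
      (4713767895 / 32) * s ^ 3 * a ^ 20 * b ^ 10 + 140722605 * s ^ 3 * a ^ 19 * b ^ 11 + 139430835 * s ^
      3 * a ^ 18 * b ^ 12 + 109142460 * s ^ 3 * a ^ 17 * b ^ 13 + 132530130 * s ^ 3 * a ^ 16 * b ^ 14 +
      132530130 * s ^ 3 * a ^ 14 * b ^ 16 - 109142460 * s ^ 3 * a ^ 13 * b ^ 17 + 139430835 * s ^ 3 * a ^
      12 * b ^ 18 - 140722605 * s ^ 3 * a ^ 11 * b ^ 19 + (4713767895 / 32) * s ^ 3 * a ^ 10 * b ^ 20 -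
      (198071775 / 2) * s ^ 3 * a ^ 9 * b ^ 21 + (130054545 / 2) * s ^ 3 * a ^ 8 * b ^ 22 - 37460700 * s ^
      3 * a ^ 7 * b ^ 23 + (34420635 / 2) * s ^ 3 * a ^ 6 * b ^ 24 - (125969679 / 16) * s ^ 3 * a ^ 5 * b
      ^ 25 + (3920301 / 2) * s ^ 3 * a ^ 4 * b ^ 26 - 482778 * s ^ 3 * a ^ 3 * b ^ 27 + (193077 / 2) * s ^
      3 * a ^ 2 * b ^ 28 - (28953 / 2) * s ^ 3 * a * b ^ 29 - (46139 / 32) * s ^ 3 * b ^ 30 + (699741 /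
      100) * s ^ 2 * a ^ 30 + (214533 / 40) * s ^ 2 * a ^ 29 * b - (1087911 / 40) * s ^ 2 * a ^ 28 * b ^ 2
      - (3248487 / 10) * s ^ 2 * a ^ 27 * b ^ 3 - (59101119 / 40) * s ^ 2 * a ^ 26 * b ^ 4 - (1462201479 /
      200) * s ^ 2 * a ^ 25 * b ^ 5 - (79955469 / 8) * s ^ 2 * a ^ 24 * b ^ 6 - 18862569 * s ^ 2 * a ^ 23
      * b ^ 7 - (298384911 / 8) * s ^ 2 * a ^ 22 * b ^ 8 - (426775833 / 8) * s ^ 2 * a ^ 21 * b ^ 9 -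
      (2965619241 / 20) * s ^ 2 * a ^ 20 * b ^ 10 - (315316683 / 4) * s ^ 2 * a ^ 19 * b ^ 11 - (415454589
      / 4) * s ^ 2 * a ^ 18 * b ^ 12 - 43306263 * s ^ 2 * a ^ 17 * b ^ 13 - (105172353 / 2) * s ^ 2 * a ^
      16 * b ^ 14 - (105172353 / 2) * s ^ 2 * a ^ 14 * b ^ 16 + 43306263 * s ^ 2 * a ^ 13 * b ^ 17 -
      (415454589 / 4) * s ^ 2 * a ^ 12 * b ^ 18 + (315316683 / 4) * s ^ 2 * a ^ 11 * b ^ 19 - (2965619241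
      / 20) * s ^ 2 * a ^ 10 * b ^ 20 + (426775833 / 8) * s ^ 2 * a ^ 9 * b ^ 21 - (298384911 / 8) * s ^ 2
      * a ^ 8 * b ^ 22 + 18862569 * s ^ 2 * a ^ 7 * b ^ 23 - (79955469 / 8) * s ^ 2 * a ^ 6 * b ^ 24 +
      (1462201479 / 200) * s ^ 2 * a ^ 5 * b ^ 25 - (59101119 / 40) * s ^ 2 * a ^ 4 * b ^ 26 + (3248487 /
      10) * s ^ 2 * a ^ 3 * b ^ 27 - (1087911 / 40) * s ^ 2 * a ^ 2 * b ^ 28 - (214533 / 40) * s ^ 2 * a *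
      b ^ 29 + (699741 / 100) * s ^ 2 * b ^ 30 - (217675 / 16) * s * a ^ 30 - (625275 / 8) * s * a ^ 29 *
      b - (3601575 / 8) * s * a ^ 28 * b ^ 2 - (4076775 / 2) * s * a ^ 27 * b ^ 3 - (64778175 / 8) * s * a
      ^ 26 * b ^ 4 - 24240150 * s * a ^ 25 * b ^ 5 - (595634625 / 8) * s * a ^ 24 * b ^ 6 - 165322125 * s
      * a ^ 23 * b ^ 7 - (2254732875 / 8) * s * a ^ 22 * b ^ 8 - (3465136125 / 8) * s * a ^ 21 * b ^ 9 -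
      (6999911625 / 16) * s * a ^ 20 * b ^ 10 - (2448192375 / 4) * s * a ^ 19 * b ^ 11 - (2309504625 / 4)
      * s * a ^ 18 * b ^ 12 - 494809875 * s * a ^ 17 * b ^ 13 - (1201681125 / 2) * s * a ^ 16 * b ^ 14 -
      (1201681125 / 2) * s * a ^ 14 * b ^ 16 + 494809875 * s * a ^ 13 * b ^ 17 - (2309504625 / 4) * s * a
      ^ 12 * b ^ 18 + (2448192375 / 4) * s * a ^ 11 * b ^ 19 - (6999911625 / 16) * s * a ^ 10 * b ^ 20 +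
      (3465136125 / 8) * s * a ^ 9 * b ^ 21 - (2254732875 / 8) * s * a ^ 8 * b ^ 22 + 165322125 * s * a ^
      7 * b ^ 23 - (595634625 / 8) * s * a ^ 6 * b ^ 24 + 24240150 * s * a ^ 5 * b ^ 25 - (64778175 / 8) *
      s * a ^ 4 * b ^ 26 + (4076775 / 2) * s * a ^ 3 * b ^ 27 - (3601575 / 8) * s * a ^ 2 * b ^ 28 +
      (625275 / 8) * s * a * b ^ 29 - (217675 / 16) * s * b ^ 30 + (3011811 / 320) * a ^ 30 + (1303875 /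
      16) * a ^ 29 * b + (8715375 / 16) * a ^ 28 * b ^ 2 + (10911375 / 4) * a ^ 27 * b ^ 3 + (177258375 /
      16) * a ^ 26 * b ^ 4 + (5647511079 / 160) * a ^ 25 * b ^ 5 + (1555385625 / 16) * a ^ 24 * b ^ 6 +
      (423073125 / 2) * a ^ 23 * b ^ 7 + (5876701875 / 16) * a ^ 22 * b ^ 8 + (8949043125 / 16) * a ^ 21 *
      b ^ 9 + (42010866189 / 64) * a ^ 20 * b ^ 10 + (6358449375 / 8) * a ^ 19 * b ^ 11 + (6304235625 / 8)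
      * a ^ 18 * b ^ 12 + (1232161875 / 2) * a ^ 17 * b ^ 13 + (2992393125 / 4) * a ^ 16 * b ^ 14 +
      (2992393125 / 4) * a ^ 14 * b ^ 16 - (1232161875 / 2) * a ^ 13 * b ^ 17 + (6304235625 / 8) * a ^ 12
      * b ^ 18 - (6358449375 / 8) * a ^ 11 * b ^ 19 + (42010866189 / 64) * a ^ 10 * b ^ 20 - (8949043125 /
      16) * a ^ 9 * b ^ 21 + (5876701875 / 16) * a ^ 8 * b ^ 22 - (423073125 / 2) * a ^ 7 * b ^ 23 +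
      (1555385625 / 16) * a ^ 6 * b ^ 24 - (5647511079 / 160) * a ^ 5 * b ^ 25 + (177258375 / 16) * a ^ 4
      * b ^ 26 - (10911375 / 4) * a ^ 3 * b ^ 27 + (8715375 / 16) * a ^ 2 * b ^ 28 - (1303875 / 16) * a *
      b ^ 29 + (3011811 / 320) * b ^ 30) * hs

/-- the x-coordinate of the second point is rational -/
theorem s52t_xQ (s p a b : K) (hs : s ^ 2 = 5) (hp : 10 * p ^ 2 = -5 - s) :
    s52tX s (p ^ 5 * s52tU s a b) (p ^ 5 * s52tV s a b) = s52tXQ a b := by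
  have h1 : s52tX s (p ^ 5 * s52tU s a b) (p ^ 5 * s52tV s a b)
      = p ^ 10 * s52tX s (s52tU s a b) (s52tV s a b) := by
    unfold s52tX s52tDp
    ring
  rw [h1, s52t_p10 s p hs hp]
  unfold s52tX s52tDp s52tU s52tV s52tXQ
  linear_combination (-(99 / 100) * s ^ 2 * a ^ 10 - (1683 / 100) * s ^ 2 * a ^ 9 * b - (2673 / 100) * s ^ 2 * a ^ 8 * b ^
      2 - (2673 / 50) * s ^ 2 * a ^ 7 * b ^ 3 - (5049 / 100) * s ^ 2 * a ^ 6 * b ^ 4 - (9801 / 100) * s ^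
      2 * a ^ 5 * b ^ 5 + (5049 / 100) * s ^ 2 * a ^ 4 * b ^ 6 - (2673 / 50) * s ^ 2 * a ^ 3 * b ^ 7 +
      (2673 / 100) * s ^ 2 * a ^ 2 * b ^ 8 - (1683 / 100) * s ^ 2 * a * b ^ 9 + (99 / 100) * s ^ 2 * b ^
      10 + (15 / 8) * s * a ^ 10 + 36 * s * a ^ 9 * b + 63 * s * a ^ 8 * b ^ 2 + (153 / 2) * s * a ^ 7 * b
      ^ 3 + 207 * s * a ^ 6 * b ^ 4 + (99 / 4) * s * a ^ 5 * b ^ 5 + (279 / 2) * s * a ^ 4 * b ^ 6 - (243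
      / 2) * s * a ^ 3 * b ^ 7 + (171 / 2) * s * a ^ 2 * b ^ 8 - (27 / 2) * s * a * b ^ 9 + (51 / 8) * s *
      b ^ 10 - (351 / 40) * a ^ 10 - (981 / 20) * a ^ 9 * b - (3087 / 20) * a ^ 8 * b ^ 2 - (1017 / 5) * a
      ^ 7 * b ^ 3 - (1431 / 4) * a ^ 6 * b ^ 4 + 18 * a ^ 5 * b ^ 5 - (7587 / 20) * a ^ 4 * b ^ 6 + (1089
      / 5) * a ^ 3 * b ^ 7 - (3231 / 20) * a ^ 2 * b ^ 8 + (225 / 4) * a * b ^ 9 - (351 / 40) * b ^ 10) * hs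

/-- `x_Q - x_P` divides `D²` -/
theorem s52t_indep (s a b : K) (hs : s ^ 2 = 5) :
    (s52tXQ a b - s52tX s (a ^ 5) (b ^ 5)) * s52tG s a b
      = (a * b * s52tDp (a ^ 5) (b ^ 5)) ^ 2 := by
  unfold s52tXQ s52tX s52tDp s52tG
  linear_combination (-(1 / 20) * a ^ 22 * b ^ 2 + (1 / 4) * a ^ 21 * b ^ 3 - (1 / 2) * a ^ 20 * b ^ 4 + (1 / 2) * a ^ 19
      * b ^ 5 - (3 / 20) * a ^ 17 * b ^ 7 - (9 / 4) * a ^ 16 * b ^ 8 + (23 / 4) * a ^ 15 * b ^ 9 - (23 /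
      4) * a ^ 14 * b ^ 10 + (39 / 5) * a ^ 12 * b ^ 12 - (23 / 4) * a ^ 11 * b ^ 13 - (9 / 4) * a ^ 10 *
      b ^ 14 + (9 / 4) * a ^ 9 * b ^ 15 + (3 / 20) * a ^ 7 * b ^ 17 - (1 / 2) * a ^ 6 * b ^ 18 - (1 / 4) *
      a ^ 5 * b ^ 19 + (1 / 4) * a ^ 4 * b ^ 20 - (1 / 20) * a ^ 2 * b ^ 22) * hs

end

end Fermat.Agent.S52
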