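/-
S52 (T) (helper2): two independent points of order `5` on the universal curve
`y² = x³ - 27 c₄(a,b) x - 54 c₆(a,b)` over any field of characteristic zero containing
`s = √5` and `p` with `10 p² = -5 - s` (i.e. containing `ℚ(ζ₅)`), for `D(a,b) ≠ 0`.
-/
import Fermat.Agent.Lib.S52.TorsInv
import Fermat.Agent.Lib.S52.NoCommon

set_option autoImplicit false

namespace Fermat.Agent.S52

open Fermat.Agent.X015 WeierstrassCurve WeierstrassCurve.Affine

/-- the universal curve `y² = x³ - 27 c₄(a,b) x - 54 c₆(a,b)` -/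
def s52tE {R : Type*} [CommRing R] (a b : R) : WeierstrassCurve R :=
  ⟨0, 0, 0, -27 * s52bC4 a b, -54 * s52bC6 a b⟩

instance s52tE_isShortNF {R : Type*} [CommRing R] (a b : R) : (s52tE a b).IsShortNF :=
  ⟨rfl, rfl, rfl⟩

@[simp] theorem s52tE_a₄ {R : Type*} [CommRing R] (a b : R) :
    (s52tE a b).a₄ = -27 * s52bC4 a b := rfl

@[simp] theorem s52tE_a₆ {R : Type*} [CommRing R] (a b : R) :
    (s52tE a b).a₆ = -54 * s52bC6 a b := rfl

theorem s52tE_Δ {R : Type*} [CommRing R] (a b : R) :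
    (s52tE a b).Δ = 2 ^ 6 * 3 ^ 9 * 1728 * s52bD a b ^ 5 := by
  have h := s52b_klein_rel a b
  simp only [WeierstrassCurve.Δ, WeierstrassCurve.b₂, WeierstrassCurve.b₄, WeierstrassCurve.b₆,
    WeierstrassCurve.b₈, s52tE]
  linear_combination (2 ^ 6 * 3 ^ 9 : R) * h

section

variable {K : Type*} [Field K]

theorem s52bC4_eq_tC4 (a b : K) : s52bC4 a b = s52tC4 (a ^ 5) (b ^ 5) := by
  unfold s52bC4 s52tC4
  ring

theorem s52bC6_eq_tC6 (a b : K) : s52bC6 a b = s52tC6 (a ^ 5) (b ^ 5) := by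
  unfold s52bC6 s52tC6
  ring

theorem s52bD_eq_tDp (a b : K) : s52bD a b = a * b * s52tDp (a ^ 5) (b ^ 5) := by
  unfold s52bD s52tDp
  ring

variable [CharZero K]

theorem s52tE_Δ_ne_zero (a b : K) (hD : s52bD a b ≠ 0) : (s52tE a b).Δ ≠ 0 := by
  rw [s52tE_Δ]
  exact mul_ne_zero (by norm_num) (pow_ne_zero 5 hD)

variable [DecidableEq K]

/-- the universal point: for ANY `A, B` with `c₄(A,B) = c₄(a,b)`, `c₆(A,B) = c₆(a,b)` (as forms
of degrees `4, 6` in `A, B`) -/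
theorem s52t_point (s p a b A B : K) (hs : s ^ 2 = 5) (hp : 10 * p ^ 2 = -5 - s)
    (hD : s52bD a b ≠ 0) (h4 : s52tC4 A B = s52bC4 a b) (h6 : s52tC6 A B = s52bC6 a b) :
    ∃ h : (s52tE a b).toAffine.Nonsingular (s52tX s A B) (p * s52tY0 s A B),
      (5 : ℤ) • (Point.some _ _ h) = 0 := by
  have hΔ := s52tE_Δ_ne_zero a b hD
  have heq : (s52tE a b).toAffine.Equation (s52tX s A B) (p * s52tY0 s A B) := by
    rw [equation_short, s52tE_a₄, s52tE_a₆, ← h4, ← h6]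
    exact s52t_on_curve s p A B hs hp
  have hns := (equation_iff_nonsingular_of_Δ_ne_zero hΔ).mp heq
  refine ⟨hns, five_smul_of_psi5_eq_zero (s52tE a b) hΔ hns ?_⟩
  rw [s52tE_a₄, s52tE_a₆, ← h4, ← h6]
  exact s52t_psi5 s A B hs

omit [DecidableEq K] in
/-- the x-coordinate of `2 P` -/
theorem s52t_dupX (s A B : K) (hs : s ^ 2 = 5)
    (hf : cubic (-27 * s52tC4 A B) (-54 * s52tC6 A B) (s52tX s A B) ≠ 0) :
    dupX (-27 * s52tC4 A B) (-54 * s52tC6 A B) (s52tX s A B) = s52tX (-s) A B := by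
  unfold dupX
  rw [s52t_psi3 s A B hs]
  have h4 : (4 : K) * cubic (-27 * s52tC4 A B) (-54 * s52tC6 A B) (s52tX s A B) ≠ 0 :=
    mul_ne_zero (by norm_num) hf
  rw [sub_eq_iff_eq_add, ← sub_eq_iff_eq_add', eq_div_iff h4]
  unfold s52tX
  ring

/-- multiples of a point of order `5` -/
theorem s52t_zsmul_mod {G : Type*} [AddCommGroup G] (P : G) (h5 : (5 : ℤ) • P = 0) (j : ℤ) :
    j • P = (j % 5) • P := by
  conv_lhs => rw [← Int.emod_add_mul_ediv j 5]
  rw [add_smul, mul_comm, mul_smul, h5, smul_zero, add_zero]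

/-- **two independent points of order `5` on the universal curve** -/
theorem s52t_main (s p a b : K) (hs : s ^ 2 = 5) (hp : 10 * p ^ 2 = -5 - s)
    (hD : s52bD a b ≠ 0) :
    ∃ P Q : (s52tE a b).toAffine.Point, (5 : ℤ) • P = 0 ∧ (5 : ℤ) • Q = 0 ∧
      ∀ k m : ℤ, k • P + m • Q = 0 → (5 : ℤ) ∣ k ∧ (5 : ℤ) ∣ m := by
  have hΔ := s52tE_Δ_ne_zero a b hD
  have hs' : (-s) ^ 2 = 5 := by rw [neg_sq]; exact hs
  obtain ⟨hP, h5P⟩ := s52t_point s p a b (a ^ 5) (b ^ 5) hs hp hD (s52bC4_eq_tC4 a b).symm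
    (s52bC6_eq_tC6 a b).symm
  obtain ⟨hQ, h5Q⟩ := s52t_point s p a b (p ^ 5 * s52tU s a b) (p ^ 5 * s52tV s a b) hs hp hD
    (by rw [s52t_c4_inv s p a b hs hp, ← s52bC4_eq_tC4])
    (by rw [s52t_c6_inv s p a b hs hp, ← s52bC6_eq_tC6])
  set xP := s52tX s (a ^ 5) (b ^ 5) with hxP
  set yP := p * s52tY0 s (a ^ 5) (b ^ 5) with hyP
  set xQ := s52tX s (p ^ 5 * s52tU s a b) (p ^ 5 * s52tV s a b) with hxQ
  set yQ := p * s52tY0 s (p ^ 5 * s52tU s a b) (p ^ 5 * s52tV s a b) with hyQ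
  set P : (s52tE a b).toAffine.Point := Point.some xP yP hP with hPdef
  set Q : (s52tE a b).toAffine.Point := Point.some xQ yQ hQ with hQdef
  have hxQ' : xQ = s52tXQ a b := s52t_xQ s p a b hs hp
  have hD2 : (a * b * s52tDp (a ^ 5) (b ^ 5)) ^ 2 ≠ 0 := by
    rw [← s52bD_eq_tDp]
    exact pow_ne_zero 2 hD
  -- `x_Q ≠ x_P`
  have hx1 : xQ ≠ xP := by
    intro h
    apply hD2
    rw [← s52t_indep s a b hs, ← hxQ', h, sub_self, zero_mul]
  -- `x_Q ≠ x_{2P}`
  have hx2 : xQ ≠ s52tX (-s) (a ^ 5) (b ^ 5) := by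
    intro h
    apply hD2
    rw [← s52t_indep (-s) a b hs', ← hxQ', h, sub_self, zero_mul]
  -- `y_P ≠ 0`
  have hPne : P ≠ 0 := Point.some_ne_zero hP
  have hQne : Q ≠ 0 := Point.some_ne_zero hQ
  have hyP0 : yP ≠ 0 := by
    intro h0
    have hP0 : (s52tE a b).toAffine.Nonsingular xP 0 := h0 ▸ hP
    have h2 : (2 : ℤ) • P = 0 := by
      have := two_smul_some_of_y_eq_zero (s52tE a b) hP0
      rw [← this, hPdef]
      congr 1
      simp [h0]
    apply hPne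
    have : P = (5 : ℤ) • P - (2 : ℤ) • ((2 : ℤ) • P) := by
      rw [smul_smul, ← sub_smul]
      norm_num
    rw [this, h5P, h2, smul_zero, sub_zero]
  -- `2 P`
  obtain ⟨y2, h2ns, h2P, -⟩ := two_smul_some' (s52tE a b) hP hyP0
  have hcub : cubic (-27 * s52tC4 (a ^ 5) (b ^ 5)) (-54 * s52tC6 (a ^ 5) (b ^ 5)) xP ≠ 0 := by
    have := cubic_ne_zero_of_equation (s52tE a b) hP.1 hyP0
    rwa [s52tE_a₄, s52tE_a₆, s52bC4_eq_tC4, s52bC6_eq_tC6] at this
  have hdup : dupX (s52tE a b).a₄ (s52tE a b).a₆ xP = s52tX (-s) (a ^ 5) (b ^ 5) := by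
    rw [s52tE_a₄, s52tE_a₆, s52bC4_eq_tC4, s52bC6_eq_tC6]
    exact s52t_dupX s (a ^ 5) (b ^ 5) hs hcub
  -- `Q` is not a multiple of `P`
  have hQP : ∀ j : ℤ, Q ≠ j • P := by
    intro j hj
    rw [s52t_zsmul_mod P h5P j] at hj
    have hj0 : 0 ≤ j % 5 := Int.emod_nonneg j (by norm_num)
    have hj5 : j % 5 < 5 := Int.emod_lt_of_pos j (by norm_num)
    have h3P : (3 : ℤ) • P = -((2 : ℤ) • P) := by
      rw [eq_neg_iff_add_eq_zero, ← add_smul]
      norm_num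
      exact h5P
    have h4P : (4 : ℤ) • P = -P := by
      rw [eq_neg_iff_add_eq_zero]
      nth_rewrite 2 [← one_smul ℤ P]
      rw [← add_smul]
      norm_num
      exact h5P
    interval_cases hr : j % 5
    · rw [zero_smul] at hj
      exact hQne hj
    · rw [one_smul, hQdef, hPdef] at hj
      rw [Point.some.injEq] at hj
      exact hx1 hj.1
    · rw [h2P, hQdef, Point.some.injEq] at hj
      exact hx2 (hj.1.trans hdup)
    · rw [h3P, h2P, Point.neg_some, hQdef, Point.some.injEq] at hj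
      exact hx2 (hj.1.trans hdup)
    · rw [h4P, hPdef, Point.neg_some, hQdef, Point.some.injEq] at hj
      exact hx1 hj.1
  refine ⟨P, Q, h5P, h5Q, fun k m hkm => ?_⟩
  have key : ∀ (R : (s52tE a b).toAffine.Point) (n : ℤ), (5 : ℤ) • R = 0 → ¬ (5 : ℤ) ∣ n →
      ∃ u : ℤ, R = u • (n • R) := by
    intro R n h5R hn
    have hcop : IsCoprime n 5 := by
      rw [Int.isCoprime_iff_gcd_eq_one]
      have h5 : Nat.Prime 5 := by norm_num
      have := (Nat.Prime.coprime_iff_not_dvd h5).mpr (fun h : 5 ∣ n.natAbs => hn (by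
        exact Int.natCast_dvd.mpr h))
      rw [Int.gcd_comm]
      simpa [Int.gcd, Nat.coprime_comm] using this
    obtain ⟨u, v, huv⟩ := hcop
    refine ⟨u, ?_⟩
    have : R = (u * n + v * 5) • R := by rw [huv, one_smul]
    rw [add_smul, mul_smul, mul_smul, h5R, smul_zero, add_zero] at this
    exact this
  have hm : (5 : ℤ) ∣ m := by
    by_contra hm
    obtain ⟨u, hu⟩ := key Q m h5Q hm
    have h1 : m • Q = (-k) • P := by
      rw [neg_smul]
      exact eq_neg_of_add_eq_zero_right hkm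
    rw [h1, smul_smul] at hu
    exact hQP _ hu
  refine ⟨?_, hm⟩
  by_contra hk
  obtain ⟨u, hu⟩ := key P k h5P hk
  obtain ⟨m', rfl⟩ := hm
  rw [mul_comm, mul_smul, h5Q, smul_zero, add_zero] at hkm
  rw [hkm, smul_zero] at hu
  exact hPne hu

end

end Fermat.Agent.S52
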