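/-
S52 package (H), helper5: **the family over `ℚ[t]` and its generic `5`-torsion**.

* `s52Fam c4 c6 : WeierstrassCurve ℚ[X]` : the family `y² = x³ - 27 P₄(c4, c6, t) x - 54 P₆(c4, c6, t)`;
* `s52h_fib` : its fibre at `τ` is the short model with invariants `(P₄, P₆)(c4, c6, τ)`;
* `s52h_card` : `25 ≤ |𝓔(ℚ̄(t))[5]|` (the hypothesis `hV` of `s52s_final`).
-/
import Mathlib
import Fermat.Agent.Lib.S52.GenTorsAux
import Fermat.Agent.Lib.S52.ModelGen
import Fermat.Agent.Lib.S52.LineMap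
import Fermat.Agent.Lib.S52.TorsMain

set_option autoImplicit false
set_option linter.style.haveILetI false

namespace Fermat.Agent.S52

open Polynomial WeierstrassCurve
open scoped WeierstrassCurve.Affine

local notation "Qb" => AlgebraicClosure ℚ

/-- **the family** -/
noncomputable def s52Fam (c4 c6 : ℚ) : WeierstrassCurve ℚ[X] :=
  ⟨0, 0, 0, -27 * s52bP4 (C c4) (C c6) X, -54 * s52bP6 (C c4) (C c6) X⟩

/-- the fibres of the family are the short models -/
theorem s52h_fib (c4 c6 τ : ℚ) :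
    s52sFibQ (s52Fam c4 c6) τ = s52bShort (s52bP4 c4 c6 τ) (s52bP6 c4 c6 τ) := by
  unfold s52sFibQ s52Fam s52bShort
  ext
  · show Polynomial.evalRingHom τ 0 = 0
    rw [map_zero]
  · show Polynomial.evalRingHom τ 0 = 0
    rw [map_zero]
  · show Polynomial.evalRingHom τ 0 = 0
    rw [map_zero]
  · show Polynomial.evalRingHom τ (-27 * s52bP4 (C c4) (C c6) X) = -27 * s52bP4 c4 c6 τ
    rw [map_mul, s52bP4_map, map_neg, map_ofNat, coe_evalRingHom, eval_C, eval_C, eval_X]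
  · show Polynomial.evalRingHom τ (-54 * s52bP6 (C c4) (C c6) X) = -54 * s52bP6 c4 c6 τ
    rw [map_mul, s52bP6_map, map_neg, map_ofNat, coe_evalRingHom, eval_C, eval_C, eval_X]

theorem s52bShort_Δ (c4 c6 : ℚ) : (s52bShort c4 c6).Δ = 2 ^ 6 * 3 ^ 9 * (c4 ^ 3 - c6 ^ 2) := by
  simp only [s52bShort, WeierstrassCurve.Δ, WeierstrassCurve.b₂, WeierstrassCurve.b₄,
    WeierstrassCurve.b₆, WeierstrassCurve.b₈]
  ring

theorem s52hInc_C (c : ℚ) : s52hInc (C c) = RatFunc.C (algebraMap ℚ Qb c) := by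
  rw [s52hInc, RingHom.comp_apply, coe_mapRingHom, Polynomial.map_C, RatFunc.algebraMap_C]

theorem s52hInc_X : s52hInc X = RatFunc.X := by
  rw [s52hInc, RingHom.comp_apply, coe_mapRingHom, Polynomial.map_X, RatFunc.algebraMap_X]

/-- **`25 ≤ |𝓔(ℚ̄(t))[5]|`** -/
theorem s52h_card (c4 c6 : ℚ) (h : c4 ^ 3 ≠ c6 ^ 2) [DecidableEq (RatFunc Qb)] :
    25 ≤ Nat.card (S52sGenTors (s52Fam c4 c6) 5) := by
  obtain ⟨a0, b0, h4, h6⟩ := s52h_exists_base c4 c6 h
  -- `D(w₀) ≠ 0`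
  have hD : s52bD a0 b0 ≠ 0 := by
    intro hD
    have hrel := s52b_klein_rel a0 b0
    rw [hD, h4, h6, ← map_pow, ← map_pow, ← map_sub] at hrel
    have : c4 ^ 3 - c6 ^ 2 = 0 := by
      apply (algebraMap ℚ Qb).injective
      rw [hrel, map_zero]
      ring
    exact h (sub_eq_zero.mp this)
  -- the coefficients of the generic fibre
  have hline4 : s52bC4 (s52hA a0 b0) (s52hB a0 b0) =
      s52bP4 (RatFunc.C (algebraMap ℚ Qb c4)) (RatFunc.C (algebraMap ℚ Qb c6)) RatFunc.X := by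
    rw [s52hA_eq, s52hB_eq, s52b_line4, ← s52bC4_map, ← s52bC6_map, h4, h6]
  have hline6 : s52bC6 (s52hA a0 b0) (s52hB a0 b0) =
      s52bP6 (RatFunc.C (algebraMap ℚ Qb c4)) (RatFunc.C (algebraMap ℚ Qb c6)) RatFunc.X := by
    rw [s52hA_eq, s52hB_eq, s52b_line6, ← s52bC4_map, ← s52bC6_map, h4, h6]
  have e4 : s52bP4 c4 c6 0 = c4 := by
    apply (algebraMap ℚ Qb).injective
    have := s52b_line4 a0 b0 0
    rw [zero_mul, zero_mul, add_zero, sub_zero, h4, h6] at this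
    rw [s52bP4_map, map_zero]
    exact this.symm
  have e6 : s52bP6 c4 c6 0 = c6 := by
    apply (algebraMap ℚ Qb).injective
    have := s52b_line6 a0 b0 0
    rw [zero_mul, zero_mul, add_zero, sub_zero, h4, h6] at this
    rw [s52bP6_map, map_zero]
    exact this.symm
  have hΔ0 : (s52Fam c4 c6).Δ.eval 0 ≠ 0 := by
    rw [← s52s_fibQ_Δ, s52h_fib, e4, e6, s52bShort_Δ]
    exact mul_ne_zero (by norm_num) (sub_ne_zero.mpr h)
  -- the constants `√5` and `p`
  obtain ⟨s, hs⟩ := IsAlgClosed.exists_pow_nat_eq (5 : Qb) (n := 2) (by norm_num)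
  obtain ⟨p, hp⟩ := IsAlgClosed.exists_pow_nat_eq ((-5 - s) / 10 : Qb) (n := 2) (by norm_num)
  refine s52h_card_of_line (s52Fam c4 c6) a0 b0 hD rfl rfl rfl ?_ ?_ ?_ 0 hΔ0
  · show s52hInc (-27 * s52bP4 (C c4) (C c6) X) = _
    rw [map_mul, s52bP4_map, map_neg, map_ofNat, s52hInc_C, s52hInc_C, s52hInc_X, hline4]
  · show s52hInc (-54 * s52bP6 (C c4) (C c6) X) = _
    rw [map_mul, s52bP6_map, map_neg, map_ofNat, s52hInc_C, s52hInc_C, s52hInc_X, hline6]
  · intro a b hab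
    have hs' : (RatFunc.C s : RatFunc Qb) ^ 2 = 5 := by
      rw [← map_pow, hs, map_ofNat]
    have hp' : 10 * (RatFunc.C p : RatFunc Qb) ^ 2 = -5 - RatFunc.C s := by
      rw [← map_pow, hp, map_div₀, map_sub, map_neg, map_ofNat, map_ofNat]
      field_simp
    exact s52t_main (RatFunc.C s) (RatFunc.C p) a b hs' hp' hab

end Fermat.Agent.S52
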