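/-
S52 package (c), helper5: **the `GL₂(𝔽₃)` lemma**.

Let `ρ : G → End(V)`, `V` a `2`-dimensional `𝔽₃`-space, `U ⊴ G`, `g₀ ∈ G` with
`ρ(g₀)² = ρ(g₀) + 1` (an element of order `8`, e.g. a Frobenius with trace `1` and determinant `-1`)
and `τ ∈ U` with `ρ(τ) ≠ ± 1`.  Then some `σ ∈ U` has `ρ(σ)² = -1`.

Proof: in the basis `(v, g₀ v)` the matrix of `g₀` is the companion matrix of `X² - X - 1`; for each of
the `46` invertible matrices `n ≠ ± 1` one of the conjugates `c_i = gⁱ n g⁻ⁱ` or one of the products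
`c_i c_j` has square `-1` (`decide`).
-/
import Mathlib

set_option autoImplicit false
set_option linter.style.haveILetI false
set_option linter.unnecessarySeqFocus false

namespace Fermat.Agent.S52

/-- a `2 × 2` matrix over `𝔽₃`, as a plain structure (for fast evaluation) -/
structure S52iM2 where
  /-- top left -/
  a : ZMod 3
  /-- top right -/
  b : ZMod 3
  /-- bottom left -/
  c : ZMod 3
  /-- bottom right -/
  d : ZMod 3
deriving DecidableEq

namespace S52iM2

/-- matrix multiplication -/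
def mul (m n : S52iM2) : S52iM2 :=
  ⟨m.a * n.a + m.b * n.c, m.a * n.b + m.b * n.d, m.c * n.a + m.d * n.c, m.c * n.b + m.d * n.d⟩

/-- the companion matrix of `X² - X - 1` -/
def gen : S52iM2 := ⟨0, 1, 1, 1⟩

/-- its inverse -/
def genInv : S52iM2 := ⟨2, 1, 1, 0⟩

/-- conjugation by `gen` -/
def conj (m : S52iM2) : S52iM2 := mul (mul gen m) genInv

/-- `-1` -/
def negOne : S52iM2 := ⟨2, 0, 0, 2⟩

/-- the associated matrix -/
def toMat (m : S52iM2) : Matrix (Fin 2) (Fin 2) (ZMod 3) := !![m.a, m.b; m.c, m.d]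

theorem toMat_mul (m n : S52iM2) : toMat (mul m n) = toMat m * toMat n := by
  simp only [toMat, mul, Matrix.mul_fin_two]

theorem toMat_negOne : toMat negOne = -1 := by
  ext i j
  fin_cases i <;> fin_cases j <;> simp [toMat, negOne] <;> decide

theorem toMat_surjective (M : Matrix (Fin 2) (Fin 2) (ZMod 3)) : ∃ m : S52iM2, toMat m = M :=
  ⟨⟨M 0 0, M 0 1, M 1 0, M 1 1⟩, (Matrix.eta_fin_two M).symm⟩

theorem toMat_gen_mul_genInv : toMat gen * toMat genInv = 1 := by
  ext i j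
  fin_cases i <;> fin_cases j <;> simp [toMat, gen, genInv] <;> decide

theorem toMat_genInv_mul_gen : toMat genInv * toMat gen = 1 := by
  ext i j
  fin_cases i <;> fin_cases j <;> simp [toMat, gen, genInv] <;> decide

theorem toMat_conj (m : S52iM2) : toMat (conj m) = toMat gen * toMat m * toMat genInv := by
  rw [conj, toMat_mul, toMat_mul]

end S52iM2

open S52iM2 in
/-- **the finite computation**: for every invertible `n ≠ ± 1` some conjugate `c_i = gⁱ n g⁻ⁱ` or
some product `c_i c_j` has square `-1` -/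
theorem s52i_finite (a b c d : ZMod 3) (hdet : a * d - b * c ≠ 0)
    (h1 : ¬ (a = 1 ∧ b = 0 ∧ c = 0 ∧ d = 1)) (h2 : ¬ (a = 2 ∧ b = 0 ∧ c = 0 ∧ d = 2)) :
    ∃ i j : Fin 8,
      (mul (conj^[i] ⟨a, b, c, d⟩) (conj^[i] ⟨a, b, c, d⟩) = negOne) ∨
      (mul (mul (conj^[i] ⟨a, b, c, d⟩) (conj^[j] ⟨a, b, c, d⟩))
        (mul (conj^[i] ⟨a, b, c, d⟩) (conj^[j] ⟨a, b, c, d⟩)) = negOne) := by
  revert a b c d
  decide

/-- no eigenvalue for `X² - X - 1` over `𝔽₃` -/
theorem s52i_no_eigen (c : ZMod 3) : c * c ≠ c + 1 := by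
  revert c
  decide

section Main

open S52iM2

variable {V : Type*} [AddCommGroup V] [Module (ZMod 3) V]

/-- **the `GL₂(𝔽₃)` lemma** -/
theorem s52i_exists_sq_neg_one (hV : Module.finrank (ZMod 3) V = 2) {G : Type*} [Group G]
    (ρ : G →* Module.End (ZMod 3) V) (U : Subgroup G) [hU : U.Normal] (g₀ : G)
    (hg : ρ g₀ * ρ g₀ = ρ g₀ + 1) (τ : G) (hτU : τ ∈ U) (hτ1 : ρ τ ≠ 1) (hτ2 : ρ τ ≠ -1) :
    ∃ σ ∈ U, ρ σ * ρ σ = -1 := by
  classical
  haveI : Fact (Nat.Prime 3) := ⟨Nat.prime_three⟩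
  haveI : Nontrivial V := Module.nontrivial_of_finrank_pos (R := ZMod 3) (by rw [hV]; norm_num)
  obtain ⟨v, hv⟩ := exists_ne (0 : V)
  set f : Module.End (ZMod 3) V := ρ g₀ with hf
  have hff : f (f v) = f v + v := by
    have := congrArg (fun e : Module.End (ZMod 3) V => e v) hg
    simpa using this
  -- `(v, f v)` is a basis
  have hli : LinearIndependent (ZMod 3) ![v, f v] := by
    rw [LinearIndependent.pair_iff]
    intro s t hst
    by_cases ht : t = 0
    · subst ht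
      rw [zero_smul, add_zero] at hst
      exact ⟨(smul_eq_zero.mp hst).resolve_right hv, rfl⟩
    · exfalso
      have hfv : f v = (-(t⁻¹ * s)) • v := by
        have h1 : t • f v = -(s • v) := eq_neg_of_add_eq_zero_right hst
        calc f v = t⁻¹ • (t • f v) := by rw [smul_smul, inv_mul_cancel₀ ht, one_smul]
          _ = (-(t⁻¹ * s)) • v := by rw [h1, smul_neg, smul_smul, neg_smul]
      set c : ZMod 3 := -(t⁻¹ * s) with hc
      have h2 : (c * c - (c + 1)) • v = 0 := by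
        have := hff
        rw [hfv, map_smul, hfv, smul_smul] at this
        rw [sub_smul, add_smul, one_smul, this, sub_self]
      have h3 := (smul_eq_zero.mp h2).resolve_right hv
      exact s52i_no_eigen c (sub_eq_zero.mp h3)
  let b : Module.Basis (Fin 2) (ZMod 3) V :=
    basisOfLinearIndependentOfCardEqFinrank hli (by rw [hV]; rfl)
  have hb0 : b 0 = v := by
    simp [b]
  have hb1 : b 1 = f v := by
    simp [b]
  set Φ := LinearMap.toMatrix b b with hΦ
  have hΦmul : ∀ x y : Module.End (ZMod 3) V, Φ (x * y) = Φ x * Φ y := fun x y =>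
    LinearMap.toMatrix_mul b x y
  have hΦone : Φ (1 : Module.End (ZMod 3) V) = 1 := LinearMap.toMatrix_one b
  have hΦinj : Function.Injective Φ := (LinearMap.toMatrix b b).injective
  -- the matrix of `f`
  have hΦf : Φ f = toMat gen := by
    ext i j
    rw [hΦ, LinearMap.toMatrix_apply]
    fin_cases j
    · show b.repr (f (b 0)) i = _
      rw [hb0, ← hb1, Module.Basis.repr_self]
      fin_cases i <;> simp [toMat, gen]
    · show b.repr (f (b 1)) i = _
      rw [hb1, hff, ← hb1, ← hb0, map_add, Module.Basis.repr_self, Module.Basis.repr_self]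
      fin_cases i <;> simp [toMat, gen]
  have hΦfinv : Φ (ρ g₀⁻¹) = toMat genInv := by
    have h1 : Φ f * Φ (ρ g₀⁻¹) = 1 := by
      rw [← hΦmul, hf, ← map_mul, mul_inv_cancel, map_one, hΦone]
    calc Φ (ρ g₀⁻¹) = (toMat genInv * toMat gen) * Φ (ρ g₀⁻¹) := by
          rw [toMat_genInv_mul_gen, one_mul]
      _ = toMat genInv * (Φ f * Φ (ρ g₀⁻¹)) := by rw [hΦf, mul_assoc]
      _ = toMat genInv := by rw [h1, mul_one]
  -- conjugates stay in `U`
  have hconj : ∀ (i : ℕ) (u : G), u ∈ U → ∀ m : S52iM2, Φ (ρ u) = toMat m →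
      ∃ u' ∈ U, Φ (ρ u') = toMat (conj^[i] m) := by
    intro i
    induction i with
    | zero => exact fun u hu m hm => ⟨u, hu, hm⟩
    | succ i ih =>
      intro u hu m hm
      obtain ⟨u', hu', hm'⟩ := ih u hu m hm
      refine ⟨g₀ * u' * g₀⁻¹, hU.conj_mem u' hu' g₀, ?_⟩
      have h1 : ρ (g₀ * u' * g₀⁻¹) = f * ρ u' * ρ g₀⁻¹ := by rw [ρ.map_mul, ρ.map_mul]
      rw [Function.iterate_succ_apply', toMat_conj, ← hm', h1, hΦmul, hΦmul, hΦfinv, hΦf]
  obtain ⟨m, hm⟩ := toMat_surjective (Φ (ρ τ))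
  -- the conditions on `m`
  have hdet : m.a * m.d - m.b * m.c ≠ 0 := by
    intro h0
    have h1 : Φ (ρ τ) * Φ (ρ τ⁻¹) = 1 := by
      rw [← hΦmul, ← map_mul, mul_inv_cancel, map_one, hΦone]
    have h2 := congrArg Matrix.det h1
    rw [Matrix.det_mul, Matrix.det_one, ← hm, toMat, Matrix.det_fin_two_of, h0, zero_mul] at h2
    exact zero_ne_one h2
  have hm1 : ¬ (m.a = 1 ∧ m.b = 0 ∧ m.c = 0 ∧ m.d = 1) := by
    rintro ⟨ha, hb, hc, hd⟩
    apply hτ1
    apply hΦinj
    rw [hΦone, ← hm, toMat, ha, hb, hc, hd]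
    exact (Matrix.one_fin_two).symm
  have hm2 : ¬ (m.a = 2 ∧ m.b = 0 ∧ m.c = 0 ∧ m.d = 2) := by
    rintro ⟨ha, hb, hc, hd⟩
    apply hτ2
    apply hΦinj
    rw [map_neg, hΦone, ← hm, ← toMat_negOne, toMat, toMat, negOne, ha, hb, hc, hd]
  obtain ⟨i, j, hij⟩ := s52i_finite m.a m.b m.c m.d hdet hm1 hm2
  obtain ⟨ui, hui, hmi⟩ := hconj i τ hτU m hm.symm
  obtain ⟨uj, huj, hmj⟩ := hconj j τ hτU m hm.symm
  rcases hij with h | h
  · refine ⟨ui, hui, ?_⟩
    apply hΦinj
    rw [hΦmul, hmi, ← toMat_mul, h, toMat_negOne, map_neg, hΦone]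
  · refine ⟨ui * uj, U.mul_mem hui huj, ?_⟩
    apply hΦinj
    rw [hΦmul, ρ.map_mul, hΦmul, hmi, hmj, ← toMat_mul, ← toMat_mul, h, toMat_negOne, map_neg,
      hΦone]

end Main

end Fermat.Agent.S52
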