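/-
S52 / package (c), Chebotarev step (helper4): from an element `g₀` of `G_ℚ` with
`ρ(g₀)² = ρ(g₀) + 1` on `E₀[3]` and an element `τ` fixing a finite normal field `L'` with
`ρ(τ) ≠ ± 1`, produce a prime `r` outside a given finite set and a Frobenius element `φ` at `r`
which fixes `L'` and satisfies `ρ(φ)² = -1` (`s52l_exists_frob`).
-/
import Fermat.Agent.Lib.S52.IrrGrp
import Fermat.Agent.Lib.S58.Match

set_option autoImplicit false
set_option linter.style.haveILetI false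

namespace Fermat.Agent.S52

open Fermat.Agent.S58

local notation "Qb" => AlgebraicClosure ℚ
local notation "GQ" => (AlgebraicClosure ℚ ≃ₐ[ℚ] AlgebraicClosure ℚ)

/-- the action on `E₀[3]` together with the restriction to `L'` -/
noncomputable def s52lRho (W0 : WeierstrassCurve ℤ) (L' : IntermediateField ℚ Qb) [Normal ℚ L'] :
    GQ →* (Module.End (ZMod 3) (S58Tors W0 3))ˣ × (↥L' ≃ₐ[ℚ] ↥L') :=
  ((s58Gal W0 3).toHomUnits).prod (AlgEquiv.restrictNormalHom (F := ℚ) (K₁ := Qb) L')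

theorem s52lRho_level (W0 : WeierstrassCurve ℤ) (hΔ0 : W0.Δ ≠ 0) (L' : IntermediateField ℚ Qb)
    [FiniteDimensional ℚ L'] [Normal ℚ L'] :
    GaloisFactorsThroughFiniteLevel (s52lRho W0 L') := by
  obtain ⟨L₁, hL₁fin, hL₁⟩ := s58m_level W0 hΔ0 (n := 3) (by norm_num)
  haveI := hL₁fin
  obtain ⟨L₂, hL₂fin, hL₂⟩ := s58c_restrict_level L'
  haveI := hL₂fin
  refine ⟨L₁ ⊔ L₂, IntermediateField.finiteDimensional_sup _ _, fun σ hσ => ?_⟩
  have h1 : ∀ x ∈ L₁, σ x = x := fun x hx => hσ x ((le_sup_left : L₁ ≤ _) hx)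
  have h2 : ∀ x ∈ L₂, σ x = x := fun x hx => hσ x ((le_sup_right : L₂ ≤ _) hx)
  refine Prod.ext ?_ ?_
  · apply Units.ext
    exact hL₁ σ h1
  · exact hL₂ σ h2

/-- **the Chebotarev step of package (c)** -/
theorem s52l_exists_frob (W0 : WeierstrassCurve ℤ) (hΔ0 : W0.Δ ≠ 0)
    (L' : IntermediateField ℚ Qb) [FiniteDimensional ℚ L'] [Normal ℚ L']
    (g₀ : GQ) (hg : s58Gal W0 3 g₀ * s58Gal W0 3 g₀ = s58Gal W0 3 g₀ + 1)
    (τ : GQ) (hτL : ∀ x ∈ L', τ x = x) (hτ1 : s58Gal W0 3 τ ≠ 1) (hτ2 : s58Gal W0 3 τ ≠ -1)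
    (T : Finset ℕ) :
    ∃ (r : ℕ) (P : ValuationSubring Qb) (φ : GQ), r.Prime ∧ r ∉ T ∧ P.LiesOverPrime r ∧
      P.IsFrobeniusAt φ r ∧ (∀ x ∈ L', φ x = x) ∧ s58Gal W0 3 φ * s58Gal W0 3 φ = -1 := by
  have hV : Module.finrank (ZMod 3) (S58Tors W0 3) = 2 :=
    (s58m_free W0 hΔ0 Nat.prime_three (m := 1) (n := 3) (by norm_num)).2.2 one_ne_zero
  haveI := Fermat.Agent.Lib.Helper6.isGalois_rat_algebraicClosure
  have hgal : IsGalois ℚ ↥L' := { to_isSeparable := inferInstance, to_normal := inferInstance }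
  haveI : (L'.fixingSubgroup).Normal := (InfiniteGalois.normal_iff_isGalois _).mpr hgal
  have hτU : τ ∈ L'.fixingSubgroup := by
    rw [IntermediateField.mem_fixingSubgroup_iff]
    exact hτL
  obtain ⟨σ, hσU, hσ⟩ := s52i_exists_sq_neg_one hV (s58Gal W0 3) L'.fixingSubgroup g₀ hg τ hτU
    hτ1 hτ2
  rw [IntermediateField.mem_fixingSubgroup_iff] at hσU
  obtain ⟨r, hr, hrT, P, φ, hP, hφ, hρ⟩ :=
    s58c_exists_frob (s52lRho W0 L') (s52lRho_level W0 hΔ0 L') T σ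
  have h1 : s58Gal W0 3 φ = s58Gal W0 3 σ := by
    have := congrArg (fun q => ((q.1 : (Module.End (ZMod 3) (S58Tors W0 3))ˣ) :
      Module.End (ZMod 3) (S58Tors W0 3))) hρ
    exact this
  have h2 : AlgEquiv.restrictNormalHom (F := ℚ) (K₁ := Qb) L' φ =
      AlgEquiv.restrictNormalHom (F := ℚ) (K₁ := Qb) L' σ := congrArg Prod.snd hρ
  refine ⟨r, P, φ, hr, hrT, hP, hφ, fun x hx => ?_, by rw [h1]; exact hσ⟩
  rw [s58c_eq_of_restrict_eq L' h2 x hx]
  exact hσU x hx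

end Fermat.Agent.S52
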