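/-
S52 package (c), helper5: **irreducibility of `W[3]` from one Frobenius**.

If `r ≠ 3` is a prime of good reduction of the integral model `W` with
`a_r(W)² - r + 1 ≡ 0 mod 3` (i.e. `(r ≡ 1, a_r ≡ 0)` or `(r ≡ 2, a_r ≢ 0)`), then the characteristic
polynomial `X² - a_r X + r` of a Frobenius at `r` on `W[3]` has no root in `𝔽₃`, so there is no
Galois-stable line: `W.ModRepIsIrreducible 3`.
-/
import Mathlib
import Fermat.Agent.Lib.S58.ET
import Fermat.Agent.Lib.S58.Match
import Fermat.Agent.Lib.S58.LocalLin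
import Fermat.Agent.Lib.Helper6.FrobeniusExists

set_option autoImplicit false
set_option linter.style.haveILetI false

namespace Fermat.Agent.S52

open WeierstrassCurve WeierstrassCurve.Affine.Point Fermat.Agent.S58
open scoped WeierstrassCurve.Affine

local notation "Qb" => AlgebraicClosure ℚ
local notation "GQ" => (AlgebraicClosure ℚ ≃ₐ[ℚ] AlgebraicClosure ℚ)

/-- no root of `X² - a X + (a² + 1)` in `𝔽₃` -/
theorem s52i_no_root (a c : ZMod 3) : c ^ 2 - a * c + (a ^ 2 + 1) ≠ 0 := by
  revert a c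
  decide

/-- a `2`-dimensional representation over a field, with an element whose characteristic polynomial
has no root, has no stable line -/
theorem s52i_no_stable_line {F V : Type*} [Field F] [AddCommGroup V] [Module F V]
    [Module.Finite F V] (hV : Module.finrank F V = 2) (f : Module.End F V)
    (hroot : ∀ c : F, c ^ 2 - LinearMap.trace F V f * c + LinearMap.det f ≠ 0)
    (N : Submodule F V) (hN : ∀ x ∈ N, f x ∈ N) : N = ⊥ ∨ N = ⊤ := by
  by_contra hcon
  push Not at hcon
  obtain ⟨hbot, htop⟩ := hcon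
  obtain ⟨x, hxN, hx0⟩ := (Submodule.ne_bot_iff N).mp hbot
  have hlt : Module.finrank F N < 2 := hV ▸ Submodule.finrank_lt htop
  have hpos : 0 < Module.finrank F N := by
    rw [Module.finrank_pos_iff_exists_ne_zero]
    exact ⟨⟨x, hxN⟩, fun h => hx0 (congrArg Subtype.val h)⟩
  have hone : Module.finrank F N = 1 := by omega
  have hspan := (finrank_eq_one_iff_of_nonzero' (⟨x, hxN⟩ : N)
    (fun h => hx0 (congrArg Subtype.val h))).mp hone
  obtain ⟨c, hc⟩ := hspan ⟨f x, hN x hxN⟩
  have hc' : f x = c • x := by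
    have := congrArg Subtype.val hc
    simpa using this.symm
  have hcay := s58l_cayley hV f x
  rw [hc', map_smul, hc', smul_smul, smul_smul, ← sub_smul, ← add_smul] at hcay
  rcases smul_eq_zero.mp hcay with h | h
  · apply hroot c
    rw [← h]
    ring
  · exact hx0 h

/-- **irreducibility of `W[3]` from one Frobenius** -/
theorem s52i_irreducible_of_frob (W : WeierstrassCurve ℤ) (hΔ : W.Δ ≠ 0) {r : ℕ} (hr : r.Prime)
    (hr3 : r ≠ 3) (hgood : ¬ (r : ℤ) ∣ W.Δ)
    (h : (3 : ℤ) ∣ W.apOfModel r ^ 2 - (r : ℤ) + 1) : W.ModRepIsIrreducible 3 := by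
  haveI : Fact (Nat.Prime 3) := ⟨Nat.prime_three⟩
  obtain ⟨hfree, hfin, hrank⟩ := s58m_free W hΔ (lam := 3) (m := 1) (n := 3) Nat.prime_three
    (by norm_num)
  have hV : Module.finrank (ZMod 3) (S58Tors W 3) = 2 := hrank one_ne_zero
  obtain ⟨A, σ, hA, hσ⟩ := Fermat.Agent.Lib.Helper6.exists_frobenius r hr
  obtain ⟨htr, hdet⟩ := s58_et W hΔ r 3 1 3 hr hgood Nat.prime_three (Ne.symm hr3) (by norm_num)
    A hA σ hσ
  -- the relation between trace and determinant modulo `3`
  have hrel : ((r : ℕ) : ZMod 3) = ((W.apOfModel r : ℤ) : ZMod 3) ^ 2 + 1 := by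
    have h1 : ((W.apOfModel r ^ 2 - (r : ℤ) + 1 : ℤ) : ZMod 3) = 0 :=
      (ZMod.intCast_zmod_eq_zero_iff_dvd _ 3).mpr (by exact_mod_cast h)
    push_cast at h1
    linear_combination -h1
  refine ⟨?_, fun N hN => ?_⟩
  · haveI : Module.Finite (ZMod 3) (S58Tors W 3) := hfin
    exact Module.nontrivial_of_finrank_pos (R := ZMod 3) (by rw [hV]; norm_num)
  · haveI : Module.Finite (ZMod 3) (S58Tors W 3) := hfin
    refine s52i_no_stable_line hV (s58Gal W 3 σ) (fun c => ?_) N (fun x hx => ?_)
    · rw [htr, hdet, hrel]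
      exact s52i_no_root _ c
    · rw [galoisRepModuleEnd_apply]
      exact hN σ x hx

end Fermat.Agent.S52
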