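/-
S52 package (c), helper5: **an element of order `8` from the Frobenius at `5`**.

* `s52i_card_point`: exact point count of an affine Weierstrass curve over a finite field as
  `1 + #{nonsingular (x, y)}`;
* `s52i_ap5`: an integral model reducing to `y² = x³ + 3 x + 3` modulo `5` has `a_5 = 1`
  (five points);
* `s52i_frob_rel`: if `a_ℓ(W) ≡ 1` and `ℓ ≡ -1 mod 3` at a good prime `ℓ ≠ 3`, a Frobenius `g` at `ℓ`
  acts on `W[3]` with `g² = g + 1`.
-/
import Mathlib
import Fermat.Agent.Lib.S58.ET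
import Fermat.Agent.Lib.S58.Match
import Fermat.Agent.Lib.S58.LocalLin
import Fermat.Agent.Lib.Helper6.FrobeniusExists

set_option autoImplicit false
set_option linter.style.haveILetI false

namespace Fermat.Agent.S52

open WeierstrassCurve WeierstrassCurve.Affine.Point Fermat.Agent.S58
open scoped WeierstrassCurve.Affine

local notation "Qb" => AlgebraicClosure ℚ
local notation "GQ" => (AlgebraicClosure ℚ ≃ₐ[ℚ] AlgebraicClosure ℚ)

section Count

variable {F : Type*} [Field F] (W : Affine F)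

/-- the points of an affine Weierstrass curve: the point at infinity and the nonsingular pairs -/
def s52iPointEquiv : W.Point ≃ Option {p : F × F // W.Nonsingular p.1 p.2} where
  toFun P :=
    match P with
    | Affine.Point.zero => Option.none
    | Affine.Point.some x y h => Option.some ⟨(x, y), h⟩
  invFun o :=
    match o with
    | Option.none => Affine.Point.zero
    | Option.some p => Affine.Point.some p.1.1 p.1.2 p.2
  left_inv P := by
    cases P <;> rfl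
  right_inv o := by
    cases o <;> rfl

/-- exact point count -/
theorem s52i_card_point [Fintype F] [DecidableEq F] [DecidablePred fun p : F × F => W.Nonsingular p.1 p.2] :
    Nat.card W.Point = (Finset.univ.filter fun p : F × F => W.Nonsingular p.1 p.2).card + 1 := by
  rw [Nat.card_congr (s52iPointEquiv W), Finite.card_option, Nat.card_eq_fintype_card,
    Fintype.card_subtype]

end Count

/-- the curve `y² = x³ + 3 x + 3` over `𝔽₅` -/
def s52iE5 : WeierstrassCurve (ZMod 5) := ⟨0, 0, 0, 3, 3⟩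

theorem s52iE5_nonsingular_iff (p : ZMod 5 × ZMod 5) :
    s52iE5.toAffine.Nonsingular p.1 p.2 ↔
      (p.2 ^ 2 = p.1 ^ 3 + 3 * p.1 + 3 ∧ (3 * p.1 ^ 2 + 3 ≠ 0 ∨ p.2 ≠ -p.2)) := by
  rw [Affine.nonsingular_iff, Affine.equation_iff]
  simp only [s52iE5, zero_mul, add_zero, mul_zero, sub_zero]
  constructor
  · rintro ⟨h1, h2⟩
    refine ⟨h1, ?_⟩
    rcases h2 with h2 | h2
    · exact Or.inl fun h => h2 (by rw [h])
    · exact Or.inr h2
  · rintro ⟨h1, h2⟩
    refine ⟨h1, ?_⟩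
    rcases h2 with h2 | h2
    · exact Or.inl fun h => h2 h.symm
    · exact Or.inr h2

theorem s52iE5_count :
    (Finset.univ.filter fun p : ZMod 5 × ZMod 5 =>
        (p.2 ^ 2 = p.1 ^ 3 + 3 * p.1 + 3 ∧ (3 * p.1 ^ 2 + 3 ≠ 0 ∨ p.2 ≠ -p.2))).card = 4 := by
  decide

theorem s52iE5_card : Nat.card s52iE5.toAffine.Point = 5 := by
  haveI : Fact (Nat.Prime 5) := ⟨by norm_num⟩
  letI : DecidablePred fun p : ZMod 5 × ZMod 5 => s52iE5.toAffine.Nonsingular p.1 p.2 :=
    fun p => decidable_of_iff _ (s52iE5_nonsingular_iff p).symm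
  rw [s52i_card_point s52iE5.toAffine]
  have h : (Finset.univ.filter fun p : ZMod 5 × ZMod 5 => s52iE5.toAffine.Nonsingular p.1 p.2)
      = Finset.univ.filter fun p : ZMod 5 × ZMod 5 =>
        (p.2 ^ 2 = p.1 ^ 3 + 3 * p.1 + 3 ∧ (3 * p.1 ^ 2 + 3 ≠ 0 ∨ p.2 ≠ -p.2)) := by
    ext p
    simp only [Finset.mem_filter, Finset.mem_univ, true_and]
    exact s52iE5_nonsingular_iff p
  rw [h, s52iE5_count]

/-- **`a_5 = 1`** for an integral model reducing to `y² = x³ + 3 x + 3` modulo `5` -/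
theorem s52i_ap5 (W : WeierstrassCurve ℤ) (h1 : (5 : ℤ) ∣ W.a₁) (h2 : (5 : ℤ) ∣ W.a₂)
    (h3 : (5 : ℤ) ∣ W.a₃) (h4 : (5 : ℤ) ∣ W.a₄ - 3) (h6 : (5 : ℤ) ∣ W.a₆ - 3) :
    W.apOfModel 5 = 1 := by
  have hz : ∀ a : ℤ, (5 : ℤ) ∣ a → ((a : ℤ) : ZMod 5) = 0 := fun a h =>
    (ZMod.intCast_zmod_eq_zero_iff_dvd a 5).mpr (by exact_mod_cast h)
  have hred : W.reductionMod 5 = s52iE5 := by
    unfold reductionMod s52iE5
    ext
    · exact hz _ h1
    · exact hz _ h2
    · exact hz _ h3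
    · have := hz _ h4
      push_cast at this
      show ((W.a₄ : ℤ) : ZMod 5) = 3
      linear_combination this
    · have := hz _ h6
      push_cast at this
      show ((W.a₆ : ℤ) : ZMod 5) = 3
      linear_combination this
  rw [apOfModel, hred, traceOfFrobenius, WeierstrassCurve.card, s52iE5_card,
    Nat.card_eq_fintype_card, ZMod.card]
  norm_num

/-- a Frobenius with trace `≡ 1` and determinant `≡ -1` modulo `3` satisfies `g² = g + 1` on
`W[3]` -/
theorem s52i_frob_rel (W : WeierstrassCurve ℤ) (hΔ : W.Δ ≠ 0) {ℓ : ℕ} (hℓ : ℓ.Prime)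
    (hℓ3 : ℓ ≠ 3) (hgood : ¬ (ℓ : ℤ) ∣ W.Δ) (ha : (3 : ℤ) ∣ W.apOfModel ℓ - 1)
    (hdet : (3 : ℤ) ∣ (ℓ : ℤ) + 1) :
    ∃ (A : ValuationSubring Qb) (σ : GQ), A.LiesOverPrime ℓ ∧ A.IsFrobeniusAt σ ℓ ∧
      s58Gal W 3 σ * s58Gal W 3 σ = s58Gal W 3 σ + 1 := by
  haveI : Fact (Nat.Prime 3) := ⟨Nat.prime_three⟩
  obtain ⟨hfree, hfin, hrank⟩ := s58m_free W hΔ (lam := 3) (m := 1) (n := 3) Nat.prime_three
    (by norm_num)
  have hV : Module.finrank (ZMod 3) (S58Tors W 3) = 2 := hrank one_ne_zero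
  obtain ⟨A, σ, hA, hσ⟩ := Fermat.Agent.Lib.Helper6.exists_frobenius ℓ hℓ
  obtain ⟨htr, hdt⟩ := s58_et W hΔ ℓ 3 1 3 hℓ hgood Nat.prime_three (Ne.symm hℓ3) (by norm_num)
    A hA σ hσ
  have htr1 : ((W.apOfModel ℓ : ℤ) : ZMod 3) = 1 := by
    have h1 : ((W.apOfModel ℓ - 1 : ℤ) : ZMod 3) = 0 :=
      (ZMod.intCast_zmod_eq_zero_iff_dvd _ 3).mpr (by exact_mod_cast ha)
    push_cast at h1
    linear_combination h1
  have hdt1 : ((ℓ : ℕ) : ZMod 3) = -1 := by
    have h1 : (((ℓ : ℤ) + 1 : ℤ) : ZMod 3) = 0 :=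
      (ZMod.intCast_zmod_eq_zero_iff_dvd _ 3).mpr (by exact_mod_cast hdet)
    push_cast at h1
    linear_combination h1
  refine ⟨A, σ, hA, hσ, ?_⟩
  haveI : Module.Finite (ZMod 3) (S58Tors W 3) := hfin
  refine LinearMap.ext fun v => ?_
  have hc := s58l_cayley hV (s58Gal W 3 σ) v
  rw [htr, hdt, htr1, hdt1, one_smul, neg_smul, one_smul] at hc
  rw [Module.End.mul_apply, LinearMap.add_apply, Module.End.one_apply]
  have : s58Gal W 3 σ (s58Gal W 3 σ v) = s58Gal W 3 σ v + v := by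
    rw [← sub_eq_zero, ← hc]
    abel
  exact this

end Fermat.Agent.S52
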