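/-
S52 / package (c), local part (helper4): **ramified elements are moved by inertia** (number field
form).  For a finite Galois extension `F / ℚ`, a prime `P₀ ∣ q` of `𝓞 F` and a valuation `v` of `F`
centred at `P₀`: if `v z ^ m = v q ^ n` with `m ∤ n` then some element of the inertia group of `P₀`
moves `z` (`s52l_nf_core`).

Proof: the prime of the inertia field `E = F ^ I` below `P₀` is unramified over `ℚ`
(Mathlib's `Ideal.card_inertia_eq_ramificationIdxIn`, twice, and the tower formula, as in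
`Lib/S13/AbelianUnramified.lean`), so `q` is a uniformiser of `E` at that prime and every
`x ∈ E ^ ×` has `v x ∈ ⟨v q⟩`.
-/
import Fermat.Agent.Lib.S13.AbelianUnramified

set_option autoImplicit false
set_option linter.unusedSectionVars false

open NumberField Ideal

namespace Fermat.Agent.S52

/-! ### uniformisers in Dedekind domains -/

section Dedekind

variable {R : Type*} [CommRing R] [IsDedekindDomain R]

/-- if `π ∈ 𝔮 \ 𝔮²` then every nonzero `x` is `π ^ k` times a `𝔮`-unit: `c x = π ^ k b` with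
`b, c ∉ 𝔮`. -/
theorem s52l_unif (𝔮 : Ideal R) [h𝔮 : 𝔮.IsPrime] (h0 : 𝔮 ≠ ⊥) {π : R} (hπ : π ∈ 𝔮)
    (hπ2 : π ∉ 𝔮 ^ 2) (x : R) (hx : x ≠ 0) :
    ∃ (k : ℕ) (c b : R), c ∉ 𝔮 ∧ b ∉ 𝔮 ∧ c * x = π ^ k * b := by
  classical
  have hprime : Prime 𝔮 := Ideal.prime_of_isPrime h0 h𝔮
  have hxs : Ideal.span {x} ≠ 0 := by
    rw [Ne, Ideal.zero_eq_bot, Ideal.span_singleton_eq_bot]
    exact hx
  have hfin : FiniteMultiplicity 𝔮 (Ideal.span {x}) :=
    FiniteMultiplicity.of_not_isUnit hprime.not_unit hxs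
  set k := multiplicity 𝔮 (Ideal.span {x}) with hk
  obtain ⟨𝔟, h𝔟⟩ : 𝔮 ^ k ∣ Ideal.span {x} := pow_multiplicity_dvd 𝔮 (Ideal.span {x})
  -- `(π) = 𝔮 * 𝔠`
  obtain ⟨𝔠, h𝔠⟩ : 𝔮 ∣ Ideal.span {π} := by
    rw [Ideal.dvd_span_singleton]
    exact hπ
  have h𝔠q : ¬ 𝔠 ≤ 𝔮 := by
    intro hle
    apply hπ2
    have h1 : 𝔮 ^ 2 ∣ Ideal.span {π} := by
      rw [h𝔠, pow_two]
      exact mul_dvd_mul_left 𝔮 (Ideal.dvd_iff_le.2 hle)
    exact (Ideal.dvd_span_singleton.1 h1)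
  have h𝔠k : ¬ 𝔠 ^ k ≤ 𝔮 := fun hle => h𝔠q (h𝔮.le_of_pow_le hle)
  obtain ⟨c, hc𝔠, hc𝔮⟩ := Set.not_subset.1 h𝔠k
  -- `x * c ∈ (π ^ k) * 𝔟`
  have hmem : x * c ∈ Ideal.span {π ^ k} * 𝔟 := by
    have h1 : Ideal.span {π ^ k} * 𝔟 = Ideal.span {x} * 𝔠 ^ k := by
      rw [← Ideal.span_singleton_pow, h𝔠, h𝔟, mul_pow]
      ring
    rw [h1]
    exact Ideal.mul_mem_mul (Ideal.subset_span rfl) hc𝔠
  obtain ⟨b, hb𝔟, hb⟩ := Ideal.mem_span_singleton_mul.1 hmem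
  refine ⟨k, c, b, hc𝔮, ?_, by rw [mul_comm, hb]⟩
  intro hb𝔮
  -- then `𝔮 ^ (k + 1) ∣ (x) (c)`, hence `𝔮 ^ (k + 1) ∣ (x)`
  have h1 : 𝔮 ^ (k + 1) ∣ Ideal.span {x} * Ideal.span {c} := by
    rw [Ideal.span_singleton_mul_span_singleton, Ideal.dvd_span_singleton, ← hb, pow_succ]
    exact Ideal.mul_mem_mul (Ideal.pow_mem_pow hπ k) hb𝔮
  have h2 : ¬ 𝔮 ∣ Ideal.span {c} := by
    rw [Ideal.dvd_span_singleton]
    exact hc𝔮
  have h3 : 𝔮 ^ (k + 1) ∣ Ideal.span {x} := hprime.pow_dvd_of_dvd_mul_right (k + 1) h2 h1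
  exact hfin.not_pow_dvd_of_multiplicity_lt (Nat.lt_succ_self k) h3

/-- a valuation centred at `𝔮` takes values in `⟨v π⟩` on the fraction field, `π ∈ 𝔮 \ 𝔮²` -/
theorem s52l_val_zpow {E : Type*} [Field E] [Algebra R E] [IsFractionRing R E]
    {Γ : Type*} [LinearOrderedCommGroupWithZero Γ] (v : Valuation E Γ)
    (𝔮 : Ideal R) [h𝔮 : 𝔮.IsPrime] (h0 : 𝔮 ≠ ⊥)
    (hv1 : ∀ x : R, v (algebraMap R E x) ≤ 1)
    (hvq : ∀ x : R, v (algebraMap R E x) < 1 ↔ x ∈ 𝔮)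
    {π : R} (hπ : π ∈ 𝔮) (hπ2 : π ∉ 𝔮 ^ 2) (y : E) (hy : y ≠ 0) :
    ∃ k : ℤ, v y = v (algebraMap R E π) ^ k := by
  have hunit : ∀ x : R, x ∉ 𝔮 → v (algebraMap R E x) = 1 := by
    intro x hx
    refine le_antisymm (hv1 x) (not_lt.1 fun h => hx ((hvq x).1 h))
  have key : ∀ x : R, x ≠ 0 → ∃ k : ℕ, v (algebraMap R E x) = v (algebraMap R E π) ^ k := by
    intro x hx
    obtain ⟨k, c, b, hc, hb, h⟩ := s52l_unif 𝔮 h0 hπ hπ2 x hx
    refine ⟨k, ?_⟩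
    have h1 := congrArg (fun t => v (algebraMap R E t)) h
    simp only [map_mul, map_pow, hunit c hc, hunit b hb, one_mul, mul_one] at h1
    exact h1
  obtain ⟨a, b, hb, rfl⟩ := IsFractionRing.div_surjective (A := R) y
  have hb0 : b ≠ 0 := nonZeroDivisors.ne_zero hb
  have ha0 : a ≠ 0 := by
    rintro rfl
    apply hy
    rw [map_zero, zero_div]
  obtain ⟨ka, hka⟩ := key a ha0
  obtain ⟨kb, hkb⟩ := key b hb0
  refine ⟨(ka : ℤ) - kb, ?_⟩
  have hπ0 : v (algebraMap R E π) ≠ 0 := by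
    rw [Ne, Valuation.zero_iff, map_eq_zero_iff _ (IsFractionRing.injective R E)]
    rintro rfl
    exact hπ2 (Ideal.zero_mem _)
  rw [map_div₀, hka, hkb, zpow_sub₀ hπ0, zpow_natCast, zpow_natCast]

end Dedekind

/-! ### the inertia field is unramified -/

section NF

open Fermat.Agent.CFT.Global Fermat.Agent.S13Lib

variable {F : Type} [Field F] [NumberField F] [IsGalois ℚ F]

/-- the prime of the inertia field below `P₀` is unramified over `ℤ` -/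
theorem s52l_ramificationIdx_inertiaField {q : ℕ} [hq : Fact q.Prime] (P₀ : Ideal (𝓞 F))
    [P₀.IsPrime] (hqP : ((q : ℕ) : 𝓞 F) ∈ P₀) :
    (P₀.under (𝓞 (FixedPoints.intermediateField (P₀.inertia Gal(F/ℚ)) :
      IntermediateField ℚ F))).ramificationIdx ℤ = 1 := by
  have hP0 : P₀ ≠ ⊥ := by
    rintro rfl
    rw [Ideal.mem_bot] at hqP
    exact hq.out.ne_zero (by exact_mod_cast hqP)
  have hlo : P₀.LiesOver (P₀.under (𝓞 (FixedPoints.intermediateField (P₀.inertia Gal(F/ℚ)) :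
      IntermediateField ℚ F))) := ⟨rfl⟩
  have htower := Ideal.ramificationIdx_tower (R := ℤ)
    (P₀.under (𝓞 (FixedPoints.intermediateField (P₀.inertia Gal(F/ℚ)) :
      IntermediateField ℚ F))) P₀
  rw [← card_inertia_eq_ramificationIdx hqP, ramificationIdx_fixedField _ P₀ hP0] at htower
  have hsub : Nat.card (P₀.inertia ↥(P₀.inertia Gal(F/ℚ))) =
      Nat.card ((P₀.inertia Gal(F/ℚ)).subgroupOf (P₀.inertia Gal(F/ℚ))) := rfl
  rw [hsub, Subgroup.subgroupOf_self, Subgroup.card_top] at htower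
  have hpos : 0 < Nat.card (P₀.inertia Gal(F/ℚ)) := Nat.card_pos
  have h2 : (P₀.under (𝓞 (FixedPoints.intermediateField (P₀.inertia Gal(F/ℚ)) :
      IntermediateField ℚ F))).ramificationIdx ℤ * Nat.card (P₀.inertia Gal(F/ℚ)) =
      1 * Nat.card (P₀.inertia Gal(F/ℚ)) := by rw [← htower, one_mul]
  exact Nat.eq_of_mul_eq_mul_right hpos h2

/-- **ramified elements are moved by inertia** (number field form) -/
theorem s52l_nf_core {q : ℕ} [hq : Fact q.Prime] (P₀ : Ideal (𝓞 F)) [P₀.IsPrime]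
    (hqP : ((q : ℕ) : 𝓞 F) ∈ P₀)
    {Γ : Type*} [LinearOrderedCommGroupWithZero Γ] (v : Valuation F Γ)
    (hv1 : ∀ x : 𝓞 F, v (x : F) ≤ 1) (hvP : ∀ x : 𝓞 F, v (x : F) < 1 ↔ x ∈ P₀)
    (z : F) (m n : ℕ) (hmn : ¬ m ∣ n) (hz : v z ^ m = v ((q : ℕ) : F) ^ n) :
    ∃ τ ∈ P₀.inertia Gal(F/ℚ), τ z ≠ z := by
  classical
  by_contra hcon
  push_neg at hcon
  set I := P₀.inertia Gal(F/ℚ) with hI
  set E : IntermediateField ℚ F := FixedPoints.intermediateField I with hE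
  have hzE : z ∈ E := by
    rw [hE, FixedPoints.mem_intermediateField_iff]
    intro τ
    exact hcon τ.1 τ.2
  have hP0 : P₀ ≠ ⊥ := by
    rintro rfl
    rw [Ideal.mem_bot] at hqP
    exact hq.out.ne_zero (by exact_mod_cast hqP)
  set 𝔮 : Ideal (𝓞 E) := P₀.under (𝓞 E) with h𝔮
  have h𝔮0 : 𝔮 ≠ ⊥ := Ideal.under_ne_bot (𝓞 E) hP0
  have hmem𝔮 : ∀ x : 𝓞 E, x ∈ 𝔮 ↔ algebraMap (𝓞 E) (𝓞 F) x ∈ P₀ := fun x => Iff.rfl
  have hcoe : ∀ x : 𝓞 E, ((algebraMap (𝓞 E) (𝓞 F) x : 𝓞 F) : F) =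
      algebraMap E F (algebraMap (𝓞 E) E x) := fun x => rfl
  set vE : Valuation E Γ := v.comap (algebraMap E F) with hvE
  have hv1' : ∀ x : 𝓞 E, vE (algebraMap (𝓞 E) E x) ≤ 1 := by
    intro x
    rw [hvE, Valuation.comap_apply, ← hcoe]
    exact hv1 _
  have hvq' : ∀ x : 𝓞 E, vE (algebraMap (𝓞 E) E x) < 1 ↔ x ∈ 𝔮 := by
    intro x
    rw [hvE, Valuation.comap_apply, ← hcoe, hmem𝔮]
    exact hvP _
  have hq𝔮 : ((q : ℕ) : 𝓞 E) ∈ 𝔮 := by
    rw [hmem𝔮, map_natCast]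
    exact hqP
  have hq𝔮2 : ((q : ℕ) : 𝓞 E) ∉ 𝔮 ^ 2 := by
    have hlo := liesOver_span_natCast_of_mem hq𝔮
    have hmap0 : (Ideal.span {((q : ℕ) : ℤ)}).map (algebraMap ℤ (𝓞 E)) ≠ ⊥ := by
      rw [map_span_natCast_int]
      exact span_natCast_ringOfIntegers_ne_bot q E
    have h1 := Ideal.IsDedekindDomain.ramificationIdx_eq_multiplicity
      (Ideal.span {((q : ℕ) : ℤ)}) 𝔮 hmap0
    rw [map_span_natCast_int, h𝔮, s52l_ramificationIdx_inertiaField P₀ hqP] at h1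
    have hprime : Prime 𝔮 := Ideal.prime_of_isPrime h𝔮0 inferInstance
    have hfin : FiniteMultiplicity 𝔮 (Ideal.span {((q : ℕ) : 𝓞 E)}) :=
      FiniteMultiplicity.of_not_isUnit hprime.not_unit (span_natCast_ringOfIntegers_ne_bot q E)
    intro hmem
    have h2 : 𝔮 ^ 2 ∣ Ideal.span {((q : ℕ) : 𝓞 E)} := by
      rw [Ideal.dvd_span_singleton]
      exact hmem
    have h1' : multiplicity 𝔮 (Ideal.span {((q : ℕ) : 𝓞 E)}) = 1 := h1.symm
    exact hfin.not_pow_dvd_of_multiplicity_lt (by rw [h1']; norm_num) h2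
  have hvq0 : 0 < v ((q : ℕ) : F) := by
    rw [zero_lt_iff, Ne, Valuation.zero_iff]
    exact_mod_cast hq.out.ne_zero
  have hvqlt : v ((q : ℕ) : F) < 1 := by
    have := (hvP ((q : ℕ) : 𝓞 F)).2 hqP
    have e : (((q : ℕ) : 𝓞 F) : F) = ((q : ℕ) : F) := map_natCast (algebraMap (𝓞 F) F) q
    rw [e] at this
    exact this
  have hn0 : n ≠ 0 := by
    rintro rfl
    exact hmn (dvd_zero m)
  have hm0 : m ≠ 0 := by
    rintro rfl
    rw [pow_zero] at hz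
    exact absurd hz.symm (ne_of_lt (pow_lt_one₀ hvq0.le hvqlt hn0))
  have hz0 : z ≠ 0 := by
    rintro rfl
    rw [map_zero, zero_pow hm0] at hz
    have := pow_eq_zero_iff hn0 |>.1 hz.symm
    rw [Valuation.zero_iff] at this
    exact hq.out.ne_zero (by exact_mod_cast this)
  obtain ⟨k, hk⟩ := s52l_val_zpow (R := 𝓞 E) (E := E) vE 𝔮 h𝔮0 hv1' hvq' hq𝔮 hq𝔮2
    (⟨z, hzE⟩ : E) (by
      intro h
      exact hz0 (congrArg Subtype.val h))
  rw [hvE, Valuation.comap_apply, Valuation.comap_apply, map_natCast, map_natCast] at hk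
  have hk' : v z = v ((q : ℕ) : F) ^ k := hk
  have hvq1 : v ((q : ℕ) : F) ≠ 1 := ne_of_lt hvqlt
  rw [hk', ← zpow_natCast, ← zpow_mul, ← zpow_natCast] at hz
  have := zpow_right_injective₀ hvq0 hvq1 hz
  apply hmn
  have h3 : (m : ℤ) ∣ (n : ℤ) := ⟨k, by rw [← this]; ring⟩
  exact_mod_cast h3

end NF

end Fermat.Agent.S52
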