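/-
S52 / package (c), local part (helper4): **ramified elements are moved by inertia**, in the
vocabulary of the Prelude (valuation subrings of `ℚ̄`, `ValuationSubring.inertiaSubgroupIn`).

`s52l_inertia_moves`: if `A` is a valuation subring of `ℚ̄` over the prime `q` and `z ∈ ℚ̄` satisfies
`v_A(z) ^ m = v_A(q) ^ n` with `m ∤ n`, then some element of the inertia group of `A` moves `z`.
-/
import Fermat.Agent.Lib.S52.IrrInertiaNF
import Fermat.Agent.Lib.CFT.Bridge.UnramifiedLevel

set_option autoImplicit false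
set_option linter.style.haveILetI false
set_option linter.unusedSectionVars false

open NumberField

namespace Fermat.Agent.S52

open Fermat.Agent.CFT Fermat.Agent.CFT.Bridge Fermat.Agent.CFT.Global

/-- **ramified elements are moved by inertia** -/
theorem s52l_inertia_moves {A : ValuationSubring Qbar} {q : ℕ} (hq : q.Prime)
    (hA : A.LiesOverPrime q) (z : Qbar) (m n : ℕ) (hmn : ¬ m ∣ n)
    (hz : A.valuation z ^ m = A.valuation ((q : ℕ) : Qbar) ^ n) :
    ∃ τ ∈ A.inertiaSubgroupIn ℚ, τ z ≠ z := by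
  haveI : Fact q.Prime := ⟨hq⟩
  let L₀ : IntermediateField ℚ Qbar := IntermediateField.adjoin ℚ {z}
  haveI : FiniteDimensional ℚ L₀ :=
    IntermediateField.adjoin.finiteDimensional (Algebra.IsIntegral.isIntegral z)
  set F := IntermediateField.normalClosure ℚ L₀ Qbar with hF
  haveI : FiniteDimensional ℚ F := normalClosure.is_finiteDimensional ℚ L₀ Qbar
  haveI : Normal ℚ F := normalClosure.normal ℚ L₀ Qbar
  have hzF : z ∈ F :=
    (IntermediateField.le_normalClosure L₀) (IntermediateField.mem_adjoin_simple_self ℚ z)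
  have hN : @Normal ℚ ↥F _ _ F.algebra' := by
    rw [algebra'_eq_toRatAlgebra]; infer_instance
  haveI : NumberField ↥F := NumberField.of_module_finite ℚ ↥F
  haveI : IsGalois ℚ ↥F := ⟨⟩
  have hv1 : ∀ x : 𝓞 ↥F, (A.valuation.comap (algebraMap ↥F Qbar)) (x : ↥F) ≤ 1 := by
    intro x
    rw [Valuation.comap_apply]
    exact (A.valuation_le_one_iff _).2 (integersToValuationSubring F A x).2
  have hvP : ∀ x : 𝓞 ↥F, (A.valuation.comap (algebraMap ↥F Qbar)) (x : ↥F) < 1 ↔
      x ∈ primeUnder F A := by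
    intro x
    rw [Valuation.comap_apply, mem_primeUnder_iff]
    rfl
  have hz' : (A.valuation.comap (algebraMap ↥F Qbar)) (⟨z, hzF⟩ : ↥F) ^ m =
      (A.valuation.comap (algebraMap ↥F Qbar)) (((q : ℕ) : ↥F)) ^ n := by
    rw [Valuation.comap_apply, Valuation.comap_apply, map_natCast]
    exact hz
  obtain ⟨τ₀, hτ₀, hτ₀z⟩ := s52l_nf_core (F := ↥F) (primeUnder F A) (natCast_mem_primeUnder F hA)
    (A.valuation.comap (algebraMap ↥F Qbar)) hv1 hvP ⟨z, hzF⟩ m n hmn hz'
  obtain ⟨σ, hσ, hσF⟩ := exists_mem_inertiaSubgroupIn_restrictRat_eq F hN hq hA hτ₀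
  refine ⟨σ, hσ, ?_⟩
  intro h
  apply hτ₀z
  apply Subtype.ext
  rw [← hσF, restrictRat_coe]
  exact h

end Fermat.Agent.S52
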