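/-
S52 / package (c), local part (helper4): **inertia at a prime of multiplicative reduction with
`3 ∤ v(Δ)` moves the `x`-coordinate of a `3`-torsion point.**

For `y² = x³ - 27 c₄ x - 54 c₆` with `c₄³ - c₆² = 1728 D⁵`, `l ∥ D`, `l ∤ 6 c₄`, and every valuation
subring `A` of `ℚ̄` over `l`: there is a root `x` of `ψ₃` and `τ` in the inertia group of `A` with
`τ x ≠ x` (`s52l_exists_moved_x`).
-/
import Fermat.Agent.Lib.S52.IrrInertia
import Fermat.Agent.Lib.S52.IrrNewton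
import Fermat.Agent.Lib.S05.QValQbar
import Fermat.Agent.Lib.X015.ShortTorsion

set_option autoImplicit false

namespace Fermat.Agent.S52

open Fermat.Agent.CFT Fermat.Agent.X015 Fermat.Agent.S05Lib Polynomial

/-- the expansion of `c₄⁴ ψ₃` around the node `z = c₄ x + 3 c₆ = 0` -/
theorem s52l_psi3_node {K : Type*} [Field K] (c4 c6 x : K) :
    c4 ^ 4 * psi3 (-27 * c4) (-54 * c6) x =
      3 * (c4 * x + 3 * c6) ^ 4 + (-36 * c6) * (c4 * x + 3 * c6) ^ 3 +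
        (-162 * (c4 ^ 3 - c6 ^ 2)) * (c4 * x + 3 * c6) ^ 2 +
        (324 * c6 * (c4 ^ 3 - c6 ^ 2)) * (c4 * x + 3 * c6) +
        (-243 * (c4 ^ 3 - c6 ^ 2) * (c6 ^ 2 + 3 * c4 ^ 3)) := by
  unfold psi3
  ring

/-- **inertia at a multiplicative prime with `3 ∤ v(Δ)` moves a `3`-torsion `x`-coordinate** -/
theorem s52l_exists_moved_x {A : ValuationSubring Qbar} {l : ℕ} (hl : l.Prime) (hl2 : l ≠ 2)
    (hl3 : l ≠ 3) (hA : A.LiesOverPrime l) (c4 c6 D : ℤ)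
    (hrel : c4 ^ 3 - c6 ^ 2 = 1728 * D ^ 5) (hD1 : (l : ℤ) ∣ D) (hD2 : ¬ (l : ℤ) ^ 2 ∣ D)
    (hc4 : ¬ (l : ℤ) ∣ c4) :
    ∃ x : Qbar, psi3 (-27 * (c4 : Qbar)) (-54 * (c6 : Qbar)) x = 0 ∧
      ∃ τ ∈ A.inertiaSubgroupIn ℚ, τ x ≠ x := by
  classical
  have hp : Prime (l : ℤ) := Nat.prime_iff_prime_int.mp hl
  have hn2 : ¬ (l : ℤ) ∣ 2 := by
    intro h
    have h' : l ∣ 2 := by exact_mod_cast h
    exact hl2 ((Nat.prime_dvd_prime_iff_eq hl Nat.prime_two).1 h')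
  have hn3 : ¬ (l : ℤ) ∣ 3 := by
    intro h
    have h' : l ∣ 3 := by exact_mod_cast h
    exact hl3 ((Nat.prime_dvd_prime_iff_eq hl Nat.prime_three).1 h')
  have hsmall : ∀ a b : ℕ, ¬ (l : ℤ) ∣ 2 ^ a * 3 ^ b := by
    intro a b h
    rcases hp.dvd_or_dvd h with h | h
    · exact hn2 (hp.dvd_of_dvd_pow h)
    · exact hn3 (hp.dvd_of_dvd_pow h)
  obtain ⟨D', rfl⟩ := hD1
  have hD' : ¬ (l : ℤ) ∣ D' := by
    rintro ⟨k, rfl⟩
    exact hD2 ⟨k, by ring⟩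
  have hc6 : ¬ (l : ℤ) ∣ c6 := by
    intro h
    apply hc4
    apply hp.dvd_of_dvd_pow (n := 3)
    have : c4 ^ 3 = c6 ^ 2 + 1728 * ((l : ℤ) * D') ^ 5 := by linear_combination hrel
    rw [this]
    exact dvd_add (dvd_pow h (by norm_num)) ⟨1728 * (l : ℤ) ^ 4 * D' ^ 5, by ring⟩
  have hn1728 : ¬ (l : ℤ) ∣ 1728 * D' ^ 5 := by
    intro h
    rcases hp.dvd_or_dvd h with h | h
    · exact hsmall 6 3 (by norm_num at h ⊢; exact h)
    · exact hD' (hp.dvd_of_dvd_pow h)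
  have hnF : ¬ (l : ℤ) ∣ c6 ^ 2 + 3 * c4 ^ 3 := by
    intro h
    have h1 : c6 ^ 2 + 3 * c4 ^ 3 = 4 * c4 ^ 3 - 1728 * ((l : ℤ) * D') ^ 5 := by
      linear_combination -hrel
    rw [h1] at h
    have h2 : (l : ℤ) ∣ 4 * c4 ^ 3 := by
      have h3 : (l : ℤ) ∣ 1728 * ((l : ℤ) * D') ^ 5 := ⟨1728 * (l : ℤ) ^ 4 * D' ^ 5, by ring⟩
      have := dvd_add h h3
      simpa using this
    rcases hp.dvd_or_dvd h2 with h4 | h4
    · exact hsmall 2 0 (by norm_num at h4 ⊢; exact h4)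
    · exact hc4 (hp.dvd_of_dvd_pow h4)
  -- valuations
  set v := A.valuation with hv
  have hvl : v ((l : ℕ) : Qbar) < 1 := A.mem_nonunits_iff.mp hA
  have hvl0 : v ((l : ℕ) : Qbar) ≠ 0 := by
    rw [Ne, Valuation.zero_iff]
    exact_mod_cast hl.ne_zero
  have hunit : ∀ n : ℤ, ¬ (l : ℤ) ∣ n → v ((n : ℤ) : Qbar) = 1 := fun n hn =>
    qv_valuation_intCast_eq_one A hl hA hn
  have hle : ∀ n : ℤ, v ((n : ℤ) : Qbar) ≤ 1 := fun n => qv_valuation_intCast_le_one A n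
  set ϖ := v ((l : ℕ) : Qbar) ^ 5 with hϖ
  have hϖ0 : ϖ ≠ 0 := pow_ne_zero 5 hvl0
  have hϖ1 : ϖ < 1 := pow_lt_one₀ zero_le hvl (by norm_num)
  have hE : ((c4 : Qbar) ^ 3 - (c6 : Qbar) ^ 2) =
      ((1728 * D' ^ 5 : ℤ) : Qbar) * ((l : ℕ) : Qbar) ^ 5 := by
    have := congrArg (fun z : ℤ => (z : Qbar)) hrel
    push_cast at this ⊢
    rw [this]
    ring
  have hvE : v ((c4 : Qbar) ^ 3 - (c6 : Qbar) ^ 2) = ϖ := by
    rw [hE, map_mul, map_pow, hunit _ hn1728, one_mul]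
  -- the coefficients
  set a₃ : Qbar := -36 * (c6 : Qbar) with ha₃
  set a₂ : Qbar := -162 * ((c4 : Qbar) ^ 3 - (c6 : Qbar) ^ 2) with ha₂
  set a₁ : Qbar := 324 * (c6 : Qbar) * ((c4 : Qbar) ^ 3 - (c6 : Qbar) ^ 2) with ha₁
  set a₀ : Qbar := -243 * ((c4 : Qbar) ^ 3 - (c6 : Qbar) ^ 2) *
    ((c6 : Qbar) ^ 2 + 3 * (c4 : Qbar) ^ 3) with ha₀
  have h3 : v 3 = 1 := by
    have := hunit 3 hn3
    simpa using this
  have hv3 : v a₃ = 1 := by
    have : a₃ = ((-36 * c6 : ℤ) : Qbar) := by rw [ha₃]; push_cast; ring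
    rw [this]
    apply hunit
    intro h
    rcases hp.dvd_or_dvd h with h | h
    · rw [dvd_neg] at h
      exact hsmall 2 2 (by norm_num at h ⊢; exact h)
    · exact hc6 h
  have hv2 : v a₂ ≤ ϖ := by
    rw [ha₂, map_mul, hvE]
    have : v (-162 : Qbar) ≤ 1 := by
      have := hle (-162)
      simpa using this
    calc v (-162 : Qbar) * ϖ ≤ 1 * ϖ := mul_le_mul_left this _
      _ = ϖ := one_mul _
  have hv1 : v a₁ ≤ ϖ := by
    rw [ha₁, map_mul, hvE]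
    have : v (324 * (c6 : Qbar)) ≤ 1 := by
      have := hle (324 * c6)
      simpa using this
    calc v (324 * (c6 : Qbar)) * ϖ ≤ 1 * ϖ := mul_le_mul_left this _
      _ = ϖ := one_mul _
  have hv0 : v a₀ = ϖ := by
    have h1 : v (-243 : Qbar) = 1 := by
      have := hunit (-243) (by
        rw [dvd_neg]
        intro h
        exact hsmall 0 5 (by norm_num at h ⊢; exact h))
      simpa using this
    have h2 : v ((c6 : Qbar) ^ 2 + 3 * (c4 : Qbar) ^ 3) = 1 := by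
      have := hunit _ hnF
      simpa using this
    rw [ha₀, map_mul, map_mul, h1, hvE, h2, one_mul, mul_one]
  -- the polynomial
  set p : Qbar[X] := C 3 * X ^ 4 + C a₃ * X ^ 3 + C a₂ * X ^ 2 + C a₁ * X + C a₀ with hpdef
  have hdeg : p.natDegree = 4 := by
    rw [hpdef]
    compute_degree!
  have hlead : p.leadingCoeff = 3 := by
    rw [Polynomial.leadingCoeff, hdeg, hpdef]
    simp
  have hcoeff0 : p.coeff 0 = a₀ := by
    rw [hpdef]
    simp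
  obtain ⟨z, hzroot, hzlt⟩ := s52l_exists_small_root v p (by
    rw [hcoeff0, hlead, hv0, h3]
    exact hϖ1)
  have hzeq : 3 * z ^ 4 + a₃ * z ^ 3 + a₂ * z ^ 2 + a₁ * z + a₀ = 0 := by
    have := hzroot
    rw [Polynomial.IsRoot.def, hpdef] at this
    simpa using this
  have hz3 : v z ^ 3 = ϖ :=
    s52l_newton v hϖ0 hϖ1 (le_of_eq h3) hv3 hv2 hv1 hv0 hzlt hzeq
  have hc40 : (c4 : Qbar) ≠ 0 := by
    have : c4 ≠ 0 := by
      rintro rfl
      exact hc4 (dvd_zero _)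
    exact_mod_cast this
  refine ⟨(z - 3 * (c6 : Qbar)) / (c4 : Qbar), ?_, ?_⟩
  · have hnode := s52l_psi3_node (c4 : Qbar) (c6 : Qbar) ((z - 3 * (c6 : Qbar)) / (c4 : Qbar))
    have hzz : (c4 : Qbar) * ((z - 3 * (c6 : Qbar)) / (c4 : Qbar)) + 3 * (c6 : Qbar) = z := by
      field_simp
      ring
    rw [hzz] at hnode
    have h0 : (c4 : Qbar) ^ 4 * psi3 (-27 * (c4 : Qbar)) (-54 * (c6 : Qbar))
        ((z - 3 * (c6 : Qbar)) / (c4 : Qbar)) = 0 := by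
      rw [hnode]
      linear_combination hzeq
    exact (mul_eq_zero.1 h0).resolve_left (pow_ne_zero 4 hc40)
  · obtain ⟨τ, hτ, hτz⟩ := s52l_inertia_moves hl hA z 3 5 (by norm_num) hz3
    refine ⟨τ, hτ, ?_⟩
    intro h
    apply hτz
    have hzz : z = (c4 : Qbar) * ((z - 3 * (c6 : Qbar)) / (c4 : Qbar)) + 3 * (c6 : Qbar) := by
      field_simp
      ring
    rw [hzz, map_add, map_mul, map_mul, h, map_intCast, map_intCast, map_ofNat]

end Fermat.Agent.S52
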