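/-
S52 / package (c), assembly (helper4): the auxiliary curve `E₀ : y² = x³ - 27 c₄ x - 54 c₆`
(`c₄³ - c₆² = 1728 D⁵`) and the production of the auxiliary prime `r`.

* `s52lE0 c4 c6 : WeierstrassCurve ℤ`, `s52lE0_Δ`;
* `s52l_gal_ne_of_moved`: an element of `G_ℚ` moving the `x`-coordinate of a `3`-torsion point acts
  on `E₀[3]` neither as `1` nor as `-1`;
* `s52l_irr_main`: if `a₄ ≡ a₆ ≡ 3 mod 5`, `l₀ ∥ D`, `l₀ ∤ 6 c₄` and the finite normal field `L'` is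
  unramified at one valuation subring over `l₀`, then for every finite set `T` of primes there are
  a prime `r ∉ T` and a Frobenius element `φ` at `r` with `φ|_{L'} = id` and `ρ(φ)² = -1` on `E₀[3]`;
* `s52l_ap_of_sq_neg_one`: then `3 ∣ a_r(E₀)`, `3 ∣ r - 1` (if `r ∤ 3 Δ(E₀)`).
-/
import Fermat.Agent.Lib.S52.IrrLocal
import Fermat.Agent.Lib.S52.IrrCheb
import Fermat.Agent.Lib.S52.IrrFive
import Fermat.Agent.Lib.X015.ParamFive

set_option autoImplicit false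
set_option linter.style.haveILetI false

namespace Fermat.Agent.S52

open Fermat.Agent.S58 Fermat.Agent.X015 WeierstrassCurve WeierstrassCurve.Affine

local notation "Qb" => AlgebraicClosure ℚ
local notation "GQ" => (AlgebraicClosure ℚ ≃ₐ[ℚ] AlgebraicClosure ℚ)

/-- the short integral model `y² = x³ - 27 c₄ x - 54 c₆` -/
def s52lE0 (c4 c6 : ℤ) : WeierstrassCurve ℤ := ⟨0, 0, 0, -27 * c4, -54 * c6⟩

theorem s52lE0_Δ (c4 c6 : ℤ) : (s52lE0 c4 c6).Δ = 2 ^ 6 * 3 ^ 9 * (c4 ^ 3 - c6 ^ 2) := by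
  simp only [s52lE0, WeierstrassCurve.Δ, WeierstrassCurve.b₂, WeierstrassCurve.b₄,
    WeierstrassCurve.b₆, WeierstrassCurve.b₈]
  ring

instance s52lE0_isShortNF (c4 c6 : ℤ) : (s58E (s52lE0 c4 c6)).IsShortNF :=
  ⟨by simp [s58E, s52lE0], by simp [s58E, s52lE0], by simp [s58E, s52lE0]⟩

theorem s52lE0_a₄ (c4 c6 : ℤ) : (s58E (s52lE0 c4 c6)).a₄ = -27 * (c4 : ℚ) := by
  simp [s58E, s52lE0]

theorem s52lE0_a₆ (c4 c6 : ℤ) : (s58E (s52lE0 c4 c6)).a₆ = -54 * (c6 : ℚ) := by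
  simp [s58E, s52lE0]

/-- an element of `G_ℚ` moving the `x`-coordinate of a `3`-torsion point of a short model acts on
the `3`-torsion neither as `1` nor as `-1` -/
theorem s52l_gal_ne_of_moved (W0 : WeierstrassCurve ℤ) [(s58E W0).IsShortNF] (hΔ0 : W0.Δ ≠ 0)
    (x1 : Qb)
    (hx1 : psi3 (algebraMap ℚ Qb (s58E W0).a₄) (algebraMap ℚ Qb (s58E W0).a₆) x1 = 0)
    (τ : GQ) (hτ : τ x1 ≠ x1) : s58Gal W0 3 τ ≠ 1 ∧ s58Gal W0 3 τ ≠ -1 := by
  classical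
  have hΔ' : ((s58E W0).toAffine⁄Qb).Δ ≠ 0 :=
    baseChange_qbar_Δ_ne_zero (s58E W0) (s58m_Δ_ne_zero W0 hΔ0)
  obtain ⟨y1, h1⟩ := exists_point_of_x ((s58E W0).toAffine⁄Qb) hΔ' x1
  have h3 : (3 : ℤ) • (Point.some x1 y1 h1 : ((s58E W0).toAffine⁄Qb).Point) = 0 := by
    apply three_smul_of_psi3_eq_zero _ hΔ' h1
    rw [baseChange_qbar_a₄, baseChange_qbar_a₆]
    exact hx1
  let P1 : S58Tors W0 3 := ⟨Point.some x1 y1 h1, by
    rw [Submodule.mem_torsionBy_iff]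
    exact_mod_cast h3⟩
  have hx : xCoord ((s58E W0).toAffine⁄Qb) ((τ • P1 : S58Tors W0 3) : _) = τ x1 :=
    (algEquiv_smul_some (s58E W0) τ h1).1
  constructor
  · intro h
    apply hτ
    have h4 : τ • P1 = P1 := by
      have := congrArg (fun f : Module.End (ZMod 3) (S58Tors W0 3) => f P1) h
      simpa using this
    rw [h4] at hx
    exact hx.symm
  · intro h
    apply hτ
    have h4 : τ • P1 = -P1 := by
      have := congrArg (fun f : Module.End (ZMod 3) (S58Tors W0 3) => f P1) h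
      simpa using this
    rw [h4] at hx
    rw [← hx]
    show xCoord _ (-(Point.some x1 y1 h1 : ((s58E W0).toAffine⁄Qb).Point)) = x1
    rw [Point.neg_some]
    rfl

/-- **the auxiliary prime of package (c)**: for the curve `E₀ : y² = x³ - 27 c₄ x - 54 c₆` with
`c₄³ - c₆² = 1728 D⁵`, reduction `y² = x³ + 3 x + 3` modulo `5`, and a prime `l₀ ≠ 2, 3` with
`l₀ ∥ D`, `l₀ ∤ c₄`: if the finite normal field `L'` is unramified at one valuation subring over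
`l₀`, then for every finite set `T` of primes there are a prime `r ∉ T` and a Frobenius element
`φ` at `r` fixing `L'` with `ρ(φ)² = -1` on `E₀[3]`. -/
theorem s52l_irr_main (c4 c6 D : ℤ) (hrel : c4 ^ 3 - c6 ^ 2 = 1728 * D ^ 5) (hD : D ≠ 0)
    (h54 : (5 : ℤ) ∣ -27 * c4 - 3) (h56 : (5 : ℤ) ∣ -54 * c6 - 3) (h5D : ¬ (5 : ℤ) ∣ D)
    {l0 : ℕ} (hl : l0.Prime) (hl2 : l0 ≠ 2) (hl3 : l0 ≠ 3)
    (hD1 : (l0 : ℤ) ∣ D) (hD2 : ¬ (l0 : ℤ) ^ 2 ∣ D) (hc4 : ¬ (l0 : ℤ) ∣ c4)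
    (L' : IntermediateField ℚ Qb) [FiniteDimensional ℚ L'] [Normal ℚ L']
    (hL' : ∃ A : ValuationSubring Qb, A.LiesOverPrime l0 ∧
      ∀ τ ∈ A.inertiaSubgroupIn ℚ, ∀ x ∈ L', τ x = x)
    (T : Finset ℕ) :
    ∃ (r : ℕ) (P : ValuationSubring Qb) (φ : GQ), r.Prime ∧ r ∉ T ∧ P.LiesOverPrime r ∧
      P.IsFrobeniusAt φ r ∧ (∀ x ∈ L', φ x = x) ∧
      s58Gal (s52lE0 c4 c6) 3 φ * s58Gal (s52lE0 c4 c6) 3 φ = -1 := by
  have hΔ0 : (s52lE0 c4 c6).Δ ≠ 0 := by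
    rw [s52lE0_Δ, hrel]
    have := pow_ne_zero 5 hD
    positivity
  -- the Frobenius at `5`
  have h5good : ¬ ((5 : ℕ) : ℤ) ∣ (s52lE0 c4 c6).Δ := by
    rw [s52lE0_Δ, hrel]
    intro h
    have h5 : Prime (5 : ℤ) := by
      rw [Int.prime_iff_natAbs_prime]
      norm_num
    have h1 : (5 : ℤ) ∣ 2 ^ 6 * 3 ^ 9 * 1728 * D ^ 5 := by
      have : (2 : ℤ) ^ 6 * 3 ^ 9 * (1728 * D ^ 5) = 2 ^ 6 * 3 ^ 9 * 1728 * D ^ 5 := by ring
      rw [← this]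
      exact_mod_cast h
    rcases h5.dvd_or_dvd h1 with h2 | h2
    · norm_num at h2
    · exact h5D (h5.dvd_of_dvd_pow h2)
  have hap5 : (s52lE0 c4 c6).apOfModel 5 = 1 :=
    s52i_ap5 (s52lE0 c4 c6) (by simp [s52lE0]) (by simp [s52lE0]) (by simp [s52lE0])
      (by simpa [s52lE0] using h54) (by simpa [s52lE0] using h56)
  obtain ⟨A5, g₀, -, -, hg⟩ := s52i_frob_rel (s52lE0 c4 c6) hΔ0 (ℓ := 5) Nat.prime_five
    (by norm_num) h5good (by rw [hap5]; norm_num) (by norm_num)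
  -- the inertia element at `l₀`
  obtain ⟨A, hA, hAL⟩ := hL'
  obtain ⟨x1, hx1, τ, hτI, hτx⟩ := s52l_exists_moved_x hl hl2 hl3 hA c4 c6 D hrel hD1 hD2 hc4
  have hx1' : psi3 (algebraMap ℚ Qb (s58E (s52lE0 c4 c6)).a₄)
      (algebraMap ℚ Qb (s58E (s52lE0 c4 c6)).a₆) x1 = 0 := by
    rw [s52lE0_a₄, s52lE0_a₆]
    simpa using hx1
  obtain ⟨hτ1, hτ2⟩ := s52l_gal_ne_of_moved (s52lE0 c4 c6) hΔ0 x1 hx1' τ hτx
  exact s52l_exists_frob (s52lE0 c4 c6) hΔ0 L' g₀ hg τ (hAL τ hτI) hτ1 hτ2 T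

theorem s52l_no_sq_neg_one (c : ZMod 3) : c * c + 1 ≠ 0 := by
  revert c
  decide

/-- a Frobenius element at a good prime `r ≠ 3` with `ρ(φ)² = -1` on `W₀[3]` forces
`a_r ≡ 0`, `r ≡ 1 mod 3`; in particular `3 ∣ a_r² - r + 1`. -/
theorem s52l_ap_of_sq_neg_one (W0 : WeierstrassCurve ℤ) (hΔ0 : W0.Δ ≠ 0) {r : ℕ} (hr : r.Prime)
    (hr3 : r ≠ 3) (hgood : ¬ (r : ℤ) ∣ W0.Δ) (P : ValuationSubring Qb) (φ : GQ)
    (hP : P.LiesOverPrime r) (hφ : P.IsFrobeniusAt φ r)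
    (hsq : s58Gal W0 3 φ * s58Gal W0 3 φ = -1) :
    (3 : ℤ) ∣ W0.apOfModel r ∧ (3 : ℤ) ∣ (r : ℤ) - 1 := by
  haveI : Fact (Nat.Prime 3) := ⟨Nat.prime_three⟩
  obtain ⟨hfree, hfin, hrank⟩ := s58m_free W0 hΔ0 (lam := 3) (m := 1) (n := 3) Nat.prime_three
    (by norm_num)
  have hV : Module.finrank (ZMod 3) (S58Tors W0 3) = 2 := hrank one_ne_zero
  haveI : Module.Finite (ZMod 3) (S58Tors W0 3) := hfin
  haveI : Nontrivial (S58Tors W0 3) :=
    Module.nontrivial_of_finrank_pos (R := ZMod 3) (by rw [hV]; norm_num)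
  obtain ⟨htr, hdet⟩ := s58_et W0 hΔ0 r 3 1 3 hr hgood Nat.prime_three (Ne.symm hr3) (by norm_num)
    P hP φ hφ
  set f := s58Gal W0 3 φ with hf
  have hff : ∀ v, f (f v) = -v := fun v => by
    have := congrArg (fun g : Module.End (ZMod 3) (S58Tors W0 3) => g v) hsq
    simpa using this
  -- `t • f v = (d - 1) • v`
  have hkey : ∀ v, ((W0.apOfModel r : ℤ) : ZMod 3) • f v = (((r : ℕ) : ZMod 3) - 1) • v := by
    intro v
    have hc := s58l_cayley hV f v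
    rw [htr, hdet, hff] at hc
    rw [sub_smul, one_smul, eq_comm, ← sub_eq_zero, ← hc]
    abel
  have ht : ((W0.apOfModel r : ℤ) : ZMod 3) = 0 := by
    by_contra ht
    obtain ⟨v, hv⟩ := exists_ne (0 : S58Tors W0 3)
    set t := ((W0.apOfModel r : ℤ) : ZMod 3) with htdef
    set c := t⁻¹ * (((r : ℕ) : ZMod 3) - 1) with hcdef
    have hfv : ∀ w, f w = c • w := by
      intro w
      have := congrArg (fun u => t⁻¹ • u) (hkey w)
      simp only [smul_smul, inv_mul_cancel₀ ht, one_smul] at this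
      exact this
    have h1 : (c * c + 1) • v = 0 := by
      have := hff v
      rw [hfv (f v), hfv v, smul_smul] at this
      rw [add_smul, one_smul, this]
      abel
    rcases smul_eq_zero.mp h1 with h2 | h2
    · exact s52l_no_sq_neg_one c h2
    · exact hv h2
  have hd : ((r : ℕ) : ZMod 3) = 1 := by
    obtain ⟨v, hv⟩ := exists_ne (0 : S58Tors W0 3)
    have := hkey v
    rw [ht, zero_smul] at this
    rcases smul_eq_zero.mp this.symm with h2 | h2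
    · exact sub_eq_zero.mp h2
    · exact absurd h2 hv
  constructor
  · exact_mod_cast (ZMod.intCast_zmod_eq_zero_iff_dvd _ 3).mp ht
  · have : (((r : ℤ) - 1 : ℤ) : ZMod 3) = 0 := by
      push_cast
      rw [sub_eq_zero]
      exact_mod_cast hd
    exact_mod_cast (ZMod.intCast_zmod_eq_zero_iff_dvd _ 3).mp this

/-- the same, in the form used by `s52i_irreducible_of_frob` -/
theorem s52l_ap_rel_of_sq_neg_one (W0 : WeierstrassCurve ℤ) (hΔ0 : W0.Δ ≠ 0) {r : ℕ}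
    (hr : r.Prime) (hr3 : r ≠ 3) (hgood : ¬ (r : ℤ) ∣ W0.Δ) (P : ValuationSubring Qb) (φ : GQ)
    (hP : P.LiesOverPrime r) (hφ : P.IsFrobeniusAt φ r)
    (hsq : s58Gal W0 3 φ * s58Gal W0 3 φ = -1) :
    (3 : ℤ) ∣ W0.apOfModel r ^ 2 - (r : ℤ) + 1 := by
  obtain ⟨⟨a, ha⟩, ⟨b, hb⟩⟩ := s52l_ap_of_sq_neg_one W0 hΔ0 hr hr3 hgood P φ hP hφ hsq
  refine ⟨3 * a ^ 2 - b, ?_⟩
  rw [ha]
  linear_combination -hb

end Fermat.Agent.S52
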