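/-
S52 / package (c), last steps (helper4): elements fixed by a Frobenius element are congruent to
integers; the `2 × 2` linear system hitting a prescribed point modulo `r`; congruences of
polynomial values; the Chinese remainder step.

* `s52l_frob_fixed_int`: `x ∈ A`, `φ x = x` for a Frobenius element `φ` at `A ∣ r` ⇒ `x ≡ n mod 𝔪_A`
  for some integer `n`;
* `s52l_aeval_cong`: polynomials with integer coefficients preserve congruences modulo `𝔪_A`;
* `s52l_solve`: if `w₀ = (a₀, b₀)`, `w₁ = (a₁, b₁)` have Frobenius-fixed coordinates in `A` and unit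
  determinant, every `(p, q) ∈ ℤ²` is `≡ s w₀ + t w₁ mod 𝔪_A` with `s, t ∈ ℤ`;
* `s52l_dvd_of_valuation_lt_one`: an integer in `𝔪_A` is divisible by `r`;
* `s52l_crt`: the Chinese remainder theorem in the form used by the assembly.
-/
import Fermat.Agent.Lib.S52.IrrLink
import Fermat.Agent.Lib.FrobDensity.Main
import Fermat.Agent.Lib.T1.Kron.Rep

set_option autoImplicit false
set_option linter.style.haveILetI false

namespace Fermat.Agent.S52

open Fermat.Agent.S58

local notation "Qb" => AlgebraicClosure ℚ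
local notation "GQ" => (AlgebraicClosure ℚ ≃ₐ[ℚ] AlgebraicClosure ℚ)

/-- membership in the maximal ideal, in terms of the residue map -/
theorem s52l_residue_eq_zero_iff (A : ValuationSubring Qb) (x : A) :
    IsLocalRing.residue A x = 0 ↔ A.valuation (x : Qb) < 1 := by
  rw [IsLocalRing.residue_eq_zero_iff, A.valuation_lt_one_iff]

/-- an element of `A` fixed by a Frobenius element at `r` is congruent to an integer -/
theorem s52l_frob_fixed_int {A : ValuationSubring Qb} {r : ℕ} (hr : r.Prime)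
    (hA : A.LiesOverPrime r) {φ : GQ} (hφ : A.IsFrobeniusAt φ r) {x : Qb} (hxA : x ∈ A)
    (hfix : φ x = x) : ∃ n : ℤ, A.valuation (x - (n : Qb)) < 1 := by
  haveI : Fact r.Prime := ⟨hr⟩
  haveI : CharP (IsLocalRing.ResidueField A) r := Fermat.Agent.T1.tkr_charP_residue hr hA
  have h1 := Fermat.Agent.FrobDensity.valuation_frobenius_sub_pow_lt_one hφ hxA
  rw [hfix] at h1
  have h2 : (IsLocalRing.residue A ⟨x, hxA⟩) ^ r = IsLocalRing.residue A ⟨x, hxA⟩ := by
    rw [← map_pow, eq_comm, ← sub_eq_zero, ← map_sub, s52l_residue_eq_zero_iff]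
    exact h1
  have h3 := (Subfield.mem_bot_iff_pow_eq_self (IsLocalRing.ResidueField A) r).mpr h2
  obtain ⟨n, hn⟩ := (mem_bot_iff_intCast r (IsLocalRing.ResidueField A)).mp h3
  refine ⟨n, ?_⟩
  have h4 : IsLocalRing.residue A (⟨x, hxA⟩ - ((n : ℤ) : A)) = 0 := by
    rw [map_sub, map_intCast, hn, sub_self]
  rw [s52l_residue_eq_zero_iff] at h4
  exact_mod_cast h4

/-- an integer in the maximal ideal of `A ∣ r` is divisible by `r` -/
theorem s52l_dvd_of_valuation_lt_one {A : ValuationSubring Qb} {r : ℕ} (hr : r.Prime)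
    (hA : A.LiesOverPrime r) {n : ℤ} (h : A.valuation ((n : ℤ) : Qb) < 1) : (r : ℤ) ∣ n := by
  by_contra hn
  rw [Fermat.Agent.S05Lib.qv_valuation_intCast_eq_one A hr hA hn] at h
  exact lt_irrefl _ h

/-- polynomials with integer coefficients preserve congruences modulo the maximal ideal -/
theorem s52l_aeval_cong {σ : Type*} (A : ValuationSubring Qb) (p p' : σ → Qb)
    (hp : ∀ i, p i ∈ A) (hp' : ∀ i, p' i ∈ A) (h : ∀ i, A.valuation (p i - p' i) < 1)
    (F : MvPolynomial σ ℤ) :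
    MvPolynomial.aeval p F ∈ A ∧ MvPolynomial.aeval p' F ∈ A ∧
      A.valuation (MvPolynomial.aeval p F - MvPolynomial.aeval p' F) < 1 := by
  set P : σ → A := fun i => ⟨p i, hp i⟩ with hP
  set P' : σ → A := fun i => ⟨p' i, hp' i⟩ with hP'
  have e1 : MvPolynomial.aeval p F = ((MvPolynomial.aeval P F : A) : Qb) := by
    exact MvPolynomial.aeval_algebraMap_apply (A := A) Qb P F
  have e2 : MvPolynomial.aeval p' F = ((MvPolynomial.aeval P' F : A) : Qb) := by
    exact MvPolynomial.aeval_algebraMap_apply (A := A) Qb P' F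
  refine ⟨e1 ▸ (MvPolynomial.aeval P F : A).2, e2 ▸ (MvPolynomial.aeval P' F : A).2, ?_⟩
  rw [e1, e2]
  have h3 : IsLocalRing.residue A (MvPolynomial.aeval P F - MvPolynomial.aeval P' F) = 0 := by
    have hres : ∀ i, IsLocalRing.residue A (P i) = IsLocalRing.residue A (P' i) := by
      intro i
      rw [← sub_eq_zero, ← map_sub, s52l_residue_eq_zero_iff]
      exact h i
    rw [map_sub, sub_eq_zero]
    have k1 := MvPolynomial.aeval_algebraMap_apply (A := A) (IsLocalRing.ResidueField A) P F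
    have k2 := MvPolynomial.aeval_algebraMap_apply (A := A) (IsLocalRing.ResidueField A) P' F
    show algebraMap A (IsLocalRing.ResidueField A) _ = algebraMap A (IsLocalRing.ResidueField A) _
    rw [← k1, ← k2]
    congr 2
    funext i
    exact hres i
  rw [s52l_residue_eq_zero_iff] at h3
  exact_mod_cast h3

/-- **the linear system modulo `r`**: if the coordinates of `w₀ = (a₀, b₀)`, `w₁ = (a₁, b₁)` lie in
`A` and are fixed by a Frobenius element at `A ∣ r`, and `det (w₀ | w₁)` is a unit of `A`, then every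
integral vector `(p, q)` is congruent to `s w₀ + t w₁` with `s, t ∈ ℤ`. -/
theorem s52l_solve {A : ValuationSubring Qb} {r : ℕ} (hr : r.Prime) (hA : A.LiesOverPrime r)
    {φ : GQ} (hφ : A.IsFrobeniusAt φ r) (a0 b0 a1 b1 : Qb) (ha0 : a0 ∈ A) (hb0 : b0 ∈ A)
    (ha1 : a1 ∈ A) (hb1 : b1 ∈ A) (fa0 : φ a0 = a0) (fb0 : φ b0 = b0) (fa1 : φ a1 = a1)
    (fb1 : φ b1 = b1) (hdet : A.valuation (a0 * b1 - a1 * b0) = 1) (p q : ℤ) :
    ∃ s t : ℤ, A.valuation ((s : Qb) * a0 + (t : Qb) * a1 - (p : Qb)) < 1 ∧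
      A.valuation ((s : Qb) * b0 + (t : Qb) * b1 - (q : Qb)) < 1 := by
  haveI : Fact r.Prime := ⟨hr⟩
  haveI : CharP (IsLocalRing.ResidueField A) r := Fermat.Agent.T1.tkr_charP_residue hr hA
  obtain ⟨na0, hna0⟩ := s52l_frob_fixed_int hr hA hφ ha0 fa0
  obtain ⟨nb0, hnb0⟩ := s52l_frob_fixed_int hr hA hφ hb0 fb0
  obtain ⟨na1, hna1⟩ := s52l_frob_fixed_int hr hA hφ ha1 fa1
  obtain ⟨nb1, hnb1⟩ := s52l_frob_fixed_int hr hA hφ hb1 fb1
  set ρ := IsLocalRing.residue A with hρ
  have key : ∀ (x : Qb) (hx : x ∈ A) (n : ℤ), A.valuation (x - (n : Qb)) < 1 →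
      ρ ⟨x, hx⟩ = ((n : ℤ) : IsLocalRing.ResidueField A) := by
    intro x hx n h
    rw [← map_intCast ρ n, ← sub_eq_zero, ← map_sub, s52l_residue_eq_zero_iff]
    exact_mod_cast h
  have ka0 := key a0 ha0 na0 hna0
  have kb0 := key b0 hb0 nb0 hnb0
  have ka1 := key a1 ha1 na1 hna1
  have kb1 := key b1 hb1 nb1 hnb1
  -- the determinant is a unit modulo `r`
  have hN : ((na0 * nb1 - na1 * nb0 : ℤ) : IsLocalRing.ResidueField A) ≠ 0 := by
    have h1 : ρ (⟨a0, ha0⟩ * ⟨b1, hb1⟩ - ⟨a1, ha1⟩ * ⟨b0, hb0⟩) ≠ 0 := by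
      rw [Ne, s52l_residue_eq_zero_iff]
      push_cast
      rw [hdet]
      exact lt_irrefl _
    rw [map_sub, map_mul, map_mul, ka0, kb0, ka1, kb1] at h1
    push_cast
    exact h1
  have hrN : ¬ (r : ℤ) ∣ (na0 * nb1 - na1 * nb0) := by
    intro h
    apply hN
    rw [CharP.intCast_eq_zero_iff (IsLocalRing.ResidueField A) r]
    exact h
  have hcop : IsCoprime (r : ℤ) (na0 * nb1 - na1 * nb0) :=
    ((Nat.prime_iff_prime_int.mp hr).irreducible.coprime_iff_not_dvd).mpr hrN
  obtain ⟨u, d, hud⟩ := hcop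
  have hd : ((d : ℤ) : IsLocalRing.ResidueField A) *
      (((na0 : ℤ) : IsLocalRing.ResidueField A) * (nb1 : ℤ) - (na1 : ℤ) * (nb0 : ℤ)) = 1 := by
    have := congrArg (fun z : ℤ => (z : IsLocalRing.ResidueField A)) hud
    push_cast at this
    rw [CharP.cast_eq_zero, mul_zero, zero_add] at this
    exact this
  refine ⟨d * (nb1 * p - na1 * q), d * (-nb0 * p + na0 * q), ?_, ?_⟩
  · have h1 : ρ (((d * (nb1 * p - na1 * q) : ℤ) : A) * ⟨a0, ha0⟩ +
        ((d * (-nb0 * p + na0 * q) : ℤ) : A) * ⟨a1, ha1⟩ - ((p : ℤ) : A)) = 0 := by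
      rw [map_sub, map_add, map_mul, map_mul, ka0, ka1, map_intCast, map_intCast, map_intCast]
      push_cast
      linear_combination ((p : ℤ) : IsLocalRing.ResidueField A) * hd
    rw [s52l_residue_eq_zero_iff] at h1
    exact_mod_cast h1
  · have h1 : ρ (((d * (nb1 * p - na1 * q) : ℤ) : A) * ⟨b0, hb0⟩ +
        ((d * (-nb0 * p + na0 * q) : ℤ) : A) * ⟨b1, hb1⟩ - ((q : ℤ) : A)) = 0 := by
      rw [map_sub, map_add, map_mul, map_mul, kb0, kb1, map_intCast, map_intCast, map_intCast]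
      push_cast
      linear_combination ((q : ℤ) : IsLocalRing.ResidueField A) * hd
    rw [s52l_residue_eq_zero_iff] at h1
    exact_mod_cast h1

/-- the Chinese remainder theorem, in the form used by the assembly -/
theorem s52l_crt {N r : ℤ} (h : IsCoprime N r) (a b : ℤ) :
    ∃ x : ℤ, N ∣ x - a ∧ r ∣ x - b := by
  obtain ⟨u, v, huv⟩ := h
  refine ⟨a * (v * r) + b * (u * N), ⟨(b - a) * u, ?_⟩, ⟨(a - b) * v, ?_⟩⟩
  · linear_combination a * huv
  · linear_combination b * huv

end Fermat.Agent.S52
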