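/-
S52 / package (c), final form (helper4).

* `s52l_irr_iff_E0`: irreducibility of `W[n]` can be read on the short model
  `s52lE0 c₄(W) c₆(W) : y² = x³ - 27 c₄ x - 54 c₆`;
* `s52l_irr_final`: with the data of `s52l_irr_main` (auxiliary curve `E₀` with invariants
  `c4, c6`, `c4³ - c6² = 1728 D⁵`, the prime `l₀ ∥ D`, the field `L'` unramified at `l₀`) there are a
  prime `r ∉ T` and a Frobenius element `φ` at `r` fixing `L'` such that EVERY integral model `W'`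
  with `c₄(W') ≡ c4`, `c₆(W') ≡ c6 mod r` has `W'[3]` irreducible.
-/
import Fermat.Agent.Lib.S52.IrrSolve
import Fermat.Agent.Lib.S52.IrrFin
import Fermat.Agent.Lib.S52.ModelGen

set_option autoImplicit false
set_option linter.style.haveILetI false

namespace Fermat.Agent.S52

open Fermat.Agent.S58 WeierstrassCurve

local notation "Qb" => AlgebraicClosure ℚ
local notation "GQ" => (AlgebraicClosure ℚ ≃ₐ[ℚ] AlgebraicClosure ℚ)

theorem s52lE0_map (c4 c6 : ℤ) :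
    (s52lE0 c4 c6).map (Int.castRingHom ℚ) = s52bShort (c4 : ℚ) (c6 : ℚ) := by
  unfold s52lE0 s52bShort
  ext <;> simp

/-- irreducibility of `W[n]` can be read on the short model -/
theorem s52l_irr_iff_E0 (W : WeierstrassCurve ℤ) (n : ℕ) :
    W.ModRepIsIrreducible n ↔ (s52lE0 W.c₄ W.c₆).ModRepIsIrreducible n := by
  rw [s52b_irr_iff_short]
  unfold WeierstrassCurve.ModRepIsIrreducible
  rw [s52lE0_map]

theorem s52lE0_cong {m : ℤ} {c4 c6 c4' c6' : ℤ} (h4 : m ∣ c4' - c4) (h6 : m ∣ c6' - c6) :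
    S52bCong m (s52lE0 c4 c6) (s52lE0 c4' c6') := by
  refine ⟨by simp [s52lE0], by simp [s52lE0], by simp [s52lE0], ?_, ?_⟩
  · obtain ⟨k, hk⟩ := h4
    exact ⟨-27 * k, by simp only [s52lE0]; linear_combination (-27) * hk⟩
  · obtain ⟨k, hk⟩ := h6
    exact ⟨-54 * k, by simp only [s52lE0]; linear_combination (-54) * hk⟩

/-- **package (c), final form** -/
theorem s52l_irr_final (c4 c6 D : ℤ) (hrel : c4 ^ 3 - c6 ^ 2 = 1728 * D ^ 5) (hD : D ≠ 0)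
    (h54 : (5 : ℤ) ∣ -27 * c4 - 3) (h56 : (5 : ℤ) ∣ -54 * c6 - 3) (h5D : ¬ (5 : ℤ) ∣ D)
    {l0 : ℕ} (hl : l0.Prime) (hl2 : l0 ≠ 2) (hl3 : l0 ≠ 3)
    (hD1 : (l0 : ℤ) ∣ D) (hD2 : ¬ (l0 : ℤ) ^ 2 ∣ D) (hc4 : ¬ (l0 : ℤ) ∣ c4)
    (L' : IntermediateField ℚ Qb) [FiniteDimensional ℚ L'] [Normal ℚ L']
    (hL' : ∃ A : ValuationSubring Qb, A.LiesOverPrime l0 ∧
      ∀ τ ∈ A.inertiaSubgroupIn ℚ, ∀ x ∈ L', τ x = x)
    (T : Finset ℕ) :
    ∃ (r : ℕ) (P : ValuationSubring Qb) (φ : GQ), r.Prime ∧ r ∉ T ∧ P.LiesOverPrime r ∧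
      P.IsFrobeniusAt φ r ∧ (∀ x ∈ L', φ x = x) ∧
      ∀ W' : WeierstrassCurve ℤ, W'.Δ ≠ 0 → (r : ℤ) ∣ W'.c₄ - c4 → (r : ℤ) ∣ W'.c₆ - c6 →
        W'.ModRepIsIrreducible 3 := by
  obtain ⟨r, P, φ, hr, hrT, hP, hφ, hfix, hsq⟩ := s52l_irr_main c4 c6 D hrel hD h54 h56 h5D hl hl2
    hl3 hD1 hD2 hc4 L' hL' (T ∪ {2, 3} ∪ D.natAbs.primeFactors)
  simp only [Finset.mem_union, Finset.mem_insert, Finset.mem_singleton, Nat.mem_primeFactors,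
    not_or, not_and] at hrT
  obtain ⟨⟨hrT, hr2, hr3⟩, hrD⟩ := hrT
  have hrD' : ¬ (r : ℤ) ∣ D := by
    intro h
    have h1 : r ∣ D.natAbs := Int.natCast_dvd.mp h
    exact hrD hr h1 (Int.natAbs_ne_zero.mpr hD)
  have hpr : Prime (r : ℤ) := Nat.prime_iff_prime_int.mp hr
  have hΔ0 : (s52lE0 c4 c6).Δ ≠ 0 := by
    rw [s52lE0_Δ, hrel]
    have := pow_ne_zero 5 hD
    positivity
  have hgood0 : ¬ (r : ℤ) ∣ (s52lE0 c4 c6).Δ := by
    rw [s52lE0_Δ, hrel]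
    intro h
    have h1 : (r : ℤ) ∣ 2 ^ 21 * D ^ 5 := by
      have h2 : (2 : ℤ) ^ 6 * 3 ^ 9 * (1728 * D ^ 5) = 3 ^ 12 * (2 ^ 12 * D ^ 5) := by ring
      rw [h2] at h
      rcases hpr.dvd_or_dvd h with h3 | h3
      · exfalso
        have h4 := hpr.dvd_of_dvd_pow h3
        have h5 : r ∣ 3 := by exact_mod_cast h4
        exact hr3 ((Nat.prime_dvd_prime_iff_eq hr Nat.prime_three).mp h5)
      · exact Dvd.dvd.mul_left h3 (2 ^ 9) |>.trans (by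
          refine dvd_of_eq ?_
          ring)
    rcases hpr.dvd_or_dvd h1 with h3 | h3
    · have h4 := hpr.dvd_of_dvd_pow h3
      have h5 : r ∣ 2 := by exact_mod_cast h4
      exact hr2 ((Nat.prime_dvd_prime_iff_eq hr Nat.prime_two).mp h5)
    · exact hrD' (hpr.dvd_of_dvd_pow h3)
  refine ⟨r, P, φ, hr, hrT, hP, hφ, hfix, fun W' hΔ' h4 h6 => ?_⟩
  rw [s52l_irr_iff_E0]
  have hcong : S52bCong (r : ℤ) (s52lE0 c4 c6) (s52lE0 W'.c₄ W'.c₆) := s52lE0_cong h4 h6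
  have hΔE' : (s52lE0 W'.c₄ W'.c₆).Δ ≠ 0 := by
    rw [s52lE0_Δ, ← W'.c_relation]
    positivity
  have hgood' : ¬ (r : ℤ) ∣ (s52lE0 W'.c₄ W'.c₆).Δ := by
    rw [hcong.dvd_Δ_iff dvd_rfl]
    exact hgood0
  refine s52i_irreducible_of_frob _ hΔE' hr hr3 hgood' ?_
  rw [hcong.apOfModel_eq dvd_rfl]
  exact s52l_ap_rel_of_sq_neg_one _ hΔ0 hr hr3 hgood0 P φ hP hφ hsq

end Fermat.Agent.S52
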