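/-
S52 / package (c), local part (helper4): **the Newton polygon of `ψ₃` at a node**.

* `s52l_newton`: a root `z` with `v z < 1` of `3 z⁴ + a₃ z³ + a₂ z² + a₁ z + a₀` with
  `v a₃ = 1`, `v a₂, v a₁ ≤ ϖ`, `v a₀ = ϖ < 1` has `v z ^ 3 = ϖ`;
* `s52l_exists_small_root`: over an algebraically closed field a polynomial with
  `v (coeff 0) < v (leading coeff)` has a root of valuation `< 1`;
* `s52l_psi3_node`: the expansion of `c₄⁴ ψ₃(x)` for `y² = x³ - 27 c₄ x - 54 c₆` in the variable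
  `z = c₄ x + 3 c₆` (the node is at `z = 0`).
-/
import Mathlib

set_option autoImplicit false

namespace Fermat.Agent.S52

section Newton

variable {K : Type*} [Field K] {Γ₀ : Type*} [LinearOrderedCommGroupWithZero Γ₀]
  (v : Valuation K Γ₀)

/-- **Newton polygon**, the segment of slope `1/3` -/
theorem s52l_newton {a₃ a₂ a₁ a₀ z : K} {ϖ : Γ₀} (hϖ0 : ϖ ≠ 0) (hϖ : ϖ < 1) (h4 : v 3 ≤ 1)
    (h3 : v a₃ = 1) (h2 : v a₂ ≤ ϖ) (h1 : v a₁ ≤ ϖ) (h0 : v a₀ = ϖ) (hz : v z < 1)
    (hroot : 3 * z ^ 4 + a₃ * z ^ 3 + a₂ * z ^ 2 + a₁ * z + a₀ = 0) : v z ^ 3 = ϖ := by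
  have hz0 : z ≠ 0 := by
    rintro rfl
    have : a₀ = 0 := by simpa using hroot
    rw [this, map_zero] at h0
    exact hϖ0 h0.symm
  have hs0 : 0 < v z := by
    rw [zero_lt_iff, Ne, Valuation.zero_iff]
    exact hz0
  have hϖpos : 0 < ϖ := zero_lt_iff.2 hϖ0
  by_contra hne
  -- the two dominant terms
  have hT3 : v (a₃ * z ^ 3) = v z ^ 3 := by rw [map_mul, map_pow, h3, one_mul]
  have hdom : v (a₃ * z ^ 3 + a₀) = max (v z ^ 3) ϖ := by
    rw [Valuation.map_add_of_distinct_val, hT3, h0]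
    rw [hT3, h0]
    exact hne
  -- the three small terms
  have hM3 : v z ^ 3 ≤ max (v z ^ 3) ϖ := le_max_left _ _
  have hMϖ : ϖ ≤ max (v z ^ 3) ϖ := le_max_right _ _
  have hT4 : v (3 * z ^ 4) < max (v z ^ 3) ϖ := by
    refine lt_of_lt_of_le ?_ hM3
    rw [map_mul, map_pow]
    calc v 3 * v z ^ 4 ≤ 1 * v z ^ 4 := mul_le_mul_left h4 _
      _ = v z ^ 3 * v z := by rw [one_mul, pow_succ]
      _ < v z ^ 3 * 1 := by
        apply mul_lt_mul_of_pos_left hz (pow_pos hs0 3)
      _ = v z ^ 3 := mul_one _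
  have hT2 : v (a₂ * z ^ 2) < max (v z ^ 3) ϖ := by
    refine lt_of_lt_of_le ?_ hMϖ
    rw [map_mul, map_pow]
    calc v a₂ * v z ^ 2 ≤ ϖ * v z ^ 2 := mul_le_mul_left h2 _
      _ < ϖ * 1 := by
        apply mul_lt_mul_of_pos_left _ hϖpos
        exact pow_lt_one₀ hs0.le hz (by norm_num)
      _ = ϖ := mul_one _
  have hT1 : v (a₁ * z) < max (v z ^ 3) ϖ := by
    refine lt_of_lt_of_le ?_ hMϖ
    rw [map_mul]
    calc v a₁ * v z ≤ ϖ * v z := mul_le_mul_left h1 _
      _ < ϖ * 1 := mul_lt_mul_of_pos_left hz hϖpos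
      _ = ϖ := mul_one _
  have hsmall : v (3 * z ^ 4 + a₂ * z ^ 2 + a₁ * z) < max (v z ^ 3) ϖ :=
    Valuation.map_add_lt v (Valuation.map_add_lt v hT4 hT2) hT1
  have heq : a₃ * z ^ 3 + a₀ = -(3 * z ^ 4 + a₂ * z ^ 2 + a₁ * z) := by
    linear_combination hroot
  rw [heq, Valuation.map_neg] at hdom
  exact absurd hdom (ne_of_lt hsmall)

/-- a polynomial over an algebraically closed field whose constant coefficient has smaller
valuation than its leading coefficient has a root of valuation `< 1` -/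
theorem s52l_exists_small_root [IsAlgClosed K] (p : Polynomial K)
    (hlt : v (p.coeff 0) < v p.leadingCoeff) : ∃ z, p.IsRoot z ∧ v z < 1 := by
  by_contra hcon
  push_neg at hcon
  have hsplit := IsAlgClosed.splits p
  have h1 := hsplit.coeff_zero_eq_leadingCoeff_mul_prod_roots
  have hprod : ∀ s : Multiset K, (∀ z ∈ s, 1 ≤ v z) → 1 ≤ v s.prod := by
    intro s
    induction s using Multiset.induction_on with
    | empty => intro _; simp
    | cons a s ih =>
      intro h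
      rw [Multiset.prod_cons, map_mul]
      exact one_le_mul_of_one_le_of_one_le (h a (Multiset.mem_cons_self a s))
        (ih fun z hz => h z (Multiset.mem_cons_of_mem hz))
  have hp0 : p ≠ 0 := by
    rintro rfl
    simp at hlt
  have h2 : 1 ≤ v p.roots.prod := hprod _ fun z hz => hcon z (Polynomial.isRoot_of_mem_roots hz)
  have h3 : v (p.coeff 0) = v p.leadingCoeff * v p.roots.prod := by
    rw [h1, map_mul, map_mul, map_pow, Valuation.map_neg, map_one, one_pow, one_mul]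
  rw [h3] at hlt
  have h4 : v p.leadingCoeff * 1 ≤ v p.leadingCoeff * v p.roots.prod :=
    mul_le_mul_right h2 _
  rw [mul_one] at h4
  exact absurd hlt (not_lt.2 h4)

end Newton

end Fermat.Agent.S52
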