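/-
S52 / package (c), final form with a twist (helper4): the same as `s52l_irr_final`, but the
integral model `W'` only has to be congruent modulo `r` to a twist `(u⁴ c4, u⁶ c6)`, `r ∤ u`, of the
auxiliary curve.  (So the assembly may use the one-parameter family `w₀ + t ŵ` as well as the
two-parameter family `s w₀ + t ŵ`.)
-/
import Fermat.Agent.Lib.S52.IrrFinal

set_option autoImplicit false
set_option linter.style.haveILetI false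

namespace Fermat.Agent.S52

open Fermat.Agent.S58 Fermat.Agent.X015 WeierstrassCurve

local notation "Qb" => AlgebraicClosure ℚ
local notation "GQ" => (AlgebraicClosure ℚ ≃ₐ[ℚ] AlgebraicClosure ℚ)

/-- twisting by a unit modulo `r` does not change `a_r` -/
theorem s52lE0_twist_ap (c4 c6 u : ℤ) {r : ℕ} (hr : r.Prime) (hru : ¬ (r : ℤ) ∣ u) :
    (s52lE0 (u ^ 4 * c4) (u ^ 6 * c6)).apOfModel r = (s52lE0 c4 c6).apOfModel r := by
  classical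
  haveI : Fact r.Prime := ⟨hr⟩
  have hu : ((u : ℤ) : ZMod r) ≠ 0 := by
    rw [Ne, ZMod.intCast_zmod_eq_zero_iff_dvd]
    exact hru
  let C : VariableChange (ZMod r) :=
    { u := Units.mk0 (((u : ℤ) : ZMod r)⁻¹) (inv_ne_zero hu), r := 0, s := 0, t := 0 }
  have hC : C • (s52lE0 c4 c6).reductionMod r = (s52lE0 (u ^ 4 * c4) (u ^ 6 * c6)).reductionMod r := by
    unfold reductionMod s52lE0
    ext
    · simp [C, WeierstrassCurve.variableChange_a₁]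
    · simp [C, WeierstrassCurve.variableChange_a₂]
    · simp [C, WeierstrassCurve.variableChange_a₃]
    · simp [C, WeierstrassCurve.variableChange_a₄]
      ring
    · simp [C, WeierstrassCurve.variableChange_a₆]
      ring
  unfold apOfModel traceOfFrobenius WeierstrassCurve.card
  rw [← hC]
  rw [Nat.card_congr (vcPointEquiv C ((s52lE0 c4 c6).reductionMod r)).toEquiv]

/-- the irreducibility criterion at the auxiliary prime, with a twist -/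
theorem s52l_irr_of_frob_sq (c4 c6 : ℤ) (hΔ0 : (s52lE0 c4 c6).Δ ≠ 0) {r : ℕ} (hr : r.Prime)
    (hr3 : r ≠ 3) (hgood0 : ¬ (r : ℤ) ∣ (s52lE0 c4 c6).Δ) (P : ValuationSubring Qb) (φ : GQ)
    (hP : P.LiesOverPrime r) (hφ : P.IsFrobeniusAt φ r)
    (hsq : s58Gal (s52lE0 c4 c6) 3 φ * s58Gal (s52lE0 c4 c6) 3 φ = -1)
    (W' : WeierstrassCurve ℤ) (hΔ' : W'.Δ ≠ 0) (u : ℤ) (hru : ¬ (r : ℤ) ∣ u)
    (h4 : (r : ℤ) ∣ W'.c₄ - u ^ 4 * c4) (h6 : (r : ℤ) ∣ W'.c₆ - u ^ 6 * c6) :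
    W'.ModRepIsIrreducible 3 := by
  have hpr : Prime (r : ℤ) := Nat.prime_iff_prime_int.mp hr
  rw [s52l_irr_iff_E0]
  have hcong : S52bCong (r : ℤ) (s52lE0 (u ^ 4 * c4) (u ^ 6 * c6)) (s52lE0 W'.c₄ W'.c₆) :=
    s52lE0_cong h4 h6
  have hΔE' : (s52lE0 W'.c₄ W'.c₆).Δ ≠ 0 := by
    rw [s52lE0_Δ, ← W'.c_relation]
    positivity
  have hgoodt : ¬ (r : ℤ) ∣ (s52lE0 (u ^ 4 * c4) (u ^ 6 * c6)).Δ := by
    have h1 : (s52lE0 (u ^ 4 * c4) (u ^ 6 * c6)).Δ = u ^ 12 * (s52lE0 c4 c6).Δ := by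
      rw [s52lE0_Δ, s52lE0_Δ]
      ring
    rw [h1]
    intro h
    rcases hpr.dvd_or_dvd h with h2 | h2
    · exact hru (hpr.dvd_of_dvd_pow h2)
    · exact hgood0 h2
  have hgood' : ¬ (r : ℤ) ∣ (s52lE0 W'.c₄ W'.c₆).Δ := by
    rw [hcong.dvd_Δ_iff dvd_rfl]
    exact hgoodt
  refine s52i_irreducible_of_frob _ hΔE' hr hr3 hgood' ?_
  rw [hcong.apOfModel_eq dvd_rfl, s52lE0_twist_ap c4 c6 u hr hru]
  exact s52l_ap_rel_of_sq_neg_one _ hΔ0 hr hr3 hgood0 P φ hP hφ hsq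

/-- **package (c), final form with a twist** -/
theorem s52l_irr_final_twist (c4 c6 D : ℤ) (hrel : c4 ^ 3 - c6 ^ 2 = 1728 * D ^ 5) (hD : D ≠ 0)
    (h54 : (5 : ℤ) ∣ -27 * c4 - 3) (h56 : (5 : ℤ) ∣ -54 * c6 - 3) (h5D : ¬ (5 : ℤ) ∣ D)
    {l0 : ℕ} (hl : l0.Prime) (hl2 : l0 ≠ 2) (hl3 : l0 ≠ 3)
    (hD1 : (l0 : ℤ) ∣ D) (hD2 : ¬ (l0 : ℤ) ^ 2 ∣ D) (hc4 : ¬ (l0 : ℤ) ∣ c4)
    (L' : IntermediateField ℚ Qb) [FiniteDimensional ℚ L'] [Normal ℚ L']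
    (hL' : ∃ A : ValuationSubring Qb, A.LiesOverPrime l0 ∧
      ∀ τ ∈ A.inertiaSubgroupIn ℚ, ∀ x ∈ L', τ x = x)
    (T : Finset ℕ) :
    ∃ (r : ℕ) (P : ValuationSubring Qb) (φ : GQ), r.Prime ∧ r ∉ T ∧ P.LiesOverPrime r ∧
      P.IsFrobeniusAt φ r ∧ (∀ x ∈ L', φ x = x) ∧
      ∀ (W' : WeierstrassCurve ℤ) (u : ℤ), W'.Δ ≠ 0 → ¬ (r : ℤ) ∣ u →
        (r : ℤ) ∣ W'.c₄ - u ^ 4 * c4 → (r : ℤ) ∣ W'.c₆ - u ^ 6 * c6 →
        W'.ModRepIsIrreducible 3 := by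
  obtain ⟨r, P, φ, hr, hrT, hP, hφ, hfix, hsq⟩ := s52l_irr_main c4 c6 D hrel hD h54 h56 h5D hl hl2
    hl3 hD1 hD2 hc4 L' hL' (T ∪ {2, 3} ∪ D.natAbs.primeFactors)
  simp only [Finset.mem_union, Finset.mem_insert, Finset.mem_singleton, Nat.mem_primeFactors,
    not_or, not_and] at hrT
  obtain ⟨⟨hrT, hr2, hr3⟩, hrD⟩ := hrT
  have hrD' : ¬ (r : ℤ) ∣ D := by
    intro h
    have h1 : r ∣ D.natAbs := Int.natCast_dvd.mp h
    exact hrD hr h1 (Int.natAbs_ne_zero.mpr hD)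
  have hpr : Prime (r : ℤ) := Nat.prime_iff_prime_int.mp hr
  have hΔ0 : (s52lE0 c4 c6).Δ ≠ 0 := by
    rw [s52lE0_Δ, hrel]
    have := pow_ne_zero 5 hD
    positivity
  have hgood0 : ¬ (r : ℤ) ∣ (s52lE0 c4 c6).Δ := by
    rw [s52lE0_Δ, hrel]
    intro h
    have h2 : (2 : ℤ) ^ 6 * 3 ^ 9 * (1728 * D ^ 5) = 3 ^ 12 * (2 ^ 12 * D ^ 5) := by ring
    rw [h2] at h
    rcases hpr.dvd_or_dvd h with h3 | h3
    · have h4 := hpr.dvd_of_dvd_pow h3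
      have h5 : r ∣ 3 := by exact_mod_cast h4
      exact hr3 ((Nat.prime_dvd_prime_iff_eq hr Nat.prime_three).mp h5)
    · rcases hpr.dvd_or_dvd h3 with h4 | h4
      · have h5 := hpr.dvd_of_dvd_pow h4
        have h6 : r ∣ 2 := by exact_mod_cast h5
        exact hr2 ((Nat.prime_dvd_prime_iff_eq hr Nat.prime_two).mp h6)
      · exact hrD' (hpr.dvd_of_dvd_pow h4)
  exact ⟨r, P, φ, hr, hrT, hP, hφ, hfix, fun W' u hΔ' hru h4 h6 =>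
    s52l_irr_of_frob_sq c4 c6 hΔ0 hr hr3 hgood0 P φ hP hφ hsq W' hΔ' u hru h4 h6⟩

end Fermat.Agent.S52
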