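/-
S52 package (c), helper5: **a number field inside `ℚ̄` is unramified outside a finite set of primes**,
in the Prelude's vocabulary (inertia groups of valuation subrings of `ℚ̄`).

`s52i_unram_outside`: for a finite extension `L' ⊂ ℚ̄` of `ℚ` there is an integer `N ≠ 0` such that
for every prime `l0 ∤ N` and every valuation subring `A` of `ℚ̄` over `l0` the inertia group of `A`
fixes `L'` pointwise.
-/
import Mathlib
import Fermat.Agent.Lib.ET.ReductionQ
import Fermat.Agent.Lib.CFT.Bridge.Inertia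
import Fermat.Agent.Lib.Helper6.FrobeniusExists

set_option autoImplicit false
set_option linter.style.haveILetI false

namespace Fermat.Agent.S52

open Polynomial

local notation "Qb" => AlgebraicClosure ℚ
local notation "GQ" => (AlgebraicClosure ℚ ≃ₐ[ℚ] AlgebraicClosure ℚ)

/-- polynomial expressions in an integral element lie in every valuation subring -/
theorem s52i_aeval_mem (A : ValuationSubring Qb) {y : Qb} (hy : IsIntegral ℤ y) (P : ℤ[X]) :
    aeval y P ∈ A := by
  apply Fermat.Agent.Lib.Helper6.integralClosure_le_valuationSubring Qb A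
  have h1 : aeval y P ∈ Algebra.adjoin ℤ {y} := Polynomial.aeval_mem_adjoin_singleton ℤ y
  have h2 : Algebra.adjoin ℤ {y} ≤ integralClosure ℤ Qb :=
    Algebra.adjoin_le (by
      intro z hz
      rw [Set.mem_singleton_iff] at hz
      subst hz
      exact hy)
  exact h2 h1

/-- an integral element in the maximal ideal of a valuation subring over `l0`: `l0` divides the
constant term of its minimal polynomial -/
theorem s52i_dvd_coeff_zero {l0 : ℕ} (hl : l0.Prime) (A : ValuationSubring Qb)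
    (hA : A.LiesOverPrime l0) {y : Qb} (hy : IsIntegral ℤ y) (hv : A.valuation y < 1) :
    (l0 : ℤ) ∣ (minpoly ℤ y).coeff 0 := by
  haveI : Fact l0.Prime := ⟨hl⟩
  by_contra hnd
  have hu := Fermat.Agent.ET.etg_isUnit_intCast A hA hnd
  set G := minpoly ℤ y with hG
  have h0 : aeval y G = 0 := minpoly.aeval ℤ y
  have hsplit : G = divX G * X + C (G.coeff 0) := (divX_mul_X_add G).symm
  rw [hsplit, map_add, map_mul, aeval_X, aeval_C] at h0
  have hc : (algebraMap ℤ Qb (G.coeff 0)) = -(aeval y (divX G) * y) := by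
    linear_combination h0
  have hQ : A.valuation (aeval y (divX G)) ≤ 1 :=
    (A.valuation_le_one_iff _).mpr (s52i_aeval_mem A hy _)
  have hlt : A.valuation (algebraMap ℤ Qb (G.coeff 0)) < 1 := by
    rw [hc, Valuation.map_neg, map_mul]
    exact mul_lt_one_of_nonneg_of_lt_one_right hQ zero_le hv
  have h1 : A.valuation (((G.coeff 0 : ℤ) : ↥A) : Qb) = 1 :=
    (A.valuation_eq_one_iff _).mp hu
  have h2 : (((G.coeff 0 : ℤ) : ↥A) : Qb) = algebraMap ℤ Qb (G.coeff 0) := by
    rw [eq_intCast]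
    push_cast
    rfl
  rw [h2] at h1
  rw [h1] at hlt
  exact lt_irrefl _ hlt

variable (L' : IntermediateField ℚ Qb)

/-- for every embedding `ι ≠ incl` of `L'` there is an integer outside of which no inertia element
restricts to `ι` -/
theorem s52i_unram_emb [FiniteDimensional ℚ L'] (ι : L' →ₐ[ℚ] Qb) :
    ∃ n : ℤ, n ≠ 0 ∧ ∀ l0 : ℕ, l0.Prime → ¬ (l0 : ℤ) ∣ n → ∀ A : ValuationSubring Qb,
      A.LiesOverPrime l0 → ∀ τ ∈ A.inertiaSubgroupIn ℚ, (∀ x : L', τ (x : Qb) = ι x) →
        ∀ x : L', ι x = (x : Qb) := by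
  by_cases hι : ∀ x : L', ι x = (x : Qb)
  · exact ⟨1, one_ne_zero, fun _ _ _ _ _ _ _ _ => hι⟩
  · push Not at hι
    obtain ⟨x, hx⟩ := hι
    -- scale `x` to an algebraic integer
    have hint : IsIntegral ℚ (x : Qb) :=
      (Algebra.IsIntegral.isIntegral (R := ℚ) x).map L'.val
    obtain ⟨m, hm⟩ := IsIntegral.exists_multiple_integral_of_isLocalization
      (nonZeroDivisors ℤ) (x : Qb) hint
    have hm0 : ((m : ℤ) : ℚ) ≠ 0 := by
      exact_mod_cast nonZeroDivisors.coe_ne_zero m
    have hmx : m • (x : Qb) = (((m : ℤ) : ℚ) • x : L') := by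
      rw [IntermediateField.coe_smul, Submonoid.smul_def, ← Int.cast_smul_eq_zsmul ℚ]
    set x' : L' := ((m : ℤ) : ℚ) • x with hx'
    have hx'int : IsIntegral ℤ (x' : Qb) := by rw [← hmx]; exact hm
    have hιx' : ι x' ≠ (x' : Qb) := by
      have e1 : ι x' = ((m : ℤ) : ℚ) • ι x := ι.toLinearMap.map_smul _ _
      rw [e1, hx', IntermediateField.coe_smul]
      intro h
      exact hx (smul_right_injective Qb hm0 h)
    set y : Qb := ι x' - (x' : Qb) with hy
    have hy0 : y ≠ 0 := sub_ne_zero.mpr hιx'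
    have hιint : IsIntegral ℤ (ι x') := by
      have : IsIntegral ℤ (x' : L') := by
        have := hx'int
        exact (isIntegral_algHom_iff (L'.val.restrictScalars ℤ) L'.val.injective).mp this
      exact this.map (ι.restrictScalars ℤ)
    have hyint : IsIntegral ℤ y := hιint.sub hx'int
    have hc0 : (minpoly ℤ y).coeff 0 ≠ 0 := by
      intro h0
      have h1 := minpoly.coeff_zero_ne_zero (A := ℚ) hyint.tower_top hy0
      rw [minpoly.isIntegrallyClosed_eq_field_fractions' ℚ hyint, coeff_map, h0, map_zero] at h1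
      exact h1 rfl
    refine ⟨(minpoly ℤ y).coeff 0, hc0, ?_⟩
    intro l0 hl hnd A hA τ hτ hres
    exfalso
    apply hnd
    apply s52i_dvd_coeff_zero hl A hA hyint
    have hmem := ((Fermat.Agent.CFT.Bridge.mem_inertiaSubgroupIn_iff A τ).mp hτ).2 (x' : Qb)
      (Fermat.Agent.Lib.Helper6.integralClosure_le_valuationSubring Qb A hx'int)
    rw [hy, ← hres x']
    exact hmem

/-- **a number field is unramified outside a finite set of primes** -/
theorem s52i_unram_outside [FiniteDimensional ℚ L'] :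
    ∃ N : ℤ, N ≠ 0 ∧ ∀ l0 : ℕ, l0.Prime → ¬ (l0 : ℤ) ∣ N → ∀ A : ValuationSubring Qb,
      A.LiesOverPrime l0 → ∀ τ ∈ A.inertiaSubgroupIn ℚ, ∀ x ∈ L', τ x = x := by
  classical
  haveI : Fintype (L' →ₐ[ℚ] Qb) := Fintype.ofFinite _
  choose n hn0 hn using s52i_unram_emb L'
  refine ⟨∏ ι : L' →ₐ[ℚ] Qb, n ι, Finset.prod_ne_zero_iff.mpr fun ι _ => hn0 ι, ?_⟩
  intro l0 hl hnd A hA τ hτ x hx
  let ι : L' →ₐ[ℚ] Qb := (τ : Qb →ₐ[ℚ] Qb).comp L'.val
  have hndι : ¬ (l0 : ℤ) ∣ n ι := fun h =>
    hnd (h.trans (Finset.dvd_prod_of_mem n (Finset.mem_univ ι)))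
  have := hn ι l0 hl hndι A hA τ hτ (fun _ => rfl) ⟨x, hx⟩
  exact this

end Fermat.Agent.S52
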