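/-
S52 / the SELECTION package (helper4), auxiliary lemmas.

* `s52a_exists_normal`: a finite normal subfield of `ℚ̄` containing two given elements;
* `s52a_exists_den`: an element of `ℚ̄` lies in every valuation subring over `r ∤ n`;
* `s52a_exists_l0`: a large prime `l₀ ≡ 1 mod 5` with `l₀ β + α ≠ 0` (`(α, β) ≠ 0`);
* `s52a_aux`: arithmetic of the Klein forms at `(1, l₀)`;
* `s52a_c4_cong`, `s52a_c6_cong`: the Klein forms preserve congruences modulo `𝔪_P`.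
-/
import Fermat.Agent.Lib.S52.NoCommon
import Fermat.Agent.Lib.S52.IrrSolve

set_option autoImplicit false
set_option linter.style.haveILetI false

namespace Fermat.Agent.S52

open Fermat.Agent.S05Lib

local notation "Qb" => AlgebraicClosure ℚ
local notation "GQ" => (AlgebraicClosure ℚ ≃ₐ[ℚ] AlgebraicClosure ℚ)

/-- a finite normal subfield of `ℚ̄` containing two given elements -/
theorem s52a_exists_normal (x y : Qb) :
    ∃ L' : IntermediateField ℚ Qb, FiniteDimensional ℚ L' ∧ Normal ℚ L' ∧ x ∈ L' ∧ y ∈ L' := by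
  haveI := Fermat.Agent.Lib.Helper6.isGalois_rat_algebraicClosure
  have hint' : ∀ z : Qb, IsIntegral ℚ z := fun z => Normal.isIntegral inferInstance z
  set P : Polynomial ℚ := minpoly ℚ x * minpoly ℚ y with hP
  have hP0 : P ≠ 0 := mul_ne_zero (minpoly.ne_zero (hint' x)) (minpoly.ne_zero (hint' y))
  have hsplit : (P.map (algebraMap ℚ Qb)).Splits := IsAlgClosed.splits _
  refine ⟨IntermediateField.adjoin ℚ (P.rootSet Qb), ?_, ?_, ?_, ?_⟩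
  · haveI : Finite (P.rootSet Qb) := Polynomial.rootSet_finite P Qb
    exact IntermediateField.finiteDimensional_adjoin fun z _ => hint' z
  · exact Normal.of_isSplittingField P
      (hFEp := IntermediateField.adjoin_rootSet_isSplittingField hsplit)
  · apply IntermediateField.subset_adjoin
    rw [Polynomial.mem_rootSet]
    exact ⟨hP0, by rw [hP, map_mul, minpoly.aeval, zero_mul]⟩
  · apply IntermediateField.subset_adjoin
    rw [Polynomial.mem_rootSet]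
    exact ⟨hP0, by rw [hP, map_mul, minpoly.aeval, mul_zero]⟩

/-- an element of `ℚ̄` lies in every valuation subring over a prime not dividing its
denominator -/
theorem s52a_exists_den (x : Qb) :
    ∃ n : ℤ, n ≠ 0 ∧ ∀ r : ℕ, r.Prime → ¬ (r : ℤ) ∣ n → ∀ P : ValuationSubring Qb,
      P.LiesOverPrime r → x ∈ P := by
  obtain ⟨n, hn0, hn⟩ := (qv_isAlgebraic_int_qbar x).exists_integral_multiple
  refine ⟨n, hn0, fun r hr hrn P hP => ?_⟩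
  have h1 : n • x ∈ P := Fermat.Agent.Lib.Helper6.integralClosure_le_valuationSubring Qb P hn
  have h2 : P.valuation ((n : ℤ) : Qb) = 1 := qv_valuation_intCast_eq_one P hr hP hrn
  rw [← P.valuation_le_one_iff] at h1 ⊢
  rw [zsmul_eq_mul, map_mul, h2, one_mul] at h1
  exact h1

/-- a large prime `l₀ ≡ 1 mod 5` with `l₀ β + α ≠ 0` -/
theorem s52a_exists_l0 (α β : Qb) (h : ¬ (α = 0 ∧ β = 0)) (B : ℕ) :
    ∃ l0 : ℕ, l0.Prime ∧ B < l0 ∧ l0 % 5 = 1 ∧ (l0 : Qb) * β + α ≠ 0 := by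
  obtain ⟨p1, hp1, hB1, h15⟩ := Nat.exists_prime_gt_modEq_one (k := 5) B (by norm_num)
  obtain ⟨p2, hp2, hB2, h25⟩ := Nat.exists_prime_gt_modEq_one (k := 5) p1 (by norm_num)
  have e1 : p1 % 5 = 1 := h15
  have e2 : p2 % 5 = 1 := h25
  by_cases h1 : (p1 : Qb) * β + α = 0
  · refine ⟨p2, hp2, hB1.trans hB2, e2, fun h2 => h ?_⟩
    have h3 : ((p2 : Qb) - (p1 : Qb)) * β = 0 := by linear_combination h2 - h1
    have h4 : (p2 : Qb) - (p1 : Qb) ≠ 0 := by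
      rw [sub_ne_zero]
      exact_mod_cast hB2.ne'
    have hβ : β = 0 := (mul_eq_zero.mp h3).resolve_left h4
    refine ⟨?_, hβ⟩
    rw [hβ, mul_zero, zero_add] at h1
    exact h1
  · exact ⟨p1, hp1, hB1, e1, h1⟩

/-- arithmetic of the Klein forms at `(1, l₀)` -/
theorem s52a_aux {l0 : ℕ} (hl : l0.Prime) (h5 : l0 % 5 = 1) :
    s52bD (1 : ℤ) (l0 : ℤ) ≠ 0 ∧
    (5 : ℤ) ∣ -27 * s52bC4 (1 : ℤ) (l0 : ℤ) - 3 ∧ (5 : ℤ) ∣ -54 * s52bC6 (1 : ℤ) (l0 : ℤ) - 3 ∧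
    ¬ (5 : ℤ) ∣ s52bD (1 : ℤ) (l0 : ℤ) ∧ (l0 : ℤ) ∣ s52bD (1 : ℤ) (l0 : ℤ) ∧
    ¬ (l0 : ℤ) ^ 2 ∣ s52bD (1 : ℤ) (l0 : ℤ) ∧ ¬ (l0 : ℤ) ∣ s52bC4 (1 : ℤ) (l0 : ℤ) := by
  have hpr : Prime (l0 : ℤ) := Nat.prime_iff_prime_int.mp hl
  have hl1 : ¬ (l0 : ℤ) ∣ 1 := fun h => hpr.not_isUnit (isUnit_of_dvd_one h)
  have h5' : ((l0 : ℕ) : ZMod 5) = 1 := by
    have : ((l0 : ℕ) : ZMod 5) = ((l0 % 5 : ℕ) : ZMod 5) := (ZMod.natCast_mod l0 5).symm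
    rw [h5] at this
    exact_mod_cast this
  have key : ∀ z : ℤ, ((z : ℤ) : ZMod 5) = 0 ↔ (5 : ℤ) ∣ z := fun z =>
    ZMod.intCast_zmod_eq_zero_iff_dvd z 5
  have hDne5 : ¬ (5 : ℤ) ∣ s52bD (1 : ℤ) (l0 : ℤ) := by
    rw [← key]
    simp only [s52bD]
    push_cast
    rw [h5']
    decide
  refine ⟨fun h0 => hDne5 (h0 ▸ dvd_zero _), ?_, ?_, hDne5, ?_, ?_, ?_⟩
  · rw [← key]
    simp only [s52bC4]
    push_cast
    rw [h5']
    decide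
  · rw [← key]
    simp only [s52bC6]
    push_cast
    rw [h5']
    decide
  · exact ⟨1 * (1 ^ 10 - 11 * 1 ^ 5 * (l0 : ℤ) ^ 5 - (l0 : ℤ) ^ 10), by simp only [s52bD]; ring⟩
  · rintro ⟨k, hk⟩
    apply hl1
    refine ⟨(l0 : ℤ) ^ 4 * 11 + (l0 : ℤ) ^ 9 + k, ?_⟩
    simp only [s52bD] at hk
    have hl0 : (l0 : ℤ) ≠ 0 := hpr.ne_zero
    apply mul_left_cancel₀ hl0
    linear_combination hk
  · rintro ⟨k, hk⟩
    apply hl1
    refine ⟨k - (228 * (l0 : ℤ) ^ 4 + 494 * (l0 : ℤ) ^ 9 - 228 * (l0 : ℤ) ^ 14 + (l0 : ℤ) ^ 19), ?_⟩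
    simp only [s52bC4] at hk
    linear_combination hk

/-- congruences modulo `𝔪_P` -/
def S52aCong (P : ValuationSubring Qb) (x y : Qb) : Prop := P.valuation (x - y) < 1

theorem s52a_cong_iff_residue (P : ValuationSubring Qb) (x y : P) :
    S52aCong P x y ↔ IsLocalRing.residue P x = IsLocalRing.residue P y := by
  rw [← sub_eq_zero, ← map_sub, s52l_residue_eq_zero_iff]
  rfl

theorem s52a_c4_mem (P : ValuationSubring Qb) {a b : Qb} (ha : a ∈ P) (hb : b ∈ P) :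
    s52bC4 a b ∈ P := by
  have e : ((s52bC4 (⟨a, ha⟩ : P) ⟨b, hb⟩ : P) : Qb) = s52bC4 a b :=
    s52bC4_map P.subtype ⟨a, ha⟩ ⟨b, hb⟩
  rw [← e]
  exact SetLike.coe_mem _

theorem s52a_c6_mem (P : ValuationSubring Qb) {a b : Qb} (ha : a ∈ P) (hb : b ∈ P) :
    s52bC6 a b ∈ P := by
  have e : ((s52bC6 (⟨a, ha⟩ : P) ⟨b, hb⟩ : P) : Qb) = s52bC6 a b :=
    s52bC6_map P.subtype ⟨a, ha⟩ ⟨b, hb⟩
  rw [← e]
  exact SetLike.coe_mem _

/-- `c₄` preserves congruences modulo `𝔪_P` -/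
theorem s52a_c4_cong (P : ValuationSubring Qb) {a b a' b' : Qb} (ha : a ∈ P) (hb : b ∈ P)
    (ha' : a' ∈ P) (hb' : b' ∈ P) (h1 : S52aCong P a a') (h2 : S52aCong P b b') :
    S52aCong P (s52bC4 a b) (s52bC4 a' b') := by
  have e : ((s52bC4 (⟨a, ha⟩ : P) ⟨b, hb⟩ : P) : Qb) = s52bC4 a b :=
    s52bC4_map P.subtype ⟨a, ha⟩ ⟨b, hb⟩
  have e' : ((s52bC4 (⟨a', ha'⟩ : P) ⟨b', hb'⟩ : P) : Qb) = s52bC4 a' b' :=
    s52bC4_map P.subtype ⟨a', ha'⟩ ⟨b', hb'⟩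
  rw [← e, ← e', s52a_cong_iff_residue, s52bC4_map, s52bC4_map]
  rw [(s52a_cong_iff_residue P ⟨a, ha⟩ ⟨a', ha'⟩).mp h1,
    (s52a_cong_iff_residue P ⟨b, hb⟩ ⟨b', hb'⟩).mp h2]

/-- `c₆` preserves congruences modulo `𝔪_P` -/
theorem s52a_c6_cong (P : ValuationSubring Qb) {a b a' b' : Qb} (ha : a ∈ P) (hb : b ∈ P)
    (ha' : a' ∈ P) (hb' : b' ∈ P) (h1 : S52aCong P a a') (h2 : S52aCong P b b') :
    S52aCong P (s52bC6 a b) (s52bC6 a' b') := by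
  have e : ((s52bC6 (⟨a, ha⟩ : P) ⟨b, hb⟩ : P) : Qb) = s52bC6 a b :=
    s52bC6_map P.subtype ⟨a, ha⟩ ⟨b, hb⟩
  have e' : ((s52bC6 (⟨a', ha'⟩ : P) ⟨b', hb'⟩ : P) : Qb) = s52bC6 a' b' :=
    s52bC6_map P.subtype ⟨a', ha'⟩ ⟨b', hb'⟩
  rw [← e, ← e', s52a_cong_iff_residue, s52bC6_map, s52bC6_map]
  rw [(s52a_cong_iff_residue P ⟨a, ha⟩ ⟨a', ha'⟩).mp h1,
    (s52a_cong_iff_residue P ⟨b, hb⟩ ⟨b', hb'⟩).mp h2]

end Fermat.Agent.S52
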