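/-
S52 / the SELECTION package (helper4): `s52a_exists_t`.

Given the base point `w₀ = (a₀, b₀) ∈ ℚ̄²` with `(c₄, c₆)(w₀) = (c₄(W), c₆(W))` and a modulus `m ≠ 0`
there is `t ∈ m ℤ` such that every integral model `W'` with invariants
`(c₄, c₆)(w₀ + t ŵ₀)`, `ŵ₀ = (D_b(w₀), -D_a(w₀))`, has `Δ(W') ≠ 0` and `W'[3]` irreducible.
-/
import Fermat.Agent.Lib.S52.SelectAux
import Fermat.Agent.Lib.S52.IrrTwist
import Fermat.Agent.Lib.S52.IrrUnram

set_option autoImplicit false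
set_option linter.style.haveILetI false
set_option maxHeartbeats 1600000

namespace Fermat.Agent.S52

open Fermat.Agent.S05Lib

local notation "Qb" => AlgebraicClosure ℚ
local notation "GQ" => (AlgebraicClosure ℚ ≃ₐ[ℚ] AlgebraicClosure ℚ)

section Val

variable (P : ValuationSubring Qb)

theorem s52a_lt_add {x y : Qb} (hx : P.valuation x < 1) (hy : P.valuation y < 1) :
    P.valuation (x + y) < 1 :=
  lt_of_le_of_lt (Valuation.map_add _ _ _) (max_lt hx hy)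

theorem s52a_lt_sub {x y : Qb} (hx : P.valuation x < 1) (hy : P.valuation y < 1) :
    P.valuation (x - y) < 1 := by
  rw [sub_eq_add_neg]
  exact s52a_lt_add P hx (by rw [Valuation.map_neg]; exact hy)

theorem s52a_lt_mul_left {x y : Qb} (hx : x ∈ P) (hy : P.valuation y < 1) :
    P.valuation (x * y) < 1 := by
  rw [map_mul]
  calc P.valuation x * P.valuation y ≤ 1 * P.valuation y :=
        mul_le_mul_left ((P.valuation_le_one_iff _).mpr hx) _
    _ < 1 := by rw [one_mul]; exact hy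

theorem s52a_lt_mul_right {x y : Qb} (hx : P.valuation x < 1) (hy : y ∈ P) :
    P.valuation (x * y) < 1 := by
  rw [mul_comm]
  exact s52a_lt_mul_left P hy hx

theorem s52a_lt_intCast {r : ℕ} (hP : P.LiesOverPrime r) {z : ℤ} (h : (r : ℤ) ∣ z) :
    P.valuation ((z : ℤ) : Qb) < 1 := by
  obtain ⟨k, rfl⟩ := h
  push_cast
  have hq : P.valuation ((r : ℕ) : Qb) < 1 := P.mem_nonunits_iff.mp hP
  exact s52a_lt_mul_right P hq (intCast_mem P k)

end Val

/-- **the selection theorem** -/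
theorem s52a_exists_t (W : WeierstrassCurve ℤ) (hΔ : W.Δ ≠ 0) (a0 b0 : Qb)
    (h4 : s52bC4 a0 b0 = (W.c₄ : Qb)) (h6 : s52bC6 a0 b0 = (W.c₆ : Qb)) (m : ℤ) (hm : m ≠ 0) :
    ∃ t : ℤ, m ∣ t ∧ ∀ W' : WeierstrassCurve ℤ,
      (W'.c₄ : Qb) = s52bC4 (a0 + (t : Qb) * s52bDb a0 b0) (b0 - (t : Qb) * s52bDa a0 b0) →
      (W'.c₆ : Qb) = s52bC6 (a0 + (t : Qb) * s52bDb a0 b0) (b0 - (t : Qb) * s52bDa a0 b0) →
      W'.Δ ≠ 0 ∧ W'.ModRepIsIrreducible 3 := by
  classical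
  set D0 : Qb := s52bD a0 b0 with hD0
  set α : Qb := s52bDa a0 b0 with hα
  set β : Qb := s52bDb a0 b0 with hβ
  -- `D(w₀)⁵ = Δ(W)`
  have hD5 : D0 ^ 5 = (W.Δ : Qb) := by
    have h1 := s52b_klein_rel a0 b0
    rw [h4, h6] at h1
    have h2 : ((1728 * W.Δ : ℤ) : Qb) = ((W.c₄ ^ 3 - W.c₆ ^ 2 : ℤ) : Qb) := by
      rw [W.c_relation]
    push_cast at h2
    have h3 : (1728 : Qb) * D0 ^ 5 = 1728 * (W.Δ : Qb) := by
      rw [h2, ← h1]
    exact mul_left_cancel₀ (by norm_num) h3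
  have hD0ne : D0 ≠ 0 := by
    intro h
    rw [h, zero_pow (by norm_num)] at hD5
    exact hΔ (by exact_mod_cast hD5.symm)
  have heuler : a0 * α + b0 * β = 12 * D0 := s52b_euler a0 b0
  have hαβ : ¬ (α = 0 ∧ β = 0) := by
    rintro ⟨h1, h2⟩
    rw [h1, h2, mul_zero, mul_zero, add_zero] at heuler
    have h12 : (12 : Qb) ≠ 0 := by norm_num
    exact hD0ne ((mul_eq_zero.mp heuler.symm).resolve_left h12)
  -- the field of definition of the base point
  obtain ⟨L', hfin, hnorm, ha0L, hb0L⟩ := s52a_exists_normal a0 b0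
  haveI := hfin
  haveI := hnorm
  obtain ⟨N, hN0, hunr⟩ := s52i_unram_outside L'
  -- the prime `l₀`
  obtain ⟨l0, hl, hBl, hl5, hlam⟩ := s52a_exists_l0 α β hαβ (N.natAbs + 3)
  have hl2 : l0 ≠ 2 := by omega
  have hl3 : l0 ≠ 3 := by omega
  have hl0N : ¬ (l0 : ℤ) ∣ N := by
    intro h
    have h1 : l0 ∣ N.natAbs := Int.natCast_dvd.mp h
    have h2 := Nat.le_of_dvd (Nat.pos_of_ne_zero (Int.natAbs_ne_zero.mpr hN0)) h1
    omega
  set lam : Qb := (l0 : Qb) * β + α with hlamdef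
  obtain ⟨hDne, h54, h56, h5D, hD1, hD2, hc4⟩ := s52a_aux hl hl5
  set c4' : ℤ := s52bC4 (1 : ℤ) (l0 : ℤ) with hc4'
  set c6' : ℤ := s52bC6 (1 : ℤ) (l0 : ℤ) with hc6'
  set D' : ℤ := s52bD (1 : ℤ) (l0 : ℤ) with hD'
  have hrel : c4' ^ 3 - c6' ^ 2 = 1728 * D' ^ 5 := s52b_klein_rel _ _
  -- the denominators of `λ⁻¹`
  obtain ⟨n, hn0, hn⟩ := s52a_exists_den lam⁻¹
  -- the excluded primes
  set M : ℤ := m * W.Δ * 30 * n * D' with hM
  have hM0 : M ≠ 0 := by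
    rw [hM]
    exact mul_ne_zero (mul_ne_zero (mul_ne_zero (mul_ne_zero hm hΔ) (by norm_num)) hn0) hDne
  obtain ⟨A, hA⟩ := Fermat.Agent.Lib.Helper6.exists_valuationSubring_liesOverPrime Qb hl
  obtain ⟨r, P, φ, hr, hrT, hP, hφ, hfix, hirr⟩ := s52l_irr_final_twist c4' c6' D' hrel hDne h54
    h56 h5D hl hl2 hl3 hD1 hD2 hc4 L' ⟨A, hA, hunr l0 hl hl0N A hA⟩ M.natAbs.primeFactors
  have hpr : Prime (r : ℤ) := Nat.prime_iff_prime_int.mp hr
  have hrM : ¬ (r : ℤ) ∣ M := by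
    intro h
    apply hrT
    rw [Nat.mem_primeFactors]
    exact ⟨hr, Int.natCast_dvd.mp h, Int.natAbs_ne_zero.mpr hM0⟩
  have hrm : ¬ (r : ℤ) ∣ m := fun h => hrM (by
    rw [hM]
    exact Dvd.dvd.mul_right (Dvd.dvd.mul_right (Dvd.dvd.mul_right (Dvd.dvd.mul_right h _) _) _) _)
  have hrΔ : ¬ (r : ℤ) ∣ W.Δ := fun h => hrM (by
    rw [hM]
    exact Dvd.dvd.mul_right (Dvd.dvd.mul_right (Dvd.dvd.mul_right (Dvd.dvd.mul_left h _) _) _) _)
  have hr30 : ¬ (r : ℤ) ∣ 30 := fun h => hrM (by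
    rw [hM]
    exact Dvd.dvd.mul_right (Dvd.dvd.mul_right (Dvd.dvd.mul_left h _) _) _)
  have hrn : ¬ (r : ℤ) ∣ n := fun h => hrM (by
    rw [hM]
    exact Dvd.dvd.mul_right (Dvd.dvd.mul_left h _) _)
  have hrD' : ¬ (r : ℤ) ∣ D' := fun h => hrM (by
    rw [hM]
    exact Dvd.dvd.mul_left h _)
  have hr5 : ¬ (r : ℤ) ∣ 5 := fun h => hr30 (h.trans ⟨6, by norm_num⟩)
  have hr12 : ¬ (r : ℤ) ∣ 12 := by
    intro h
    have h1 : (r : ℤ) ∣ 2 ^ 2 * 3 := by
      have : (12 : ℤ) = 2 ^ 2 * 3 := by norm_num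
      rw [← this]
      exact h
    rcases hpr.dvd_or_dvd h1 with h2 | h2
    · exact hr30 ((hpr.dvd_of_dvd_pow h2).trans ⟨15, by norm_num⟩)
    · exact hr30 (h2.trans ⟨10, by norm_num⟩)
  have hr1728 : ¬ (r : ℤ) ∣ 1728 := by
    intro h
    have h1 : (r : ℤ) ∣ 12 ^ 3 := by
      have : (1728 : ℤ) = 12 ^ 3 := by norm_num
      rw [← this]
      exact h
    exact hr12 (hpr.dvd_of_dvd_pow h1)
  -- units of `P`
  have hu : ∀ z : ℤ, ¬ (r : ℤ) ∣ z → P.valuation ((z : ℤ) : Qb) = 1 := fun z hz =>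
    qv_valuation_intCast_eq_one P hr hP hz
  have h5u : P.valuation (5 : Qb) = 1 := by
    have := hu 5 hr5
    simpa using this
  have h12u : P.valuation (12 : Qb) = 1 := by
    have := hu 12 hr12
    simpa using this
  have hD0u : P.valuation D0 = 1 := by
    have h1 : P.valuation D0 ^ 5 = 1 := by
      rw [← map_pow, hD5]
      exact hu _ hrΔ
    rcases lt_trichotomy (P.valuation D0) 1 with h | h | h
    · exact absurd h1 (ne_of_lt (pow_lt_one₀ zero_le h (by norm_num)))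
    · exact h
    · exact absurd h1 (ne_of_gt (one_lt_pow₀ h (by norm_num)))
  -- integrality of the base point
  obtain ⟨ha0P, hb0P⟩ := s52b_integral P h5u (by rw [h4]; exact intCast_mem P _)
    ((P.valuation_le_one_iff _).mp hD0u.le)
  have hαP : α ∈ P := s52bDa_mem P ha0P hb0P
  have hβP : β ∈ P := s52bDb_mem P ha0P hb0P
  -- the Frobenius element fixes everything
  have fa0 : φ a0 = a0 := hfix a0 ha0L
  have fb0 : φ b0 = b0 := hfix b0 hb0L
  have fα : φ α = α := by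
    have := s52bDa_map (φ : Qb →+* Qb) a0 b0
    simp only [RingHom.coe_coe] at this
    rw [hα, this, fa0, fb0]
  have fβ : φ β = β := by
    have := s52bDb_map (φ : Qb →+* Qb) a0 b0
    simp only [RingHom.coe_coe] at this
    rw [hβ, this, fa0, fb0]
  -- the determinant
  have hdet : P.valuation (a0 * (-α) - β * b0) = 1 := by
    have h1 : a0 * (-α) - β * b0 = -(12 * D0) := by
      rw [← heuler]
      ring
    rw [h1, Valuation.map_neg, map_mul, hD0u, mul_one, h12u]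
  obtain ⟨s, t, hs1, hs2⟩ := s52l_solve hr hP hφ a0 b0 β (-α) ha0P hb0P hβP (neg_mem hαP) fa0 fb0 fβ
    (by rw [map_neg, fα]) hdet 1 (l0 : ℤ)
  -- `λ` is a unit
  have hlamP : lam ∈ P := add_mem (mul_mem (natCast_mem P l0) hβP) hαP
  have hlamu : P.valuation lam = 1 := by
    have h1 : lam⁻¹ ∈ P := hn r hr hrn P hP
    have h2 : P.valuation lam ≤ 1 := (P.valuation_le_one_iff _).mpr hlamP
    have h3 : P.valuation lam⁻¹ ≤ 1 := (P.valuation_le_one_iff _).mpr h1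
    rw [map_inv₀] at h3
    have h0 : P.valuation lam ≠ 0 := (Valuation.ne_zero_iff _).mpr hlam
    have h4 : 1 ≤ P.valuation lam := (inv_le_one₀ (lt_of_le_of_ne zero_le h0.symm)).mp h3
    exact le_antisymm h2 h4
  set X : Qb := (s : Qb) * a0 + (t : Qb) * β - ((1 : ℤ) : Qb) with hX
  set Y : Qb := (s : Qb) * b0 + (t : Qb) * (-α) - ((l0 : ℤ) : Qb) with hY
  -- `r ∤ s`
  have hrs : ¬ (r : ℤ) ∣ s := by
    intro h
    have hsm : P.valuation ((s : ℤ) : Qb) < 1 := s52a_lt_intCast P hP h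
    have h1 : lam * (t : Qb) = (l0 : Qb) * X - Y + (s : Qb) * (b0 - (l0 : Qb) * a0) := by
      rw [hX, hY, hlamdef]
      push_cast
      ring
    have h2 : P.valuation (lam * (t : Qb)) < 1 := by
      rw [h1]
      refine s52a_lt_add P (s52a_lt_sub P (s52a_lt_mul_left P (natCast_mem P l0) hs1) hs2) ?_
      exact s52a_lt_mul_right P hsm (sub_mem hb0P (mul_mem (natCast_mem P l0) ha0P))
    rw [map_mul, hlamu, one_mul] at h2
    have h3 : ((1 : ℤ) : Qb) = (s : Qb) * a0 + (t : Qb) * β - X := by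
      rw [hX]
      ring
    have h4 : P.valuation (((1 : ℤ) : Qb)) < 1 := by
      rw [h3]
      exact s52a_lt_sub P (s52a_lt_add P (s52a_lt_mul_right P hsm ha0P)
        (s52a_lt_mul_right P h2 hβP)) hs1
    rw [Int.cast_one, map_one] at h4
    exact lt_irrefl _ h4
  -- the inverse of `s` modulo `r`
  have hcop : IsCoprime (r : ℤ) s := (hpr.irreducible.coprime_iff_not_dvd).mpr hrs
  obtain ⟨v, u, hvu⟩ := hcop
  have hru : ¬ (r : ℤ) ∣ u := by
    intro h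
    have : (r : ℤ) ∣ 1 := by
      rw [← hvu]
      exact dvd_add (Dvd.intro_left _ rfl) (Dvd.dvd.mul_right h _)
    exact hpr.not_isUnit (isUnit_of_dvd_one this)
  -- the Chinese remainder theorem
  have hcop2 : IsCoprime m (r : ℤ) :=
    (IsCoprime.symm ((hpr.irreducible.coprime_iff_not_dvd).mpr hrm))
  obtain ⟨t1, ht1m, ht1r⟩ := s52l_crt hcop2 0 (u * t)
  rw [sub_zero] at ht1m
  refine ⟨t1, ht1m, fun W' hW4 hW6 => ?_⟩
  set x1 : Qb := a0 + (t1 : Qb) * β with hx1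
  set y1 : Qb := b0 - (t1 : Qb) * α with hy1
  have hx1P : x1 ∈ P := add_mem ha0P (mul_mem (intCast_mem P t1) hβP)
  have hy1P : y1 ∈ P := sub_mem hb0P (mul_mem (intCast_mem P t1) hαP)
  -- `w₀ + t₁ ŵ₀ ≡ u (1, l₀)`
  have h1us : P.valuation (((1 - u * s : ℤ) : ℤ) : Qb) < 1 :=
    s52a_lt_intCast P hP ⟨v, by linear_combination -hvu⟩
  have ht1u : P.valuation (((t1 - u * t : ℤ) : ℤ) : Qb) < 1 := s52a_lt_intCast P hP ht1r
  have hcx : S52aCong P x1 ((u : ℤ) : Qb) := by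
    have e : x1 - ((u : ℤ) : Qb) = ((1 - u * s : ℤ) : Qb) * a0 + (u : Qb) * X +
        ((t1 - u * t : ℤ) : Qb) * β := by
      rw [hx1, hX]
      push_cast
      ring
    unfold S52aCong
    rw [e]
    exact s52a_lt_add P (s52a_lt_add P (s52a_lt_mul_right P h1us ha0P)
      (s52a_lt_mul_left P (intCast_mem P u) hs1)) (s52a_lt_mul_right P ht1u hβP)
  have hcy : S52aCong P y1 ((u * l0 : ℤ) : Qb) := by
    have e : y1 - ((u * l0 : ℤ) : Qb) = ((1 - u * s : ℤ) : Qb) * b0 + (u : Qb) * Y -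
        ((t1 - u * t : ℤ) : Qb) * α := by
      rw [hy1, hY]
      push_cast
      ring
    unfold S52aCong
    rw [e]
    exact s52a_lt_sub P (s52a_lt_add P (s52a_lt_mul_right P h1us hb0P)
      (s52a_lt_mul_left P (intCast_mem P u) hs2)) (s52a_lt_mul_right P ht1u hαP)
  -- the invariants of `W'` modulo `r`
  have e4 : s52bC4 (((u : ℤ) : Qb)) (((u * l0 : ℤ) : ℤ) : Qb) = (((u ^ 5) ^ 4 * c4' : ℤ) : Qb) := by
    have h1 := s52bC4_map (Int.castRingHom Qb) u (u * (l0 : ℤ))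
    simp only [eq_intCast] at h1
    rw [← h1]
    congr 1
    have h2 := s52bC4_smul u 1 (l0 : ℤ)
    rw [mul_one] at h2
    rw [h2, hc4']
    ring
  have e6 : s52bC6 (((u : ℤ) : Qb)) (((u * l0 : ℤ) : ℤ) : Qb) = (((u ^ 5) ^ 6 * c6' : ℤ) : Qb) := by
    have h1 := s52bC6_map (Int.castRingHom Qb) u (u * (l0 : ℤ))
    simp only [eq_intCast] at h1
    rw [← h1]
    congr 1
    have h2 := s52bC6_smul u 1 (l0 : ℤ)
    rw [mul_one] at h2
    rw [h2, hc6']
    ring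
  have hd4 : (r : ℤ) ∣ W'.c₄ - (u ^ 5) ^ 4 * c4' := by
    apply s52l_dvd_of_valuation_lt_one hr hP
    have := s52a_c4_cong P hx1P hy1P (intCast_mem P u) (intCast_mem P (u * l0)) hcx hcy
    unfold S52aCong at this
    rw [e4, ← hW4] at this
    exact_mod_cast this
  have hd6 : (r : ℤ) ∣ W'.c₆ - (u ^ 5) ^ 6 * c6' := by
    apply s52l_dvd_of_valuation_lt_one hr hP
    have := s52a_c6_cong P hx1P hy1P (intCast_mem P u) (intCast_mem P (u * l0)) hcx hcy
    unfold S52aCong at this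
    rw [e6, ← hW6] at this
    exact_mod_cast this
  have hru5 : ¬ (r : ℤ) ∣ u ^ 5 := fun h => hru (hpr.dvd_of_dvd_pow h)
  -- the discriminant
  have hΔ' : W'.Δ ≠ 0 := by
    intro h0
    have hcr := W'.c_relation
    rw [h0, mul_zero] at hcr
    obtain ⟨k4, hk4⟩ := hd4
    obtain ⟨k6, hk6⟩ := hd6
    have h1 : (r : ℤ) ∣ (u ^ 5) ^ 12 * (1728 * D' ^ 5) := by
      rw [← hrel]
      have e1 : W'.c₄ = (u ^ 5) ^ 4 * c4' + r * k4 := by linear_combination hk4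
      have e2 : W'.c₆ = (u ^ 5) ^ 6 * c6' + r * k6 := by linear_combination hk6
      rw [e1, e2] at hcr
      refine ⟨-(3 * ((u ^ 5) ^ 4 * c4') ^ 2 * k4 + 3 * ((u ^ 5) ^ 4 * c4') * r * k4 ^ 2
        + r ^ 2 * k4 ^ 3 - 2 * ((u ^ 5) ^ 6 * c6') * k6 - r * k6 ^ 2), ?_⟩
      linear_combination -hcr
    rcases hpr.dvd_or_dvd h1 with h2 | h2
    · exact hru5 (hpr.dvd_of_dvd_pow h2)
    · rcases hpr.dvd_or_dvd h2 with h3 | h3
      · exact hr1728 h3
      · exact hrD' (hpr.dvd_of_dvd_pow h3)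
  exact ⟨hΔ', hirr W' (u ^ 5) hΔ' hru5 hd4 hd6⟩

end Fermat.Agent.S52
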