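/-
S52 / unramifiedness of solutions of étale systems (helper4), part 2: the statement over `ℚ̄`.

* `s52u_inertia_fixes`: `(x, y) ∈ A²` with `F(x, y)`, `G(x, y)` fixed by `τ ∈ I_A` and unit Jacobian
  ⇒ `τ x = x`, `τ y = y`;
* `s52u_exists_field`: if `F(x, y)`, `G(x, y)` are fixed by `G_ℚ`, all conjugates of `x, y` lie in
  `A` and all conjugates of the Jacobian are units of `A`, there is a finite normal field
  `L' ∋ x, y` on which the inertia group of `A` acts trivially.
-/
import Fermat.Agent.Lib.S52.UnramTaylor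
import Fermat.Agent.Lib.S05.QValQbar
import Fermat.Agent.Lib.Helper6.FrobeniusExists

set_option autoImplicit false
set_option linter.style.haveILetI false

namespace Fermat.Agent.S52

open MvPolynomial Fermat.Agent.S05Lib

local notation "Qb" => AlgebraicClosure ℚ
local notation "GQ" => (AlgebraicClosure ℚ ≃ₐ[ℚ] AlgebraicClosure ℚ)

/-- evaluation at a point with coordinates in `A` -/
theorem s52u_aeval_coe {σ : Type*} (A : ValuationSubring Qb) (P : σ → A)
    (F : MvPolynomial σ ℤ) :
    aeval (fun i => (P i : Qb)) F = ((aeval P F : A) : Qb) :=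
  MvPolynomial.aeval_algebraMap_apply (A := A) Qb P F

/-- Galois elements commute with evaluation of integral polynomials -/
theorem s52u_map_aeval {σ : Type*} (τ : GQ) (p : σ → Qb) (F : MvPolynomial σ ℤ) :
    τ (aeval p F) = aeval (fun i => τ (p i)) F :=
  MvPolynomial.comp_aeval_apply p ((τ : Qb →+* Qb).toIntAlgHom) F

theorem s52u_map_aeval2 (τ : GQ) (x y : Qb) (F : MvPolynomial (Fin 2) ℤ) :
    τ (aeval ![x, y] F) = aeval ![τ x, τ y] F := by
  rw [s52u_map_aeval]
  have : (fun i => τ (![x, y] i)) = ![τ x, τ y] := by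
    funext i
    fin_cases i <;> rfl
  rw [this]

/-- **inertia fixes the solutions of an étale system** -/
theorem s52u_inertia_fixes (A : ValuationSubring Qb) (F G : MvPolynomial (Fin 2) ℤ) (x y : Qb)
    (hx : x ∈ A) (hy : y ∈ A) (τ : GQ) (hτ : τ ∈ A.inertiaSubgroupIn ℚ)
    (hF : τ (aeval ![x, y] F) = aeval ![x, y] F) (hG : τ (aeval ![x, y] G) = aeval ![x, y] G)
    (hJ : A.valuation (aeval ![x, y] (s52uJac F G)) = 1) : τ x = x ∧ τ y = y := by
  obtain ⟨hdec, hlt⟩ := qv_mem_inertiaSubgroupIn A hτ
  have hx' : τ x ∈ A := qv_decomp_mem A hdec hx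
  have hy' : τ y ∈ A := qv_decomp_mem A hdec hy
  set p : Fin 2 → A := ![⟨x, hx⟩, ⟨y, hy⟩] with hp
  set p' : Fin 2 → A := ![⟨τ x, hx'⟩, ⟨τ y, hy'⟩] with hp'
  have e : (fun i => ((p i : A) : Qb)) = ![x, y] := by
    funext i
    fin_cases i <;> rfl
  have e' : (fun i => ((p' i : A) : Qb)) = fun i => τ (![x, y] i) := by
    funext i
    fin_cases i <;> rfl
  have key : p' = p := by
    refine s52u_unique F G p p' ?_ ?_ ?_ ?_
    · apply Subtype.ext
      rw [← s52u_aeval_coe, ← s52u_aeval_coe, e, e', ← s52u_map_aeval, hF]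
    · apply Subtype.ext
      rw [← s52u_aeval_coe, ← s52u_aeval_coe, e, e', ← s52u_map_aeval, hG]
    · intro i
      rw [A.valuation_lt_one_iff]
      fin_cases i
      · exact hlt x hx
      · exact hlt y hy
    · have h1 : A.valuation (((aeval p (s52uJac F G) : A)) : Qb) = 1 := by
        rw [← s52u_aeval_coe, e]
        exact hJ
      exact (ValuationSubring.valuation_eq_one_iff A _).mpr h1
  constructor
  · have := congrArg (fun f : Fin 2 → A => ((f 0 : A) : Qb)) key
    exact this
  · have := congrArg (fun f : Fin 2 → A => ((f 1 : A) : Qb)) key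
    exact this

/-- **a finite normal field containing the solutions of an étale system, unramified at `A`** -/
theorem s52u_exists_field (A : ValuationSubring Qb) (F G : MvPolynomial (Fin 2) ℤ) (x y : Qb)
    (hF : ∀ σ : GQ, σ (aeval ![x, y] F) = aeval ![x, y] F)
    (hG : ∀ σ : GQ, σ (aeval ![x, y] G) = aeval ![x, y] G)
    (hint : ∀ σ : GQ, σ x ∈ A ∧ σ y ∈ A ∧
      A.valuation (σ (aeval ![x, y] (s52uJac F G))) = 1) :
    ∃ L' : IntermediateField ℚ Qb, FiniteDimensional ℚ L' ∧ Normal ℚ L' ∧ x ∈ L' ∧ y ∈ L' ∧
      ∀ τ ∈ A.inertiaSubgroupIn ℚ, ∀ z ∈ L', τ z = z := by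
  haveI := Fermat.Agent.Lib.Helper6.isGalois_rat_algebraicClosure
  have hint' : ∀ z : Qb, IsIntegral ℚ z := fun z => Normal.isIntegral inferInstance z
  have hxint : IsIntegral ℚ x := hint' x
  have hyint : IsIntegral ℚ y := hint' y
  set P : Polynomial ℚ := minpoly ℚ x * minpoly ℚ y with hP
  have hP0 : P ≠ 0 := mul_ne_zero (minpoly.ne_zero hxint) (minpoly.ne_zero hyint)
  have hsplit : (P.map (algebraMap ℚ Qb)).Splits := IsAlgClosed.splits _
  refine ⟨IntermediateField.adjoin ℚ (P.rootSet Qb), ?_, ?_, ?_, ?_, ?_⟩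
  · haveI : Finite (P.rootSet Qb) := Polynomial.rootSet_finite P Qb
    exact IntermediateField.finiteDimensional_adjoin fun z _ => hint' z
  · exact Normal.of_isSplittingField P
      (hFEp := IntermediateField.adjoin_rootSet_isSplittingField hsplit)
  · apply IntermediateField.subset_adjoin
    rw [Polynomial.mem_rootSet]
    exact ⟨hP0, by rw [hP, map_mul, minpoly.aeval, zero_mul]⟩
  · apply IntermediateField.subset_adjoin
    rw [Polynomial.mem_rootSet]
    exact ⟨hP0, by rw [hP, map_mul, minpoly.aeval, mul_zero]⟩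
  · intro τ hτ z hz
    -- the fixed field of `τ` contains the generators
    have hgen : P.rootSet Qb ⊆ (IntermediateField.fixedField (Subgroup.zpowers τ) :
        IntermediateField ℚ Qb) := by
      intro w hw
      rw [Polynomial.mem_rootSet] at hw
      have hw2 := hw.2
      rw [hP, map_mul, mul_eq_zero] at hw2
      -- `w` is a coordinate of a conjugate solution
      have hfix : τ w = w := by
        rcases hw2 with h | h
        · obtain ⟨σ, hσ⟩ := minpoly.exists_algEquiv_of_root' hxint.isAlgebraic h
          obtain ⟨h1, h2, h3⟩ := hint σ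
          have hFσ : aeval ![σ x, σ y] F = aeval ![x, y] F := by
            rw [← hF σ, s52u_map_aeval2]
          have hGσ : aeval ![σ x, σ y] G = aeval ![x, y] G := by
            rw [← hG σ, s52u_map_aeval2]
          have hJσ : aeval ![σ x, σ y] (s52uJac F G) = σ (aeval ![x, y] (s52uJac F G)) := by
            rw [s52u_map_aeval2]
          have := (s52u_inertia_fixes A F G (σ x) (σ y) h1 h2 τ hτ (by rw [hFσ, hF τ])
            (by rw [hGσ, hG τ]) (by rw [hJσ]; exact h3)).1
          rw [hσ] at this
          exact this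
        · obtain ⟨σ, hσ⟩ := minpoly.exists_algEquiv_of_root' hyint.isAlgebraic h
          obtain ⟨h1, h2, h3⟩ := hint σ
          have hFσ : aeval ![σ x, σ y] F = aeval ![x, y] F := by
            rw [← hF σ, s52u_map_aeval2]
          have hGσ : aeval ![σ x, σ y] G = aeval ![x, y] G := by
            rw [← hG σ, s52u_map_aeval2]
          have hJσ : aeval ![σ x, σ y] (s52uJac F G) = σ (aeval ![x, y] (s52uJac F G)) := by
            rw [s52u_map_aeval2]
          have := (s52u_inertia_fixes A F G (σ x) (σ y) h1 h2 τ hτ (by rw [hFσ, hF τ])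
            (by rw [hGσ, hG τ]) (by rw [hJσ]; exact h3)).2
          rw [hσ] at this
          exact this
      rw [SetLike.mem_coe, IntermediateField.mem_fixedField_iff]
      intro g hg
      obtain ⟨k, rfl⟩ := Subgroup.mem_zpowers_iff.mp hg
      have : ∀ k : ℤ, (τ ^ k) w = w := by
        intro k
        have h1 : τ ∈ MulAction.stabilizer GQ w := by
          rw [MulAction.mem_stabilizer_iff]
          exact hfix
        have h2 := Subgroup.zpow_mem _ h1 k
        rw [MulAction.mem_stabilizer_iff] at h2
        exact h2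
      exact this k
    have hle := IntermediateField.adjoin_le_iff.mpr hgen
    have := hle hz
    rw [IntermediateField.mem_fixedField_iff] at this
    exact this τ (Subgroup.mem_zpowers τ)

end Fermat.Agent.S52
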