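/-
S52 / unramifiedness of solutions of étale systems (helper4), part 1: first order Taylor expansion
of multivariate polynomials modulo the square of an ideal, and uniqueness of solutions of a system
of two equations in two unknowns with unit Jacobian over a valuation ring.

* `s52u_taylor`: `F(p + d) - F(p) - ∑ᵢ ∂ᵢF(p) dᵢ ∈ I²` if all `dᵢ ∈ I`;
* `s52u_unique`: over a valuation ring, two solutions `p ≡ p' mod 𝔪` of `F = const`, `G = const`
  with unit Jacobian at `p` coincide.
-/
import Mathlib

set_option autoImplicit false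

namespace Fermat.Agent.S52

open MvPolynomial

section Taylor

variable {σ S R : Type*} [Fintype σ] [CommRing S] [CommRing R] [Algebra S R]

/-- **first order Taylor expansion modulo `I²`** -/
theorem s52u_taylor (I : Ideal R) (p d : σ → R) (hd : ∀ i, d i ∈ I) (F : MvPolynomial σ S) :
    aeval (p + d) F - aeval p F - ∑ i, aeval p (pderiv i F) * d i ∈ I ^ 2 := by
  classical
  induction F using MvPolynomial.induction_on with
  | C a =>
    simp [pderiv_C]
  | add F G hF hG =>
    have : aeval (p + d) (F + G) - aeval p (F + G) - ∑ i, aeval p (pderiv i (F + G)) * d i =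
        (aeval (p + d) F - aeval p F - ∑ i, aeval p (pderiv i F) * d i) +
        (aeval (p + d) G - aeval p G - ∑ i, aeval p (pderiv i G) * d i) := by
      simp only [map_add, add_mul, Finset.sum_add_distrib]
      ring
    rw [this]
    exact Ideal.add_mem _ hF hG
  | mul_X F j hF =>
    have hsum : ∑ i, aeval p (pderiv i F) * d i ∈ I :=
      Ideal.sum_mem _ fun i _ => Ideal.mul_mem_left _ _ (hd i)
    have hI : aeval (p + d) F - aeval p F ∈ I := by
      have h1 : aeval (p + d) F - aeval p F =
          (aeval (p + d) F - aeval p F - ∑ i, aeval p (pderiv i F) * d i) +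
            ∑ i, aeval p (pderiv i F) * d i := by ring
      rw [h1]
      exact Ideal.add_mem _ (Ideal.pow_le_self two_ne_zero hF) hsum
    have key : aeval (p + d) (F * X j) - aeval p (F * X j) -
        ∑ i, aeval p (pderiv i (F * X j)) * d i =
        p j * (aeval (p + d) F - aeval p F - ∑ i, aeval p (pderiv i F) * d i) +
          d j * (aeval (p + d) F - aeval p F) := by
      have h2 : ∑ i, aeval p (pderiv i (F * X j)) * d i =
          p j * ∑ i, aeval p (pderiv i F) * d i + aeval p F * d j := by
        simp only [pderiv_mul, pderiv_X, map_add, map_mul, aeval_X, add_mul,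
          Finset.sum_add_distrib, Finset.mul_sum]
        congr 1
        · refine Finset.sum_congr rfl fun i _ => ?_
          ring
        · rw [Finset.sum_eq_single j]
          · simp
          · intro i _ hij
            simp [Pi.single_apply, hij.symm]
          · intro h
            exact absurd (Finset.mem_univ j) h
      rw [h2]
      simp only [map_mul, aeval_X, Pi.add_apply]
      ring
    rw [key]
    refine Ideal.add_mem _ (Ideal.mul_mem_left _ _ hF) ?_
    rw [pow_two]
    exact Ideal.mul_mem_mul (hd j) hI

end Taylor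

section Unique

variable {S R : Type*} [CommRing S] [CommRing R] [Algebra S R] [IsDomain R] [ValuationRing R]

/-- the Jacobian determinant of two polynomials in two variables -/
noncomputable def s52uJac (F G : MvPolynomial (Fin 2) S) : MvPolynomial (Fin 2) S :=
  pderiv 0 F * pderiv 1 G - pderiv 1 F * pderiv 0 G

/-- **uniqueness of solutions of an étale system in a residue class** -/
theorem s52u_unique (F G : MvPolynomial (Fin 2) S) (p p' : Fin 2 → R)
    (hF : aeval p' F = aeval p F) (hG : aeval p' G = aeval p G)
    (hclose : ∀ i, p' i - p i ∈ IsLocalRing.maximalIdeal R)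
    (hJ : IsUnit (aeval p (s52uJac F G))) : p' = p := by
  set d : Fin 2 → R := fun i => p' i - p i with hd
  have hp' : p' = p + d := by
    funext i
    simp [hd]
  -- the ideal generated by the differences is principal
  obtain ⟨γ, hγm, hγ0, hγ1, hγd⟩ : ∃ γ : R, γ ∈ IsLocalRing.maximalIdeal R ∧ γ ∣ d 0 ∧ γ ∣ d 1 ∧
      (γ = d 0 ∨ γ = d 1) := by
    rcases ValuationRing.dvd_total (d 0) (d 1) with h | h
    · exact ⟨d 0, hclose 0, dvd_rfl, h, Or.inl rfl⟩
    · exact ⟨d 1, hclose 1, h, dvd_rfl, Or.inr rfl⟩
  have hdI : ∀ i, d i ∈ Ideal.span {γ} := by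
    intro i
    rw [Ideal.mem_span_singleton]
    fin_cases i
    · exact hγ0
    · exact hγ1
  have hsq : (Ideal.span {γ} : Ideal R) ^ 2 = Ideal.span {γ ^ 2} := by
    rw [Ideal.span_singleton_pow]
  have tF := s52u_taylor (Ideal.span {γ}) p d hdI F
  have tG := s52u_taylor (Ideal.span {γ}) p d hdI G
  rw [← hp', hF, sub_self, zero_sub, hsq, Ideal.mem_span_singleton, Fin.sum_univ_two] at tF
  rw [← hp', hG, sub_self, zero_sub, hsq, Ideal.mem_span_singleton, Fin.sum_univ_two] at tG
  obtain ⟨e1, he1⟩ := tF
  obtain ⟨e2, he2⟩ := tG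
  set F0 := aeval p (pderiv 0 F) with hF0
  set F1 := aeval p (pderiv 1 F) with hF1
  set G0 := aeval p (pderiv 0 G) with hG0
  set G1 := aeval p (pderiv 1 G) with hG1
  set J := aeval p (s52uJac F G) with hJdef
  have hJe : J = F0 * G1 - F1 * G0 := by
    simp [hJdef, s52uJac, hF0, hF1, hG0, hG1]
  -- Cramer
  have c0 : J * d 0 = γ ^ 2 * (-(G1 * e1) + F1 * e2) := by
    rw [hJe]
    linear_combination (-G1) * he1 + F1 * he2
  have c1 : J * d 1 = γ ^ 2 * (G0 * e1 - F0 * e2) := by
    rw [hJe]
    linear_combination G0 * he1 - F0 * he2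
  have hγz : γ = 0 := by
    obtain ⟨c, hc⟩ : ∃ c, J * γ = γ ^ 2 * c := by
      rcases hγd with h | h
      · refine ⟨-(G1 * e1) + F1 * e2, ?_⟩
        rw [← h] at c0
        exact c0
      · refine ⟨G0 * e1 - F0 * e2, ?_⟩
        rw [← h] at c1
        exact c1
    have h1 : γ * (J - γ * c) = 0 := by linear_combination hc
    rcases mul_eq_zero.mp h1 with h2 | h2
    · exact h2
    · exfalso
      have h3 : J = γ * c := sub_eq_zero.mp h2
      have h4 : J ∈ IsLocalRing.maximalIdeal R := h3 ▸ Ideal.mul_mem_right _ _ hγm
      exact (IsLocalRing.mem_maximalIdeal _).mp h4 hJ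
  rw [hp']
  funext i
  have : d i = 0 := by
    have := hdI i
    rw [hγz, Ideal.mem_span_singleton, zero_dvd_iff] at this
    exact this
  simp [this]

end Unique

end Fermat.Agent.S52
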